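/-
Programme FFJ (S19), chapter PIC.  Owner: helper35.

VERBATIM FORK of JAC/Hilb/ChartDef24 (helper24) over an arbitrary commutative BASE RING k
([CommRing k] instead of [Field k]; ClR/bcR of FFJ/Core/ClR35 instead of Cl/bc):
CurveHypR, H1Zero, IsGenSection, NoZeroInf, GoodAt, OD, oneSec0/1, odClass, IsGoodDiv,
twist, pointIdeal, locIdeal, locClass, ChartCond, ChartIdx, chartW.
-/
import Mathlib
import Fermat.Agent.FFJ.Core.ClRBc35
import Fermat.Agent.JAC.Grp.Cart33
import Fermat.Agent.JAC.Div.DivisorLineDiag56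
import Fermat.Agent.JAC.Hilb.SectionDiv46
import Fermat.Agent.JAC.Hilb.BasedQuot46

set_option autoImplicit false
set_option maxHeartbeats 400000

universe u

namespace Fermat.Agent.FFJ.Pic.ChartDefR35

open scoped TensorProduct Polynomial
open scoped Fermat.Agent.JAC.Core.ConstFamily36
open Fermat.Agent.JAC.Core.Defs36 Fermat.Agent.JAC.Core.Cart36 Fermat.Agent.JAC.Core.ConstFamily36
  Fermat.Agent.JAC.Core.Degree36 Fermat.Agent.FFJ.Core.ClR35 Fermat.Agent.JAC.Grp.Diag33
  Fermat.Agent.JAC.Hilb.BasedQuot46 Fermat.Agent.JAC.Hilb.ZeroIdeal46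
  Fermat.Agent.JAC.Div.DivisorDiagram56

variable (k : Type u) [CommRing k] (A0 A1 A01 : Type u) [CommRing A0] [CommRing A1] [CommRing A01]
  [Algebra k A0] [Algebra k A1] [Algebra k A01] [Algebra A0 A01] [Algebra A1 A01]
  [IsScalarTower k A0 A01] [IsScalarTower k A1 A01] (t : A0) (s : A1)
  [IsLocalization.Away t A01] [IsLocalization.Away s A01]

/-- **The hypotheses on the CURVE data** (all exported by B2 for a smooth proper geometrically
integral curve over an algebraically closed field with a finite map to `P¹`).  Bricks take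
`(H : CurveHyp k A0 A1 A01 t s)`; fields may be ADDED later without changing their statements. -/
structure CurveHypR : Prop where
  /-- `t s = 1` on the overlap -/
  hts : algebraMap A0 A01 t * algebraMap A1 A01 s = 1
  /-- `A0` is finite free over `k[t]` (helper65's coordinate form) -/
  coords0 : ∃ (n : ℕ) (b : Fin n → A0),
    Function.Bijective (fun p : Fin n → k[X] => ∑ j, Polynomial.aeval t (p j) * b j)
  /-- `A1` is finite free over `k[s]` -/
  coords1 : ∃ (n : ℕ) (b : Fin n → A1),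
    Function.Bijective (fun p : Fin n → k[X] => ∑ j, Polynomial.aeval s (p j) * b j)
  finiteType0 : Algebra.FiniteType k A0
  finiteType1 : Algebra.FiniteType k A1
  /-- geometric fibres of the charts are Dedekind domains -/
  dedekind0 : ∀ (K : Type u) [Field K] [Algebra k K], IsDedekindDomain (K ⊗[k] A0)
  dedekind1 : ∀ (K : Type u) [Field K] [Algebra k K], IsDedekindDomain (K ⊗[k] A1)
  dedekind01 : ∀ (K : Type u) [Field K] [Algebra k K], IsDedekindDomain (K ⊗[k] A01)
  /-- `H⁰(C, O) = k` -/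
  h0 : ∀ (a0 : A0) (a1 : A1), algebraMap A0 A01 a0 = algebraMap A1 A01 a1 →
    ∃ c : k, a0 = algebraMap k A0 c ∧ a1 = algebraMap k A1 c

variable {k A0 A1 A01 t s}

section Conditions

variable {B : Type u} [CommRing B] [Algebra k B]

/-- `H¹(N) = 0`: the Čech differential `(x, y) ↦ rho0 x - rho1 y` is surjective. -/
def H1Zero (N : LineDiag ((1 : B) ⊗ₜ[k] t) ((1 : B) ⊗ₜ[k] s) (B ⊗[k] A01)) : Prop :=
  ∀ z : N.M01, ∃ (x : N.M0) (y : N.M1), N.rho0 x - N.rho1 y = z

/-- `(σ0, σ1)` is a global section and `H⁰(N)` is a free `B`-module of rank one generated by it. -/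
def IsGenSection (N : LineDiag ((1 : B) ⊗ₜ[k] t) ((1 : B) ⊗ₜ[k] s) (B ⊗[k] A01))
    (σ0 : N.M0) (σ1 : N.M1) : Prop :=
  N.rho0 σ0 = N.rho1 σ1 ∧ ∀ (x : N.M0) (y : N.M1), N.rho0 x = N.rho1 y →
    ∃! b : B, x = algebraMap B (B ⊗[k] A0) b • σ0 ∧ y = algebraMap B (B ⊗[k] A1) b • σ1

/-- The section has no zero on `s = 0`: `σ1` generates `M1 / s M1`. -/
def NoZeroInf (N : LineDiag ((1 : B) ⊗ₜ[k] t) ((1 : B) ⊗ₜ[k] s) (B ⊗[k] A01))
    (σ1 : N.M1) : Prop :=
  Submodule.span (B ⊗[k] A1) {σ1} ⊔
    Ideal.span {(1 : B) ⊗ₜ[k] s} • (⊤ : Submodule (B ⊗[k] A1) N.M1) = ⊤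

variable (B) in
/-- A class is *good* if it has a representative with `H¹ = 0`, `H⁰` free of rank one on a section
without zero at infinity. -/
def GoodAt (η : ClR k A0 A1 A01 t s B) : Prop :=
  ∃ (N : LineDiag ((1 : B) ⊗ₜ[k] t) ((1 : B) ⊗ₜ[k] s) (B ⊗[k] A01)) (σ0 : N.M0) (σ1 : N.M1),
    cls N = η ∧ H1Zero N ∧ IsGenSection N σ0 σ1 ∧ NoZeroInf N σ1

end Conditions

section OD

variable (hts : algebraMap A0 A01 t * algebraMap A1 A01 s = 1)
variable (B : Type u) [CommRing B] [Algebra k B]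

omit [IsLocalization.Away t A01] [IsLocalization.Away s A01] in
include hts in
/-- `t s = 1` on the overlap of the constant family. -/
theorem hts_tensor : algebraMap (B ⊗[k] A0) (B ⊗[k] A01) ((1 : B) ⊗ₜ[k] t) *
    algebraMap (B ⊗[k] A1) (B ⊗[k] A01) ((1 : B) ⊗ₜ[k] s) = 1 := by
  rw [algebraMap_tensor_tmul, algebraMap_tensor_tmul, Algebra.TensorProduct.tmul_mul_tmul, hts,
    mul_one]
  rfl

variable (I0 : Ideal (B ⊗[k] A0))

/-- The ideal of the closure of the divisor `V(I0)` in the second chart (helper56's `I1`). -/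
noncomputable abbrev ideal1 : Ideal (B ⊗[k] A1) :=
  Fermat.Agent.JAC.Div.DivisorDiagram56.I1 (R1 := B ⊗[k] A1) (R01 := B ⊗[k] A01) I0

include hts in
theorem invertible_ideal1 (hf : Module.Finite B ((B ⊗[k] A0) ⧸ I0))
    (hi : Module.Invertible (B ⊗[k] A0) I0) :
    Module.Invertible (B ⊗[k] A1) (ideal1 (A1 := A1) (A01 := A01) B I0) :=
  invertible_I1 (B := B) ((1 : B) ⊗ₜ[k] t) ((1 : B) ⊗ₜ[k] s) I0 (hts_tensor hts B)

/-- **The line diagram `O(D)`** of the relative effective divisor `D = V(I0) ⊂ U0_B`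
(`B ⊗ A0 ⧸ I0` finite over `B`, `I0` invertible): the dual of helper46's ideal diagram
`I0 → I0·R01 ← I1`. -/
noncomputable def OD (hf : Module.Finite B ((B ⊗[k] A0) ⧸ I0))
    (hi : Module.Invertible (B ⊗[k] A0) I0) :
    LineDiag ((1 : B) ⊗ₜ[k] t) ((1 : B) ⊗ₜ[k] s) (B ⊗[k] A01) :=
  haveI := invertible_ideal1 hts B I0 hf hi
  dual (Fermat.Agent.JAC.Hilb.SectionDiv46.idealDiag ((1 : B) ⊗ₜ[k] t) ((1 : B) ⊗ₜ[k] s) I0
    (ideal1 (A1 := A1) (A01 := A01) B I0) (map_I1 ((1 : B) ⊗ₜ[k] s) I0).symm)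

/-- The tautological section `1_D` of `O(D)` on the chart `U0`: the inclusion `I0 ⊆ R0`. -/
noncomputable def oneSec0 (hf : Module.Finite B ((B ⊗[k] A0) ⧸ I0))
    (hi : Module.Invertible (B ⊗[k] A0) I0) : (OD hts B I0 hf hi).M0 :=
  (Submodule.subtype I0 : Module.Dual (B ⊗[k] A0) I0)

/-- The tautological section `1_D` of `O(D)` on the chart `U1`: the inclusion `I1 ⊆ R1`. -/
noncomputable def oneSec1 (hf : Module.Finite B ((B ⊗[k] A0) ⧸ I0))
    (hi : Module.Invertible (B ⊗[k] A0) I0) : (OD hts B I0 hf hi).M1 :=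
  (Submodule.subtype (ideal1 (A1 := A1) (A01 := A01) B I0) :
    Module.Dual (B ⊗[k] A1) (ideal1 (A1 := A1) (A01 := A01) B I0))

theorem oneSec_comm (hf : Module.Finite B ((B ⊗[k] A0) ⧸ I0))
    (hi : Module.Invertible (B ⊗[k] A0) I0) :
    (OD hts B I0 hf hi).rho0 (oneSec0 hts B I0 hf hi) =
      (OD hts B I0 hf hi).rho1 (oneSec1 hts B I0 hf hi) :=
  haveI := invertible_ideal1 hts B I0 hf hi
  Fermat.Agent.JAC.Hilb.SectionDiv46.dual_idealDiag_section I0 (ideal1 (A1 := A1) (A01 := A01) B I0)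
    (map_I1 ((1 : B) ⊗ₜ[k] s) I0).symm

/-- The zero ideal of the tautological section is `I0`. -/
theorem zeroIdeal_oneSec0 (hf : Module.Finite B ((B ⊗[k] A0) ⧸ I0))
    (hi : Module.Invertible (B ⊗[k] A0) I0) :
    zeroIdeal (B ⊗[k] A0) (oneSec0 hts B I0 hf hi) = I0 :=
  Fermat.Agent.JAC.Hilb.SectionDiv46.zeroIdeal_subtype I0

open Classical in
/-- The class of `O(D)`; junk value `1` unless `I0` is invertible with finite quotient. -/
noncomputable def odClass : ClR k A0 A1 A01 t s B :=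
  if h : Module.Finite B ((B ⊗[k] A0) ⧸ I0) ∧ Module.Invertible (B ⊗[k] A0) I0 then
    cls (OD hts B I0 h.1 h.2) else 1

theorem odClass_eq (hf : Module.Finite B ((B ⊗[k] A0) ⧸ I0))
    (hi : Module.Invertible (B ⊗[k] A0) I0) :
    odClass hts B I0 = cls (OD hts B I0 hf hi) := by
  unfold odClass
  rw [dif_pos ⟨hf, hi⟩]

/-- **Good divisors**: `I0` is invertible with finite quotient, `H¹(O(D)) = 0` and `H⁰(O(D))` is free
on the tautological section. -/
structure IsGoodDiv : Prop where
  finite : Module.Finite B ((B ⊗[k] A0) ⧸ I0)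
  invertible : Module.Invertible (B ⊗[k] A0) I0
  h1 : H1Zero (OD hts B I0 finite invertible)
  gen : IsGenSection (OD hts B I0 finite invertible) (oneSec0 hts B I0 finite invertible)
    (oneSec1 hts B I0 finite invertible)

end OD

section Chart

variable (hts : algebraMap A0 A01 t * algebraMap A1 A01 s = 1) (e : A01 →ₐ[k] k)
  {J : Type u} (lam : J → ClR k A0 A1 A01 t s k)

/-- The twist `lam j` (a class defined over `k`) pulled back to a `k`-algebra `B`. -/
noncomputable def twist (B : Type u) [CommRing B] [Algebra k B] (j : J) : ClR k A0 A1 A01 t s B :=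
  bcR (Algebra.ofId k B) (lam j)

variable {n : ℕ} (β : Fin n → A0)

/-- The ideal of the based divisor classified by `f : chartRing k A0 β →ₐ[k] B`. -/
noncomputable def pointIdeal {B : Type u} [CommRing B] [Algebra k B]
    (f : chartRing k A0 β →ₐ[k] B) : Ideal (B ⊗[k] A0) :=
  (pointEquiv f).ideal

/-- The universal ideal over the chart ring `Localization.Away φ`. -/
noncomputable def locIdeal (φ : chartRing k A0 β) : Ideal (Localization.Away φ ⊗[k] A0) :=
  pointIdeal β (IsScalarTower.toAlgHom k (chartRing k A0 β) (Localization.Away φ))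

/-- The universal class over the chart ring `Localization.Away φ`: `[O(D_univ)] · [lam j]⁻¹`. -/
noncomputable def locClass (j : J) (φ : chartRing k A0 β) :
    ClR k A0 A1 A01 t s (Localization.Away φ) :=
  odClass hts (Localization.Away φ) (locIdeal β φ) * (twist lam (Localization.Away φ) j)⁻¹

/-- The conditions on `φ` for `(j, β, φ)` to be a chart: over `Localization.Away φ` the universal
divisor is good, and the universal class is rigid of degree zero. -/
structure ChartCond (j : J) (φ : chartRing k A0 β) : Prop where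
  good : IsGoodDiv hts (Localization.Away φ) (locIdeal β φ)
  rigid : IsRigidClR e (Localization.Away φ) (locClass hts lam β j φ)
  degZero : IsDegZeroR (Localization.Away φ) (locClass hts lam β j φ)

variable (A0) in
/-- **The index type of the atlas.** -/
structure ChartIdx (J : Type u) where
  j : J
  n : ℕ
  β : Fin n → A0
  φ : chartRing k A0 β

/-- **The pointwise predicate of the chart `(j, β, φ)`**, for a class `ξ` over ANY `k`-algebra `B`
(fields in `AlgAtlas.W`): the twisted class `ξ · lam j` has a representative `N` with `H¹ = 0`,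
`H⁰ = B σ`, `σ` without zero at infinity, such that `β` is a basis of the structure ring of the
divisor of `σ` and `φ` is invertible at the corresponding point of the chart ring. -/
def chartW (j : J) (φ : chartRing k A0 β) (B : Type u) [CommRing B] [Algebra k B]
    (ξ : ClR k A0 A1 A01 t s B) : Prop :=
  ∃ (N : LineDiag ((1 : B) ⊗ₜ[k] t) ((1 : B) ⊗ₜ[k] s) (B ⊗[k] A01)) (σ0 : N.M0) (σ1 : N.M1),
    cls N = ξ * twist lam B j ∧ H1Zero N ∧ IsGenSection N σ0 σ1 ∧ NoZeroInf N σ1 ∧
    ∃ hβ : IsBasedQuot β (zeroIdeal (B ⊗[k] A0) σ0),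
      IsUnit ((pointEquiv (k := k) (A := A0) (β := β) (B := B)).symm hβ.toBasedPoint φ)

end Chart

end Fermat.Agent.FFJ.Pic.ChartDefR35
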