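/-
Programme FFJ (S19), chapter PIC, part D ("one chart containing a finite set of points and all its
specialisations").  Owner: helper35 (FFJ lead).  COMPILED SPEC of the bricks D1, D2, D4, D5, D7 of
COORD #2 (report #1554): statements only, as Prop-valued definitions / structures, so that the owners
and the consumer (the assembly ADM) agree literally.

* `GoodAtRank`      : `GoodAt` remembering the rank of the ring of zeros of the section;
* `evalHom`, `graphIdeal`, `ptClassR` : the class `[O(q)]` of a `B`-valued point `q` of `U0`;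
* `BaseChangeR`     : (D1, BASE) change of the base ring `k → k'` for the class functor;
* `FibStatement`    : (D2, FIB-R) one twist by points of a given infinite supply making a finite family
                      of degree-zero classes good, over an algebraically closed field over the base ring;
* `FinGood`, `FinRigid`, `FinDeg` : (D4, FIN-SPREAD) the spreading bricks for a FINSET of primes;
* `ChartFinStatement` : (D7, CHART-FIN) one chart `(β, φ)` containing finitely many field-valued points.
(D5 COMMON-β and D6 CONJ are Mathlib-only; their statements are in the report.)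
-/
import Mathlib
import Fermat.Agent.FFJ.Pic.ChartSpecR35

set_option autoImplicit false
set_option linter.unusedSectionVars false

universe u

noncomputable section

namespace Fermat.Agent.FFJ.Pic.SpecD35

open scoped TensorProduct Polynomial
open scoped Fermat.Agent.JAC.Core.ConstFamily36
open Fermat.Agent.JAC.Core.Defs36 Fermat.Agent.JAC.Core.Cart36 Fermat.Agent.JAC.Core.ConstFamily36
  Fermat.Agent.JAC.Core.Degree36 Fermat.Agent.FFJ.Core.ClR35 Fermat.Agent.JAC.Grp.Diag33
  Fermat.Agent.JAC.Hilb.BasedQuot46 Fermat.Agent.JAC.Hilb.ZeroIdeal46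
  Fermat.Agent.FFJ.Pic.ChartDefR35 Fermat.Agent.FFJ.Pic.ChartSpecR35

variable (k : Type u) [CommRing k] (A0 A1 A01 : Type u) [CommRing A0] [CommRing A1] [CommRing A01]
  [Algebra k A0] [Algebra k A1] [Algebra k A01] [Algebra A0 A01] [Algebra A1 A01]
  [IsScalarTower k A0 A01] [IsScalarTower k A1 A01] (t : A0) (s : A1)
  [IsLocalization.Away t A01] [IsLocalization.Away s A01]

/-! ### Good classes, with the rank of the divisor -/

variable {k A0 A1 A01 t s} in
/-- `GoodAt B η` (`ChartDefR35`) together with the rank over `B` of the ring of zeros on `U0` of the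
generating section (for `B` a field: the degree of the divisor of the section). -/
def GoodAtRank (B : Type u) [CommRing B] [Algebra k B] (η : ClR k A0 A1 A01 t s B) (n : ℕ) : Prop :=
  ∃ (N : LineDiag ((1 : B) ⊗ₜ[k] t) ((1 : B) ⊗ₜ[k] s) (B ⊗[k] A01)) (σ0 : N.M0) (σ1 : N.M1),
    cls N = η ∧ H1Zero N ∧ IsGenSection N σ0 σ1 ∧ NoZeroInf N σ1 ∧
    Module.finrank B ((B ⊗[k] A0) ⧸ zeroIdeal (B ⊗[k] A0) σ0) = n

variable {k A0 A1 A01 t s} in
theorem GoodAtRank.goodAt {B : Type u} [CommRing B] [Algebra k B] {η : ClR k A0 A1 A01 t s B}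
    {n : ℕ} (h : GoodAtRank B η n) : GoodAt B η := by
  obtain ⟨N, σ0, σ1, h1, h2, h3, h4, -⟩ := h
  exact ⟨N, σ0, σ1, h1, h2, h3, h4⟩

/-! ### The class of a point of `U0` with values in a `k`-algebra -/

section Point

variable {k A0} {B : Type u} [CommRing B] [Algebra k B]

/-- The evaluation `B ⊗[k] A0 → B`, `b ⊗ a ↦ b * q a`, at a `B`-valued point `q` of `U0`. -/
def evalHom (q : A0 →ₐ[k] B) : B ⊗[k] A0 →ₐ[B] B :=
  Algebra.TensorProduct.lift (AlgHom.id B B) q (fun _ _ => .all _ _)

@[simp]
theorem evalHom_tmul (q : A0 →ₐ[k] B) (b : B) (a : A0) : evalHom q (b ⊗ₜ a) = b * q a := by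
  simp [evalHom]

/-- The ideal of the graph of a `B`-valued point `q` of `U0`. -/
def graphIdeal (q : A0 →ₐ[k] B) : Ideal (B ⊗[k] A0) := RingHom.ker (evalHom q)

variable {A1 A01 t s} in
/-- **The class `[O(q)]`** of the section `q` of `U0_B → Spec B` (junk value `1` if the graph ideal is
not invertible; it is invertible under `CurveHypR`, brick K0 with `n = 1`, `β = 1`). -/
def ptClassR (hts : algebraMap A0 A01 t * algebraMap A1 A01 s = 1) (q : A0 →ₐ[k] B) :
    ClR k A0 A1 A01 t s B :=
  odClass hts B (graphIdeal q)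

end Point

/-! ### (D1) BASE: change of the base ring -/

section Base

variable (k' : Type u) [CommRing k'] [Algebra k k']

/-- Classes at the level `k'` (curve data `k' ⊗[k] A_i`) over a `k'`-algebra `B`. -/
abbrev ClR' (B : Type u) [CommRing B] [Algebra k' B] : Type (u + 1) :=
  ClR k' (k' ⊗[k] A0) (k' ⊗[k] A1) (k' ⊗[k] A01) ((1 : k') ⊗ₜ[k] t) ((1 : k') ⊗ₜ[k] s) B

/-- **(D1) BASE.**  The class functor of the base-changed curve data `k' ⊗[k] A_i` over `k'` is the
restriction to `k'`-algebras of the class functor of `A_i` over `k`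
(`B ⊗[k'] (k' ⊗[k] A) ≅ B ⊗[k] A`), compatibly with base change, rigidity along the base point,
degree zero and goodness.  The owner constructs a term of this structure. -/
structure BaseChangeR (e : A01 →ₐ[k] k) : Type (u + 1) where
  equiv : ∀ (B : Type u) [CommRing B] [Algebra k B] [Algebra k' B] [IsScalarTower k k' B],
    ClR' k A0 A1 A01 t s k' B ≃* ClR k A0 A1 A01 t s B
  equiv_bcR : ∀ (B B' : Type u) [CommRing B] [CommRing B'] [Algebra k B] [Algebra k' B]
    [IsScalarTower k k' B] [Algebra k B'] [Algebra k' B'] [IsScalarTower k k' B']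
    (ψ : B →ₐ[k'] B') (x : ClR' k A0 A1 A01 t s k' B),
    equiv B' (bcR ψ x) = bcR (ψ.restrictScalars k) (equiv B x)
  rigid_iff : ∀ (B : Type u) [CommRing B] [Algebra k B] [Algebra k' B] [IsScalarTower k k' B]
    (x : ClR' k A0 A1 A01 t s k' B),
    IsRigidClR e B (equiv B x) ↔ IsRigidClR (rigHom k' e) B x
  degZero_iff : ∀ (B : Type u) [CommRing B] [Algebra k B] [Algebra k' B] [IsScalarTower k k' B]
    (x : ClR' k A0 A1 A01 t s k' B), IsDegZeroR B (equiv B x) ↔ IsDegZeroR B x
  goodAtRank_iff : ∀ (B : Type u) [CommRing B] [Algebra k B] [Algebra k' B] [IsScalarTower k k' B]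
    (x : ClR' k A0 A1 A01 t s k' B) (n : ℕ), GoodAtRank B (equiv B x) n ↔ GoodAtRank B x n

variable {k A0 A1 A01 t s k'} in
theorem BaseChangeR.mem_picZeroR_iff {e : A01 →ₐ[k] k} (𝔅 : BaseChangeR k A0 A1 A01 t s k' e)
    (B : Type u) [CommRing B] [Algebra k B] [Algebra k' B] [IsScalarTower k k' B]
    (x : ClR' k A0 A1 A01 t s k' B) :
    𝔅.equiv B x ∈ PicZeroR e B ↔ x ∈ PicZeroR (rigHom k' e) B :=
  and_congr (𝔅.rigid_iff B x) (𝔅.degZero_iff B x)

end Base

/-! ### (D2) FIB-R: one good twist for a finite family, points taken from an infinite supply -/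

/-- **(D2) FIB-R.**  Over an algebraically closed field `K` over the base ring: for finitely many
classes of degree zero and an infinite supply `S` of `K`-points of the overlap (infinitely many
`t`-values), there are distinct points `q_1, …, q_m` of `S` such that all `ξ_i · [O(q_1 + ⋯ + q_m)]`
are good with the same rank `n`.  To be proved under `ChartDefR35.CurveHypR k A0 A1 A01 t s`. -/
def FibStatement (hts : algebraMap A0 A01 t * algebraMap A1 A01 s = 1) : Prop :=
  ∀ (K : Type u) [Field K] [IsAlgClosed K] [Algebra k K] (ι : Type) [Finite ι]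
    (ξ : ι → ClR k A0 A1 A01 t s K), (∀ i, IsDegZeroR K (ξ i)) →
    ∀ S : Set (A01 →ₐ[k] K), ((fun q : A01 →ₐ[k] K => q (algebraMap A0 A01 t)) '' S).Infinite →
    ∃ (l : List (A01 →ₐ[k] K)) (n : ℕ), l.Nodup ∧ (∀ q ∈ l, q ∈ S) ∧
      ∀ i, GoodAtRank K
        (ξ i * (l.map fun q => ptClassR hts (q.comp (IsScalarTower.toAlgHom k A0 A01))).prod) n

/-! ### (D4) FIN-SPREAD: spreading out from a FINSET of primes -/

/-- **(FIN-GOOD).**  If the fibres of `N` at finitely many primes have `H¹ = 0` and a generating
section, then over ONE basic open containing all these primes `N` has `H¹ = 0` and a generating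
section, and this persists after every further base change (strong form as in `H0BricksR50`). -/
def FinGood : Prop :=
  ∀ (B : Type u) [CommRing B] [Algebra k B] (ps : Finset (PrimeSpectrum B))
    (N : CDiag k A0 A1 A01 t s B),
    (∀ p ∈ ps, H1Zero (bcd (toResidueR B p) N) ∧
      ∃ (τ0 : (bcd (toResidueR B p) N).M0) (τ1 : (bcd (toResidueR B p) N).M1),
        IsGenSection (bcd (toResidueR B p) N) τ0 τ1) →
    ∃ f : B, (∀ p ∈ ps, f ∉ p.asIdeal) ∧ ∃ (σ0 : N.M0) (σ1 : N.M1), N.rho0 σ0 = N.rho1 σ1 ∧
      ∀ (B' : Type u) [CommRing B'] [Algebra k B'] (ψ : B →ₐ[k] B') (N' : CDiag k A0 A1 A01 t s B')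
        (c : LineDiag.CartHom (familyHom ψ t s) N N'), IsUnit (ψ f) →
        H1Zero N' ∧ IsGenSection N' (c.f0 σ0) (c.f1 σ1)

/-- **(FIN-RIGID).**  A class becomes rigid over ONE basic open containing finitely many given primes
(an invertible module over a semilocal ring is free). -/
def FinRigid (e : A01 →ₐ[k] k) : Prop :=
  ∀ (B : Type u) [CommRing B] [Algebra k B] (ps : Finset (PrimeSpectrum B))
    (ξ : ClR k A0 A1 A01 t s B),
    ∃ f : B, (∀ p ∈ ps, f ∉ p.asIdeal) ∧ IsRigidClR e (Localization.Away f) (bcR (toAway B f) ξ)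

/-- **(FIN-DEG).**  If the fibres of `ξ` at finitely many primes have degree zero then `ξ` has degree
zero over ONE basic open containing all these primes. -/
def FinDeg : Prop :=
  ∀ (B : Type u) [CommRing B] [Algebra k B] (ps : Finset (PrimeSpectrum B))
    (ξ : ClR k A0 A1 A01 t s B),
    (∀ p ∈ ps, IsDegZeroR p.asIdeal.ResidueField (bcR (toResidueR B p) ξ)) →
    ∃ f : B, (∀ p ∈ ps, f ∉ p.asIdeal) ∧ IsDegZeroR (Localization.Away f) (bcR (toAway B f) ξ)

/-! ### (D7) CHART-FIN: one chart containing finitely many field-valued points -/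

/-- **(D7) CHART-FIN.**  `k` a local ring with residue field of more than `#ι` elements; finitely many
classes of degree zero over a field `K` killed by the maximal ideal of `k`, all good of the same rank
`n` after the twist `lam j`.  Then ONE chart `(β, φ)` of the twist `j` contains all of them. -/
def ChartFinStatement [IsLocalRing k] (hts : algebraMap A0 A01 t * algebraMap A1 A01 s = 1)
    (e : A01 →ₐ[k] k) : Prop :=
  ∀ {J : Type u} (lam : J → ClR k A0 A1 A01 t s k) (j : J) (n : ℕ)
    (K : Type u) [Field K] [Algebra k K],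
    (∀ x ∈ IsLocalRing.maximalIdeal k, algebraMap k K x = 0) →
    ∀ (ι : Type) [Finite ι] (ξ : ι → ClR k A0 A1 A01 t s K),
    (Infinite (IsLocalRing.ResidueField k) ∨ Nat.card ι < Nat.card (IsLocalRing.ResidueField k)) →
    (∀ i, IsDegZeroR K (ξ i)) → (∀ i, GoodAtRank K (ξ i * twist lam K j) n) →
    ∃ (β : Fin n → A0) (φ : chartRing k A0 β),
      ChartCond hts e lam β j φ ∧ ∀ i, chartW lam β j φ K (ξ i)

end Fermat.Agent.FFJ.Pic.SpecD35
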