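/-
Programme FFJ (S19), chapter PIC.  Owner: helper35.

LOCAL-TO-GLOBAL FOR ONE CHART over a commutative BASE RING k (fork of JAC/Hilb/AtlasLocal33 (helper33)
with [CommRing k], ClR/bcR, and separatedness taken as the hypothesis Brick.G4 of ChartSpecR35):
exists_algHom_of_span, W_comap, W_of_algHom, mem_iff_of_local, isOpen_of_local; the structure
LocalChartR (one chart with the LOCAL statements univ and loc) and LocalChartR.toChartPkg, which
produces the interface Spec35.ChartPkg consumed by chapter ORDER.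
-/
import Mathlib
import Fermat.Agent.FFJ.Pic.ChartSpecR35

set_option autoImplicit false

universe u

namespace Fermat.Agent.FFJ.Pic.LocalChartR35

open scoped TensorProduct
open Fermat.Agent.JAC.Core.Defs36 Fermat.Agent.FFJ.Core.ClR35 Fermat.Agent.FFJ.Core.ClRBc35
  Fermat.Agent.FFJ.Pic.ChartSpecR35

variable {k : Type u} [CommRing k] {A0 A1 A01 : Type u} [CommRing A0] [CommRing A1] [CommRing A01]
  [Algebra k A0] [Algebra k A1] [Algebra k A01] [Algebra A0 A01] [Algebra A1 A01]
  [IsScalarTower k A0 A01] [IsScalarTower k A1 A01] {t : A0} {s : A1}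
  [IsLocalization.Away t A01] [IsLocalization.Away s A01]

section Away

variable (B : Type u) [CommRing B] [Algebra k B]

/-- The localisation map `B → B[1/f]` as a `k`-algebra map. -/
noncomputable abbrev toAway (f : B) : B →ₐ[k] Localization.Away f :=
  IsScalarTower.toAlgHom k B (Localization.Away f)

/-- The canonical map `B[1/a] → B[1/(ab)]` as a `k`-algebra map. -/
noncomputable def awayRight (a b : B) : Localization.Away a →ₐ[k] Localization.Away (a * b) :=
  { IsLocalization.Away.awayToAwayRight (S := Localization.Away a)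
      (P := Localization.Away (a * b)) a b with
    commutes' := fun c => by
      change IsLocalization.Away.awayToAwayRight (S := Localization.Away a)
        (P := Localization.Away (a * b)) a b (algebraMap k (Localization.Away a) c) =
        algebraMap k (Localization.Away (a * b)) c
      rw [IsScalarTower.algebraMap_apply k B (Localization.Away a),
        IsScalarTower.algebraMap_apply k B (Localization.Away (a * b))]
      exact IsLocalization.Away.awayToAwayRight_eq a b _ }

/-- The canonical map `B[1/b] → B[1/(ab)]` as a `k`-algebra map. -/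
noncomputable def awayLeft (b a : B) : Localization.Away b →ₐ[k] Localization.Away (a * b) :=
  { IsLocalization.Away.awayToAwayLeft (S := Localization.Away b)
      (P := Localization.Away (a * b)) b a with
    commutes' := fun c => by
      change IsLocalization.Away.awayToAwayLeft (S := Localization.Away b)
        (P := Localization.Away (a * b)) b a (algebraMap k (Localization.Away b) c) =
        algebraMap k (Localization.Away (a * b)) c
      rw [IsScalarTower.algebraMap_apply k B (Localization.Away b),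
        IsScalarTower.algebraMap_apply k B (Localization.Away (a * b))]
      exact IsLocalization.Away.awayToAwayLeft_eq b a _ }

theorem awayRight_apply (a b : B) (z : Localization.Away a) :
    awayRight (k := k) B a b z = IsLocalization.Away.awayToAwayRight (S := Localization.Away a)
      (P := Localization.Away (a * b)) a b z := rfl

theorem awayLeft_apply (b a : B) (z : Localization.Away b) :
    awayLeft (k := k) B b a z = IsLocalization.Away.awayToAwayLeft (S := Localization.Away b)
      (P := Localization.Away (a * b)) b a z := rfl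

theorem awayRight_comp_toAway (a b : B) :
    (awayRight (k := k) B a b).comp (toAway B a) = toAway B (a * b) := by
  ext c
  exact IsLocalization.Away.awayToAwayRight_eq a b c

theorem awayLeft_comp_toAway (b a : B) :
    (awayLeft (k := k) B b a).comp (toAway B b) = toAway B (a * b) := by
  ext c
  exact IsLocalization.Away.awayToAwayLeft_eq b a c

end Away

section Glue

variable (e : A01 →ₐ[k] k)

/-- **Gluing of local factorisations through a chart** (algebra form of
`LocalChart24.exists_hom_of_span`). -/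
theorem exists_algHom_of_span
    (hsep : Brick.G4 k A0 A1 A01 t s e)
    {R : Type u} [CommRing R] [Algebra k R] (x : ClR k A0 A1 A01 t s R)
    (x_rigid : IsRigidClR e R x)
    (inj : ∀ (B : Type u) [CommRing B] [Algebra k B] (φ ψ : R →ₐ[k] B),
      bcR φ x = bcR ψ x → φ = ψ)
    (B : Type u) [CommRing B] [Algebra k B] (ξ : ClR k A0 A1 A01 t s B) (hξ : IsRigidClR e B ξ)
    (S : Set B) (hS : Ideal.span S = ⊤)
    (h : ∀ f ∈ S, ∃ ψ : R →ₐ[k] Localization.Away f, bcR ψ x = bcR (toAway B f) ξ) :
    ∃ ψ : R →ₐ[k] B, bcR ψ x = ξ := by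
  choose ψ hψ using h
  -- compatibility on the overlaps
  have hcompat : ∀ a b : S, (awayRight B a.1 b.1).comp (ψ a.1 a.2) =
      (awayLeft B b.1 a.1).comp (ψ b.1 b.2) := by
    intro a b
    apply inj
    rw [← bcR_bc, ← bcR_bc, hψ, hψ, bcR_bc, bcR_bc, awayRight_comp_toAway, awayLeft_comp_toAway]
  -- the two maps to the product of the localisations
  let Ψ : R →ₐ[k] (∀ a : S, Localization.Away a.1) := AlgHom.pi (fun a => ψ a.1 a.2)
  let ι : B →ₐ[k] (∀ a : S, Localization.Away a.1) := AlgHom.pi (fun a => toAway B a.1)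
  have hι : Function.Injective ι := by
    have := Localization.algebraMap_injective_of_span_eq_top S hS
    intro c c' hc
    exact this hc
  have hrange : ∀ r, Ψ r ∈ ι.range := by
    intro r
    obtain ⟨c, hc, -⟩ := Localization.existsUnique_algebraMap_eq_of_span_eq_top S hS
      (fun a => ψ a.1 a.2 r) (fun a b => by
        have := AlgHom.congr_fun (hcompat a b) r
        exact this)
    exact ⟨c, funext fun a => hc a⟩
  let ψ0 : R →ₐ[k] B :=
    ((AlgEquiv.ofInjective ι hι).symm : ι.range →ₐ[k] B).comp (Ψ.codRestrict ι.range hrange)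
  have hψ0 : ∀ r, ι (ψ0 r) = Ψ r := by
    intro r
    have h1 : (AlgEquiv.ofInjective ι hι) (ψ0 r) = Ψ.codRestrict ι.range hrange r :=
      AlgEquiv.apply_symm_apply _ _
    exact congrArg Subtype.val h1
  have hcomp : ∀ a : S, (toAway B a.1).comp ψ0 = ψ a.1 a.2 := by
    intro a
    ext r
    exact congrFun (hψ0 r) a
  refine ⟨ψ0, ?_⟩
  obtain ⟨S', hS'S, hS'⟩ := Ideal.span_eq_top_iff_finite S |>.mp hS
  refine hsep B (bcR ψ0 x) ξ (isRigidClR_bcR e ψ0 x x_rigid) hξ S' hS' (fun f hf' => ?_)
  have hf : f ∈ S := hS'S hf' 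
  have := hcomp ⟨f, hf⟩
  change bcR (toAway B f) (bcR ψ0 x) = bcR (toAway B f) ξ
  rw [bcR_bc, this, hψ]

end Glue

section Local

variable (e : A01 →ₐ[k] k)

/-- The residue field map `κ(φ⁻¹ p') → κ(p')` as a `k`-algebra map. -/
noncomputable abbrev residueMap {B B' : Type u} [CommRing B] [CommRing B'] [Algebra k B]
    [Algebra k B'] (φ : B →ₐ[k] B') (p' : PrimeSpectrum B') :
    (PrimeSpectrum.comap φ.toRingHom p').asIdeal.ResidueField →ₐ[k] p'.asIdeal.ResidueField :=
  Ideal.ResidueField.mapₐ (PrimeSpectrum.comap φ.toRingHom p').asIdeal p'.asIdeal φ rfl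

theorem residueMap_comp_toResidue {B B' : Type u} [CommRing B] [CommRing B'] [Algebra k B]
    [Algebra k B'] (φ : B →ₐ[k] B') (p' : PrimeSpectrum B') :
    (residueMap φ p').comp (toResidueR B (PrimeSpectrum.comap φ.toRingHom p')) =
      (toResidueR B' p').comp φ := by
  ext b
  exact Ideal.ResidueField.map_algebraMap _ _ _ _ b

variable {R : Type u} [CommRing R] [Algebra k R] (x : ClR k A0 A1 A01 t s R)
  (W : ∀ (K : Type u) [Field K] [Algebra k K], ClR k A0 A1 A01 t s K → Prop)
  (W_iff : ∀ (K L : Type u) [Field K] [Field L] [Algebra k K] [Algebra k L]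
    (ψ : K →ₐ[k] L) (ξ : ClR k A0 A1 A01 t s K), IsRigidClR e K ξ → IsDegZeroR K ξ →
    (W L (bcR ψ ξ) ↔ W K ξ))

include W_iff in
/-- The predicate `W` at a prime `p'` of `B'` for `bcR φ ξ` is the predicate at `φ⁻¹ p'` for `ξ`. -/
theorem W_comap {B B' : Type u} [CommRing B] [CommRing B'] [Algebra k B] [Algebra k B']
    (φ : B →ₐ[k] B') (ξ : ClR k A0 A1 A01 t s B) (hr : IsRigidClR e B ξ) (hd : IsDegZeroR B ξ)
    (p' : PrimeSpectrum B') :
    W p'.asIdeal.ResidueField (bcR (toResidueR B' p') (bcR φ ξ)) ↔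
      W (PrimeSpectrum.comap φ.toRingHom p').asIdeal.ResidueField
        (bcR (toResidueR B (PrimeSpectrum.comap φ.toRingHom p')) ξ) := by
  rw [← W_iff _ _ (residueMap φ p') _ (isRigidClR_bcR e _ ξ hr) (isDegZeroR_bcR _ ξ hd), bcR_bc, bcR_bc,
    residueMap_comp_toResidue]

include W_iff in
/-- If `W` holds at all points of `Spec R` for the universal class, it holds at all points of
`Spec B` for every class coming from the chart. -/
theorem W_of_algHom (x_rigid : IsRigidClR e R x) (x_degZero : IsDegZeroR R x)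
    (univ : ∀ p : PrimeSpectrum R, W p.asIdeal.ResidueField (bcR (toResidueR R p) x))
    {B : Type u} [CommRing B] [Algebra k B] (ψ : R →ₐ[k] B) (p : PrimeSpectrum B) :
    W p.asIdeal.ResidueField (bcR (toResidueR B p) (bcR ψ x)) :=
  (W_comap e W W_iff ψ x x_rigid x_degZero p).mpr (univ _)

variable (hsep : Brick.G4 k A0 A1 A01 t s e)
  (x_rigid : IsRigidClR e R x) (x_degZero : IsDegZeroR R x)
  (inj : ∀ (B : Type u) [CommRing B] [Algebra k B] (φ ψ : R →ₐ[k] B),
    bcR φ x = bcR ψ x → φ = ψ)
  (univ : ∀ p : PrimeSpectrum R, W p.asIdeal.ResidueField (bcR (toResidueR R p) x))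
  (loc : ∀ (B : Type u) [CommRing B] [Algebra k B] (ξ : ClR k A0 A1 A01 t s B),
    IsRigidClR e B ξ → IsDegZeroR B ξ → ∀ p : PrimeSpectrum B,
    W p.asIdeal.ResidueField (bcR (toResidueR B p) ξ) →
    ∃ f : B, f ∉ p.asIdeal ∧ ∃ ψ : R →ₐ[k] Localization.Away f, bcR ψ x = bcR (toAway B f) ξ)

include W_iff hsep x_rigid x_degZero inj univ loc in
/-- **The field `mem_iff` of an `AlgAtlas` from the local statements.** -/
theorem mem_iff_of_local (B : Type u) [CommRing B] [Algebra k B] (ξ : ClR k A0 A1 A01 t s B)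
    (hr : IsRigidClR e B ξ) (hd : IsDegZeroR B ξ) :
    (∃ ψ : R →ₐ[k] B, bcR ψ x = ξ) ↔
      ∀ p : PrimeSpectrum B, W p.asIdeal.ResidueField (bcR (toResidueR B p) ξ) := by
  constructor
  · rintro ⟨ψ, rfl⟩ p
    exact W_of_algHom e x W W_iff x_rigid x_degZero univ ψ p
  · intro h
    refine exists_algHom_of_span e hsep x x_rigid inj B ξ hr
      {f | ∃ ψ : R →ₐ[k] Localization.Away f, bcR ψ x = bcR (toAway B f) ξ} ?_ (fun a ha => ha)
    by_contra hne
    obtain ⟨m, hm, hle⟩ := Ideal.exists_le_maximal _ hne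
    obtain ⟨f, hf, hψ⟩ := loc B ξ hr hd ⟨m, hm.isPrime⟩ (h _)
    exact hf (hle (Ideal.subset_span hψ))

include W_iff x_rigid x_degZero univ loc in
/-- **The field `isOpen` of an `AlgAtlas` from the local statements.** -/
theorem isOpen_of_local (B : Type u) [CommRing B] [Algebra k B] (ξ : ClR k A0 A1 A01 t s B)
    (hr : IsRigidClR e B ξ) (hd : IsDegZeroR B ξ) :
    IsOpen {p : PrimeSpectrum B | W p.asIdeal.ResidueField (bcR (toResidueR B p) ξ)} := by
  rw [isOpen_iff_forall_mem_open]
  intro p hp
  obtain ⟨f, hf, ψ, hψ⟩ := loc B ξ hr hd p hp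
  refine ⟨PrimeSpectrum.basicOpen f, ?_, (PrimeSpectrum.basicOpen f).isOpen, hf⟩
  intro q hq
  have hq' : q ∈ Set.range (PrimeSpectrum.comap (algebraMap B (Localization.Away f))) := by
    rw [PrimeSpectrum.localization_away_comap_range (Localization.Away f) f]
    exact hq
  obtain ⟨q', rfl⟩ := hq'
  have h1 := W_of_algHom e x W W_iff x_rigid x_degZero univ ψ q'
  rw [hψ] at h1
  exact (W_comap e W W_iff (toAway B f) ξ hr hd q').mp h1

end Local


/-- **One chart, local form**: the data of one chart of the functor of rigid classes of degree zero,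
with the two LOCAL statements `univ` and `loc` (one chart of `JAC/Hilb/AtlasLocal33.LocalAtlas`, over
the base ring `k`). -/
structure LocalChartR (e : A01 →ₐ[k] k) where
  /-- the chart ring -/
  R : Type u
  [commRing : CommRing R]
  [algebra : Algebra k R]
  finiteType : Algebra.FiniteType k R
  /-- the universal class -/
  x : ClR k A0 A1 A01 t s R
  x_rigid : IsRigidClR e R x
  x_degZero : IsDegZeroR R x
  /-- the pointwise predicate on field-valued points -/
  W : ∀ (K : Type u) [Field K] [Algebra k K], ClR k A0 A1 A01 t s K → Prop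
  W_iff : ∀ (K L : Type u) [Field K] [Field L] [Algebra k K] [Algebra k L]
    (ψ : K →ₐ[k] L) (ξ : ClR k A0 A1 A01 t s K), IsRigidClR e K ξ → IsDegZeroR K ξ →
    (W L (bcR ψ ξ) ↔ W K ξ)
  inj : ∀ (B : Type u) [CommRing B] [Algebra k B] (φ ψ : R →ₐ[k] B), bcR φ x = bcR ψ x → φ = ψ
  /-- the universal class satisfies `W` at all points of its chart -/
  univ : ∀ p : PrimeSpectrum R, W p.asIdeal.ResidueField (bcR (toResidueR R p) x)
  /-- if `W` holds at `p` then `ξ` comes from the chart on a basic open neighbourhood of `p` -/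
  loc : ∀ (B : Type u) [CommRing B] [Algebra k B] (ξ : ClR k A0 A1 A01 t s B),
    IsRigidClR e B ξ → IsDegZeroR B ξ → ∀ p : PrimeSpectrum B,
    W p.asIdeal.ResidueField (bcR (toResidueR B p) ξ) →
    ∃ f : B, f ∉ p.asIdeal ∧ ∃ ψ : R →ₐ[k] Localization.Away f, bcR ψ x = bcR (toAway B f) ξ

attribute [instance] LocalChartR.commRing LocalChartR.algebra

/-- **The global membership criterion of a local chart.** -/
theorem LocalChartR.mem_iff {e : A01 →ₐ[k] k}
    (𝔏 : LocalChartR (A0 := A0) (A1 := A1) (t := t) (s := s) e)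
    (hsep : Brick.G4 k A0 A1 A01 t s e)
    (B : Type u) [CommRing B] [Algebra k B] (ξ : ClR k A0 A1 A01 t s B)
    (hr : IsRigidClR e B ξ) (hd : IsDegZeroR B ξ) :
    (∃ ψ : 𝔏.R →ₐ[k] B, bcR ψ 𝔏.x = ξ) ↔
      ∀ p : PrimeSpectrum B, 𝔏.W p.asIdeal.ResidueField (bcR (toResidueR B p) ξ) :=
  mem_iff_of_local e 𝔏.x 𝔏.W 𝔏.W_iff hsep 𝔏.x_rigid 𝔏.x_degZero 𝔏.inj 𝔏.univ 𝔏.loc B ξ hr hd

end Fermat.Agent.FFJ.Pic.LocalChartR35
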