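/-
Programme FFJ (S19), chapter PIC.  Owner: helper35.

A local chart (`LocalChartR35.LocalChartR`: `inj`, `univ`, `loc`) together with separatedness
(`Brick.G4`) gives the interface `Spec35.ChartPkg` consumed by chapter ORDER.
-/
import Mathlib
import Fermat.Agent.FFJ.Pic.LocalChartR35
import Fermat.Agent.FFJ.Spec.Spec35

set_option autoImplicit false

namespace Fermat.Agent.FFJ.Pic.ChartPkgOfLocal35

open Fermat.Agent.FFJ.Core.ClR35 Fermat.Agent.FFJ.Pic.ChartSpecR35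
  Fermat.Agent.FFJ.Pic.LocalChartR35 Fermat.Agent.FFJ.Spec.Spec35

variable {O : Type} [CommRing O] {A0 A1 A01 : Type} [CommRing A0] [CommRing A1] [CommRing A01]
  [Algebra O A0] [Algebra O A1] [Algebra O A01] [Algebra A0 A01] [Algebra A1 A01]
  [IsScalarTower O A0 A01] [IsScalarTower O A1 A01] {t : A0} {s : A1}
  [IsLocalization.Away t A01] [IsLocalization.Away s A01] {e : A01 →ₐ[O] O}

/-- **A local chart is a chart package.** -/
noncomputable def toChartPkg (𝔏 : LocalChartR (A0 := A0) (A1 := A1) (t := t) (s := s) e)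
    (hsep : Brick.G4 O A0 A1 A01 t s e) : ChartPkg O A0 A1 A01 t s e where
  RW := 𝔏.R
  finiteType := 𝔏.finiteType
  x := 𝔏.x
  x_mem := ⟨𝔏.x_rigid, 𝔏.x_degZero⟩
  W := 𝔏.W
  W_iff K L _ _ _ _ ψ ξ hξ := 𝔏.W_iff K L ψ ξ hξ.1 hξ.2
  inj := 𝔏.inj
  mem_iff B _ _ ξ hξ := 𝔏.mem_iff hsep B ξ hξ.1 hξ.2

end Fermat.Agent.FFJ.Pic.ChartPkgOfLocal35
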