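/-
Programme FFJ (S19), chapter PIC (helper37): A LOCAL CHART OVER LOCAL RINGS AND FIELDS.
Formal consequences of the fields of `LocalChartR35.LocalChartR` (no brick, no separatedness), for the
assembly ADM (clause 1 of `Spec35.Admissible`: the chart contains the generic fibres of the classes
whose special fibres it contains):

* `W_bcR`                       : `W` holds at every field-valued point of the chart;
* `exists_algHom_of_isLocalRing`: over a LOCAL ring `B`, a rigid class of degree zero whose fibre at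
                                  the closed point satisfies `W` comes from the chart (`loc` at the
                                  closed point; the basic open neighbourhood is everything);
* `exists_algHom_of_W_residue`  : the same with the residue field `IsLocalRing.ResidueField B`
                                  (the shape of `Spec35.Admissible` and of `AdmOne77`);
* `W_of_W_residue`              : hence `W` holds at EVERY field-valued point of `B` over such a class
                                  (e.g. `B = V₀` a valuation ring, the point `V₀ → Ω`).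
-/
import Mathlib
import Fermat.Agent.FFJ.Pic.LocalChartR35

set_option autoImplicit false

universe u

namespace Fermat.Agent.FFJ.Pic.LocalChartLocal37

open scoped TensorProduct
open Fermat.Agent.JAC.Core.Defs36 Fermat.Agent.FFJ.Core.ClR35 Fermat.Agent.FFJ.Core.ClRBc35
  Fermat.Agent.FFJ.Pic.LocalChartR35

variable {k : Type u} [CommRing k] {A0 A1 A01 : Type u} [CommRing A0] [CommRing A1] [CommRing A01]
  [Algebra k A0] [Algebra k A1] [Algebra k A01] [Algebra A0 A01] [Algebra A1 A01]
  [IsScalarTower k A0 A01] [IsScalarTower k A1 A01] {t : A0} {s : A1}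
  [IsLocalization.Away t A01] [IsLocalization.Away s A01] {e : A01 →ₐ[k] k}
  (𝔏 : LocalChartR (A0 := A0) (A1 := A1) (t := t) (s := s) e)

/-- Over a field, `W` at the residue field of the (unique) prime is `W`. -/
theorem W_residue_field_iff (K : Type u) [Field K] [Algebra k K] (ξ : ClR k A0 A1 A01 t s K)
    (hr : IsRigidClR e K ξ) (hd : IsDegZeroR K ξ) (p : PrimeSpectrum K) :
    𝔏.W p.asIdeal.ResidueField (bcR (toResidueR K p) ξ) ↔ 𝔏.W K ξ :=
  𝔏.W_iff K _ (toResidueR K p) ξ hr hd

/-- **`W` holds at every field-valued point of the chart.** -/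
theorem W_bcR (K : Type u) [Field K] [Algebra k K] (ψ : 𝔏.R →ₐ[k] K) : 𝔏.W K (bcR ψ 𝔏.x) := by
  have hr : IsRigidClR e K (bcR ψ 𝔏.x) := isRigidClR_bcR e ψ 𝔏.x 𝔏.x_rigid
  have hd : IsDegZeroR K (bcR ψ 𝔏.x) := isDegZeroR_bcR ψ 𝔏.x 𝔏.x_degZero
  let p : PrimeSpectrum K := ⟨⊥, Ideal.isPrime_bot⟩
  exact (W_residue_field_iff 𝔏 K _ hr hd p).mp
    (W_of_algHom e 𝔏.x 𝔏.W 𝔏.W_iff 𝔏.x_rigid 𝔏.x_degZero 𝔏.univ ψ p)

/-- `W` holds at every field-valued point of a class coming from the chart. -/
theorem W_bcR_of_algHom {B : Type u} [CommRing B] [Algebra k B] (ψ : 𝔏.R →ₐ[k] B)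
    (K : Type u) [Field K] [Algebra k K] (φ : B →ₐ[k] K) : 𝔏.W K (bcR φ (bcR ψ 𝔏.x)) := by
  rw [bcR_bc]
  exact W_bcR 𝔏 K (φ.comp ψ)

section LocalRing

variable (B : Type u) [CommRing B] [Algebra k B] [IsLocalRing B]

/-- A retraction of the localisation map `B → B[1/f]` for a unit `f`. -/
noncomputable def awayRetract (f : B) (hf : IsUnit f) : Localization.Away f →ₐ[k] B :=
  IsLocalization.liftAlgHom (M := Submonoid.powers f) (f := AlgHom.id k B) (by
    rintro ⟨y, m, rfl⟩
    exact hf.pow m)

omit [IsLocalRing B] in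
theorem awayRetract_comp (f : B) (hf : IsUnit f) :
    (awayRetract B f hf).comp (toAway B f) = AlgHom.id k B := by
  refine AlgHom.ext fun x => ?_
  simp [awayRetract]

/-- **Over a local ring the chart is detected at the closed point.** -/
theorem exists_algHom_of_isLocalRing (ξ : ClR k A0 A1 A01 t s B) (hr : IsRigidClR e B ξ)
    (hd : IsDegZeroR B ξ)
    (hW : 𝔏.W (IsLocalRing.closedPoint B).asIdeal.ResidueField
      (bcR (toResidueR B (IsLocalRing.closedPoint B)) ξ)) :
    ∃ ψ : 𝔏.R →ₐ[k] B, bcR ψ 𝔏.x = ξ := by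
  obtain ⟨f, hf, ψ, hψ⟩ := 𝔏.loc B ξ hr hd (IsLocalRing.closedPoint B) hW
  have hfu : IsUnit f := by
    by_contra h
    exact hf ((IsLocalRing.mem_maximalIdeal f).mpr h)
  refine ⟨(awayRetract B f hfu).comp ψ, ?_⟩
  rw [← bcR_bc, hψ, bcR_bc, awayRetract_comp, bcR_id_apply]

/-- The residue field `B ⧸ 𝔪` as a `k`-algebra quotient of `B`. -/
noncomputable abbrev resLocal : B →ₐ[k] IsLocalRing.ResidueField B :=
  IsScalarTower.toAlgHom k B (IsLocalRing.ResidueField B)

/-- The comparison `B ⧸ 𝔪 → κ(𝔪)` of the two residue fields of a local ring. -/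
noncomputable def residueComparison :
    IsLocalRing.ResidueField B →ₐ[k] (IsLocalRing.closedPoint B).asIdeal.ResidueField :=
  Ideal.Quotient.liftₐ (IsLocalRing.maximalIdeal B) (toResidueR B (IsLocalRing.closedPoint B))
    (fun a ha => by
      change algebraMap B (IsLocalRing.closedPoint B).asIdeal.ResidueField a = 0
      rw [Ideal.algebraMap_residueField_eq_zero]
      exact ha)

theorem residueComparison_comp :
    (residueComparison (k := k) B).comp (resLocal B) = toResidueR B (IsLocalRing.closedPoint B) :=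
  AlgHom.ext fun _ => rfl

/-- `W` at `B ⧸ 𝔪` is `W` at `κ(𝔪)`. -/
theorem W_closedPoint_iff (ξ : ClR k A0 A1 A01 t s B) (hr : IsRigidClR e B ξ)
    (hd : IsDegZeroR B ξ) :
    𝔏.W (IsLocalRing.closedPoint B).asIdeal.ResidueField
        (bcR (toResidueR B (IsLocalRing.closedPoint B)) ξ) ↔
      𝔏.W (IsLocalRing.ResidueField B) (bcR (resLocal B) ξ) := by
  rw [← residueComparison_comp, ← bcR_bc]
  exact 𝔏.W_iff _ _ (residueComparison B) _ (isRigidClR_bcR e _ ξ hr) (isDegZeroR_bcR _ ξ hd)

/-- **Over a local ring the chart is detected at the residue field `B ⧸ 𝔪`.** -/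
theorem exists_algHom_of_W_residue (ξ : ClR k A0 A1 A01 t s B) (hr : IsRigidClR e B ξ)
    (hd : IsDegZeroR B ξ) (hW : 𝔏.W (IsLocalRing.ResidueField B) (bcR (resLocal B) ξ)) :
    ∃ ψ : 𝔏.R →ₐ[k] B, bcR ψ 𝔏.x = ξ :=
  exists_algHom_of_isLocalRing 𝔏 B ξ hr hd ((W_closedPoint_iff 𝔏 B ξ hr hd).mpr hW)

/-- **From the special fibre to all fibres**: over a local ring, if the fibre of a rigid class of
degree zero at the closed point satisfies `W`, so does its fibre at every field-valued point. -/
theorem W_of_W_residue (ξ : ClR k A0 A1 A01 t s B) (hr : IsRigidClR e B ξ)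
    (hd : IsDegZeroR B ξ) (hW : 𝔏.W (IsLocalRing.ResidueField B) (bcR (resLocal B) ξ))
    (K : Type u) [Field K] [Algebra k K] (φ : B →ₐ[k] K) : 𝔏.W K (bcR φ ξ) := by
  obtain ⟨ψ, rfl⟩ := exists_algHom_of_W_residue 𝔏 B ξ hr hd hW
  exact W_bcR_of_algHom 𝔏 ψ K φ

end LocalRing

end Fermat.Agent.FFJ.Pic.LocalChartLocal37
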