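/-
Programme FFJ (S19), chapter PIC, part D (helper37): `Spec35.Admissible` FROM THE SPECIAL FIBRES AT
ONE VALUATION SUBRING.

For a local chart `𝔏 : LocalChartR35.LocalChartR e` over a discrete valuation ring `O` (universe 0),
with chart package `𝒞 := ChartPkgOfLocal35.toChartPkg 𝔏 hsep`:
if the SPECIAL fibres at ONE valuation subring `V₀` of `Ω` lying over `O` of the `V₀`-models of the
points `ι m` satisfy `W` (hypothesis `h₀`: this is what FIB-R + CHART-FIN produce), and every `ι m`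
has a `V₀`-model (`ValSurj`), then `𝒞` is admissible for `Set.range ι`:
* clause 1 (`W Ω (ι m)`): `LocalChartLocal37.W_of_W_residue` over the local ring `V₀`;
* clause 2 (all valuation subrings): `AdmOne77.admissible_range_of_one` (conjugacy).
-/
import Mathlib
import Fermat.Agent.FFJ.Pic.LocalChartLocal37
import Fermat.Agent.FFJ.Pic.ChartPkgOfLocal35
import Fermat.Agent.FFJ.Order.AdmOne77

set_option autoImplicit false

noncomputable section

namespace Fermat.Agent.FFJ.Pic.AdmOfSpecial37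

open scoped TensorProduct
open Fermat.Agent.JAC.Core.Defs36 Fermat.Agent.FFJ.Core.ClR35 Fermat.Agent.FFJ.Core.ClRBc35
  Fermat.Agent.FFJ.Pic.ChartSpecR35 Fermat.Agent.FFJ.Pic.LocalChartR35
  Fermat.Agent.FFJ.Spec.Spec35 Fermat.Agent.FFJ.Order.ValConj77

variable {O : Type} [CommRing O] {A0 A1 A01 : Type} [CommRing A0] [CommRing A1] [CommRing A01]
  [Algebra O A0] [Algebra O A1] [Algebra O A01] [Algebra A0 A01] [Algebra A1 A01]
  [IsScalarTower O A0 A01] [IsScalarTower O A1 A01] {t : A0} {s : A1}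
  [IsLocalization.Away t A01] [IsLocalization.Away s A01] {e : A01 →ₐ[O] O}
  (F : Type) {Ω : Type} [Field F] [Field Ω] [Algebra O F] [Algebra F Ω] [Algebra O Ω]
  [IsScalarTower O F Ω]

/-- **Clause 1 from the special fibre**: if a `V₀`-model of `η` has its special fibre in the chart,
then `η` is in the chart. -/
theorem W_generic_of_W_special (𝔏 : LocalChartR (A0 := A0) (A1 := A1) (t := t) (s := s) e)
    (V₀ : ValuationSubring Ω) [Algebra O V₀] [IsScalarTower O V₀ Ω]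
    (ξ : ClR O A0 A1 A01 t s V₀) (hξ : ξ ∈ PicZeroR e V₀)
    (hW : 𝔏.W (IsLocalRing.ResidueField V₀)
      (bcR (IsScalarTower.toAlgHom O V₀ (IsLocalRing.ResidueField V₀)) ξ)) :
    𝔏.W Ω (bcR (IsScalarTower.toAlgHom O V₀ Ω) ξ) :=
  LocalChartLocal37.W_of_W_residue 𝔏 V₀ ξ hξ.1 hξ.2 hW Ω (IsScalarTower.toAlgHom O V₀ Ω)

/-- **`Admissible` from the special fibres at one valuation subring.** -/
theorem admissible_of_special [IsDomain O] [IsDiscreteValuationRing O] [IsFractionRing O F]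
    [IsGalois F Ω] (𝔏 : LocalChartR (A0 := A0) (A1 := A1) (t := t) (s := s) e)
    (hsep : Brick.G4 O A0 A1 A01 t s e)
    {M : Type} [AddCommGroup M] [MulAction (Ω ≃ₐ[F] Ω) M]
    (ι : Multiplicative M →* ClR O A0 A1 A01 t s Ω)
    (hmem : ∀ m, ι m ∈ PicZeroR e Ω)
    (hequiv : ∀ (σ : Ω ≃ₐ[F] Ω) (m : M),
      ι (Multiplicative.ofAdd (σ • m)) = galActR O F σ (ι (Multiplicative.ofAdd m)))
    (hVS : ValSurj O A0 A1 A01 t s e Ω)
    (V₀ : ValuationSubring Ω) [Algebra O V₀] [IsScalarTower O V₀ Ω] (hV₀ : LiesOverBase O F V₀)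
    (h₀ : ∀ (ξ : ClR O A0 A1 A01 t s V₀) (m : Multiplicative M), ξ ∈ PicZeroR e V₀ →
      bcR (IsScalarTower.toAlgHom O V₀ Ω) ξ = ι m →
      𝔏.W (IsLocalRing.ResidueField V₀)
        (bcR (IsScalarTower.toAlgHom O V₀ (IsLocalRing.ResidueField V₀)) ξ)) :
    Admissible Ω (ChartPkgOfLocal35.toChartPkg 𝔏 hsep) (Set.range ι) := by
  refine Fermat.Agent.FFJ.Order.AdmOne77.admissible_range_of_one F
    (ChartPkgOfLocal35.toChartPkg 𝔏 hsep) ι hequiv ?_ V₀ hV₀ h₀
  intro m
  obtain ⟨ξ, hξ, hξm⟩ := hVS V₀ (ι m) (hmem m)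
  have := W_generic_of_W_special 𝔏 V₀ ξ hξ (h₀ ξ m hξ hξm)
  rw [hξm] at this
  exact this

/-- **Chapter ORDER from the special fibres at one valuation subring**: a local chart whose `W`
contains the special fibres (at ONE valuation subring `V₀` over `O`) of the `V₀`-models of the points
`ι m` gives a function order on `M`. -/
theorem exists_isFunOrder_of_special [IsDomain O] [IsDiscreteValuationRing O] [IsFractionRing O F]
    [IsGalois F Ω] (hmul : Fermat.Agent.FFJ.Order.Order77.PicZeroMul O A0 A1 A01 t s e)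
    (𝔏 : LocalChartR (A0 := A0) (A1 := A1) (t := t) (s := s) e)
    (hsep : Brick.G4 O A0 A1 A01 t s e)
    (M : Type) [AddCommGroup M] [Finite M] [MulAction (Ω ≃ₐ[F] Ω) M]
    (ι : Multiplicative M →* ClR O A0 A1 A01 t s Ω) (hinj : Function.Injective ι)
    (hmem : ∀ m, ι m ∈ PicZeroR e Ω)
    (hequiv : ∀ (σ : Ω ≃ₐ[F] Ω) (m : M),
      ι (Multiplicative.ofAdd (σ • m)) = galActR O F σ (ι (Multiplicative.ofAdd m)))
    (hVS : ValSurj O A0 A1 A01 t s e Ω)
    (V₀ : ValuationSubring Ω) [Algebra O V₀] [IsScalarTower O V₀ Ω] (hV₀ : LiesOverBase O F V₀)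
    (h₀ : ∀ (ξ : ClR O A0 A1 A01 t s V₀) (m : Multiplicative M), ξ ∈ PicZeroR e V₀ →
      bcR (IsScalarTower.toAlgHom O V₀ Ω) ξ = ι m →
      𝔏.W (IsLocalRing.ResidueField V₀)
        (bcR (IsScalarTower.toAlgHom O V₀ (IsLocalRing.ResidueField V₀)) ξ)) :
    ∃ H : Subalgebra O (M → Ω), Fermat.Agent.TW.FF.FunOrder68.IsFunOrder O F H :=
  Fermat.Agent.FFJ.Order.Order77.exists_isFunOrder O A0 A1 A01 t s e hmul
    (ChartPkgOfLocal35.toChartPkg 𝔏 hsep) M ι
    hinj hmem hequiv hVS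
    (admissible_of_special F 𝔏 hsep ι hmem hequiv hVS V₀ hV₀ h₀)

end Fermat.Agent.FFJ.Pic.AdmOfSpecial37
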