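/-
Programme FFJ (S19), chapter PIC (helper46, per COORD #2 of helper35): base-ring port of helper80's
`JAC/Hilb/BC4_80`.  Brick (BC4) of `FFJ/Pic/ChartSpecR35` over an arbitrary commutative base ring `k`:
the zero ideal of a section commutes with base change.  The ring-general lemma
`BC4_80.zeroIdeal_isBaseChangeHom` is imported from the JAC file.
-/
import Mathlib
import Fermat.Agent.FFJ.Pic.ChartSpecR35
import Fermat.Agent.JAC.Hilb.BC4_80

set_option autoImplicit false
set_option maxHeartbeats 400000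

universe u

namespace Fermat.Agent.FFJ.Pic.BC4R46

open scoped TensorProduct Polynomial
open Fermat.Agent.JAC.Core.Defs36 Fermat.Agent.JAC.Core.Cart36 Fermat.Agent.JAC.Core.ConstFamily36
  Fermat.Agent.JAC.Grp.Cart33 Fermat.Agent.JAC.Hilb.BasedQuot46 Fermat.Agent.JAC.Hilb.ZeroIdeal46
  Fermat.Agent.FFJ.Pic.ChartDefR35 Fermat.Agent.FFJ.Pic.ChartSpecR35

variable {k : Type u} [CommRing k] {A0 A1 A01 : Type u} [CommRing A0] [CommRing A1] [CommRing A01]
  [Algebra k A0] [Algebra k A1] [Algebra k A01] [Algebra A0 A01] [Algebra A1 A01]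
  [IsScalarTower k A0 A01] [IsScalarTower k A1 A01] {t : A0} {s : A1}

/-- **Brick (BC4)** over a base ring: the zero ideal of a section commutes with base change. -/
theorem bc4R : Brick.BC4 k A0 A1 A01 t s := by
  intro B B' _ _ _ _ ψ N N' c σ0
  exact Fermat.Agent.JAC.Hilb.BC4_80.zeroIdeal_isBaseChangeHom c.cart0 σ0

end Fermat.Agent.FFJ.Pic.BC4R46
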