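/-
Programme FFJ (S19), chapter PIC (helper46): base-ring port of `JAC/Hilb/DivBricks46`.
Bricks (K1), (K2) of `FFJ/Pic/ChartSpecR35` over an arbitrary commutative base ring `k`:
* `k2R : Brick.K2 ..` : base change of `O(D)` with its tautological section;
* `k1R : Brick.K1 ..` : "`N ≅ O(div σ)`".
The ring-general lemmas are imported from the JAC file.
-/
import Mathlib
import Fermat.Agent.FFJ.Pic.ChartSpecR35
import Fermat.Agent.JAC.Hilb.DivBricks46

set_option autoImplicit false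
set_option maxHeartbeats 400000

universe u

namespace Fermat.Agent.FFJ.Pic.DivBricksR46

open scoped TensorProduct Polynomial
open scoped Fermat.Agent.JAC.Core.ConstFamily36
open Fermat.Agent.JAC.Core.Defs36 Fermat.Agent.JAC.Core.Cart36 Fermat.Agent.JAC.Core.ConstFamily36
  Fermat.Agent.FFJ.Core.ClR35 Fermat.Agent.JAC.Grp.Diag33 Fermat.Agent.JAC.Grp.Cart33
  Fermat.Agent.JAC.Hilb.BasedQuot46 Fermat.Agent.JAC.Hilb.ZeroIdeal46
  Fermat.Agent.JAC.Hilb.SectionDiv46 Fermat.Agent.JAC.Hilb.SectionIso46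
  Fermat.Agent.JAC.Hilb.IdealDiagBC46 Fermat.Agent.JAC.Hilb.FlatPure46
  Fermat.Agent.FFJ.Pic.ChartDefR35 Fermat.Agent.FFJ.Pic.ChartSpecR35
  Fermat.Agent.JAC.Div.DivisorDiagram56 Fermat.Agent.JAC.Hilb.SectionQuot46

section Bricks

variable {k : Type u} [CommRing k] {A0 A1 A01 : Type u} [CommRing A0] [CommRing A1] [CommRing A01]
  [Algebra k A0] [Algebra k A1] [Algebra k A01] [Algebra A0 A01] [Algebra A1 A01]
  [IsScalarTower k A0 A01] [IsScalarTower k A1 A01] {t : A0} {s : A1}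
  [IsLocalization.Away t A01] [IsLocalization.Away s A01]

omit [IsLocalization.Away t A01] [IsLocalization.Away s A01] in
/-- The closure in `U1` of a `B`-finite divisor of `U0` does not meet `s = 0`. -/
theorem ideal1_sup_span_eq_topR (hts : algebraMap A0 A01 t * algebraMap A1 A01 s = 1)
    (B : Type u) [CommRing B] [Algebra k B] (I0 : Ideal (B ⊗[k] A0))
    (hf : Module.Finite B ((B ⊗[k] A0) ⧸ I0)) :
    ideal1 (A1 := A1) (A01 := A01) B I0 ⊔ Ideal.span {(1 : B) ⊗ₜ[k] s} = ⊤ :=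
  Fermat.Agent.JAC.Div.BasedInvertible56.I1_sup_span_eq_top (B := B) ((1 : B) ⊗ₜ[k] t)
    ((1 : B) ⊗ₜ[k] s) I0 (hts_tensor hts B)

/-- **(K2)** base change of `O(D)` with its tautological section. -/
theorem k2R (hts : algebraMap A0 A01 t * algebraMap A1 A01 s = 1) :
    Brick.K2 k A0 A1 A01 t s hts := by
  intro B B' _ _ _ _ ψ I0 hf hfl hi
  -- the algebra structures of `Cart33.baseChange`
  let _ : Algebra (B ⊗[k] A0) (B' ⊗[k] A0) := (familyHom (A01 := A01) ψ t s).ψ0.toAlgebra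
  let _ : Algebra (B ⊗[k] A1) (B' ⊗[k] A1) := (familyHom (A01 := A01) ψ t s).ψ1.toAlgebra
  let _ : Algebra (B ⊗[k] A01) (B' ⊗[k] A01) := (familyHom (A01 := A01) ψ t s).ψ01.toAlgebra
  let _ : Algebra (B ⊗[k] A0) (B' ⊗[k] A01) :=
    ((familyHom (A01 := A01) ψ t s).ψ01.comp (algebraMap (B ⊗[k] A0) (B ⊗[k] A01))).toAlgebra
  let _ : Algebra (B ⊗[k] A1) (B' ⊗[k] A01) :=
    ((familyHom (A01 := A01) ψ t s).ψ01.comp (algebraMap (B ⊗[k] A1) (B ⊗[k] A01))).toAlgebra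
  have : IsScalarTower (B ⊗[k] A0) (B ⊗[k] A01) (B' ⊗[k] A01) :=
    IsScalarTower.of_algebraMap_eq (fun _ => rfl)
  have : IsScalarTower (B ⊗[k] A0) (B' ⊗[k] A0) (B' ⊗[k] A01) :=
    IsScalarTower.of_algebraMap_eq (fun r => (familyHom (A01 := A01) ψ t s).comm0 r)
  have : IsScalarTower (B ⊗[k] A1) (B ⊗[k] A01) (B' ⊗[k] A01) :=
    IsScalarTower.of_algebraMap_eq (fun _ => rfl)
  have : IsScalarTower (B ⊗[k] A1) (B' ⊗[k] A1) (B' ⊗[k] A01) :=
    IsScalarTower.of_algebraMap_eq (fun r => (familyHom (A01 := A01) ψ t s).comm1 r)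
  -- the base `B → B'`
  let _ : Algebra B B' := ψ.toRingHom.toAlgebra
  have : IsScalarTower k B B' := IsScalarTower.of_algebraMap_eq (fun x => (ψ.commutes x).symm)
  have halg0 : ∀ (b : B) (a : A0),
      algebraMap (B ⊗[k] A0) (B' ⊗[k] A0) (b ⊗ₜ a) = algebraMap B B' b ⊗ₜ a := fun b a => rfl
  have halg1 : ∀ (b : B) (a : A1),
      algebraMap (B ⊗[k] A1) (B' ⊗[k] A1) (b ⊗ₜ a) = algebraMap B B' b ⊗ₜ a := fun b a => rfl
  have := isScalarTower_const k A0 B B' halg0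
  have := isPushout_const k A0 B B' halg0
  have := isScalarTower_const k A1 B B' halg1
  have := isPushout_const k A1 B B' halg1
  -- the divisor at infinity
  have hinv1 := invertible_ideal1 hts B I0 hf hi
  have hinf := ideal1_sup_span_eq_topR (A1 := A1) (A01 := A01) (t := t) (s := s) hts B I0 hf
  have hmap : Ideal.map (algebraMap (B ⊗[k] A0) (B ⊗[k] A01)) I0 =
      Ideal.map (algebraMap (B ⊗[k] A1) (B ⊗[k] A01)) (ideal1 (A1 := A1) (A01 := A01) B I0) :=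
    (map_I1 ((1 : B) ⊗ₜ[k] s) I0).symm
  have hfl1 : Module.Flat B ((B ⊗[k] A1) ⧸ ideal1 (A1 := A1) (A01 := A01) B I0) :=
    flat_quotient_of_sup_span_eq_top (B := B) (R01 := B ⊗[k] A01) ((1 : B) ⊗ₜ[k] t)
      ((1 : B) ⊗ₜ[k] s) I0 _ hmap hinf
  have hinj0 : Function.Injective (I0.subtype.baseChange (B' ⊗[k] A0)) :=
    baseChange_subtype_injective_of_flat_quotient B B' (B ⊗[k] A0) (B' ⊗[k] A0) I0
  have hinj1 : Function.Injective
      ((ideal1 (A1 := A1) (A01 := A01) B I0).subtype.baseChange (B' ⊗[k] A1)) :=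
    baseChange_subtype_injective_of_flat_quotient B B' (B ⊗[k] A1) (B' ⊗[k] A1) _
  -- regularity of the base-changed tautological section
  have hreg0 : IsRegularSection (B' ⊗[k] A0)
      ((1 : B' ⊗[k] A0) ⊗ₜ[B ⊗[k] A0] oneSec0 hts B I0 hf hi) :=
    isRegularSection_tmul_of_injective (B' ⊗[k] A0) (isRegularSection_subtype I0)
      (zeroIdeal_subtype I0) hinj0
  have hreg1 : IsRegularSection (B' ⊗[k] A1)
      ((1 : B' ⊗[k] A1) ⊗ₜ[B ⊗[k] A1] oneSec1 hts B I0 hf hi) :=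
    isRegularSection_tmul_of_injective (B' ⊗[k] A1)
      (isRegularSection_subtype (ideal1 (A1 := A1) (A01 := A01) B I0))
      (zeroIdeal_subtype (ideal1 (A1 := A1) (A01 := A01) B I0)) hinj1
  -- the ideal of the base-changed divisor
  have ez0 : zeroIdeal (B' ⊗[k] A0) ((1 : B' ⊗[k] A0) ⊗ₜ[B ⊗[k] A0] oneSec0 hts B I0 hf hi) =
      Ideal.map (tensorMap (A := A0) ψ) I0 := by
    rw [zeroIdeal_tmul, zeroIdeal_oneSec0]
    rfl
  have hψeq : IsScalarTower.toAlgHom k B B' = ψ := by ext; rfl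
  have hf' : Module.Finite B' ((B' ⊗[k] A0) ⧸ Ideal.map (tensorMap (A := A0) ψ) I0) := by
    have h := Fermat.Agent.JAC.Hilb.BasedOpen24.finite_quot_baseChangeIdeal I0 B'
    rw [Fermat.Agent.JAC.Hilb.BasedOpen24.baseChangeIdeal_eq_map_tensorMap, hψeq] at h
    exact h
  have hi' : Module.Invertible (B' ⊗[k] A0) (Ideal.map (tensorMap (A := A0) ψ) I0) := by
    rw [← ez0]
    exact invertible_zeroIdeal hreg0
  have hinv1' := invertible_ideal1 hts B' _ hf' hi'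
  have hinf' := ideal1_sup_span_eq_topR (A1 := A1) (A01 := A01) (t := t) (s := s) hts B' _ hf'
  have hs : algebraMap (B ⊗[k] A1) (B' ⊗[k] A1) ((1 : B) ⊗ₜ[k] s) = (1 : B') ⊗ₜ[k] s :=
    (familyHom (A01 := A01) ψ t s).map_s
  have ez1 : zeroIdeal (B' ⊗[k] A1) ((1 : B' ⊗[k] A1) ⊗ₜ[B ⊗[k] A1] oneSec1 hts B I0 hf hi) =
      ideal1 (A1 := A1) (A01 := A01) B' (Ideal.map (tensorMap (A := A0) ψ) I0) := by
    have h1 : zeroIdeal (B ⊗[k] A1) (oneSec1 hts B I0 hf hi) =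
        ideal1 (A1 := A1) (A01 := A01) B I0 := zeroIdeal_subtype _
    rw [zeroIdeal_tmul, h1]
    refine eq_of_map_eq_of_sup_span_eq_top ((1 : B') ⊗ₜ[k] s) (B' ⊗[k] A01) ?_ hinf' ?_
    · have h2 := map_sup_span_eq_top ((1 : B) ⊗ₜ[k] s) (B' ⊗[k] A1) hinf
      rw [hs] at h2
      exact h2
    · have h3 := map_map_eq (R0' := B' ⊗[k] A0) (R1' := B' ⊗[k] A1) (B' ⊗[k] A01) hmap
      have h4 := map_I1 (R1 := B' ⊗[k] A1) (R01 := B' ⊗[k] A01) ((1 : B') ⊗ₜ[k] s)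
        (Ideal.map (tensorMap (A := A0) ψ) I0)
      rw [h4]
      exact h3.symm
  -- the isomorphism `baseChange (O(D)) ≅ O(D')` carrying `1 ⊗ 1_D` to `1_{D'}`
  obtain ⟨E, hE0, hE1⟩ := Fermat.Agent.JAC.Hilb.DivBricks46.exists_iso_baseChange_of_section (B' ⊗[k] A01) ((1 : B') ⊗ₜ[k] t)
    ((1 : B') ⊗ₜ[k] s) (OD hts B I0 hf hi) (oneSec_comm hts B I0 hf hi) hreg0 hreg1 ez0 ez1
    (map_I1 ((1 : B') ⊗ₜ[k] s) (Ideal.map (tensorMap (A := A0) ψ) I0)).symm
  refine ⟨hf', hi', cartHomOfIso (cartHomBaseChange (familyHom (A01 := A01) ψ t s)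
    (OD hts B I0 hf hi)) E, ?_, ?_⟩
  · exact hE0
  · exact hE1

/-- **(K1)** "`N ≅ O(div σ)`": a line diagram with a section without zero at infinity whose zero
scheme on `U0` is finite over `B` is `O(D)`, `D = V(zeroIdeal σ0)`. -/
theorem k1R (H : CurveHypR k A0 A1 A01 t s) : Brick.K1 k A0 A1 A01 t s H.hts := by
  intro B _ _ N σ0 σ1 hσ hinf hfin
  obtain ⟨n0, b0, hb0⟩ := H.coords0
  obtain ⟨n1, b1, hb1⟩ := H.coords1
  have hB0 := Fermat.Agent.JAC.Frame.BaseChange65.bijective_baseChange B hb0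
  have hB1 := Fermat.Agent.JAC.Frame.BaseChange65.bijective_baseChange B hb1
  -- regularity of `σ0`: its zero scheme is finite over `B`
  have h0 : IsRegularSection (B ⊗[k] A0) σ0 :=
    Fermat.Agent.JAC.Hilb.DivBricks46.isRegularSection_of_finite_quotient (B := B) ((1 : B) ⊗ₜ[k] t) _ hB0 σ0
  -- regularity of `σ1`: `σ0` is regular on the overlap and `1 ⊗ s` is a nonzerodivisor
  have h01 : IsRegularSection (B ⊗[k] A01) (N.rho0 σ0) :=
    isRegularSection_of_isLocalizedModule (Submonoid.powers ((1 : B) ⊗ₜ[k] t)) (B ⊗[k] A01)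
      N.rho0 h0
  have h1 : IsRegularSection (B ⊗[k] A1) σ1 := by
    intro r hr
    have h2 : algebraMap (B ⊗[k] A1) (B ⊗[k] A01) r • N.rho0 σ0 = 0 := by
      rw [hσ, algebraMap_smul, ← map_smul, hr, map_zero]
    have h3 := h01 _ h2
    rw [IsLocalization.map_eq_zero_iff (Submonoid.powers ((1 : B) ⊗ₜ[k] s))] at h3
    obtain ⟨⟨_, m, rfl⟩, hm⟩ := h3
    exact Fermat.Agent.JAC.Hilb.DivBricks46.eq_zero_of_pow_mul_eq_zero (B := B) ((1 : B) ⊗ₜ[k] s) _ hB1 m hm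
  have hi : Module.Invertible (B ⊗[k] A0) (zeroIdeal (B ⊗[k] A0) σ0) := invertible_zeroIdeal h0
  have hi1 : Module.Invertible (B ⊗[k] A1) (zeroIdeal (B ⊗[k] A1) σ1) := invertible_zeroIdeal h1
  refine ⟨hi, ?_⟩
  -- the zero ideal at infinity is the closure ideal
  have hZ1 : zeroIdeal (B ⊗[k] A1) σ1 =
      ideal1 (A1 := A1) (A01 := A01) B (zeroIdeal (B ⊗[k] A0) σ0) := by
    have h4 := eq_comap_map_of_sup_span_eq_top ((1 : B) ⊗ₜ[k] s) (B ⊗[k] A01)
      (sup_span_eq_top_of_span_sup_smul σ1 ((1 : B) ⊗ₜ[k] s) hinf)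
    rw [← map_zeroIdeal_eq N hσ] at h4
    exact h4
  have hinv1 := invertible_ideal1 H.hts B _ hfin hi
  rw [odClass_eq H.hts B _ hfin hi]
  exact cls_eq_iff.mpr ⟨(sectionIso N hσ h0 h1).trans (dualCongr (idealDiagCongr' rfl hZ1
    (map_zeroIdeal_eq N hσ) (map_I1 ((1 : B) ⊗ₜ[k] s) (zeroIdeal (B ⊗[k] A0) σ0)).symm))⟩

end Bricks

end Fermat.Agent.FFJ.Pic.DivBricksR46
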