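import Fermat.Agent.FFJ.Pic.ChartSpecR35
import Fermat.Agent.JAC.Hilb.H0Bricks50

/-!
# Programme FFJ (S19), chapter PIC: the Cech bricks over a base ring (helper50)

Port of `JAC/Hilb/H0Bricks50` (bricks BC2, FE2, SP2) and of the `H¹` bricks BC1, FE1, SP1 to the
base-ring fork `FFJ/Pic/ChartSpecR35` (`[CommRing k]`).  The general-family dictionary and the Cech
bridge of `H0Bricks50`, and all of `Frame/GenSpread50`, are ring-general and reused verbatim; only
the flatness of the overlap module over the base (for a field `k` automatic) now comes from the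
coordinates of `CurveHypR`.
-/

set_option autoImplicit false
set_option linter.style.haveILetI false
set_option linter.unusedSectionVars false

universe u

namespace Fermat.Agent.FFJ.Pic.H0BricksR50

open scoped TensorProduct Polynomial
open scoped Fermat.Agent.JAC.Core.ConstFamily36
open Fermat.Agent.JAC.Core.Defs36 Fermat.Agent.JAC.Core.Cart36 Fermat.Agent.JAC.Core.ConstFamily36
  Fermat.Agent.FFJ.Core.ClR35 Fermat.Agent.FFJ.Pic.ChartDefR35
  Fermat.Agent.FFJ.Pic.ChartSpecR35 Fermat.Agent.JAC.Cech Fermat.Agent.JAC.Frame.GoodTwist65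
  Fermat.Agent.JAC.Frame.DegFamily65 Fermat.Agent.JAC.Frame.GenSpread50
  Fermat.Agent.JAC.Frame.ChiCongr65 Fermat.Agent.JAC.Grp.Cart33
  Fermat.Agent.JAC.Hilb.H0Bricks50

variable {k : Type u} [CommRing k] {A0 A1 A01 : Type u} [CommRing A0] [CommRing A1] [CommRing A01]
  [Algebra k A0] [Algebra k A1] [Algebra k A01] [Algebra A0 A01] [Algebra A1 A01]
  [IsScalarTower k A0 A01] [IsScalarTower k A1 A01] {t : A0} {s : A1}
  [IsLocalization.Away t A01] [IsLocalization.Away s A01]

/-- The three ring squares of `familyHom ψ t s` are pushouts (base-ring form). -/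
theorem isPushoutSquare_familyHomR {B B' : Type u} [CommRing B] [CommRing B'] [Algebra k B]
    [Algebra k B'] [Algebra B B'] [IsScalarTower k B B'] (ψ : B →ₐ[k] B')
    (hψ : ∀ b, ψ b = algebraMap B B' b) :
    IsPushoutSquare B B' (familyHom (A01 := A01) ψ t s).ψ0 ∧
      IsPushoutSquare B B' (familyHom (A01 := A01) ψ t s).ψ1 ∧
      IsPushoutSquare B B' (familyHom (A01 := A01) ψ t s).ψ01 := by
  refine ⟨isPushoutSquare_tensor A0 _ (fun b a => ?_), isPushoutSquare_tensor A1 _ (fun b a => ?_),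
    isPushoutSquare_tensor A01 _ (fun b a => ?_)⟩
  · change (Algebra.TensorProduct.map ψ (AlgHom.id k A0)) (b ⊗ₜ a) = _
    rw [Algebra.TensorProduct.map_tmul, hψ]
    rfl
  · change (Algebra.TensorProduct.map ψ (AlgHom.id k A1)) (b ⊗ₜ a) = _
    rw [Algebra.TensorProduct.map_tmul, hψ]
    rfl
  · change (Algebra.TensorProduct.map ψ (AlgHom.id k A01)) (b ⊗ₜ a) = _
    rw [Algebra.TensorProduct.map_tmul, hψ]
    rfl

/-- The Cech pair of a line diagram over the constant family has a good twist. -/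
theorem exists_goodTwistR (H : CurveHypR k A0 A1 A01 t s) {B : Type u} [CommRing B] [Algebra k B]
    (N : CDiag k A0 A1 A01 t s B) :
    letI := moduleB0 B N; letI := moduleB1 B N; letI := moduleB01 B N
    ∃ (M₁' : Type u) (_ : AddCommGroup M₁') (_ : Module B M₁') (ι : N.M1 →ₗ[B] M₁')
      (ρ₁' : M₁' →ₗ[B] N.M01), GoodTwist (rho0B B N) (rho1B B N) ι ρ₁' := by
  obtain ⟨n0, a0, ha0⟩ := H.coords0
  obtain ⟨n1, a1, ha1⟩ := H.coords1
  have hb0 := Fermat.Agent.JAC.Frame.BaseChange65.bijective_baseChange B ha0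
  have hb1 := Fermat.Agent.JAC.Frame.BaseChange65.bijective_baseChange B ha1
  letI := moduleB0 B N; letI := moduleB1 B N; letI := moduleB01 B N
  haveI := tower0 B N; haveI := tower1 B N; haveI := tower01_0 B N; haveI := tower01_1 B N
  obtain ⟨m0, hG⟩ := exists_goodTwist (B := B) _ _ (ChartDefR35.hts_tensor H.hts B) _ hb0 _ hb1
    N.rho0 N.rho1
  exact ⟨_, _, _, _, _, hG m0 le_rfl⟩

/-- The overlap module of a line diagram over the constant family is flat over the base. -/
theorem flat_M01R (H : CurveHypR k A0 A1 A01 t s) {B : Type u} [CommRing B] [Algebra k B]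
    (N : CDiag k A0 A1 A01 t s B) :
    letI := moduleB01 B N
    Module.Flat B N.M01 := by
  letI := moduleB0 B N; letI := moduleB1 B N; letI := moduleB01 B N
  obtain ⟨_, _, _, _, _, hG⟩ := exists_goodTwistR H N
  exact hG.flat

variable (k A0 A1 A01 t s)

/-- **Brick BC1 over a base ring.** -/
theorem bc1R : Brick.BC1 k A0 A1 A01 t s := by
  intro B B' _ _ _ _ ψ N N' c hH1
  letI : Algebra B B' := ψ.toRingHom.toAlgebra
  haveI : IsScalarTower k B B' := IsScalarTower.of_algebraMap_eq fun x => (ψ.commutes x).symm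
  obtain ⟨p0, p1, p01⟩ := isPushoutSquare_familyHomR (A01 := A01) (t := t) (s := s) ψ
    (fun _ => rfl)
  letI := moduleB0 B N; letI := moduleB1 B N; letI := moduleB01 B N
  exact (surjective_cechD_iff B' N').1
    ((surjective_cechD_cartHom_iff _ c p0 p1 p01).2
      (Fermat.Agent.JAC.Frame.Shrink65.cechD_surjective_baseChange B' _ _
        ((surjective_cechD_iff B N).2 hH1)))

/-- **Brick FE1 over a base ring.** -/
theorem fe1R : Brick.FE1 k A0 A1 A01 t s := by
  intro K L _ _ _ _ ψ N N' c hH1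
  letI : Algebra K L := ψ.toRingHom.toAlgebra
  haveI : IsScalarTower k K L := IsScalarTower.of_algebraMap_eq fun x => (ψ.commutes x).symm
  obtain ⟨p0, p1, p01⟩ := isPushoutSquare_familyHomR (A01 := A01) (t := t) (s := s) ψ
    (fun _ => rfl)
  letI := moduleB0 K N; letI := moduleB1 K N; letI := moduleB01 K N
  exact (surjective_cechD_iff K N).1
    ((Fermat.Agent.JAC.Cech.FlatBC67.cechD_baseChange_surjective_iff L _ _).1
      ((surjective_cechD_cartHom_iff _ c p0 p1 p01).1 ((surjective_cechD_iff L N').2 hH1)))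

/-- **Brick BC2 over a base ring.** -/
theorem bc2R (H : CurveHypR k A0 A1 A01 t s) : Brick.BC2 k A0 A1 A01 t s := by
  intro B B' _ _ _ _ ψ N N' c σ0 σ1 hH1 hgen
  letI : Algebra B B' := ψ.toRingHom.toAlgebra
  haveI : IsScalarTower k B B' := IsScalarTower.of_algebraMap_eq fun x => (ψ.commutes x).symm
  obtain ⟨p0, p1, p01⟩ := isPushoutSquare_familyHomR (A01 := A01) (t := t) (s := s) ψ
    (fun _ => rfl)
  letI := moduleB0 B N; letI := moduleB1 B N; letI := moduleB01 B N
  letI := moduleB0 B' N'; letI := moduleB1 B' N'; letI := moduleB01 B' N'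
  haveI := flat_M01R H N
  have hσ' : N'.rho0 (c.f0 σ0) = N'.rho1 (c.f1 σ1) := by rw [← c.comm0, ← c.comm1, hgen.1]
  have hU : UnivGen (rho0B B N) (rho1B B N) (sec B N σ0 σ1 hgen.1) :=
    ⟨(surjective_cechD_iff B N).2 hH1, (bijective_smul_sec_iff B N σ0 σ1 hgen.1).2 hgen.2⟩
  have hU' := (univGen_cartHom_iff _ c p0 p1 p01 σ0 σ1 hgen.1 hσ').2 (hU.baseChange B')
  exact ⟨hσ', (bijective_smul_sec_iff B' N' _ _ hσ').1 hU'.2⟩

/-- **Brick FE2 over a base ring.** -/
theorem fe2R : Brick.FE2 k A0 A1 A01 t s := by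
  intro K L _ _ _ _ ψ N N' c τ0 τ1 _ hgen
  letI : Algebra K L := ψ.toRingHom.toAlgebra
  haveI : IsScalarTower k K L := IsScalarTower.of_algebraMap_eq fun x => (ψ.commutes x).symm
  obtain ⟨p0, p1, p01⟩ := isPushoutSquare_familyHomR (A01 := A01) (t := t) (s := s) ψ
    (fun _ => rfl)
  letI := moduleB0 K N; letI := moduleB1 K N; letI := moduleB01 K N
  letI := moduleB0 L N'; letI := moduleB1 L N'; letI := moduleB01 L N'
  have hL : Module.finrank L (H0 (rho0B L N') (rho1B L N')) = 1 :=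
    finrank_eq_one_of_bijective_smul (sec L N' τ0 τ1 hgen.1)
      ((bijective_smul_sec_iff L N' τ0 τ1 hgen.1).2 hgen.2)
  obtain ⟨e⟩ := nonempty_h0_equiv_of_cartHom _ c p0 p1 p01
  rw [← e.finrank_eq, Fermat.Agent.JAC.Cech.FlatBC67.finrank_H0_baseChange] at hL
  obtain ⟨z, hz⟩ := exists_bijective_smul_of_finrank_eq_one hL
  have hzmem : N.rho0 z.1.1 = N.rho1 z.1.2 := (mem_H0 _ _ _).1 z.2
  exact ⟨z.1.1, z.1.2, hzmem, (bijective_smul_sec_iff K N z.1.1 z.1.2 hzmem).1 hz⟩

variable {k A0 A1 A01 t s} in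
/-- **Spreading out `H¹ = 0`, strong form, over a base ring**: if the fibre of `N` at `p` has
`H¹ = 0` there is `f ∉ p` such that every model `N'` of a base change of `N` along a map
inverting `f` has `H¹ = 0`. -/
theorem exists_away_h1ZeroR (H : CurveHypR k A0 A1 A01 t s) (B : Type u) [CommRing B]
    [Algebra k B] (p : PrimeSpectrum B) (N : CDiag k A0 A1 A01 t s B)
    (hH1 : H1Zero (bcd (toResidueR B p) N)) :
    ∃ f : B, f ∉ p.asIdeal ∧
      ∀ (B' : Type u) [CommRing B'] [Algebra k B'] (ψ : B →ₐ[k] B')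
        (N' : CDiag k A0 A1 A01 t s B') (_ : LineDiag.CartHom (familyHom ψ t s) N N'),
        IsUnit (ψ f) → H1Zero N' := by
  letI := moduleB0 B N; letI := moduleB1 B N; letI := moduleB01 B N
  obtain ⟨_, _, _, _, _, hG⟩ := exists_goodTwistR H N
  obtain ⟨q0, q1, q01⟩ := isPushoutSquare_familyHomR (A01 := A01) (t := t) (s := s)
    (toResidueR (k := k) B p) (fun _ => rfl)
  have hp : Function.Surjective (cechD ((rho0B B N).baseChange p.asIdeal.ResidueField)
      ((rho1B B N).baseChange p.asIdeal.ResidueField)) :=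
    (surjective_cechD_cartHom_iff _ (bcc (toResidueR B p) N) q0 q1 q01).1
      ((surjective_cechD_iff p.asIdeal.ResidueField (bcd (toResidueR B p) N)).2 hH1)
  obtain ⟨f, hf, hs⟩ := Fermat.Agent.JAC.Frame.Shrink65.GoodTwist.exists_away_surjective hG p hp
  refine ⟨f, hf, ?_⟩
  intro B' _ _ ψ N' c hu
  letI : Algebra B B' := ψ.toRingHom.toAlgebra
  haveI : IsScalarTower k B B' := IsScalarTower.of_algebraMap_eq fun x => (ψ.commutes x).symm
  obtain ⟨r0, r1, r01⟩ := isPushoutSquare_familyHomR (A01 := A01) (t := t) (s := s) ψ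
    (fun _ => rfl)
  letI : Algebra (Localization.Away f) B' := (IsLocalization.Away.lift f hu).toAlgebra
  haveI : IsScalarTower B (Localization.Away f) B' :=
    IsScalarTower.of_algebraMap_eq fun b => (IsLocalization.Away.lift_eq f hu b).symm
  have h1 := Fermat.Agent.JAC.Frame.Shrink65.cechD_surjective_baseChange B' _ _ hs
  have h2 := (Fermat.Agent.JAC.Frame.Shrink65.cechD_surjective_trans (Localization.Away f) B'
    (rho0B B N) (rho1B B N)).1 h1
  exact (surjective_cechD_iff B' N').1 ((surjective_cechD_cartHom_iff _ c r0 r1 r01).2 h2)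

/-- **Brick SP1 over a base ring.** -/
theorem sp1R (H : CurveHypR k A0 A1 A01 t s) : Brick.SP1 k A0 A1 A01 t s := by
  intro B _ _ p N hH1
  obtain ⟨f, hf, h⟩ := exists_away_h1ZeroR H B p N hH1
  exact ⟨f, hf, h (Localization.Away f) (toAway B f) (bcd (toAway B f) N) (bcc (toAway B f) N)
    (IsLocalization.Away.algebraMap_isUnit f)⟩

variable {k A0 A1 A01 t s} in
/-- **Spreading out a generating section, strong form, over a base ring.** -/
theorem exists_away_isGenSectionR (H : CurveHypR k A0 A1 A01 t s) (B : Type u) [CommRing B]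
    [Algebra k B] (p : PrimeSpectrum B) (N : CDiag k A0 A1 A01 t s B)
    (hH1 : H1Zero (bcd (toResidueR B p) N))
    (τ0 : (bcd (toResidueR B p) N).M0) (τ1 : (bcd (toResidueR B p) N).M1)
    (hgen : IsGenSection (bcd (toResidueR B p) N) τ0 τ1) :
    ∃ f : B, f ∉ p.asIdeal ∧ ∃ (σ0 : N.M0) (σ1 : N.M1), N.rho0 σ0 = N.rho1 σ1 ∧
      ∀ (B' : Type u) [CommRing B'] [Algebra k B'] (ψ : B →ₐ[k] B')
        (N' : CDiag k A0 A1 A01 t s B') (c : LineDiag.CartHom (familyHom ψ t s) N N'),
        IsUnit (ψ f) → H1Zero N' ∧ IsGenSection N' (c.f0 σ0) (c.f1 σ1) := by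
  letI := moduleB0 B N; letI := moduleB1 B N; letI := moduleB01 B N
  obtain ⟨_, _, _, _, _, hG'⟩ := exists_goodTwistR H N
  obtain ⟨q0, q1, q01⟩ := isPushoutSquare_familyHomR (A01 := A01) (t := t) (s := s)
    (toResidueR (k := k) B p) (fun _ => rfl)
  have hp : Function.Surjective (cechD ((rho0B B N).baseChange p.asIdeal.ResidueField)
      ((rho1B B N).baseChange p.asIdeal.ResidueField)) :=
    (surjective_cechD_cartHom_iff _ (bcc (toResidueR B p) N) q0 q1 q01).1
      ((surjective_cechD_iff p.asIdeal.ResidueField (bcd (toResidueR B p) N)).2 hH1)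
  have hrank : Module.finrank p.asIdeal.ResidueField
      (H0 ((rho0B B N).baseChange p.asIdeal.ResidueField)
        ((rho1B B N).baseChange p.asIdeal.ResidueField)) = 1 := by
    obtain ⟨e⟩ := nonempty_h0_equiv_of_cartHom _ (bcc (toResidueR B p) N) q0 q1 q01
    rw [e.finrank_eq]
    exact finrank_eq_one_of_bijective_smul
      (sec p.asIdeal.ResidueField (bcd (toResidueR B p) N) τ0 τ1 hgen.1)
      ((bijective_smul_sec_iff p.asIdeal.ResidueField (bcd (toResidueR B p) N) τ0 τ1 hgen.1).2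
        hgen.2)
  obtain ⟨f, hf, z, hz⟩ := GoodTwist.exists_away_univGen hG' p hp hrank
  have hzmem : N.rho0 z.1.1 = N.rho1 z.1.2 := (mem_H0 (rho0B B N) (rho1B B N) _).1 z.2
  refine ⟨f, hf, z.1.1, z.1.2, hzmem, ?_⟩
  intro B' _ _ ψ N' c hu
  letI : Algebra B B' := ψ.toRingHom.toAlgebra
  haveI : IsScalarTower k B B' := IsScalarTower.of_algebraMap_eq fun x => (ψ.commutes x).symm
  obtain ⟨r0, r1, r01⟩ := isPushoutSquare_familyHomR (A01 := A01) (t := t) (s := s) ψ
    (fun _ => rfl)
  have hzf := hz B' hu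
  have hσ' : N'.rho0 (c.f0 z.1.1) = N'.rho1 (c.f1 z.1.2) := by
    rw [← c.comm0, ← c.comm1, hzmem]
  have hU' := (univGen_cartHom_iff _ c r0 r1 r01 z.1.1 z.1.2 hzmem hσ').2 hzf
  exact ⟨(surjective_cechD_iff B' N').1 hU'.1,
    hσ', (bijective_smul_sec_iff B' N' _ _ hσ').1 hU'.2⟩

/-- **Brick SP2 over a base ring.** -/
theorem sp2R (H : CurveHypR k A0 A1 A01 t s) : Brick.SP2 k A0 A1 A01 t s := by
  intro B _ _ p N τ0 τ1 hH1 hgen
  have hH1p : H1Zero (bcd (toResidueR B p) N) :=
    bc1R k A0 A1 A01 t s B _ (toResidueR B p) N _ (bcc (toResidueR B p) N) hH1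
  obtain ⟨f, hf, σ0, σ1, -, hσ⟩ := exists_away_isGenSectionR H B p N hH1p τ0 τ1 hgen
  exact ⟨f, hf, _, _, (hσ (Localization.Away f) (toAway B f) (bcd (toAway B f) N)
    (bcc (toAway B f) N) (IsLocalization.Away.algebraMap_isUnit f)).2⟩

end Fermat.Agent.FFJ.Pic.H0BricksR50
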