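/-
Programme FFJ (S19), chapter PIC.  Owner of this file: helper39.

**Universal `H⁰(𝒪) = B` over a base ring.**

For a two-chart curve `A0 → A01 ← A1` over a FIELD `k`, the statement `H⁰(X, 𝒪) = k` passes to every
`k`-algebra `B` by flatness (`JAC/Zar/Rigid4.exists_of_map_eq`), and this universal form is what
separatedness of the functor of rigid classes (brick G4) and the rigidity lemmas really use.  Over a
base RING `k` this is no longer automatic: one needs the cokernel `H¹(X, 𝒪)` of the Čech differential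
`A0 × A1 → A01` to be `k`-flat (cohomological flatness).

* `H0At f0 f1 B`            : the statement `H⁰(X_B, 𝒪) = B`;
* `h0At_of_flat_coker`      : `H⁰ = k` and `H¹` flat imply `H0At f0 f1 B` for EVERY `k`-algebra `B`;
* `mem_range_cech_of_smul_mem` : if `H0At` holds over `κ = k/(π)` and `A01` has no `π`-torsion, then
                              `H¹` has no `π`-torsion;
* `flat_coker_of_residue`   : over a discrete valuation ring, `H0At` over the residue field makes
                              `H¹` flat;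
* `h0At_of_dvr`             : over a discrete valuation ring, `H⁰ = k` and `H⁰(special fibre) = κ`
                              imply `H0At f0 f1 B` for every `k`-algebra `B`.

Mathlib only.
-/
import Mathlib

set_option autoImplicit false

open TensorProduct

namespace Fermat.Agent.FFJ.Pic.H0Univ39

section General

variable {k : Type*} [CommRing k] {A0 A1 A01 : Type*} [CommRing A0] [CommRing A1] [CommRing A01]
  [Algebra k A0] [Algebra k A1] [Algebra k A01]

/-- The Čech differential `(a0, a1) ↦ f0 a0 - f1 a1`. -/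
def cech (f0 : A0 →ₐ[k] A01) (f1 : A1 →ₐ[k] A01) : (A0 × A1) →ₗ[k] A01 :=
  f0.toLinearMap.coprod (-f1.toLinearMap)

@[simp]
theorem cech_apply (f0 : A0 →ₐ[k] A01) (f1 : A1 →ₐ[k] A01) (p : A0 × A1) :
    cech f0 f1 p = f0 p.1 - f1 p.2 := by
  simp [cech, sub_eq_add_neg]

/-- `H⁰(X_B, 𝒪) = B` for the base change of the two-chart curve to the `k`-algebra `B`. -/
def H0At (f0 : A0 →ₐ[k] A01) (f1 : A1 →ₐ[k] A01) (B : Type*) [CommRing B] [Algebra k B] : Prop :=
  ∀ (x : B ⊗[k] A0) (y : B ⊗[k] A1),
    Algebra.TensorProduct.map (AlgHom.id B B) f0 x =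
      Algebra.TensorProduct.map (AlgHom.id B B) f1 y →
    ∃ b : B, x = algebraMap B (B ⊗[k] A0) b ∧ y = algebraMap B (B ⊗[k] A1) b

theorem map_id_eq_lTensor39 {A A' : Type*} [CommRing A] [CommRing A'] [Algebra k A] [Algebra k A']
    (B : Type*) [CommRing B] [Algebra k B] (f : A →ₐ[k] A') (w : B ⊗[k] A) :
    Algebra.TensorProduct.map (AlgHom.id B B) f w = f.toLinearMap.lTensor B w := by
  induction w using TensorProduct.induction_on with
  | zero => simp
  | tmul b a => simp
  | add u v hu hv => simp only [map_add, hu, hv]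

/-- The sequence `k → A0 × A1 → A01` stays exact after `B ⊗[k] -` for every `k`-module `B`, as soon
as it is exact and the cokernel of the second map is flat. -/
theorem exact_lTensor_of_flat_coker {M N P : Type*} [AddCommGroup M] [AddCommGroup N]
    [AddCommGroup P] [Module k M] [Module k N] [Module k P] (i : M →ₗ[k] N) (d : N →ₗ[k] P)
    (hex : Function.Exact i d) [Module.Flat k (P ⧸ LinearMap.range d)]
    (B : Type*) [AddCommGroup B] [Module k B] :
    Function.Exact (i.lTensor B) (d.lTensor B) := by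
  have hd' : Function.Surjective d.rangeRestrict := d.surjective_rangeRestrict
  have hex1 : Function.Exact i d.rangeRestrict := by
    intro p
    rw [← hex p]
    constructor
    · intro h
      have := congrArg Subtype.val h
      simpa using this
    · intro h
      exact Subtype.ext (by simpa using h)
  have hex2 : Function.Exact (i.lTensor B) (d.rangeRestrict.lTensor B) :=
    lTensor_exact B hex1 hd'
  have hinj : Function.Injective ((LinearMap.range d).subtype.lTensor B) :=
    LinearMap.lTensor_injective_of_exact_of_flat (LinearMap.range d).mkQ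
      (Submodule.mkQ_surjective _) (LinearMap.range d).subtype
      (LinearMap.range d).injective_subtype (LinearMap.exact_subtype_mkQ _) B
  have hcomp : d.lTensor B =
      ((LinearMap.range d).subtype.lTensor B) ∘ₗ (d.rangeRestrict.lTensor B) := by
    rw [← LinearMap.lTensor_comp]
    congr 1
  intro z
  rw [hcomp, LinearMap.comp_apply, ← hex2 z]
  constructor
  · intro h
    exact hinj (by rw [h, map_zero])
  · intro h
    rw [h, map_zero]

/-- **`H⁰ = k` and `H¹` flat imply `H⁰(X_B, 𝒪) = B` for every `k`-algebra `B`.** -/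
theorem h0At_of_flat_coker (f0 : A0 →ₐ[k] A01) (f1 : A1 →ₐ[k] A01)
    (hH0 : ∀ a0 a1, f0 a0 = f1 a1 → ∃ c : k, a0 = algebraMap k A0 c ∧ a1 = algebraMap k A1 c)
    [Module.Flat k (A01 ⧸ LinearMap.range (cech f0 f1))]
    (B : Type*) [CommRing B] [Algebra k B] : H0At f0 f1 B := by
  classical
  intro x y h
  let i : k →ₗ[k] A0 × A1 := (Algebra.linearMap k A0).prod (Algebra.linearMap k A1)
  have hex : Function.Exact i (cech f0 f1) := by
    intro p
    constructor
    · intro hp
      have : f0 p.1 = f1 p.2 := by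
        have : f0 p.1 - f1 p.2 = 0 := by simpa using hp
        exact sub_eq_zero.mp this
      obtain ⟨c, h1, h2⟩ := hH0 _ _ this
      exact ⟨c, Prod.ext (by simp [i, h1]) (by simp [i, h2])⟩
    · rintro ⟨c, rfl⟩
      simp [i]
  have hex' : Function.Exact (i.lTensor B) ((cech f0 f1).lTensor B) :=
    exact_lTensor_of_flat_coker i (cech f0 f1) hex B
  let z : B ⊗[k] (A0 × A1) :=
    (LinearMap.inl k A0 A1).lTensor B x + (LinearMap.inr k A0 A1).lTensor B y
  have hz : (cech f0 f1).lTensor B z = 0 := by
    have e0 : cech f0 f1 ∘ₗ LinearMap.inl k A0 A1 = f0.toLinearMap := by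
      ext a; simp
    have e1 : cech f0 f1 ∘ₗ LinearMap.inr k A0 A1 = -f1.toLinearMap := by
      ext a; simp
    have h0' : f0.toLinearMap.lTensor B x = f1.toLinearMap.lTensor B y := by
      rw [← map_id_eq_lTensor39, ← map_id_eq_lTensor39, h]
    simp only [z, map_add, ← LinearMap.comp_apply, ← LinearMap.lTensor_comp, e0, e1,
      LinearMap.lTensor_neg, LinearMap.neg_apply, h0', add_neg_cancel]
  obtain ⟨w, hw⟩ := (hex' z).mp hz
  have key0 : ∀ w : B ⊗[k] k, (LinearMap.fst k A0 A1).lTensor B (i.lTensor B w) =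
      algebraMap B (B ⊗[k] A0) (TensorProduct.rid k B w) := by
    intro w
    induction w using TensorProduct.induction_on with
    | zero => simp
    | tmul b c =>
      simp only [LinearMap.lTensor_tmul, TensorProduct.rid_tmul,
        Algebra.TensorProduct.algebraMap_apply, Algebra.algebraMap_self, RingHom.id_apply]
      simp [i, TensorProduct.smul_tmul, Algebra.algebraMap_eq_smul_one]
    | add u v hu hv => simp only [map_add, hu, hv]
  have key1 : ∀ w : B ⊗[k] k, (LinearMap.snd k A0 A1).lTensor B (i.lTensor B w) =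
      algebraMap B (B ⊗[k] A1) (TensorProduct.rid k B w) := by
    intro w
    induction w using TensorProduct.induction_on with
    | zero => simp
    | tmul b c =>
      simp only [LinearMap.lTensor_tmul, TensorProduct.rid_tmul,
        Algebra.TensorProduct.algebraMap_apply, Algebra.algebraMap_self, RingHom.id_apply]
      simp [i, TensorProduct.smul_tmul, Algebra.algebraMap_eq_smul_one]
    | add u v hu hv => simp only [map_add, hu, hv]
  refine ⟨TensorProduct.rid k B w, ?_, ?_⟩
  · have hx : (LinearMap.fst k A0 A1).lTensor B z = x := by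
      have e0 : LinearMap.fst k A0 A1 ∘ₗ LinearMap.inl k A0 A1 = LinearMap.id := by ext; simp
      have e1 : LinearMap.fst k A0 A1 ∘ₗ LinearMap.inr k A0 A1 = 0 := by ext; simp
      simp only [z, map_add, ← LinearMap.comp_apply, ← LinearMap.lTensor_comp, e0, e1,
        LinearMap.lTensor_id, LinearMap.id_apply, LinearMap.lTensor_zero, LinearMap.zero_apply,
        add_zero]
    rw [← hx, ← hw, key0]
  · have hy : (LinearMap.snd k A0 A1).lTensor B z = y := by
      have e0 : LinearMap.snd k A0 A1 ∘ₗ LinearMap.inl k A0 A1 = 0 := by ext; simp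
      have e1 : LinearMap.snd k A0 A1 ∘ₗ LinearMap.inr k A0 A1 = LinearMap.id := by ext; simp
      simp only [z, map_add, ← LinearMap.comp_apply, ← LinearMap.lTensor_comp, e0, e1,
        LinearMap.lTensor_id, LinearMap.id_apply, LinearMap.lTensor_zero, LinearMap.zero_apply,
        zero_add]
    rw [← hy, ← hw, key1]

/-- If `κ = k/(π)` then `1 ⊗ a = 0` in `κ ⊗[k] A` means `a ∈ π A`. -/
theorem exists_smul_eq_of_one_tmul_eq_zero {κ : Type*} [CommRing κ] [Algebra k κ]
    (hsurj : Function.Surjective (algebraMap k κ)) (π : k)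
    (hker : RingHom.ker (algebraMap k κ) = Ideal.span {π})
    {A : Type*} [AddCommGroup A] [Module k A] (a : A) (h : (1 : κ) ⊗ₜ[k] a = 0) :
    ∃ a' : A, a = π • a' := by
  let f : k →ₗ[k] k := LinearMap.lsmul k k π
  let g : k →ₗ[k] κ := Algebra.linearMap k κ
  have hfg : Function.Exact f g := by
    intro x
    change algebraMap k κ x = 0 ↔ _
    rw [← RingHom.mem_ker, hker, Ideal.mem_span_singleton']
    constructor
    · rintro ⟨y, rfl⟩
      exact ⟨y, by simp [f, mul_comm]⟩
    · rintro ⟨y, rfl⟩
      exact ⟨y, by simp [f, mul_comm]⟩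
  have hg : Function.Surjective g := hsurj
  have hex := rTensor_exact A hfg hg
  have h1 : g.rTensor A ((1 : k) ⊗ₜ[k] a) = 0 := by
    simp [g, h]
  obtain ⟨w, hw⟩ := (hex _).mp h1
  refine ⟨TensorProduct.lid k A w, ?_⟩
  have h2 : ∀ w : k ⊗[k] A, TensorProduct.lid k A (f.rTensor A w) = π • TensorProduct.lid k A w := by
    intro w
    induction w using TensorProduct.induction_on with
    | zero => simp
    | tmul c b => simp [f, mul_smul]
    | add u v hu hv => simp only [map_add, hu, hv, smul_add]
  rw [← h2, hw]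
  simp

/-- **`H¹` has no `π`-torsion** if `H⁰(X_κ, 𝒪) = κ` for `κ = k/(π)` and `A01` has no
`π`-torsion. -/
theorem mem_range_cech_of_smul_mem (f0 : A0 →ₐ[k] A01) (f1 : A1 →ₐ[k] A01)
    {κ : Type*} [CommRing κ] [Algebra k κ]
    (hsurj : Function.Surjective (algebraMap k κ)) (π : k)
    (hker : RingHom.ker (algebraMap k κ) = Ideal.span {π})
    (hπ : ∀ z : A01, π • z = 0 → z = 0) (hκ : H0At f0 f1 κ)
    (z : A01) (hz : π • z ∈ LinearMap.range (cech f0 f1)) :
    z ∈ LinearMap.range (cech f0 f1) := by
  obtain ⟨⟨a0, a1⟩, h⟩ := hz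
  rw [cech_apply] at h
  have hπ0 : algebraMap k κ π = 0 := by
    rw [← RingHom.mem_ker, hker]
    exact Ideal.mem_span_singleton_self π
  have h1 : Algebra.TensorProduct.map (AlgHom.id κ κ) f0 ((1 : κ) ⊗ₜ[k] a0) =
      Algebra.TensorProduct.map (AlgHom.id κ κ) f1 ((1 : κ) ⊗ₜ[k] a1) := by
    simp only [Algebra.TensorProduct.map_tmul, AlgHom.coe_id, id_eq]
    have : f0 a0 = f1 a1 + π • z := by rw [← h]; ring
    have hz0 : (1 : κ) ⊗ₜ[k] (π • z) = 0 := by
      rw [← TensorProduct.smul_tmul, Algebra.smul_def, mul_one, hπ0, TensorProduct.zero_tmul]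
    rw [this, TensorProduct.tmul_add, hz0, add_zero]
  obtain ⟨b, hb0, hb1⟩ := hκ _ _ h1
  obtain ⟨c, rfl⟩ := hsurj b
  have e0 : (1 : κ) ⊗ₜ[k] (a0 - algebraMap k A0 c) = 0 := by
    rw [TensorProduct.tmul_sub, hb0, Algebra.TensorProduct.algebraMap_apply,
      Algebra.algebraMap_self, RingHom.id_apply, Algebra.algebraMap_eq_smul_one c,
      Algebra.algebraMap_eq_smul_one c, TensorProduct.smul_tmul, sub_self]
  have e1 : (1 : κ) ⊗ₜ[k] (a1 - algebraMap k A1 c) = 0 := by
    rw [TensorProduct.tmul_sub, hb1, Algebra.TensorProduct.algebraMap_apply,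
      Algebra.algebraMap_self, RingHom.id_apply, Algebra.algebraMap_eq_smul_one c,
      Algebra.algebraMap_eq_smul_one c, TensorProduct.smul_tmul, sub_self]
  obtain ⟨a0', h0'⟩ := exists_smul_eq_of_one_tmul_eq_zero hsurj π hker _ e0
  obtain ⟨a1', h1'⟩ := exists_smul_eq_of_one_tmul_eq_zero hsurj π hker _ e1
  refine ⟨(a0', a1'), ?_⟩
  rw [cech_apply]
  apply sub_eq_zero.mp
  apply hπ
  have ha0 : a0 = algebraMap k A0 c + π • a0' := by rw [← h0']; ring
  have ha1 : a1 = algebraMap k A1 c + π • a1' := by rw [← h1']; ring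
  rw [smul_sub, smul_sub, ← h, ha0, ha1]
  simp only [map_add, map_smul, AlgHom.commutes]
  ring

end General

section DVR

variable {k : Type*} [CommRing k] [IsDomain k] [IsDiscreteValuationRing k]
  {A0 A1 A01 : Type*} [CommRing A0] [CommRing A1] [CommRing A01]
  [Algebra k A0] [Algebra k A1] [Algebra k A01]

/-- Over a discrete valuation ring: if `H⁰` of the special fibre is the residue field (and `A01` is
torsion-free), then `H¹(X, 𝒪)` is flat. -/
theorem flat_coker_of_residue (f0 : A0 →ₐ[k] A01) (f1 : A1 →ₐ[k] A01) [Module.Flat k A01]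
    (hκ : H0At f0 f1 (IsLocalRing.ResidueField k)) :
    Module.Flat k (A01 ⧸ LinearMap.range (cech f0 f1)) := by
  obtain ⟨π, hirr⟩ := IsDiscreteValuationRing.exists_irreducible k
  have hπne : π ≠ 0 := hirr.ne_zero
  have hsurj : Function.Surjective (algebraMap k (IsLocalRing.ResidueField k)) :=
    IsLocalRing.residue_surjective
  have hker : RingHom.ker (algebraMap k (IsLocalRing.ResidueField k)) = Ideal.span {π} := by
    rw [← hirr.maximalIdeal_eq]
    exact IsLocalRing.ker_residue
  have hπ : ∀ z : A01, π • z = 0 → z = 0 := by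
    intro z hz
    have hreg : IsSMulRegular A01 π :=
      Module.Flat.isSMulRegular_of_nonZeroDivisors (mem_nonZeroDivisors_of_ne_zero hπne)
    exact hreg (by simp only [hz, smul_zero])
  -- the cokernel has no `π`-torsion
  have hC : ∀ c : A01 ⧸ LinearMap.range (cech f0 f1), π • c = 0 → c = 0 := by
    intro c hc
    obtain ⟨z, rfl⟩ := Submodule.Quotient.mk_surjective _ c
    rw [← Submodule.Quotient.mk_smul, Submodule.Quotient.mk_eq_zero] at hc
    rw [Submodule.Quotient.mk_eq_zero]
    exact mem_range_cech_of_smul_mem f0 f1 hsurj π hker hπ hκ z hc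
  have hCn : ∀ (n : ℕ) (c : A01 ⧸ LinearMap.range (cech f0 f1)), π ^ n • c = 0 → c = 0 := by
    intro n
    induction n with
    | zero => intro c hc; simpa using hc
    | succ n ih =>
      intro c hc
      apply ih
      apply hC
      rw [← mul_smul, ← pow_succ']
      exact hc
  rw [Module.Flat.flat_iff_torsion_eq_bot_of_isBezout, eq_bot_iff]
  rintro c ⟨⟨r, hr⟩, hrc⟩
  have hr0 : r ≠ 0 := nonZeroDivisors.ne_zero hr
  obtain ⟨n, u, rfl⟩ := IsDiscreteValuationRing.eq_unit_mul_pow_irreducible hr0 hirr
  rw [Submodule.mem_bot]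
  apply hCn n
  have : (u : k) • (π ^ n • c) = 0 := by
    rw [← mul_smul]
    exact hrc
  have h2 := congrArg (fun w => ((u⁻¹ : kˣ) : k) • w) this
  simpa [← mul_smul] using h2

/-- **Over a discrete valuation ring, `H⁰(X, 𝒪) = k` and `H⁰(X_κ, 𝒪) = κ` imply
`H⁰(X_B, 𝒪) = B` for every `k`-algebra `B`.** -/
theorem h0At_of_dvr (f0 : A0 →ₐ[k] A01) (f1 : A1 →ₐ[k] A01) [Module.Flat k A01]
    (hH0 : ∀ a0 a1, f0 a0 = f1 a1 → ∃ c : k, a0 = algebraMap k A0 c ∧ a1 = algebraMap k A1 c)
    (hκ : H0At f0 f1 (IsLocalRing.ResidueField k))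
    (B : Type*) [CommRing B] [Algebra k B] : H0At f0 f1 B :=
  haveI := flat_coker_of_residue f0 f1 hκ
  h0At_of_flat_coker f0 f1 hH0 B

end DVR

end Fermat.Agent.FFJ.Pic.H0Univ39
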