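/-
Programme FFJ (S19), chapter PIC.  Owner of this file: helper39.

**Brick G4 (separatedness of the functor of rigid classes) over a base RING `k`**: port of the
concrete part of `JAC/Zar/Sep39` (which carries `[Field k]` only through the vocabulary
`AlgAtlas36.Cl/bc` and through `H⁰(X_B, 𝒪) = B`, automatic over a field) to the vocabulary
`ClR / bcR / IsRigidClR` of `FFJ/Core/ClR35`.  The abstract part of `Sep39` (`LocalTriv`,
`nonempty_iso_unit_of_localTriv`, `localTriv_of_cartHom`, `exists_rigidification`) is ring-general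
and is reused verbatim.

Over a base ring the universal form of `H⁰ = B` is a genuine hypothesis (`H0U`); it is provided by
`FFJ/Pic/H0Univ39` from `H⁰(X, 𝒪) = k`, `H⁰(X_κ, 𝒪) = κ` when `k` is a discrete valuation ring
(`h0U_of_dvr`).

* `eq_one_of_forall_bcR_eq_one` : a rigid class which is locally trivial on `Spec B` is trivial;
* `sepR`, `sepR_finset`, `sepR_of_isLocalization` : separatedness;
* `h0U_of_h0At`, `h0U_of_dvr` : the hypothesis `H0U` from `H0Univ39`.
-/
import Fermat.Agent.FFJ.Core.ClRBc35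
import Fermat.Agent.FFJ.Pic.H0Univ39
import Fermat.Agent.JAC.Zar.Sep39

set_option autoImplicit false
set_option linter.style.haveILetI false

universe u

namespace Fermat.Agent.FFJ.Pic.SepR39

open Fermat.Agent.JAC.Core.Defs36 Fermat.Agent.JAC.Core.Cart36

open scoped TensorProduct
open scoped Fermat.Agent.JAC.Core.ConstFamily36
open Fermat.Agent.JAC.Core.ConstFamily36 Fermat.Agent.JAC.Grp.Diag33
  Fermat.Agent.FFJ.Core.ClR35 Fermat.Agent.FFJ.Core.ClRBc35 Fermat.Agent.JAC.Zar.Sep39

variable {k : Type u} [CommRing k]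

/-- `B ⊗[k] A → B[1/f] ⊗[k] A` is the localisation at `f ⊗ 1` (base ring version). -/
theorem isLocalization_away_mapR {B Bf : Type u} [CommRing B] [CommRing Bf] [Algebra k B]
    [Algebra k Bf] [Algebra B Bf] [IsScalarTower k B Bf] (f : B) [IsLocalization.Away f Bf]
    (A : Type u) [CommRing A] [Algebra k A] :
    @IsLocalization.Away (B ⊗[k] A) _ (algebraMap B (B ⊗[k] A) f) (Bf ⊗[k] A) _
      (Algebra.TensorProduct.map (IsScalarTower.toAlgHom k B Bf) (AlgHom.id k A)).toRingHom.toAlgebra := by
  letI : Algebra (B ⊗[k] A) (Bf ⊗[k] A) :=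
    (Algebra.TensorProduct.map (IsScalarTower.toAlgHom k B Bf) (AlgHom.id k A)).toRingHom.toAlgebra
  haveI : IsScalarTower B (B ⊗[k] A) (Bf ⊗[k] A) :=
    IsScalarTower.of_algebraMap_eq fun b => by
      simp [RingHom.algebraMap_toAlgebra, Algebra.TensorProduct.algebraMap_apply]
  have h := IsLocalization.tensorProduct_tensorProduct k A (Submonoid.powers f) Bf
    (by
      ext a
      simp [RingHom.algebraMap_toAlgebra])
  rw [Algebra.algebraMapSubmonoid_powers] at h
  exact h

variable {A0 A1 A01 : Type u} [CommRing A0] [CommRing A1] [CommRing A01]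
  [Algebra k A0] [Algebra k A1] [Algebra k A01] [Algebra A0 A01] [Algebra A1 A01]
  [IsScalarTower k A0 A01] [IsScalarTower k A1 A01] {t : A0} {s : A1}
  [IsLocalization.Away t A01] [IsLocalization.Away s A01]

variable (k A0 A1 A01) in
/-- **The universal form of `H⁰(X, 𝒪) = k`**: `H⁰(X_B, 𝒪) = B` for the `k`-algebra `B`, in the
vocabulary of `ConstFamily36`. -/
def H0U (B : Type u) [CommRing B] [Algebra k B] : Prop :=
  ∀ (x : B ⊗[k] A0) (y : B ⊗[k] A1),
    algebraMap (B ⊗[k] A0) (B ⊗[k] A01) x = algebraMap (B ⊗[k] A1) (B ⊗[k] A01) y →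
    ∃ b : B, x = algebraMap B (B ⊗[k] A0) b ∧ y = algebraMap B (B ⊗[k] A1) b

omit [IsLocalization.Away t A01] [IsLocalization.Away s A01] in
/-- `H0U` is `H0Univ39.H0At` for the two structure maps. -/
theorem h0U_of_h0At (B : Type u) [CommRing B] [Algebra k B]
    (h : H0Univ39.H0At (IsScalarTower.toAlgHom k A0 A01) (IsScalarTower.toAlgHom k A1 A01) B) :
    H0U k A0 A1 A01 B :=
  fun x y hxy => h x y hxy

omit [IsLocalization.Away t A01] [IsLocalization.Away s A01] in
/-- Over a discrete valuation ring `k`: `H⁰(X, 𝒪) = k` and `H⁰(X_κ, 𝒪) = κ` (special fibre) give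
`H0U` for every `k`-algebra. -/
theorem h0U_of_dvr [IsDomain k] [IsDiscreteValuationRing k] [Module.Flat k A01]
    (hH0 : ∀ (a0 : A0) (a1 : A1), algebraMap A0 A01 a0 = algebraMap A1 A01 a1 →
      ∃ c : k, a0 = algebraMap k A0 c ∧ a1 = algebraMap k A1 c)
    (hκ : H0U k A0 A1 A01 (IsLocalRing.ResidueField k))
    (B : Type u) [CommRing B] [Algebra k B] : H0U k A0 A1 A01 B :=
  h0U_of_h0At B (H0Univ39.h0At_of_dvr (IsScalarTower.toAlgHom k A0 A01)
    (IsScalarTower.toAlgHom k A1 A01) hH0 (fun x y hxy => hκ x y hxy) B)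

/-- **A rigid class which is locally trivial on `Spec B` is trivial** (base ring version). -/
theorem eq_one_of_forall_bcR_eq_one (e : A01 →ₐ[k] k)
    (B : Type u) [CommRing B] [Algebra k B]
    (hH0 : ∀ f : B, H0U k A0 A1 A01 (Localization.Away f))
    (η : ClR k A0 A1 A01 t s B) (hη : IsRigidClR e B η)
    (S : Set B) (hS : Ideal.span S = ⊤)
    (h : ∀ f ∈ S, bcR (IsScalarTower.toAlgHom k B (Localization.Away f)) η = 1) : η = 1 := by
  induction η using Quotient.inductionOn with
  | _ L =>
    change cls L = cls (LineDiag.unit _ _ _)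
    letI : Algebra (B ⊗[k] A01) B := rigAlgebra B e
    have hret : ∀ b : B, algebraMap (B ⊗[k] A01) B (algebraMap B (B ⊗[k] A01) b) = b := by
      intro b
      change rigHom B e (algebraMap B (B ⊗[k] A01) b) = b
      simp [Algebra.TensorProduct.algebraMap_apply]
    have hrig : LineDiag.IsRigid (B := B) L := (mem_rigidSubgroup_iff B L).mp hη
    obtain ⟨τ⟩ := hrig
    obtain ⟨ε, hε, hsurj⟩ := exists_rigidification hret τ
    refine (cls_eq_iff.mpr ?_).symm
    refine nonempty_iso_unit_of_localTriv (algebraMap (B ⊗[k] A01) B) hret L ε hε S hS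
      (fun f hf => ?_)
    -- local triviality over `D(f)`
    have h1 := h f hf
    rw [show (Quotient.mk _ L : ClR k A0 A1 A01 t s B) = cls L from rfl, bcR_cls] at h1
    obtain ⟨iso⟩ := cls_eq_iff.mp (h1 : cls _ = cls (LineDiag.unit _ _ _))
    have c := Fermat.Agent.JAC.Grp.Cart33.cartHomOfIso
      (Fermat.Agent.JAC.Grp.Cart33.cartHomBaseChange
        (familyHom (IsScalarTower.toAlgHom k B (Localization.Away f)) t s) L) iso
    letI : Algebra ((Localization.Away f) ⊗[k] A01) (Localization.Away f) :=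
      rigAlgebra (Localization.Away f) e
    have hretf : ∀ b : Localization.Away f, algebraMap ((Localization.Away f) ⊗[k] A01)
        (Localization.Away f) (algebraMap (Localization.Away f) ((Localization.Away f) ⊗[k] A01) b)
        = b := by
      intro b
      change rigHom (Localization.Away f) e (algebraMap _ ((Localization.Away f) ⊗[k] A01) b) = b
      simp [Algebra.TensorProduct.algebraMap_apply]
    exact localTriv_of_cartHom (algebraMap (B ⊗[k] A01) B) hret L ε hε hsurj
      (algebraMap ((Localization.Away f) ⊗[k] A01) (Localization.Away f)) hretf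
      (hH0 f)
      (familyHom (IsScalarTower.toAlgHom k B (Localization.Away f)) t s)
      (fun r => rigHomR_map e (IsScalarTower.toAlgHom k B (Localization.Away f)) r) f
      (isLocalization_away_mapR f A0) (isLocalization_away_mapR f A1)
      (isLocalization_away_mapR f A01) c

/-- **Separatedness** of the functor of rigid classes of line diagrams over a base ring, for
standard covers of `Spec B`: two rigid classes which agree over `B[1/f]` for all `f` in a set
spanning the unit ideal agree. -/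
theorem sepR (e : A01 →ₐ[k] k) (B : Type u) [CommRing B] [Algebra k B]
    (hH0 : ∀ f : B, H0U k A0 A1 A01 (Localization.Away f))
    (ξ ξ' : ClR k A0 A1 A01 t s B)
    (hξ : IsRigidClR e B ξ) (hξ' : IsRigidClR e B ξ') (S : Set B) (hS : Ideal.span S = ⊤)
    (h : ∀ f ∈ S, bcR (IsScalarTower.toAlgHom k B (Localization.Away f)) ξ =
      bcR (IsScalarTower.toAlgHom k B (Localization.Away f)) ξ') : ξ = ξ' := by
  have hη : IsRigidClR e B (ξ * ξ'⁻¹) := by
    unfold IsRigidClR at hξ hξ' ⊢
    exact Subgroup.mul_mem _ hξ (Subgroup.inv_mem _ hξ')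
  have h1 := eq_one_of_forall_bcR_eq_one e B hH0 (ξ * ξ'⁻¹) hη S hS (fun f hf => by
    rw [map_mul, map_inv, h f hf, mul_inv_cancel])
  exact mul_inv_eq_one.mp h1

/-- `sepR` for a finite cover, with the universal `H⁰` hypothesis: the shape of `Brick.G4` over
a base ring. -/
theorem sepR_finset (e : A01 →ₐ[k] k)
    (hH0U : ∀ (B : Type u) [CommRing B] [Algebra k B], H0U k A0 A1 A01 B)
    (B : Type u) [CommRing B] [Algebra k B] (ξ ξ' : ClR k A0 A1 A01 t s B)
    (hξ : IsRigidClR e B ξ) (hξ' : IsRigidClR e B ξ') (S : Finset B)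
    (hS : Ideal.span (S : Set B) = ⊤)
    (h : ∀ f ∈ S, bcR (IsScalarTower.toAlgHom k B (Localization.Away f)) ξ =
      bcR (IsScalarTower.toAlgHom k B (Localization.Away f)) ξ') : ξ = ξ' :=
  sepR e B (fun f => hH0U (Localization.Away f)) ξ ξ' hξ hξ' (S : Set B) hS
    (fun f hf => h f (Finset.mem_coe.mp hf))

/-- `sepR` with arbitrary models `Bf` of the localisations `B[1/f]`. -/
theorem sepR_of_isLocalization (e : A01 →ₐ[k] k) (B : Type u) [CommRing B] [Algebra k B]
    (hH0 : ∀ f : B, H0U k A0 A1 A01 (Localization.Away f))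
    (ξ ξ' : ClR k A0 A1 A01 t s B)
    (hξ : IsRigidClR e B ξ) (hξ' : IsRigidClR e B ξ') (S : Set B) (hS : Ideal.span S = ⊤)
    (h : ∀ f ∈ S, ∃ (Bf : Type u) (_ : CommRing Bf) (_ : Algebra k Bf) (_ : Algebra B Bf)
      (_ : IsScalarTower k B Bf) (_ : IsLocalization.Away f Bf),
      bcR (IsScalarTower.toAlgHom k B Bf) ξ = bcR (IsScalarTower.toAlgHom k B Bf) ξ') :
    ξ = ξ' := by
  refine sepR e B hH0 ξ ξ' hξ hξ' S hS (fun f hf => ?_)
  obtain ⟨Bf, _, _, _, _, _, hf'⟩ := h f hf
  let σ : Bf →ₐ[k] Localization.Away f :=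
    ((IsLocalization.algEquiv (Submonoid.powers f) Bf (Localization.Away f)).restrictScalars
      k).toAlgHom
  have hσ : σ.comp (IsScalarTower.toAlgHom k B Bf) =
      IsScalarTower.toAlgHom k B (Localization.Away f) := by
    ext b
    exact (IsLocalization.algEquiv (Submonoid.powers f) Bf (Localization.Away f)).commutes b
  rw [← hσ, ← bcR_bc, ← bcR_bc, hf']

end Fermat.Agent.FFJ.Pic.SepR39
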