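/-
Programme FFJ (S19), chapter PIC.  Owner of this file: helper65.

**The universal `H⁰(𝒪) = B` from the curve hypotheses over a base ring.**

`FFJ/Pic/SepR39.H0U k A0 A1 A01 B` (helper39) is the statement `H⁰(X_B, 𝒪) = B`; over a base
RING it is a genuine hypothesis of the separatedness brick G4 (`SepR39.sepR_finset`).  Here it is
PROVED from `ChartDefR35.CurveHypR`:

* `h0U_of_retraction`   : `H0U` descends along `B → B'` with a `k`-linear retraction (e.g. field
                          extensions);
* `h0U_of_isAlgClosed`  : `H0U k A0 A1 A01 L` for every algebraically closed field `L` over `k`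
                          (`k` ANY commutative ring): `H⁰(X_L, 𝒪)` is a finite-dimensional
                          (`Frame/GoodTwist65`) `L`-subalgebra of the domain `L ⊗ A01`;
* `h0U_field`           : `H0U k A0 A1 A01 F` for every field `F` over `k`;
* `flat_overlap`        : `A01` is `k`-flat;
* `h0U_of_curveHypR`    : over a discrete valuation ring `k`, `H0U k A0 A1 A01 B` for EVERY
                          `k`-algebra `B` (through `SepR39.h0U_of_dvr`).
-/
import Fermat.Agent.FFJ.Pic.SepR39
import Fermat.Agent.FFJ.Pic.ChartDefR35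
import Fermat.Agent.JAC.Frame.GoodTwist65

set_option autoImplicit false

universe u

namespace Fermat.Agent.FFJ.Pic.H0Univ65

open scoped TensorProduct
open scoped Fermat.Agent.JAC.Core.ConstFamily36
open Fermat.Agent.JAC.Core.ConstFamily36 Fermat.Agent.JAC.Cech
  Fermat.Agent.JAC.Frame.GoodTwist65 Fermat.Agent.FFJ.Pic.SepR39
  Fermat.Agent.FFJ.Pic.ChartDefR35

variable {k : Type u} [CommRing k]
  {A0 A1 A01 : Type u} [CommRing A0] [CommRing A1] [CommRing A01]
  [Algebra k A0] [Algebra k A1] [Algebra k A01] [Algebra A0 A01] [Algebra A1 A01]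
  [IsScalarTower k A0 A01] [IsScalarTower k A1 A01]

/-- `H0U` descends along a `k`-algebra map `B → B'` which has a `k`-linear retraction. -/
theorem h0U_of_retraction {B B' : Type u} [CommRing B] [CommRing B'] [Algebra k B] [Algebra k B']
    (φ : B →ₐ[k] B') (r : B' →ₗ[k] B) (hr : ∀ b, r (φ b) = b)
    (h : H0U k A0 A1 A01 B') : H0U k A0 A1 A01 B := by
  intro x y hxy
  have nat0 : ∀ x : B ⊗[k] A0,
      algebraMap (B' ⊗[k] A0) (B' ⊗[k] A01) (φ.toLinearMap.rTensor A0 x) =
        φ.toLinearMap.rTensor A01 (algebraMap (B ⊗[k] A0) (B ⊗[k] A01) x) := by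
    intro x
    induction x using TensorProduct.induction_on with
    | zero => simp
    | tmul b a => simp
    | add u v hu hv => simp only [map_add, hu, hv]
  have nat1 : ∀ y : B ⊗[k] A1,
      algebraMap (B' ⊗[k] A1) (B' ⊗[k] A01) (φ.toLinearMap.rTensor A1 y) =
        φ.toLinearMap.rTensor A01 (algebraMap (B ⊗[k] A1) (B ⊗[k] A01) y) := by
    intro y
    induction y using TensorProduct.induction_on with
    | zero => simp
    | tmul b a => simp
    | add u v hu hv => simp only [map_add, hu, hv]
  obtain ⟨c, hc0, hc1⟩ := h (φ.toLinearMap.rTensor A0 x) (φ.toLinearMap.rTensor A1 y)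
    (by rw [nat0, nat1, hxy])
  have hrφ : r ∘ₗ φ.toLinearMap = LinearMap.id := LinearMap.ext hr
  have ret : ∀ (A : Type u) [CommRing A] [Algebra k A] (x : B ⊗[k] A),
      r.rTensor A (φ.toLinearMap.rTensor A x) = x := by
    intro A _ _ x
    rw [← LinearMap.comp_apply, ← LinearMap.rTensor_comp, hrφ, LinearMap.rTensor_id,
      LinearMap.id_apply]
  refine ⟨r c, ?_, ?_⟩
  · rw [← ret A0 x, hc0, Algebra.TensorProduct.algebraMap_apply,
      Algebra.TensorProduct.algebraMap_apply]
    simp
  · rw [← ret A1 y, hc1, Algebra.TensorProduct.algebraMap_apply,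
      Algebra.TensorProduct.algebraMap_apply]
    simp

variable {t : A0} {s : A1} [IsLocalization.Away t A01] [IsLocalization.Away s A01]

/-- From the good twist of the structure pair `A0 → A01 ← A1` of a curve (`Frame/GoodTwist65`):
`A01` is flat over the base ring and `H⁰` of every fibre over a field is finite-dimensional. -/
theorem flat_and_finite_h0 (H : CurveHypR k A0 A1 A01 t s) :
    Module.Flat k A01 ∧ ∀ (L : Type u) [Field L] [Algebra k L],
      Module.Finite L (H0 (((Algebra.linearMap A0 A01).restrictScalars k).baseChange L)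
        (((Algebra.linearMap A1 A01).restrictScalars k).baseChange L)) := by
  obtain ⟨n0, b0, hb0⟩ := H.coords0
  obtain ⟨n1, b1, hb1⟩ := H.coords1
  have : IsLocalizedModule (Submonoid.powers t) (Algebra.linearMap A0 A01) :=
    (isLocalizedModule_iff_isLocalization).mpr inferInstance
  have : IsLocalizedModule (Submonoid.powers s) (Algebra.linearMap A1 A01) :=
    (isLocalizedModule_iff_isLocalization).mpr inferInstance
  obtain ⟨m0, h⟩ := exists_goodTwist (B := k) t s H.hts b0 hb0 b1 hb1
    (Algebra.linearMap A0 A01) (Algebra.linearMap A1 A01)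
  exact ⟨(h m0 le_rfl).flat, fun L _ _ => (h m0 le_rfl).finite_h0_baseChange L⟩

/-- `A01` is flat over the base ring. -/
theorem flat_overlap (H : CurveHypR k A0 A1 A01 t s) : Module.Flat k A01 :=
  (flat_and_finite_h0 H).1

/-- The base change of the structure map is the structure map of the base change. -/
theorem baseChange_linearMap_apply (L : Type u) [CommRing L] [Algebra k L]
    (A A' : Type u) [CommRing A] [CommRing A'] [Algebra k A] [Algebra k A'] [Algebra A A']
    [IsScalarTower k A A'] (x : L ⊗[k] A) :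
    ((Algebra.linearMap A A').restrictScalars k).baseChange L x =
      algebraMap (L ⊗[k] A) (L ⊗[k] A') x := by
  induction x using TensorProduct.induction_on with
  | zero => simp
  | tmul b a => simp
  | add u v hu hv => simp only [map_add, hu, hv]

/-- `L ⊗ A → L ⊗ A'` is injective when `A'` is the localisation of `A` at `t` and `L ⊗ A`,
`L ⊗ A'` are domains. -/
theorem algebraMap_tensor_injective (L : Type u) [CommRing L] [Algebra k L]
    (A A' : Type u) [CommRing A] [CommRing A'] [Algebra k A] [Algebra k A'] [Algebra A A']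
    [IsScalarTower k A A'] (t : A) [IsLocalization.Away t A'] [IsDomain (L ⊗[k] A)]
    [Nontrivial (L ⊗[k] A')] :
    Function.Injective (algebraMap (L ⊗[k] A) (L ⊗[k] A')) := by
  have hne : ((1 : L) ⊗ₜ[k] t : L ⊗[k] A) ≠ 0 := by
    intro h0
    have hu : IsUnit (algebraMap (L ⊗[k] A) (L ⊗[k] A') ((1 : L) ⊗ₜ[k] t)) :=
      IsLocalization.Away.algebraMap_isUnit _
    rw [h0, map_zero] at hu
    exact not_isUnit_zero hu
  exact IsLocalization.injective (L ⊗[k] A') (M := Submonoid.powers ((1 : L) ⊗ₜ[k] t))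
    (powers_le_nonZeroDivisors_of_noZeroDivisors hne)

/-- **`H⁰(X_L, 𝒪) = L` for every algebraically closed field `L` over the base ring.** -/
theorem h0U_of_isAlgClosed (H : CurveHypR k A0 A1 A01 t s) (L : Type u) [Field L] [Algebra k L]
    [IsAlgClosed L] : H0U k A0 A1 A01 L := by
  have := H.dedekind0 L
  have := H.dedekind1 L
  have := H.dedekind01 L
  have hfin := (flat_and_finite_h0 H).2 L
  set ρ₀ := ((Algebra.linearMap A0 A01).restrictScalars k).baseChange L with hρ₀
  set ρ₁ := ((Algebra.linearMap A1 A01).restrictScalars k).baseChange L with hρ₁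
  have e0 : ∀ x, ρ₀ x = algebraMap (L ⊗[k] A0) (L ⊗[k] A01) x :=
    baseChange_linearMap_apply L A0 A01
  have e1 : ∀ y, ρ₁ y = algebraMap (L ⊗[k] A1) (L ⊗[k] A01) y :=
    baseChange_linearMap_apply L A1 A01
  have inj0 : Function.Injective (algebraMap (L ⊗[k] A0) (L ⊗[k] A01)) :=
    algebraMap_tensor_injective L A0 A01 t
  have inj1 : Function.Injective (algebraMap (L ⊗[k] A1) (L ⊗[k] A01)) :=
    algebraMap_tensor_injective L A1 A01 s
  -- the subalgebra of global functions
  let S : Subalgebra L (L ⊗[k] A01) :=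
    (tensorMap k L A0 A01).range ⊓ (tensorMap k L A1 A01).range
  let π : H0 ρ₀ ρ₁ →ₗ[L] L ⊗[k] A01 := ρ₀ ∘ₗ (LinearMap.fst L _ _) ∘ₗ (H0 ρ₀ ρ₁).subtype
  have hS : Subalgebra.toSubmodule S = LinearMap.range π := by
    ext z
    constructor
    · rintro ⟨⟨x, hx⟩, ⟨y, hy⟩⟩
      have hxy : (x, y) ∈ H0 ρ₀ ρ₁ := by
        rw [mem_H0, e0, e1]
        exact hx.trans hy.symm
      exact ⟨⟨(x, y), hxy⟩, (e0 x).trans hx⟩
    · rintro ⟨⟨⟨x, y⟩, hxy⟩, rfl⟩
      rw [mem_H0] at hxy
      refine ⟨⟨x, (e0 x).symm⟩, ⟨y, ?_⟩⟩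
      change algebraMap (L ⊗[k] A1) (L ⊗[k] A01) y = ρ₀ x
      rw [← e1, hxy]
  have hFG : (Subalgebra.toSubmodule S).FG := by
    rw [hS, LinearMap.range_eq_map]
    exact (Module.Finite.fg_top).map π
  intro x y hxy
  have hz : algebraMap (L ⊗[k] A0) (L ⊗[k] A01) x ∈ S :=
    ⟨⟨x, rfl⟩, ⟨y, hxy.symm⟩⟩
  have hint : IsIntegral L (algebraMap (L ⊗[k] A0) (L ⊗[k] A01) x) :=
    IsIntegral.of_mem_of_fg S hFG _ hz
  have hdeg : (minpoly L (algebraMap (L ⊗[k] A0) (L ⊗[k] A01) x)).degree = 1 :=
    IsAlgClosed.degree_eq_one_of_irreducible L (minpoly.irreducible hint)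
  obtain ⟨c, hc⟩ := minpoly.mem_range_of_degree_eq_one L _ hdeg
  refine ⟨c, inj0 ?_, inj1 ?_⟩
  · rw [← hc, ← IsScalarTower.algebraMap_apply]
  · rw [← hxy, ← hc, ← IsScalarTower.algebraMap_apply]

/-- **`H⁰(X_F, 𝒪) = F` for every field `F` over the base ring.** -/
theorem h0U_field (H : CurveHypR k A0 A1 A01 t s) (F : Type u) [Field F] [Algebra k F] :
    H0U k A0 A1 A01 F := by
  obtain ⟨g, hg⟩ := (Algebra.linearMap F (AlgebraicClosure F)).exists_leftInverse_of_injective
    (LinearMap.ker_eq_bot.mpr (algebraMap F (AlgebraicClosure F)).injective)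
  refine h0U_of_retraction (IsScalarTower.toAlgHom k F (AlgebraicClosure F))
    (g.restrictScalars k) (fun b => ?_) (h0U_of_isAlgClosed H (AlgebraicClosure F))
  exact LinearMap.congr_fun hg b

/-- **The universal `H⁰(X_B, 𝒪) = B` over a discrete valuation ring**, from the curve
hypotheses. -/
theorem h0U_of_curveHypR [IsDomain k] [IsDiscreteValuationRing k]
    (H : CurveHypR k A0 A1 A01 t s) (B : Type u) [CommRing B] [Algebra k B] :
    H0U k A0 A1 A01 B := by
  have := flat_overlap H
  exact h0U_of_dvr H.h0 (h0U_field H (IsLocalRing.ResidueField k)) B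

end Fermat.Agent.FFJ.Pic.H0Univ65
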