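/-
Programme FFJ (S19), chapter PIC: the bricks `K0`, `K3`, `K4` of `FFJ/Pic/ChartSpecR35` over an
arbitrary commutative BASE RING `k` (helper87; ports of `JAC/Hilb/K0K3_87` and `JAC/Hilb/K4_87`).

The two places where the JAC proofs used that `k` is a field are re-proved here:

* `not_isField_fibre`: every fibre `K ⊗[k] A0` (`K` a field over `k`) is not a field
  (base-changed coordinates + Zariski's lemma over `K`);
* `regular_and_flat_constR`: `FibreRegularConst46.regular_and_flat_const` with the extra hypothesis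
  `Module.Projective k A` (automatic over a field; here it comes from the coordinates, `free_of_coords`).

`k4R` needs `[IsNoetherianRing k]` (finite type ⇒ finitely presented); true for a DVR.
-/
import Mathlib
import Fermat.Agent.FFJ.Pic.ChartSpecR35
import Fermat.Agent.JAC.Hilb.K0K3_87
import Fermat.Agent.JAC.Hilb.K4_87
import Fermat.Agent.JAC.Div.CartierFinal56
import Fermat.Agent.JAC.Hilb.FibreRegular46
import Fermat.Agent.JAC.Hilb.FlatPure46
import Fermat.Agent.JAC.Hilb.FiniteAtInfty46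
import Fermat.Agent.JAC.Frame.BaseChange65

set_option autoImplicit false
set_option linter.unusedSectionVars false
set_option linter.style.haveILetI false

universe u

namespace Fermat.Agent.FFJ.Pic.KBricksR87

open scoped TensorProduct Polynomial
open scoped Fermat.Agent.JAC.Core.ConstFamily36
open Fermat.Agent.JAC.Core.Defs36 Fermat.Agent.JAC.Core.Cart36 Fermat.Agent.JAC.Core.ConstFamily36
  Fermat.Agent.FFJ.Core.ClR35 Fermat.Agent.JAC.Grp.Diag33
  Fermat.Agent.JAC.Hilb.BasedQuot46 Fermat.Agent.JAC.Hilb.ZeroIdeal46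
  Fermat.Agent.FFJ.Pic.ChartDefR35 Fermat.Agent.FFJ.Pic.ChartSpecR35
  Fermat.Agent.JAC.Hilb.SectionQuot46 Fermat.Agent.JAC.Hilb.SectionDiv46
  Fermat.Agent.JAC.Div.DivisorDiagram56

/-! ### Coordinates -/

section Coords

variable {k : Type u} [CommRing k] {A : Type u} [CommRing A] [Algebra k A]

/-- Coordinate-form freeness over `k[t]` implies freeness over `k`. -/
theorem free_of_coords (t : A) {n : ℕ} (b : Fin n → A)
    (hb : Function.Bijective (fun p : Fin n → k[X] => ∑ j, Polynomial.aeval t (p j) * b j)) :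
    Module.Free k A := by
  let f : (Fin n → k[X]) →ₗ[k] A :=
    { toFun := fun p => ∑ j, Polynomial.aeval t (p j) * b j
      map_add' := fun p q => by
        simp only [Pi.add_apply, map_add, add_mul, Finset.sum_add_distrib]
      map_smul' := fun c p => by
        simp only [Pi.smul_apply, map_smul, RingHom.id_apply, smul_mul_assoc, Finset.smul_sum] }
  exact Module.Free.of_equiv (LinearEquiv.ofBijective f hb)

/-- The fibres of a chart which is free of finite rank over `k[t]` (coordinate form) and has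
nontrivial finite type fibres are not fields. -/
theorem not_isField_fibre [Algebra.FiniteType k A] (t : A) {n : ℕ} (b : Fin n → A)
    (hb : Function.Bijective (fun p : Fin n → k[X] => ∑ j, Polynomial.aeval t (p j) * b j))
    (K : Type u) [Field K] [Algebra k K] [Nontrivial (K ⊗[k] A)] : ¬ IsField (K ⊗[k] A) := by
  intro hF
  have hnf : ¬ Module.Finite K (K ⊗[k] A) :=
    Fermat.Agent.JAC.Hilb.K0K3_87.not_finite_of_coords ((1 : K) ⊗ₜ[k] t)
      (fun j => (1 : K) ⊗ₜ[k] b j) (Fermat.Agent.JAC.Frame.BaseChange65.bijective_baseChange K hb)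
  apply hnf
  let _ : Field (K ⊗[k] A) := hF.toField
  exact finite_of_finite_type_of_isJacobsonRing K (K ⊗[k] A)

end Coords

/-! ### A3.2 for the constant family over a base ring -/

section Invertible

variable {k : Type u} [CommRing k] {A0 : Type u} [CommRing A0] [Algebra k A0]
variable {B : Type u} [CommRing B] [Algebra k B]

/-- `CartierFinal56.invertible_of_dedekind_fibres_const` over a base ring: the extra input is that
`A0` is free over `k`. -/
theorem invertible_of_dedekind_fibres_constR [Algebra.FiniteType k A0] [Module.Free k A0]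
    (hgeom : ∀ (K : Type u) [Field K] [Algebra k K],
      IsDedekindDomain (K ⊗[k] A0) ∧ ¬ IsField (K ⊗[k] A0))
    (I : Ideal (B ⊗[k] A0)) [Module.Finite B ((B ⊗[k] A0) ⧸ I)]
    [Module.Projective B ((B ⊗[k] A0) ⧸ I)] :
    Module.Invertible (B ⊗[k] A0) I := by
  refine Fermat.Agent.JAC.Div.CartierFinal56.invertible_of_dedekind_fibres (B := B)
    (R := B ⊗[k] A0) I ?_
  intro K _ _
  let _ : Algebra k K := ((algebraMap B K).comp (algebraMap k B)).toAlgebra
  have : IsScalarTower k B K := IsScalarTower.of_algebraMap_eq (fun _ => rfl)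
  obtain ⟨hded, hfield⟩ := hgeom K
  let f : K ⊗[B] (B ⊗[k] A0) ≃ₐ[K] K ⊗[k] A0 := Algebra.TensorProduct.cancelBaseChange k B K K A0
  exact ⟨Fermat.Agent.JAC.Div.CartierFinal56.isDedekindDomain_of_ringEquiv f.toRingEquiv,
    fun h => hfield (MulEquiv.isField h f.symm.toRingEquiv.toMulEquiv)⟩

end Invertible

/-! ### Fibrewise regularity for the constant family over a base ring -/

section FibreRegular

open Fermat.Agent.JAC.Hilb.FlatPure46 Fermat.Agent.JAC.Hilb.FibreRegular46

variable {k : Type u} [CommRing k] {A : Type u} [CommRing A] [Algebra k A]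
  {B : Type u} [CommRing B] [Algebra k B]
  {M : Type u} [AddCommGroup M] [Module (B ⊗[k] A) M] [Module.Invertible (B ⊗[k] A) M]

/-- Fibre criterion over the constant family, for a field `K` over `B` (base ring form). -/
theorem baseChange_evalLin_injective_constR {K : Type u} [Field K] [Algebra k K] [Algebra B K]
    [IsScalarTower k B K] [IsDomain (K ⊗[k] A)] (σ : M)
    (h : letI : Algebra (B ⊗[k] A) (K ⊗[k] A) :=
        (bcMapR (IsScalarTower.toAlgHom k B K) A A).toAlgebra
      (1 : K ⊗[k] A) ⊗ₜ[B ⊗[k] A] σ ≠ 0) :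
    Function.Injective ((evalLin B (B ⊗[k] A) σ).baseChange K) := by
  let _ : Algebra (B ⊗[k] A) (K ⊗[k] A) := (bcMapR (IsScalarTower.toAlgHom k B K) A A).toAlgebra
  have halg : ∀ (b : B) (a : A),
      algebraMap (B ⊗[k] A) (K ⊗[k] A) (b ⊗ₜ a) = algebraMap B K b ⊗ₜ a := fun b a => rfl
  have := isScalarTower_const k A B K halg
  have := isPushout_const k A B K halg
  have h1 := baseChange_evalLin_injective (B := B) (R := B ⊗[k] A) (M := M) K (K ⊗[k] A) (σ := σ)
  exact h1 h

/-- **Relative divisor from fibrewise non-vanishing, constant family over a base ring.** -/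
theorem regular_and_flat_constR [Module.Projective k A]
    (hdom : ∀ (K : Type u) [Field K] [Algebra k K], IsDomain (K ⊗[k] A)) (σ : M)
    (h : ∀ (m : Ideal B) [m.IsMaximal],
      letI : Algebra (B ⊗[k] A) (m.ResidueField ⊗[k] A) :=
        (bcMapR (IsScalarTower.toAlgHom k B m.ResidueField) A A).toAlgebra
      (1 : m.ResidueField ⊗[k] A) ⊗ₜ[B ⊗[k] A] σ ≠ 0) :
    IsRegularSection (B ⊗[k] A) σ ∧ Module.Flat B ((B ⊗[k] A) ⧸ zeroIdeal (B ⊗[k] A) σ) := by
  refine regular_and_flat_of_residueField σ (fun m _ => ?_)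
  have := hdom m.ResidueField
  have h1 := baseChange_evalLin_injective_constR (k := k) (A := A) (B := B) (M := M)
    (K := m.ResidueField) σ
  exact h1 (h m)

end FibreRegular

/-! ### The bricks -/

variable {k : Type u} [CommRing k] {A0 A1 A01 : Type u} [CommRing A0] [CommRing A1] [CommRing A01]
  [Algebra k A0] [Algebra k A1] [Algebra k A01] [Algebra A0 A01] [Algebra A1 A01]
  [IsScalarTower k A0 A01] [IsScalarTower k A1 A01] {t : A0} {s : A1}
  [IsLocalization.Away t A01] [IsLocalization.Away s A01]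

/-- **Brick K0 over a base ring**: ideals of based quotients are invertible. -/
theorem k0R (H : CurveHypR k A0 A1 A01 t s) : Brick.K0 k A0 := by
  intro B _ _ n β I0 h
  have := H.finiteType0
  obtain ⟨m, b, hb⟩ := H.coords0
  have hfree : Module.Free k A0 := free_of_coords t b hb
  have : Module.Finite B ((B ⊗[k] A0) ⧸ I0) := Module.Finite.equiv h.equiv
  have : Module.Free B ((B ⊗[k] A0) ⧸ I0) := Module.Free.of_equiv h.equiv
  refine invertible_of_dedekind_fibres_constR (fun K _ _ => ?_) I0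
  have hd := H.dedekind0 K
  have : Nontrivial (K ⊗[k] A0) := inferInstance
  exact ⟨hd, not_isField_fibre t b hb K⟩

/-- **Brick K3 over a base ring**: the tautological section of `O(D)` has no zero at infinity. -/
theorem k3R (hts : algebraMap A0 A01 t * algebraMap A1 A01 s = 1) :
    Brick.K3 k A0 A1 A01 t s hts := by
  intro B _ _ I0 hf hi
  have hI1 : ideal1 (A1 := A1) (A01 := A01) B I0 ⊔ Ideal.span {(1 : B) ⊗ₜ[k] s} = ⊤ :=
    Fermat.Agent.JAC.Div.BasedInvertible56.I1_sup_span_eq_top (B := B) ((1 : B) ⊗ₜ[k] t)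
      ((1 : B) ⊗ₜ[k] s) I0 (hts_tensor hts B)
  have hinv := invertible_ideal1 hts B I0 hf hi
  have hz : zeroIdeal (B ⊗[k] A1) (oneSec1 hts B I0 hf hi) =
      ideal1 (A1 := A1) (A01 := A01) B I0 :=
    Fermat.Agent.JAC.Hilb.SectionDiv46.zeroIdeal_subtype _
  unfold NoZeroInf
  exact Fermat.Agent.JAC.Hilb.K0K3_87.span_sup_smul_of_zeroIdeal_sup (oneSec1 hts B I0 hf hi)
    ((1 : B) ⊗ₜ[k] s) (by rw [hz]; exact hI1)

/-- Over a field `K` such that `K ⊗ A1`, `K ⊗ A01` are domains, the first component of a generating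
section is not zero (base ring form of `K4_87.fst_ne_zero_of_isGenSection`). -/
theorem fst_ne_zero_of_isGenSectionR {K : Type u} [Field K] [Algebra k K]
    [IsDomain (K ⊗[k] A1)] [Nontrivial (K ⊗[k] A01)]
    (N : CDiag k A0 A1 A01 t s K) {σ0 : N.M0} {σ1 : N.M1} (h : IsGenSection N σ0 σ1) :
    σ0 ≠ 0 := by
  intro h0
  have hs : (1 : K) ⊗ₜ[k] s ≠ (0 : K ⊗[k] A1) := by
    intro hs0
    have hu : IsUnit (algebraMap (K ⊗[k] A1) (K ⊗[k] A01) ((1 : K) ⊗ₜ[k] s)) :=
      IsLocalization.Away.algebraMap_isUnit ((1 : K) ⊗ₜ[k] s)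
    rw [hs0, map_zero] at hu
    exact not_isUnit_zero hu
  have hinj : Function.Injective N.rho1 :=
    Fermat.Agent.JAC.Hilb.K4_87.injective_of_isLocalizedModule_of_isDomain
      ((1 : K) ⊗ₜ[k] s) hs N.rho1
  have h1 : σ1 = 0 := by
    apply hinj
    rw [map_zero, ← h.1, h0, map_zero]
  obtain ⟨b, -, hb⟩ := h.2 0 0 (by rw [map_zero, map_zero])
  have e0 := hb 0 (by subst h0 h1; exact ⟨(smul_zero _).symm, (smul_zero _).symm⟩)
  have e1 := hb 1 (by subst h0 h1; exact ⟨(smul_zero _).symm, (smul_zero _).symm⟩)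
  exact one_ne_zero (e1.trans e0.symm)

/-- **Brick K4 over a (noetherian) base ring**: the zero scheme on `U0` of a generating section
without zero at infinity of a line diagram with `H¹ = 0` is finite and projective over the base. -/
theorem k4R [IsNoetherianRing k] (H : CurveHypR k A0 A1 A01 t s)
    (hBC2 : Brick.BC2 k A0 A1 A01 t s) : Brick.K4 k A0 A1 A01 t s := by
  intro B _ _ N σ0 σ1 hH1 hgen hnz
  have hσ : N.rho0 σ0 = N.rho1 σ1 := hgen.1
  obtain ⟨n0, b0, hb0⟩ := H.coords0
  obtain ⟨n1, b1, hb1⟩ := H.coords1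
  -- (1) finiteness
  have hfin : Module.Finite B ((B ⊗[k] A0) ⧸ zeroIdeal (B ⊗[k] A0) σ0) := by
    letI alg0 : Algebra B[X] (B ⊗[k] A0) :=
      (Polynomial.aeval ((1 : B) ⊗ₜ[k] t) : B[X] →ₐ[B] B ⊗[k] A0).toRingHom.toAlgebra
    letI alg1 : Algebra B[X] (B ⊗[k] A1) :=
      (Polynomial.aeval ((1 : B) ⊗ₜ[k] s) : B[X] →ₐ[B] B ⊗[k] A1).toRingHom.toAlgebra
    have e0 : ∀ p : B[X], algebraMap B[X] (B ⊗[k] A0) p =
        Polynomial.aeval ((1 : B) ⊗ₜ[k] t) p := fun _ => rfl
    have e1 : ∀ p : B[X], algebraMap B[X] (B ⊗[k] A1) p =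
        Polynomial.aeval ((1 : B) ⊗ₜ[k] s) p := fun _ => rfl
    haveI tower0 : IsScalarTower B B[X] (B ⊗[k] A0) := IsScalarTower.of_algebraMap_eq (fun b => by
      rw [e0, ← Polynomial.C_eq_algebraMap, Polynomial.aeval_C])
    haveI tower1 : IsScalarTower B B[X] (B ⊗[k] A1) := IsScalarTower.of_algebraMap_eq (fun b => by
      rw [e1, ← Polynomial.C_eq_algebraMap, Polynomial.aeval_C])
    have hX0 : algebraMap B[X] (B ⊗[k] A0) Polynomial.X = (1 : B) ⊗ₜ[k] t := by
      rw [e0, Polynomial.aeval_X]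
    have hX1 : algebraMap B[X] (B ⊗[k] A1) Polynomial.X = (1 : B) ⊗ₜ[k] s := by
      rw [e1, Polynomial.aeval_X]
    haveI fin0 : Module.Finite B[X] (B ⊗[k] A0) :=
      Fermat.Agent.JAC.Hilb.K4_87.finite_of_coords ((1 : B) ⊗ₜ[k] t) (fun j => (1 : B) ⊗ₜ[k] b0 j)
        (Fermat.Agent.JAC.Frame.BaseChange65.bijective_baseChange B hb0).2 e0
    haveI fin1 : Module.Finite B[X] (B ⊗[k] A1) :=
      Fermat.Agent.JAC.Hilb.K4_87.finite_of_coords ((1 : B) ⊗ₜ[k] s) (fun j => (1 : B) ⊗ₜ[k] b1 j)
        (Fermat.Agent.JAC.Frame.BaseChange65.bijective_baseChange B hb1).2 e1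
    have hZ : Ideal.map (algebraMap (B ⊗[k] A1) (B ⊗[k] A01)) (zeroIdeal (B ⊗[k] A1) σ1) ≤
        Ideal.map (algebraMap (B ⊗[k] A0) (B ⊗[k] A01)) (zeroIdeal (B ⊗[k] A0) σ0) :=
      (map_zeroIdeal_eq N hσ).ge
    have hinf : zeroIdeal (B ⊗[k] A1) σ1 ⊔ Ideal.span {(1 : B) ⊗ₜ[k] s} = ⊤ :=
      sup_span_eq_top_of_span_sup_smul σ1 _ hnz
    exact Fermat.Agent.JAC.Hilb.FiniteAtInfty46.finite_quotient_of_sup_span_eq_top (B := B)
      (R01 := B ⊗[k] A01) ((1 : B) ⊗ₜ[k] t) ((1 : B) ⊗ₜ[k] s) (hts_tensor H.hts B) hX0 hX1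
      (zeroIdeal (B ⊗[k] A0) σ0) (zeroIdeal (B ⊗[k] A1) σ1) hZ hinf
  refine ⟨hfin, ?_⟩
  -- (2) flatness: the section is nonzero on every fibre
  have hdom : ∀ (K : Type u) [Field K] [Algebra k K], IsDomain (K ⊗[k] A0) := fun K _ _ =>
    have := H.dedekind0 K
    inferInstance
  have hfree : Module.Free k A0 := free_of_coords t b0 hb0
  have hflat : Module.Flat B ((B ⊗[k] A0) ⧸ zeroIdeal (B ⊗[k] A0) σ0) := by
    refine (regular_and_flat_constR (k := k) (A := A0) (B := B) (M := N.M0) hdom σ0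
      (fun m _ => ?_)).2
    intro hzero
    have := H.dedekind1 m.ResidueField
    have := H.dedekind01 m.ResidueField
    have hg := hBC2 B m.ResidueField (IsScalarTower.toAlgHom k B m.ResidueField) N
      (bcd (IsScalarTower.toAlgHom k B m.ResidueField) N)
      (bcc (IsScalarTower.toAlgHom k B m.ResidueField) N) σ0 σ1 hH1 hgen
    refine fst_ne_zero_of_isGenSectionR _ hg ?_
    exact Fermat.Agent.JAC.Hilb.K4_87.semilinear_eq_zero_of_tmul_eq_zero _
      (bcc (IsScalarTower.toAlgHom k B m.ResidueField) N).f0 σ0 hzero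
  -- (3) projectivity: finite + flat + finitely presented
  have := H.finiteType0
  have hfp0 : Algebra.FinitePresentation k A0 :=
    Algebra.FinitePresentation.of_finiteType.mp inferInstance
  have hfpB : Algebra.FinitePresentation B (B ⊗[k] A0) := inferInstance
  have hfpQ : Algebra.FinitePresentation B ((B ⊗[k] A0) ⧸ zeroIdeal (B ⊗[k] A0) σ0) :=
    Algebra.FinitePresentation.quotient (zeroIdeal_fg σ0)
  have : Module.FinitePresentation B ((B ⊗[k] A0) ⧸ zeroIdeal (B ⊗[k] A0) σ0) :=
    Module.FinitePresentation.of_finite_of_finitePresentation B _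
  exact Module.Flat.projective_of_finitePresentation

end Fermat.Agent.FFJ.Pic.KBricksR87
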