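/-
Programme FFJ (S19), chapter PIC: BASE-RING FORK of JAC/Hilb (helper37), atlas assembly, piece `inj` (helper37).

For a chart index `(j, β, φ)` whose universal divisor over `R := Localization.Away φ` is good
(`ChartDefR35.IsGoodDiv`), the universal class `locClass hts lam β j φ` is a MONOMORPHISM of functors:
two `k`-algebra maps `ψ ψ' : R → B` with `bcR ψ x = bcR ψ' x` are equal.  This is the field `inj` of
`AlgAtlas36.AlgAtlas` / `AtlasLocal33.LocalAtlas`.

The bricks `BC1`, `BC2`, `K2` of `ChartSpecR35` are taken as hypotheses in their literal form.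

Exports for the other assembly pieces:
* `isGenSection_generates`, `isGenSection_faithful` : `ChartDefR35.IsGenSection` unfolds to helper46's
  `GenSection46.Generates` + `GenSection46.IsFaithfulSection`;
* `bc_twist` : twists are compatible with base change;
* `pointIdeal_comp` : `pointIdeal β (ψ.comp f) = (pointIdeal β f).map (tensorMap ψ)`;
* `flat_quotient_pointIdeal`, `finite_quotient_pointIdeal`, `isBasedQuot_pointIdeal`;
* `bc_odClass_pointIdeal`, `bc_locClass` : base change of the universal class;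
* `isGoodDiv_pointIdeal_comp` : good divisors pull back to good divisors (on the chart);
* `pointEquiv_symm_toBasedPoint_of_eq`, `pointIdeal_injective`.
-/
import Mathlib
import Fermat.Agent.FFJ.Pic.ChartSpecR35
import Fermat.Agent.JAC.Hilb.GenSection46
import Fermat.Agent.FFJ.Core.ClRBc35

set_option autoImplicit false
set_option maxHeartbeats 400000
set_option linter.unusedSectionVars false

universe u

namespace Fermat.Agent.FFJ.Pic.ChartInjR37

open scoped TensorProduct Polynomial
open scoped Fermat.Agent.JAC.Core.ConstFamily36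
open Fermat.Agent.JAC.Core.Defs36 Fermat.Agent.JAC.Core.Cart36 Fermat.Agent.JAC.Core.ConstFamily36
  Fermat.Agent.JAC.Core.Degree36 Fermat.Agent.FFJ.Core.ClR35 Fermat.Agent.JAC.Grp.Diag33
  Fermat.Agent.JAC.Hilb.BasedQuot46 Fermat.Agent.JAC.Hilb.ZeroIdeal46
  Fermat.Agent.FFJ.Pic.ChartDefR35 Fermat.Agent.FFJ.Pic.ChartSpecR35
  Fermat.Agent.JAC.Hilb.GenSection46 Fermat.Agent.FFJ.Core.ClRBc35

variable {k : Type u} [CommRing k] {A0 A1 A01 : Type u} [CommRing A0] [CommRing A1] [CommRing A01]
  [Algebra k A0] [Algebra k A1] [Algebra k A01] [Algebra A0 A01] [Algebra A1 A01]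
  [IsScalarTower k A0 A01] [IsScalarTower k A1 A01] {t : A0} {s : A1}
  [IsLocalization.Away t A01] [IsLocalization.Away s A01]

section GenSection

variable {B : Type u} [CommRing B] [Algebra k B]

/-- `IsGenSection` gives helper46's `Generates`. -/
theorem isGenSection_generates {N : CDiag k A0 A1 A01 t s B} {σ0 : N.M0} {σ1 : N.M1}
    (h : IsGenSection N σ0 σ1) : Generates B N σ0 σ1 :=
  ⟨h.1, fun x y hxy => (h.2 x y hxy).exists⟩

/-- `IsGenSection` gives helper46's `IsFaithfulSection`. -/
theorem isGenSection_faithful {N : CDiag k A0 A1 A01 t s B} {σ0 : N.M0} {σ1 : N.M1}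
    (h : IsGenSection N σ0 σ1) : IsFaithfulSection B N σ0 σ1 := by
  intro b h0 h1
  have h00 : N.rho0 (0 : N.M0) = N.rho1 (0 : N.M1) := by simp
  exact (h.2 0 0 h00).unique ⟨h0.symm, h1.symm⟩ ⟨by simp, by simp⟩

/-- Conversely. -/
theorem isGenSection_of_generates {N : CDiag k A0 A1 A01 t s B} {σ0 : N.M0} {σ1 : N.M1}
    (hg : Generates B N σ0 σ1) (hf : IsFaithfulSection B N σ0 σ1) : IsGenSection N σ0 σ1 := by
  refine ⟨hg.1, fun x y hxy => ?_⟩
  obtain ⟨b, hb0, hb1⟩ := hg.2 x y hxy
  refine ⟨b, ⟨hb0, hb1⟩, fun b' hb' => ?_⟩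
  have : b' - b = 0 := by
    apply hf
    · rw [map_sub, sub_smul, ← hb'.1, ← hb0, sub_self]
    · rw [map_sub, sub_smul, ← hb'.2, ← hb1, sub_self]
  exact sub_eq_zero.mp this

end GenSection

section Twist

variable {J : Type u} (lam : J → ClR k A0 A1 A01 t s k)
  {B B' : Type u} [CommRing B] [CommRing B'] [Algebra k B] [Algebra k B']

/-- Twists are compatible with base change. -/
theorem bc_twist (ψ : B →ₐ[k] B') (j : J) : bcR ψ (twist lam B j) = twist lam B' j := by
  unfold twist
  rw [bcR_bc]
  congr 2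
  exact AlgHom.ext fun c => by simp [Algebra.ofId_apply]

end Twist

section Point

variable {n : ℕ} (β : Fin n → A0)
  {B B' : Type u} [CommRing B] [CommRing B'] [Algebra k B] [Algebra k B']

/-- The ideal of the composite point is the extension of the ideal. -/
theorem pointIdeal_comp (ψ : B →ₐ[k] B') (f : chartRing k A0 β →ₐ[k] B) :
    pointIdeal β (ψ.comp f) = Ideal.map (tensorMap (A := A0) ψ) (pointIdeal β f) := by
  unfold pointIdeal
  rw [pointEquiv_comp, BasedPoint.map_ideal]

theorem isBasedQuot_pointIdeal (f : chartRing k A0 β →ₐ[k] B) :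
    IsBasedQuot β (pointIdeal β f) :=
  (pointEquiv f).isBasedQuot_ideal

theorem free_quotient_pointIdeal (f : chartRing k A0 β →ₐ[k] B) :
    Module.Free B ((B ⊗[k] A0) ⧸ pointIdeal β f) :=
  Module.Free.of_equiv (isBasedQuot_pointIdeal β f).equiv

theorem flat_quotient_pointIdeal (f : chartRing k A0 β →ₐ[k] B) :
    Module.Flat B ((B ⊗[k] A0) ⧸ pointIdeal β f) :=
  haveI := free_quotient_pointIdeal β f
  inferInstance

theorem finite_quotient_pointIdeal (f : chartRing k A0 β →ₐ[k] B) :
    Module.Finite B ((B ⊗[k] A0) ⧸ pointIdeal β f) :=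
  Module.Finite.equiv (isBasedQuot_pointIdeal β f).equiv

/-- A based point is determined by its ideal. -/
theorem pointIdeal_injective :
    Function.Injective (pointIdeal (k := k) (A0 := A0) β (B := B)) := by
  intro f g h
  apply (pointEquiv (k := k) (A := A0) (β := β) (B := B)).injective
  apply (basedPointEquivIdeal (k := k) (A := A0) (β := β) (B := B)).injective
  exact Subtype.ext h

/-- The dependent-type-safe form of "the point of the ideal of `f` is `f`". -/
theorem pointEquiv_symm_toBasedPoint_of_eq (f : chartRing k A0 β →ₐ[k] B)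
    {I : Ideal (B ⊗[k] A0)} (hβ : IsBasedQuot β I) (hI : I = pointIdeal β f) :
    (pointEquiv (k := k) (A := A0) (β := β) (B := B)).symm hβ.toBasedPoint = f := by
  subst hI
  rw [Equiv.symm_apply_eq]
  exact (pointEquiv f).toBasedPoint_isBasedQuot_ideal

end Point

section OD

variable (hts : algebraMap A0 A01 t * algebraMap A1 A01 s = 1)
  {n : ℕ} (β : Fin n → A0)
  {B B' : Type u} [CommRing B] [CommRing B'] [Algebra k B] [Algebra k B']

/-- `odClass` only depends on the ideal. -/
theorem odClass_congr {I I' : Ideal (B ⊗[k] A0)} (h : I = I') :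
    odClass (A1 := A1) (A01 := A01) hts B I = odClass hts B I' := by
  subst h
  rfl

/-- Good divisors only depend on the ideal. -/
theorem isGoodDiv_congr {I I' : Ideal (B ⊗[k] A0)} (h : I = I')
    (hg : IsGoodDiv (A1 := A1) (A01 := A01) hts B I) : IsGoodDiv hts B I' := by
  subst h
  exact hg

variable (hBC1 : Brick.BC1 k A0 A1 A01 t s) (hBC2 : Brick.BC2 k A0 A1 A01 t s)
  (hK2 : Brick.K2 k A0 A1 A01 t s hts)

include hK2 in
/-- Base change of the class of `O(D)` of a point of the chart. -/
theorem bc_odClass_pointIdeal (ψ : B →ₐ[k] B') (f : chartRing k A0 β →ₐ[k] B)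
    (hi : Module.Invertible (B ⊗[k] A0) (pointIdeal β f)) :
    bcR ψ (odClass (A1 := A1) (A01 := A01) hts B (pointIdeal β f)) =
      odClass hts B' (pointIdeal β (ψ.comp f)) := by
  obtain ⟨hf', hi', c, -, -⟩ := hK2 B B' ψ (pointIdeal β f) (finite_quotient_pointIdeal β f)
    (flat_quotient_pointIdeal β f) hi
  rw [odClass_eq hts B _ (finite_quotient_pointIdeal β f) hi,
    odClass_congr hts (pointIdeal_comp β ψ f), odClass_eq hts B' _ hf' hi']
  exact (bcR_cls_eq_iff ψ _ _).mpr ⟨c⟩

include hBC1 hBC2 hK2 in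
/-- Good divisors (on the chart) pull back to good divisors. -/
theorem isGoodDiv_pointIdeal_comp (ψ : B →ₐ[k] B') (f : chartRing k A0 β →ₐ[k] B)
    (hg : IsGoodDiv (A1 := A1) (A01 := A01) hts B (pointIdeal β f)) :
    IsGoodDiv (A1 := A1) (A01 := A01) hts B' (pointIdeal β (ψ.comp f)) := by
  obtain ⟨hf', hi', c, h0, h1⟩ := hK2 B B' ψ (pointIdeal β f) hg.finite
    (flat_quotient_pointIdeal β f) hg.invertible
  refine isGoodDiv_congr hts (pointIdeal_comp β ψ f).symm ?_
  refine ⟨hf', hi', hBC1 B B' ψ _ _ c hg.h1, ?_⟩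
  have := hBC2 B B' ψ _ _ c _ _ hg.h1 hg.gen
  rwa [h0, h1] at this

end OD

section Inj

variable (hts : algebraMap A0 A01 t * algebraMap A1 A01 s = 1)
  (hBC1 : Brick.BC1 k A0 A1 A01 t s) (hBC2 : Brick.BC2 k A0 A1 A01 t s)
  (hK2 : Brick.K2 k A0 A1 A01 t s hts)
  {J : Type u} (lam : J → ClR k A0 A1 A01 t s k) {n : ℕ} (β : Fin n → A0) (j : J)
  (φ : chartRing k A0 β)

/-- The structure map `chartRing → Localization.Away φ` as a `k`-algebra map. -/
noncomputable abbrev chartToAway : chartRing k A0 β →ₐ[k] Localization.Away φ :=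
  IsScalarTower.toAlgHom k (chartRing k A0 β) (Localization.Away φ)

theorem locIdeal_eq : locIdeal β φ = pointIdeal β (chartToAway β φ) := rfl

include hK2 in
/-- **Base change of the universal class** along `ψ : Localization.Away φ →ₐ[k] B`. -/
theorem bc_locClass (hi : Module.Invertible (Localization.Away φ ⊗[k] A0) (locIdeal β φ))
    {B : Type u} [CommRing B] [Algebra k B] (ψ : Localization.Away φ →ₐ[k] B) :
    bcR ψ (locClass hts lam β j φ) =
      odClass hts B (pointIdeal β (ψ.comp (chartToAway β φ))) * (twist lam B j)⁻¹ := by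
  unfold locClass
  rw [map_mul, map_inv, bc_twist, locIdeal_eq,
    bc_odClass_pointIdeal hts β hK2 ψ (chartToAway β φ) hi]

include hBC1 hBC2 hK2 in
/-- **`inj`**: the universal class of a chart is a monomorphism of functors. -/
theorem inj (hgood : IsGoodDiv hts (Localization.Away φ) (locIdeal β φ))
    (B : Type u) [CommRing B] [Algebra k B] (ψ ψ' : Localization.Away φ →ₐ[k] B)
    (h : bcR ψ (locClass hts lam β j φ) = bcR ψ' (locClass hts lam β j φ)) : ψ = ψ' := by
  rw [bc_locClass hts hK2 lam β j φ hgood.invertible ψ,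
    bc_locClass hts hK2 lam β j φ hgood.invertible ψ'] at h
  have h' := mul_right_cancel h
  -- both pulled-back divisors are good
  have g1 := isGoodDiv_pointIdeal_comp hts β hBC1 hBC2 hK2 ψ (chartToAway β φ) hgood
  have g2 := isGoodDiv_pointIdeal_comp hts β hBC1 hBC2 hK2 ψ' (chartToAway β φ) hgood
  rw [odClass_eq hts B _ g1.finite g1.invertible, odClass_eq hts B _ g2.finite g2.invertible,
    cls_eq_iff] at h'
  obtain ⟨e⟩ := h'
  have hz := zeroIdeal_eq_of_iso_of_generates0 (B := B) e (isGenSection_generates g1.gen)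
    (isGenSection_faithful g1.gen) (isGenSection_generates g2.gen)
  rw [zeroIdeal_oneSec0, zeroIdeal_oneSec0] at hz
  have hcomp := pointIdeal_injective β hz
  -- maps out of the localisation
  apply AlgHom.coe_ringHom_injective
  apply IsLocalization.ringHom_ext (Submonoid.powers φ)
  have := congrArg (fun g : chartRing k A0 β →ₐ[k] B => (g : chartRing k A0 β →+* B)) hcomp
  exact this

end Inj

end Fermat.Agent.FFJ.Pic.ChartInjR37
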