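/-
Programme FFJ (S19), chapter PIC (helper37).

THE BRIDGE between the two equivalent shapes of the pointwise chart predicate `ChartDefR35.chartW`:
* the shape of `FFJ/Pic/ChartDefR35` (`∃ hβ : IsBasedQuot β (zeroIdeal σ0), IsUnit (pointEquiv.symm .. φ)`),
* the CLASSIFYING-MAP shape of the current `JAC/Hilb/ChartDef24`
  (`∃ f : chartRing k A0 β →ₐ[k] B, pointIdeal β f = zeroIdeal σ0 ∧ IsUnit (f φ)`).

Every file of the assembly layer uses `chartW` ONLY through `chartW_intro` / `chartW_elim`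
(`chartW_iff_exists_point`), so ports of JAC files written against the classifying-map shape go
through verbatim:  replace `obtain ⟨N, σ0, σ1, hcls, h1, hgen, hinf, f, hf, hu⟩ := h` by
`obtain ⟨..same..⟩ := chartW_elim lam β j φ h`  and  `refine ⟨N, σ0, σ1, .., f, hf, hu⟩` by
`refine chartW_intro lam β j φ N σ0 σ1 .. f hf hu`.

Also here (ports of `JAC/Hilb/ChartLemmas24`, no brick used): invariance of the conditions under
isomorphisms of line diagrams and under units, uniqueness of generating sections up to a unit,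
`exists_pointIdeal_eq`.
-/
import Mathlib
import Fermat.Agent.FFJ.Pic.ChartInjR37

set_option autoImplicit false
set_option maxHeartbeats 400000
set_option linter.unusedSectionVars false

universe u

namespace Fermat.Agent.FFJ.Pic.ChartWR37

open scoped TensorProduct Polynomial
open scoped Fermat.Agent.JAC.Core.ConstFamily36
open Fermat.Agent.JAC.Core.Defs36 Fermat.Agent.JAC.Core.Cart36 Fermat.Agent.JAC.Core.ConstFamily36
  Fermat.Agent.JAC.Core.Degree36 Fermat.Agent.FFJ.Core.ClR35 Fermat.Agent.JAC.Grp.Diag33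
  Fermat.Agent.JAC.Hilb.BasedQuot46 Fermat.Agent.JAC.Hilb.ZeroIdeal46
  Fermat.Agent.FFJ.Pic.ChartDefR35 Fermat.Agent.FFJ.Pic.ChartSpecR35
  Fermat.Agent.FFJ.Core.ClRBc35 Fermat.Agent.FFJ.Pic.ChartInjR37

variable {k : Type u} [CommRing k] {A0 A1 A01 : Type u} [CommRing A0] [CommRing A1] [CommRing A01]
  [Algebra k A0] [Algebra k A1] [Algebra k A01] [Algebra A0 A01] [Algebra A1 A01]
  [IsScalarTower k A0 A01] [IsScalarTower k A1 A01] {t : A0} {s : A1}
  [IsLocalization.Away t A01] [IsLocalization.Away s A01]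

section Bridge

variable {J : Type u} (lam : J → ClR k A0 A1 A01 t s k) {n : ℕ} (β : Fin n → A0) (j : J)
  (φ : chartRing k A0 β) {B : Type u} [CommRing B] [Algebra k B]

/-- Every based quotient is classified by a point of the chart ring. -/
theorem exists_pointIdeal_eq {I : Ideal (B ⊗[k] A0)} (h : IsBasedQuot β I) :
    ∃ f : chartRing k A0 β →ₐ[k] B, pointIdeal β f = I := by
  refine ⟨(pointEquiv (k := k) (A := A0) (β := β) (B := B)).symm h.toBasedPoint, ?_⟩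
  unfold pointIdeal
  rw [Equiv.apply_symm_apply, h.toBasedPoint_ideal]

/-- **The classifying-map shape of `chartW`.** -/
theorem chartW_iff_exists_point (ξ : ClR k A0 A1 A01 t s B) :
    chartW lam β j φ B ξ ↔
      ∃ (N : CDiag k A0 A1 A01 t s B) (σ0 : N.M0) (σ1 : N.M1),
        cls N = ξ * twist lam B j ∧ H1Zero N ∧ IsGenSection N σ0 σ1 ∧ NoZeroInf N σ1 ∧
        ∃ f : chartRing k A0 β →ₐ[k] B,
          pointIdeal β f = zeroIdeal (B ⊗[k] A0) σ0 ∧ IsUnit (f φ) := by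
  constructor
  · rintro ⟨N, σ0, σ1, hcls, h1, hgen, hinf, hβ, hu⟩
    refine ⟨N, σ0, σ1, hcls, h1, hgen, hinf,
      (pointEquiv (k := k) (A := A0) (β := β) (B := B)).symm hβ.toBasedPoint, ?_, hu⟩
    unfold pointIdeal
    rw [Equiv.apply_symm_apply, hβ.toBasedPoint_ideal]
  · rintro ⟨N, σ0, σ1, hcls, h1, hgen, hinf, f, hf, hu⟩
    have hβ : IsBasedQuot β (zeroIdeal (B ⊗[k] A0) σ0) := by
      rw [← hf]
      exact isBasedQuot_pointIdeal β f
    refine ⟨N, σ0, σ1, hcls, h1, hgen, hinf, hβ, ?_⟩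
    rw [pointEquiv_symm_toBasedPoint_of_eq β f hβ hf.symm]
    exact hu

/-- Introduction rule for `chartW` (classifying-map shape). -/
theorem chartW_intro {ξ : ClR k A0 A1 A01 t s B} (N : CDiag k A0 A1 A01 t s B) (σ0 : N.M0)
    (σ1 : N.M1) (hcls : cls N = ξ * twist lam B j) (h1 : H1Zero N) (hgen : IsGenSection N σ0 σ1)
    (hinf : NoZeroInf N σ1) (f : chartRing k A0 β →ₐ[k] B)
    (hf : pointIdeal β f = zeroIdeal (B ⊗[k] A0) σ0) (hu : IsUnit (f φ)) :
    chartW lam β j φ B ξ :=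
  (chartW_iff_exists_point lam β j φ ξ).mpr ⟨N, σ0, σ1, hcls, h1, hgen, hinf, f, hf, hu⟩

/-- Elimination rule for `chartW` (classifying-map shape). -/
theorem chartW_elim {ξ : ClR k A0 A1 A01 t s B} (h : chartW lam β j φ B ξ) :
    ∃ (N : CDiag k A0 A1 A01 t s B) (σ0 : N.M0) (σ1 : N.M1),
      cls N = ξ * twist lam B j ∧ H1Zero N ∧ IsGenSection N σ0 σ1 ∧ NoZeroInf N σ1 ∧
      ∃ f : chartRing k A0 β →ₐ[k] B,
        pointIdeal β f = zeroIdeal (B ⊗[k] A0) σ0 ∧ IsUnit (f φ) :=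
  (chartW_iff_exists_point lam β j φ ξ).mp h

end Bridge

variable {B : Type u} [CommRing B] [Algebra k B]

section Iso

variable {N N' : CDiag k A0 A1 A01 t s B} (ε : LineDiag.Iso N N')

include ε in
theorem h1Zero_of_iso (h : H1Zero N) : H1Zero N' := by
  intro z
  obtain ⟨x, y, hxy⟩ := h (ε.e01.symm z)
  refine ⟨ε.e0 x, ε.e1 y, ?_⟩
  rw [← ε.comm0, ← ε.comm1, ← map_sub, hxy, LinearEquiv.apply_symm_apply]

theorem isGenSection_of_iso {σ0 : N.M0} {σ1 : N.M1} (h : IsGenSection N σ0 σ1) :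
    IsGenSection N' (ε.e0 σ0) (ε.e1 σ1) := by
  obtain ⟨hσ, hgen⟩ := h
  refine ⟨by rw [← ε.comm0, ← ε.comm1, hσ], fun x y hxy => ?_⟩
  have hxy' : N.rho0 (ε.e0.symm x) = N.rho1 (ε.e1.symm y) := by
    apply ε.e01.injective
    rw [ε.comm0, ε.comm1, LinearEquiv.apply_symm_apply, LinearEquiv.apply_symm_apply, hxy]
  obtain ⟨b, ⟨hb0, hb1⟩, huniq⟩ := hgen _ _ hxy'
  refine ⟨b, ⟨?_, ?_⟩, ?_⟩
  · rw [← map_smul, ← hb0, LinearEquiv.apply_symm_apply]
  · rw [← map_smul, ← hb1, LinearEquiv.apply_symm_apply]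
  · rintro b' ⟨h0, h1⟩
    apply huniq
    constructor
    · rw [h0, map_smul, LinearEquiv.symm_apply_apply]
    · rw [h1, map_smul, LinearEquiv.symm_apply_apply]

theorem noZeroInf_of_iso {σ1 : N.M1} (h : NoZeroInf N σ1) : NoZeroInf N' (ε.e1 σ1) := by
  unfold NoZeroInf at h ⊢
  have := congrArg (Submodule.map ε.e1.toLinearMap) h
  rw [Submodule.map_sup, Submodule.map_span, Set.image_singleton, Submodule.map_smul'',
    Submodule.map_top, LinearMap.range_eq_top.mpr ε.e1.surjective] at this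
  exact this

theorem zeroIdeal_of_iso (σ0 : N.M0) :
    zeroIdeal (B ⊗[k] A0) (ε.e0 σ0) = zeroIdeal (B ⊗[k] A0) σ0 :=
  zeroIdeal_equiv ε.e0 σ0

end Iso

section Unit

variable {N : CDiag k A0 A1 A01 t s B}

/-- Two generating sections differ by a unit of the base. -/
theorem exists_isUnit_of_isGenSection {σ0 τ0 : N.M0} {σ1 τ1 : N.M1}
    (hσ : IsGenSection N σ0 σ1) (hτ : IsGenSection N τ0 τ1) :
    ∃ b : B, IsUnit b ∧ τ0 = algebraMap B (B ⊗[k] A0) b • σ0 ∧
      τ1 = algebraMap B (B ⊗[k] A1) b • σ1 := by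
  obtain ⟨b, ⟨hb0, hb1⟩, -⟩ := hσ.2 τ0 τ1 hτ.1
  obtain ⟨b', ⟨hb0', hb1'⟩, -⟩ := hτ.2 σ0 σ1 hσ.1
  obtain ⟨c, -, hc⟩ := hσ.2 σ0 σ1 hσ.1
  have h1 : (1 : B) = c := hc 1 ⟨by rw [map_one, one_smul], by rw [map_one, one_smul]⟩
  have h2 : b' * b = c := by
    apply hc
    constructor
    · rw [map_mul, mul_smul, ← hb0, ← hb0']
    · rw [map_mul, mul_smul, ← hb1, ← hb1']
  exact ⟨b, .of_mul_eq_one_right b' (h2.trans h1.symm), hb0, hb1⟩

theorem isGenSection_smul {σ0 : N.M0} {σ1 : N.M1} (h : IsGenSection N σ0 σ1) {b : B}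
    (hb : IsUnit b) :
    IsGenSection N (algebraMap B (B ⊗[k] A0) b • σ0) (algebraMap B (B ⊗[k] A1) b • σ1) := by
  obtain ⟨u, rfl⟩ := hb
  refine ⟨?_, fun x y hxy => ?_⟩
  · rw [map_smul, map_smul, h.1]
    rw [← algebraMap_smul (B ⊗[k] A01) (algebraMap B (B ⊗[k] A0) (u : B)),
      ← algebraMap_smul (B ⊗[k] A01) (algebraMap B (B ⊗[k] A1) (u : B))]
    congr 1
    rw [← IsScalarTower.algebraMap_apply, ← IsScalarTower.algebraMap_apply]
  · obtain ⟨c, ⟨hc0, hc1⟩, huniq⟩ := h.2 x y hxy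
    refine ⟨c * (↑u⁻¹ : B), ⟨?_, ?_⟩, ?_⟩
    · rw [smul_smul, ← map_mul, mul_assoc, Units.inv_mul, mul_one, hc0]
    · rw [smul_smul, ← map_mul, mul_assoc, Units.inv_mul, mul_one, hc1]
    · rintro c' ⟨h0, h1⟩
      have : c' * u = c := by
        apply huniq
        constructor
        · rw [h0, smul_smul, ← map_mul]
        · rw [h1, smul_smul, ← map_mul]
      rw [← this, mul_assoc, Units.mul_inv, mul_one]

theorem noZeroInf_smul {σ1 : N.M1} (h : NoZeroInf N σ1) {b : B} (hb : IsUnit b) :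
    NoZeroInf N (algebraMap B (B ⊗[k] A1) b • σ1) := by
  unfold NoZeroInf at h ⊢
  rw [Submodule.span_singleton_smul_eq (hb.map (algebraMap B (B ⊗[k] A1)))]
  exact h

theorem zeroIdeal_smul_of_isUnit (σ0 : N.M0) {b : B} (hb : IsUnit b) :
    zeroIdeal (B ⊗[k] A0) (algebraMap B (B ⊗[k] A0) b • σ0) = zeroIdeal (B ⊗[k] A0) σ0 :=
  zeroIdeal_isUnit_smul (hb.map (algebraMap B (B ⊗[k] A0))) σ0

end Unit

end Fermat.Agent.FFJ.Pic.ChartWR37
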