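/-
Programme FFJ (S19), chapter PIC: BASE-RING FORK of JAC/Hilb/ChartAssembly24 (helper24), sections
BaseChange and FieldExt (helper37).

From the bricks BC1-BC4, FE1-FE3 of `FFJ/Pic/ChartSpecR35` (hypotheses in literal form):
* `chartW_bc_of_bricks` : `chartW` is stable under arbitrary base change (no chart condition);
* `chartW_of_bc_field`  : `chartW` descends along field extensions;
* `chartW_bc_field_iff` : the field `W_iff` of `LocalChartR35.LocalChartR`.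
The functor bricks G1, G2 are the theorems `bcR_bc`, `bcR_cls_eq_iff` of `FFJ/Core/ClRBc35`.
-/
import Mathlib
import Fermat.Agent.FFJ.Pic.ChartWR37

set_option autoImplicit false
set_option maxHeartbeats 400000
set_option linter.unusedSectionVars false

universe u

namespace Fermat.Agent.FFJ.Pic.ChartFieldR37

open scoped TensorProduct Polynomial
open scoped Fermat.Agent.JAC.Core.ConstFamily36
open Fermat.Agent.JAC.Core.Defs36 Fermat.Agent.JAC.Core.Cart36 Fermat.Agent.JAC.Core.ConstFamily36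
  Fermat.Agent.JAC.Core.Degree36 Fermat.Agent.FFJ.Core.ClR35 Fermat.Agent.JAC.Grp.Diag33
  Fermat.Agent.JAC.Hilb.BasedQuot46 Fermat.Agent.JAC.Hilb.ZeroIdeal46
  Fermat.Agent.FFJ.Pic.ChartDefR35 Fermat.Agent.FFJ.Pic.ChartSpecR35
  Fermat.Agent.FFJ.Core.ClRBc35 Fermat.Agent.FFJ.Pic.ChartInjR37 Fermat.Agent.FFJ.Pic.ChartWR37

variable {k : Type u} [CommRing k] {A0 A1 A01 : Type u} [CommRing A0] [CommRing A1] [CommRing A01]
  [Algebra k A0] [Algebra k A1] [Algebra k A01] [Algebra A0 A01] [Algebra A1 A01]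
  [IsScalarTower k A0 A01] [IsScalarTower k A1 A01] {t : A0} {s : A1}
  [IsLocalization.Away t A01] [IsLocalization.Away s A01]

variable (hBC1 : Brick.BC1 k A0 A1 A01 t s) (hBC2 : Brick.BC2 k A0 A1 A01 t s)
  (hBC3 : Brick.BC3 k A0 A1 A01 t s) (hBC4 : Brick.BC4 k A0 A1 A01 t s)
  (hFE1 : Brick.FE1 k A0 A1 A01 t s) (hFE2 : Brick.FE2 k A0 A1 A01 t s)
  (hFE3 : Brick.FE3 k A0 A1 A01 t s)
  {J : Type u} (lam : J → ClR k A0 A1 A01 t s k)

section BaseChange

variable {B B' : Type u} [CommRing B] [CommRing B'] [Algebra k B] [Algebra k B']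

/-- `bcR` of the class of a diagram is the class of its canonical base change. -/
theorem bcR_cls_bcd (ψ : B →ₐ[k] B') (N : CDiag k A0 A1 A01 t s B) :
    bcR ψ (cls N) = cls (bcd ψ N) :=
  (bcR_cls_eq_iff ψ N (bcd ψ N)).mpr ⟨bcc ψ N⟩

variable {n : ℕ} (β : Fin n → A0) (j : J) (φ : chartRing k A0 β)

include hBC1 hBC2 hBC3 hBC4 in
/-- **`chartW` is stable under base change** (from the bricks BC1-BC4 only). -/
theorem chartW_bc_of_bricks (ψ : B →ₐ[k] B') (ξ : ClR k A0 A1 A01 t s B)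
    (h : chartW lam β j φ B ξ) : chartW lam β j φ B' (bcR ψ ξ) := by
  obtain ⟨N, σ0, σ1, hcls, h1, hgen, hinf, f, hf, hu⟩ := chartW_elim lam β j φ h
  refine chartW_intro lam β j φ (bcd ψ N) ((bcc ψ N).f0 σ0) ((bcc ψ N).f1 σ1) ?_
    (hBC1 B B' ψ N _ (bcc ψ N) h1) (hBC2 B B' ψ N _ (bcc ψ N) σ0 σ1 h1 hgen)
    (hBC3 B B' ψ N _ (bcc ψ N) σ1 hinf) (ψ.comp f) ?_ ?_
  · rw [← bcR_cls_bcd, hcls, map_mul, bc_twist]
  · rw [pointIdeal_comp, hf, hBC4 B B' ψ N _ (bcc ψ N) σ0]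
  · exact hu.map ψ

end BaseChange

section FieldExt

variable {n : ℕ} (β : Fin n → A0) (j : J) (φ : chartRing k A0 β)
  {K L : Type u} [Field K] [Field L] [Algebra k K] [Algebra k L]

/-- Based quotients descend along field extensions. -/
theorem isBasedQuot_of_map_field (ψ : K →ₐ[k] L) (I : Ideal (K ⊗[k] A0))
    (h : IsBasedQuot β (Ideal.map (tensorMap (A := A0) ψ) I)) : IsBasedQuot β I := by
  letI : Algebra K L := ψ.toRingHom.toAlgebra
  haveI : IsScalarTower k K L := IsScalarTower.of_algebraMap_eq (fun c => (ψ.commutes c).symm)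
  have hψ : IsScalarTower.toAlgHom k K L = ψ := by ext; rfl
  rw [← Fermat.Agent.JAC.Hilb.BasedOpen24.isBasedQuot_baseChange_iff_of_faithfullyFlat β I L,
    Fermat.Agent.JAC.Hilb.BasedOpen24.baseChangeIdeal_eq_map_tensorMap, hψ]
  exact h

include hBC2 hBC4 hFE1 hFE2 hFE3 in
/-- **`chartW` descends along field extensions.** -/
theorem chartW_of_bc_field (ψ : K →ₐ[k] L) (ξ : ClR k A0 A1 A01 t s K)
    (h : chartW lam β j φ L (bcR ψ ξ)) : chartW lam β j φ K ξ := by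
  obtain ⟨N', τ0, τ1, hcls, h1, hgen, hinf, f', hf', hu⟩ := chartW_elim lam β j φ h
  obtain ⟨N, hN⟩ : ∃ N : CDiag k A0 A1 A01 t s K, cls N = ξ * twist lam K j :=
    Quotient.exists_rep _
  have hNL : cls N' = cls (bcd ψ N) := by
    rw [← bcR_cls_bcd, hN, map_mul, bc_twist, hcls]
  obtain ⟨ε⟩ := cls_eq_iff.mp hNL
  have h1L := h1Zero_of_iso ε h1
  have hgenL := isGenSection_of_iso ε hgen
  have hinfL := noZeroInf_of_iso ε hinf
  have h1K := hFE1 K L ψ N _ (bcc ψ N) h1L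
  obtain ⟨σ0, σ1, hgenK⟩ := hFE2 K L ψ N _ (bcc ψ N) _ _ h1L hgenL
  have hgenL' := hBC2 K L ψ N _ (bcc ψ N) σ0 σ1 h1K hgenK
  obtain ⟨b', hb', hb0', hb1'⟩ := exists_isUnit_of_isGenSection hgenL hgenL'
  have hinfL' : NoZeroInf (bcd ψ N) ((bcc ψ N).f1 σ1) := by
    rw [hb1']
    exact noZeroInf_smul hinfL hb'
  have hinfK := hFE3 K L ψ N _ (bcc ψ N) σ1 hinfL'
  have hz : Ideal.map (tensorMap (A := A0) ψ) (zeroIdeal (K ⊗[k] A0) σ0) = pointIdeal β f' := by
    rw [← hBC4 K L ψ N _ (bcc ψ N) σ0, hb0', zeroIdeal_smul_of_isUnit _ hb', zeroIdeal_of_iso,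
      hf']
  have hβK : IsBasedQuot β (zeroIdeal (K ⊗[k] A0) σ0) := by
    apply isBasedQuot_of_map_field β ψ
    rw [hz]
    exact isBasedQuot_pointIdeal β f'
  obtain ⟨f, hf⟩ := exists_pointIdeal_eq β hβK
  have hff' : ψ.comp f = f' := pointIdeal_injective β (by rw [pointIdeal_comp, hf, hz])
  refine chartW_intro lam β j φ N σ0 σ1 hN h1K hgenK hinfK f hf ?_
  have h2 : ψ (f φ) = f' φ := by rw [← hff']; rfl
  rw [isUnit_iff_ne_zero]
  intro h0
  rw [h0, map_zero] at h2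
  exact hu.ne_zero h2.symm

include hBC1 hBC2 hBC3 hBC4 hFE1 hFE2 hFE3 in
/-- **The field `W_iff` of a local chart.** -/
theorem chartW_bc_field_iff (ψ : K →ₐ[k] L) (ξ : ClR k A0 A1 A01 t s K) :
    chartW lam β j φ L (bcR ψ ξ) ↔ chartW lam β j φ K ξ :=
  ⟨chartW_of_bc_field hBC2 hBC4 hFE1 hFE2 hFE3 lam β j φ ψ ξ,
    chartW_bc_of_bricks hBC1 hBC2 hBC3 hBC4 lam β j φ ψ ξ⟩

end FieldExt

end Fermat.Agent.FFJ.Pic.ChartFieldR37
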