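/-
Programme FFJ (S19), chapter PIC: BASE-RING FORK of JAC/Hilb (helper37), atlas assembly, piece `univ` (helper37).

For a chart index `(j, β, φ)` whose universal divisor over `R := Localization.Away φ` is good, every
pull-back of the universal class `locClass hts lam β j φ` along a `k`-algebra map `ψ : R → B`
satisfies the pointwise predicate `chartW lam β j φ B` ("the image of the chart lies in the locus
`W`").  For `B = κ(p)`, `p` a prime of `R`, this is the field `univ` of `AtlasLocal33.LocalAtlas`.

The bricks `BC1`, `BC2`, `K2`, `K3` of `ChartSpecR35` are taken as hypotheses in their literal form.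
-/
import Mathlib
import Fermat.Agent.FFJ.Pic.ChartWR37

set_option autoImplicit false
set_option maxHeartbeats 400000
set_option linter.unusedSectionVars false

universe u

namespace Fermat.Agent.FFJ.Pic.ChartUnivR37

open scoped TensorProduct Polynomial
open scoped Fermat.Agent.JAC.Core.ConstFamily36
open Fermat.Agent.JAC.Core.Defs36 Fermat.Agent.JAC.Core.Cart36 Fermat.Agent.JAC.Core.ConstFamily36
  Fermat.Agent.JAC.Core.Degree36 Fermat.Agent.FFJ.Core.ClR35 Fermat.Agent.JAC.Grp.Diag33
  Fermat.Agent.JAC.Hilb.BasedQuot46 Fermat.Agent.JAC.Hilb.ZeroIdeal46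
  Fermat.Agent.FFJ.Pic.ChartDefR35 Fermat.Agent.FFJ.Pic.ChartSpecR35
  Fermat.Agent.JAC.Hilb.GenSection46 Fermat.Agent.FFJ.Core.ClRBc35
  Fermat.Agent.FFJ.Pic.ChartInjR37 Fermat.Agent.FFJ.Pic.ChartWR37

variable {k : Type u} [CommRing k] {A0 A1 A01 : Type u} [CommRing A0] [CommRing A1] [CommRing A01]
  [Algebra k A0] [Algebra k A1] [Algebra k A01] [Algebra A0 A01] [Algebra A1 A01]
  [IsScalarTower k A0 A01] [IsScalarTower k A1 A01] {t : A0} {s : A1}
  [IsLocalization.Away t A01] [IsLocalization.Away s A01]

variable (hts : algebraMap A0 A01 t * algebraMap A1 A01 s = 1)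
  (hBC1 : Brick.BC1 k A0 A1 A01 t s) (hBC2 : Brick.BC2 k A0 A1 A01 t s)
  (hK2 : Brick.K2 k A0 A1 A01 t s hts) (hK3 : Brick.K3 k A0 A1 A01 t s hts)
  {J : Type u} (lam : J → ClR k A0 A1 A01 t s k) {n : ℕ} (β : Fin n → A0) (j : J)
  (φ : chartRing k A0 β)

include hK3 in
/-- A point `f` of the chart ring with values in `B` whose divisor is good and at which `φ` is
invertible satisfies `chartW` for the class `[O(D_f)] · [lam j]⁻¹`. -/
theorem chartW_of_isGoodDiv {B : Type u} [CommRing B] [Algebra k B]
    (f : chartRing k A0 β →ₐ[k] B) (hg : IsGoodDiv (A1 := A1) (A01 := A01) hts B (pointIdeal β f))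
    (hφ : IsUnit (f φ)) :
    chartW lam β j φ B (odClass hts B (pointIdeal β f) * (twist lam B j)⁻¹) := by
  have hz : zeroIdeal (B ⊗[k] A0) (oneSec0 hts B (pointIdeal β f) hg.finite hg.invertible) =
      pointIdeal β f := zeroIdeal_oneSec0 hts B _ hg.finite hg.invertible
  refine chartW_intro lam β j φ (OD hts B (pointIdeal β f) hg.finite hg.invertible)
    (oneSec0 hts B _ hg.finite hg.invertible) (oneSec1 hts B _ hg.finite hg.invertible) ?_
    hg.h1 hg.gen (hK3 B _ hg.finite hg.invertible) f hz.symm hφ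
  rw [inv_mul_cancel_right, odClass_eq hts B _ hg.finite hg.invertible]

include hBC1 hBC2 hK2 hK3 in
/-- **The image of the chart lies in `W`**, over any `k`-algebra `B`. -/
theorem chartW_bc_locClass (hgood : IsGoodDiv hts (Localization.Away φ) (locIdeal β φ))
    (B : Type u) [CommRing B] [Algebra k B] (ψ : Localization.Away φ →ₐ[k] B) :
    chartW lam β j φ B (bcR ψ (locClass hts lam β j φ)) := by
  rw [bc_locClass hts hK2 lam β j φ hgood.invertible ψ]
  refine chartW_of_isGoodDiv hts hK3 lam β j φ (ψ.comp (chartToAway β φ))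
    (isGoodDiv_pointIdeal_comp hts β hBC1 hBC2 hK2 ψ (chartToAway β φ) hgood) ?_
  exact (IsLocalization.Away.algebraMap_isUnit (S := Localization.Away φ) φ).map ψ

include hBC1 hBC2 hK2 hK3 in
/-- **`univ`**: the universal class satisfies `W` at every prime of the chart ring. -/
theorem univ (hgood : IsGoodDiv hts (Localization.Away φ) (locIdeal β φ))
    (p : PrimeSpectrum (Localization.Away φ)) :
    chartW lam β j φ p.asIdeal.ResidueField
      (bcR (toResidueR (Localization.Away φ) p) (locClass hts lam β j φ)) :=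
  chartW_bc_locClass hts hBC1 hBC2 hK2 hK3 lam β j φ hgood _ _

end Fermat.Agent.FFJ.Pic.ChartUnivR37
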