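/-
Programme FFJ (S19), chapter PIC (helper37): ASSEMBLY OF ONE LOCAL CHART over a base ring.

`localChartR` : for a chart index `(j, β, φ)` satisfying `ChartDefR35.ChartCond hts e lam β j φ`, the
bricks BC1-BC4, FE1-FE3, K1, K2, K3 of `FFJ/Pic/ChartSpecR35` (hypotheses in literal form) and the
spreading-out statement for `chartW` (base-ring form of `JAC/Hilb/ChartSpread33.exists_away_chartW`)
give a `LocalChartR35.LocalChartR e` with
  R := Localization.Away φ,  x := locClass hts lam β j φ,  W K ξ := chartW lam β j φ K ξ.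
`chartPkg` : composed with `ChartPkgOfLocal35.toChartPkg` (needs separatedness G4) this is the
interface `Spec35.ChartPkg` consumed by chapter ORDER (universe 0).

Base-ring fork of `JAC/Hilb/Atlas24.localAtlas` / `JAC/Hilb/AtlasOfBricks37.localAtlas`, one chart.
-/
import Mathlib
import Fermat.Agent.FFJ.Pic.ChartThmR37
import Fermat.Agent.FFJ.Pic.ChartFieldR37
import Fermat.Agent.FFJ.Pic.LocalChartR35
import Fermat.Agent.FFJ.Pic.ChartPkgOfLocal35

set_option autoImplicit false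
set_option maxHeartbeats 400000
set_option linter.unusedSectionVars false

universe u

namespace Fermat.Agent.FFJ.Pic.LocalChartOfBricksR37

open scoped TensorProduct Polynomial
open scoped Fermat.Agent.JAC.Core.ConstFamily36
open Fermat.Agent.JAC.Core.Defs36 Fermat.Agent.JAC.Core.Cart36 Fermat.Agent.JAC.Core.ConstFamily36
  Fermat.Agent.JAC.Core.Degree36 Fermat.Agent.FFJ.Core.ClR35 Fermat.Agent.JAC.Grp.Diag33
  Fermat.Agent.JAC.Hilb.BasedQuot46 Fermat.Agent.JAC.Hilb.ZeroIdeal46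
  Fermat.Agent.FFJ.Pic.ChartDefR35 Fermat.Agent.FFJ.Pic.ChartSpecR35
  Fermat.Agent.FFJ.Core.ClRBc35 Fermat.Agent.FFJ.Pic.LocalChartR35

variable {k : Type u} [CommRing k] {A0 A1 A01 : Type u} [CommRing A0] [CommRing A1] [CommRing A01]
  [Algebra k A0] [Algebra k A1] [Algebra k A01] [Algebra A0 A01] [Algebra A1 A01]
  [IsScalarTower k A0 A01] [IsScalarTower k A1 A01] {t : A0} {s : A1}
  [IsLocalization.Away t A01] [IsLocalization.Away s A01]

/-- The chart rings are of finite type over the base ring. -/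
theorem finiteType_away (hft : Algebra.FiniteType k A0) {n : ℕ} (β : Fin n → A0)
    (φ : chartRing k A0 β) : Algebra.FiniteType k (Localization.Away φ) := by
  have h1 : Algebra.FiniteType (chartRing k A0 β) (Localization.Away φ) :=
    IsLocalization.finiteType_of_monoid_fg (Submonoid.powers φ) (Localization.Away φ)
  exact Algebra.FiniteType.trans (R := k) (S := chartRing k A0 β) (A := Localization.Away φ)
    inferInstance h1

/-- The spreading-out statement for the pointwise predicate of the chart `(j, β, φ)`: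
base-ring form of `JAC/Hilb/ChartSpread33.exists_away_chartW`. -/
def Spread {J : Type u} (lam : J → ClR k A0 A1 A01 t s k) {n : ℕ} (β : Fin n → A0) (j : J)
    (φ : chartRing k A0 β) : Prop :=
  ∀ (B : Type u) [CommRing B] [Algebra k B] (ξ : ClR k A0 A1 A01 t s B) (p : PrimeSpectrum B),
    chartW lam β j φ p.asIdeal.ResidueField (bcR (toResidueR B p) ξ) →
    ∃ f : B, f ∉ p.asIdeal ∧
      chartW lam β j φ (Localization.Away f) (bcR (ChartSpecR35.toAway B f) ξ)

variable (hts : algebraMap A0 A01 t * algebraMap A1 A01 s = 1) (e : A01 →ₐ[k] k)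
  {J : Type u} (lam : J → ClR k A0 A1 A01 t s k) {n : ℕ} (β : Fin n → A0) (j : J)
  (φ : chartRing k A0 β)

/-- **One local chart from the bricks** (bricks as hypotheses, literal `ChartSpecR35` forms). -/
noncomputable def localChartR (hft : Algebra.FiniteType k A0)
    (hBC1 : Brick.BC1 k A0 A1 A01 t s) (hBC2 : Brick.BC2 k A0 A1 A01 t s)
    (hBC3 : Brick.BC3 k A0 A1 A01 t s) (hBC4 : Brick.BC4 k A0 A1 A01 t s)
    (hFE1 : Brick.FE1 k A0 A1 A01 t s) (hFE2 : Brick.FE2 k A0 A1 A01 t s)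
    (hFE3 : Brick.FE3 k A0 A1 A01 t s)
    (hK1 : Brick.K1 k A0 A1 A01 t s hts) (hK2 : Brick.K2 k A0 A1 A01 t s hts)
    (hK3 : Brick.K3 k A0 A1 A01 t s hts)
    (hspread : Spread lam β j φ)
    (hc : ChartCond hts e lam β j φ) :
    LocalChartR (A0 := A0) (A1 := A1) (t := t) (s := s) e where
  R := Localization.Away φ
  finiteType := finiteType_away hft β φ
  x := locClass hts lam β j φ
  x_rigid := hc.rigid
  x_degZero := hc.degZero
  W K _ _ ξ := chartW lam β j φ K ξ
  W_iff K L _ _ _ _ ψ ξ _ _ :=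
    ChartFieldR37.chartW_bc_field_iff hBC1 hBC2 hBC3 hBC4 hFE1 hFE2 hFE3 lam β j φ ψ ξ
  inj B _ _ ψ ψ' h := ChartInjR37.inj hts hBC1 hBC2 hK2 lam β j φ hc.good B ψ ψ' h
  univ p := ChartUnivR37.univ hts hBC1 hBC2 hK2 hK3 lam β j φ hc.good p
  loc B _ _ ξ _ _ p hp :=
    ChartThmR37.loc_of_spread hts hK1 hK2 lam β j φ hc.good.invertible B ξ p (hspread B ξ p hp)

section Fields

variable (hft : Algebra.FiniteType k A0)
    (hBC1 : Brick.BC1 k A0 A1 A01 t s) (hBC2 : Brick.BC2 k A0 A1 A01 t s)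
    (hBC3 : Brick.BC3 k A0 A1 A01 t s) (hBC4 : Brick.BC4 k A0 A1 A01 t s)
    (hFE1 : Brick.FE1 k A0 A1 A01 t s) (hFE2 : Brick.FE2 k A0 A1 A01 t s)
    (hFE3 : Brick.FE3 k A0 A1 A01 t s)
    (hK1 : Brick.K1 k A0 A1 A01 t s hts) (hK2 : Brick.K2 k A0 A1 A01 t s hts)
    (hK3 : Brick.K3 k A0 A1 A01 t s hts)
    (hspread : Spread lam β j φ)
    (hc : ChartCond hts e lam β j φ)

@[simp] theorem localChartR_R :
    (localChartR hts e lam β j φ hft hBC1 hBC2 hBC3 hBC4 hFE1 hFE2 hFE3 hK1 hK2 hK3 hspread hc).R =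
      Localization.Away φ := rfl

@[simp] theorem localChartR_x :
    (localChartR hts e lam β j φ hft hBC1 hBC2 hBC3 hBC4 hFE1 hFE2 hFE3 hK1 hK2 hK3 hspread hc).x =
      locClass hts lam β j φ := rfl

theorem localChartR_W (K : Type u) [Field K] [Algebra k K] (ξ : ClR k A0 A1 A01 t s K) :
    (localChartR hts e lam β j φ hft hBC1 hBC2 hBC3 hBC4 hFE1 hFE2 hFE3 hK1 hK2 hK3 hspread hc).W
      K ξ ↔ chartW lam β j φ K ξ := Iff.rfl

include hBC1 hBC2 hK1 hK2 hK3 hc in
/-- **The global membership criterion over EVERY `k`-algebra**, directly from the chart theorem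
(no separatedness, no spreading): a class comes from the chart iff it satisfies `chartW`. -/
theorem exists_algHom_iff_chartW (B : Type u) [CommRing B] [Algebra k B]
    (ξ : ClR k A0 A1 A01 t s B) :
    (∃ ψ : Localization.Away φ →ₐ[k] B, bcR ψ (locClass hts lam β j φ) = ξ) ↔
      chartW lam β j φ B ξ :=
  (ChartThmR37.chartW_iff hts hBC1 hBC2 hK1 hK2 hK3 lam β j φ hc.good B ξ).symm

end Fields

end Fermat.Agent.FFJ.Pic.LocalChartOfBricksR37

namespace Fermat.Agent.FFJ.Pic.LocalChartOfBricksR37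

open Fermat.Agent.FFJ.Core.ClR35 Fermat.Agent.FFJ.Pic.ChartDefR35 Fermat.Agent.FFJ.Pic.ChartSpecR35
  Fermat.Agent.FFJ.Pic.LocalChartR35 Fermat.Agent.FFJ.Spec.Spec35
  Fermat.Agent.JAC.Hilb.BasedQuot46

variable {O : Type} [CommRing O] {A0 A1 A01 : Type} [CommRing A0] [CommRing A1] [CommRing A01]
  [Algebra O A0] [Algebra O A1] [Algebra O A01] [Algebra A0 A01] [Algebra A1 A01]
  [IsScalarTower O A0 A01] [IsScalarTower O A1 A01] {t : A0} {s : A1}
  [IsLocalization.Away t A01] [IsLocalization.Away s A01]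

/-- **The chart package of chapter ORDER** (`Spec35.ChartPkg`, universe 0) of one chart index, from
the bricks, the spreading-out statement and separatedness (G4). -/
noncomputable def chartPkg (hts : algebraMap A0 A01 t * algebraMap A1 A01 s = 1)
    (e : A01 →ₐ[O] O) {J : Type} (lam : J → ClR O A0 A1 A01 t s O) {n : ℕ} (β : Fin n → A0)
    (j : J) (φ : chartRing O A0 β) (hft : Algebra.FiniteType O A0)
    (hBC1 : Brick.BC1 O A0 A1 A01 t s) (hBC2 : Brick.BC2 O A0 A1 A01 t s)
    (hBC3 : Brick.BC3 O A0 A1 A01 t s) (hBC4 : Brick.BC4 O A0 A1 A01 t s)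
    (hFE1 : Brick.FE1 O A0 A1 A01 t s) (hFE2 : Brick.FE2 O A0 A1 A01 t s)
    (hFE3 : Brick.FE3 O A0 A1 A01 t s)
    (hK1 : Brick.K1 O A0 A1 A01 t s hts) (hK2 : Brick.K2 O A0 A1 A01 t s hts)
    (hK3 : Brick.K3 O A0 A1 A01 t s hts)
    (hG4 : Brick.G4 O A0 A1 A01 t s e)
    (hspread : Spread lam β j φ)
    (hc : ChartCond hts e lam β j φ) : ChartPkg O A0 A1 A01 t s e :=
  ChartPkgOfLocal35.toChartPkg
    (localChartR hts e lam β j φ hft hBC1 hBC2 hBC3 hBC4 hFE1 hFE2 hFE3 hK1 hK2 hK3 hspread hc) hG4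

end Fermat.Agent.FFJ.Pic.LocalChartOfBricksR37
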