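/-
Programme FFJ (S19), chapter PIC (helper46): base-ring port of `JAC/Hilb/NoZeroInfBricks46`.
Bricks (BC3), (FE3), (SP3) of `FFJ/Pic/ChartSpecR35` over an arbitrary commutative base ring `k`:
the condition "no zero at infinity" under base change, descent along field extensions, and
spreading out from the fibre at a prime to a basic open neighbourhood.  The ring-general lemmas
are imported from the JAC file.
-/
import Mathlib
import Fermat.Agent.FFJ.Pic.ChartSpecR35
import Fermat.Agent.JAC.Hilb.NoZeroInfBricks46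

set_option autoImplicit false
set_option maxHeartbeats 400000

universe u

namespace Fermat.Agent.FFJ.Pic.NoZeroInfBricksR46

open scoped TensorProduct Polynomial
open scoped Fermat.Agent.JAC.Core.ConstFamily36
open Fermat.Agent.JAC.Core.Defs36 Fermat.Agent.JAC.Core.Cart36 Fermat.Agent.JAC.Core.ConstFamily36
  Fermat.Agent.FFJ.Core.ClR35 Fermat.Agent.JAC.Grp.Diag33 Fermat.Agent.JAC.Grp.Cart33
  Fermat.Agent.FFJ.Pic.ChartDefR35 Fermat.Agent.FFJ.Pic.ChartSpecR35
  Fermat.Agent.JAC.Hilb.NoZeroInf46 Fermat.Agent.JAC.Hilb.FlatPure46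

variable {k : Type u} [CommRing k] {A0 A1 A01 : Type u} [CommRing A0] [CommRing A1] [CommRing A01]
  [Algebra k A0] [Algebra k A1] [Algebra k A01] [Algebra A0 A01] [Algebra A1 A01]
  [IsScalarTower k A0 A01] [IsScalarTower k A1 A01] {t : A0} {s : A1}
  [IsLocalization.Away t A01] [IsLocalization.Away s A01]

omit [IsLocalization.Away t A01] [IsLocalization.Away s A01] in
/-- **(BC3)** "no zero at infinity" is stable under base change (base ring `k`). -/
theorem bc3R : Brick.BC3 k A0 A1 A01 t s := by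
  intro B B' _ _ _ _ ψ N N' c σ1 h
  have h1 := Fermat.Agent.JAC.Hilb.NoZeroInfBricks46.span_sup_smul_eq_top_of_isBaseChangeHom
    c.cart1 σ1 ((1 : B) ⊗ₜ[k] s) h
  rw [(familyHom ψ t s).map_s] at h1
  exact h1

section Dictionary

variable {B B' : Type u} [CommRing B] [CommRing B'] [Algebra k B] [Algebra k B']

/-- The `B`-module structure on a module over `B ⊗[k] A`. -/
@[reducible] def moduleBaseR (A : Type u) [CommRing A] [Algebra k A] (M : Type u) [AddCommGroup M]
    [Module (B ⊗[k] A) M] : Module B M :=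
  Module.compHom M (algebraMap B (B ⊗[k] A))

theorem isScalarTower_moduleBaseR (A : Type u) [CommRing A] [Algebra k A] (M : Type u)
    [AddCommGroup M] [Module (B ⊗[k] A) M] :
    letI := moduleBaseR (k := k) (B := B) A M
    IsScalarTower B (B ⊗[k] A) M :=
  letI := moduleBaseR (k := k) (B := B) A M
  IsScalarTower.of_algebraMap_smul fun _ _ => rfl

/-- The quotient `M1 ⧸ (span {σ1} ⊔ (1 ⊗ s) • ⊤)` measuring the zeros at infinity of `σ1`. -/
abbrev infQuotR (N : CDiag k A0 A1 A01 t s B) (σ1 : N.M1) : Type u :=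
  N.M1 ⧸ (Submodule.span (B ⊗[k] A1) {σ1} ⊔
    Ideal.span {(1 : B) ⊗ₜ[k] s} • (⊤ : Submodule (B ⊗[k] A1) N.M1))

/-- **Dictionary**: "no zero at infinity" for the canonical base change `bcd ψ N` is the vanishing
of `B' ⊗[B] infQuotR N σ1`. -/
theorem noZeroInf_bcd_iffR [Algebra B B'] [IsScalarTower k B B'] (ψ : B →ₐ[k] B')
    (hψ : ∀ b, ψ b = algebraMap B B' b) (N : CDiag k A0 A1 A01 t s B) (σ1 : N.M1) :
    letI := moduleBaseR (k := k) (B := B) A1 N.M1
    haveI := isScalarTower_moduleBaseR (k := k) (B := B) A1 N.M1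
    NoZeroInf (bcd ψ N) ((bcc ψ N).f1 σ1) ↔ Subsingleton (B' ⊗[B] infQuotR N σ1) := by
  let _ := moduleBaseR (k := k) (B := B) A1 N.M1
  have := isScalarTower_moduleBaseR (k := k) (B := B) A1 N.M1
  let _ : Algebra (B ⊗[k] A1) (B' ⊗[k] A1) := (familyHom (A01 := A01) ψ t s).ψ1.toAlgebra
  have halg : ∀ (b : B) (a : A1),
      algebraMap (B ⊗[k] A1) (B' ⊗[k] A1) (b ⊗ₜ a) = algebraMap B B' b ⊗ₜ a := by
    intro b a
    change (Algebra.TensorProduct.map ψ (AlgHom.id k A1)) (b ⊗ₜ a) = _
    rw [Algebra.TensorProduct.map_tmul, hψ]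
    rfl
  have := isScalarTower_const k A1 B B' halg
  have := isPushout_const k A1 B B' halg
  have hs : algebraMap (B ⊗[k] A1) (B' ⊗[k] A1) ((1 : B) ⊗ₜ[k] s) = (1 : B') ⊗ₜ[k] s := by
    rw [halg, map_one]
  have key := span_sup_smul_baseChange_iff B B' (B' ⊗[k] A1) σ1 ((1 : B) ⊗ₜ[k] s)
  rw [hs] at key
  exact key

end Dictionary

omit [IsScalarTower k A0 A01] [IsScalarTower k A1 A01] [IsLocalization.Away t A01]
  [IsLocalization.Away s A01] in
/-- `(B ⊗[k] A1) ⧸ (1 ⊗ s)` is finite over `B`. -/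
theorem finite_quotient_span_constR (H : CurveHypR k A0 A1 A01 t s) (B : Type u) [CommRing B]
    [Algebra k B] : Module.Finite B ((B ⊗[k] A1) ⧸ Ideal.span {(1 : B) ⊗ₜ[k] s}) := by
  obtain ⟨n, b, hb⟩ := H.coords1
  exact Fermat.Agent.JAC.Hilb.NoZeroInfBricks46.finite_quotient_span_of_coords ((1 : B) ⊗ₜ[k] s)
    (fun j => (1 : B) ⊗ₜ[k] b j)
    (Fermat.Agent.JAC.Frame.BaseChange65.bijective_baseChange B hb).2

/-- **(SP3)** "no zero at infinity" at `κ(p)` spreads to a basic open neighbourhood of `p`. -/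
theorem sp3R (H : CurveHypR k A0 A1 A01 t s) : Brick.SP3 k A0 A1 A01 t s := by
  intro B _ _ p N σ1 h
  let _ := moduleBaseR (k := k) (B := B) A1 N.M1
  have := isScalarTower_moduleBaseR (k := k) (B := B) A1 N.M1
  rw [noZeroInf_bcd_iffR (toResidueR B p) (fun _ => rfl)] at h
  have := finite_quotient_span_constR H B
  have : Module.Finite B (infQuotR N σ1) :=
    finite_quotient_span_sup_smul B σ1 ((1 : B) ⊗ₜ[k] s)
  obtain ⟨f, hfp, hf⟩ := exists_notMem_forall_subsingleton_tensor p.asIdeal h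
  refine ⟨f, hfp, ?_⟩
  rw [noZeroInf_bcd_iffR (toAway B f) (fun _ => rfl)]
  exact subsingleton_tensor_of_isUnit hf (Localization.Away f)
    (IsLocalization.Away.algebraMap_isUnit f)

/-- **(FE3)** "no zero at infinity" descends along field extensions. -/
theorem fe3R : Brick.FE3 k A0 A1 A01 t s := by
  intro K L _ _ _ _ ψ N N' c σ1 h
  let _ : Algebra K L := ψ.toRingHom.toAlgebra
  have : IsScalarTower k K L := IsScalarTower.of_algebraMap_eq (fun x => (ψ.commutes x).symm)
  let _ := moduleBaseR (k := k) (B := K) A1 N.M1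
  have := isScalarTower_moduleBaseR (k := k) (B := K) A1 N.M1
  -- transport to the canonical base change
  obtain ⟨e, he⟩ := IsBaseChangeHom.exists_linearEquiv c.cart1 (bcc ψ N).cart1
  have h1 : NoZeroInf (bcd ψ N) ((bcc ψ N).f1 σ1) := by
    have := Fermat.Agent.JAC.Hilb.NoZeroInfBricks46.span_sup_smul_eq_top_of_linearEquiv e
      (c.f1 σ1) ((1 : L) ⊗ₜ[k] s) h
    rw [he] at this
    exact this
  rw [noZeroInf_bcd_iffR ψ (fun _ => rfl)] at h1
  have h2 : Subsingleton (infQuotR N σ1) :=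
    Module.FaithfullyFlat.lTensor_reflects_triviality K L (infQuotR N σ1)
  exact Submodule.Quotient.subsingleton_iff.mp h2

end Fermat.Agent.FFJ.Pic.NoZeroInfBricksR46
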