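/-
Programme FFJ (S19), chapter PIC (helper37): DRY RUN OF THE WIRING OF ONE CHART over a discrete
valuation ring: all the bricks consumed by `LocalChartOfBricksR37.localChartR` / `chartPkg` are
discharged by the landed base-ring bricks
  BC1 FE1 BC2 FE2 = `H0BricksR50`,  BC3 FE3 = `NoZeroInfBricksR46`,  BC4 = `BC4R46`,
  K1 K2 = `DivBricksR46`,  K3 = `KBricksR87`,  G4 = `SepR39.sepR_finset` + `H0Univ65.h0U_of_curveHypR`,
so that the only remaining inputs of a chart package are the curve hypothesis `CurveHypR`, the chart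
condition `ChartCond` of the index `(j, β, φ)` and the spreading-out statement `Spread`
(base-ring port of `JAC/Hilb/ChartSpread33.exists_away_chartW`).
-/
import Mathlib
import Fermat.Agent.FFJ.Pic.LocalChartOfBricksR37
import Fermat.Agent.FFJ.Pic.H0BricksR50
import Fermat.Agent.FFJ.Pic.NoZeroInfBricksR46
import Fermat.Agent.FFJ.Pic.DivBricksR46
import Fermat.Agent.FFJ.Pic.BC4R46
import Fermat.Agent.FFJ.Pic.KBricksR87
import Fermat.Agent.FFJ.Pic.SepR39
import Fermat.Agent.FFJ.Pic.H0Univ65

set_option autoImplicit false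
set_option maxHeartbeats 400000
set_option linter.unusedSectionVars false

universe u

namespace Fermat.Agent.FFJ.Pic.PicDry37

open scoped TensorProduct Polynomial
open Fermat.Agent.JAC.Core.Defs36 Fermat.Agent.FFJ.Core.ClR35
  Fermat.Agent.JAC.Hilb.BasedQuot46
  Fermat.Agent.FFJ.Pic.ChartDefR35 Fermat.Agent.FFJ.Pic.ChartSpecR35
  Fermat.Agent.FFJ.Pic.LocalChartR35 Fermat.Agent.FFJ.Pic.LocalChartOfBricksR37

section Univ

variable {k : Type u} [CommRing k] {A0 A1 A01 : Type u} [CommRing A0] [CommRing A1] [CommRing A01]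
  [Algebra k A0] [Algebra k A1] [Algebra k A01] [Algebra A0 A01] [Algebra A1 A01]
  [IsScalarTower k A0 A01] [IsScalarTower k A1 A01] {t : A0} {s : A1}
  [IsLocalization.Away t A01] [IsLocalization.Away s A01]

/-- **Separatedness (brick G4) over a discrete valuation ring** from the curve hypotheses. -/
theorem g4R [IsDomain k] [IsDiscreteValuationRing k] (H : CurveHypR k A0 A1 A01 t s)
    (e : A01 →ₐ[k] k) : Brick.G4 k A0 A1 A01 t s e := by
  intro B _ _ ξ ξ' hξ hξ' S hS h
  exact SepR39.sepR_finset e (fun B _ _ => H0Univ65.h0U_of_curveHypR H B) B ξ ξ' hξ hξ' S hS h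

/-- **One local chart over any base ring** from the curve hypotheses, the chart condition and the
spreading-out statement: every brick is discharged. -/
noncomputable def localChartR_of_curveHypR (H : CurveHypR k A0 A1 A01 t s) (e : A01 →ₐ[k] k)
    {J : Type u} (lam : J → ClR k A0 A1 A01 t s k) {n : ℕ} (β : Fin n → A0) (j : J)
    (φ : chartRing k A0 β) (hspread : Spread lam β j φ) (hc : ChartCond H.hts e lam β j φ) :
    LocalChartR (A0 := A0) (A1 := A1) (t := t) (s := s) e :=
  localChartR H.hts e lam β j φ H.finiteType0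
    (H0BricksR50.bc1R k A0 A1 A01 t s)
    (H0BricksR50.bc2R k A0 A1 A01 t s H) NoZeroInfBricksR46.bc3R BC4R46.bc4R
    (H0BricksR50.fe1R k A0 A1 A01 t s) (H0BricksR50.fe2R k A0 A1 A01 t s) NoZeroInfBricksR46.fe3R
    (DivBricksR46.k1R H) (DivBricksR46.k2R H.hts) (KBricksR87.k3R H.hts) hspread hc

/-- The membership criterion over EVERY `k`-algebra (chart theorem), every brick discharged. -/
theorem exists_algHom_iff_chartW_of_curveHypR (H : CurveHypR k A0 A1 A01 t s) (e : A01 →ₐ[k] k)
    {J : Type u} (lam : J → ClR k A0 A1 A01 t s k) {n : ℕ} (β : Fin n → A0) (j : J)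
    (φ : chartRing k A0 β) (hc : ChartCond H.hts e lam β j φ)
    (B : Type u) [CommRing B] [Algebra k B] (ξ : ClR k A0 A1 A01 t s B) :
    (∃ ψ : Localization.Away φ →ₐ[k] B, bcR ψ (locClass H.hts lam β j φ) = ξ) ↔
      chartW lam β j φ B ξ :=
  exists_algHom_iff_chartW H.hts e lam β j φ (H0BricksR50.bc1R k A0 A1 A01 t s)
    (H0BricksR50.bc2R k A0 A1 A01 t s H)
    (DivBricksR46.k1R H) (DivBricksR46.k2R H.hts) (KBricksR87.k3R H.hts) hc B ξ

end Univ

section Zero

open Fermat.Agent.FFJ.Spec.Spec35 (ChartPkg)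

variable {O : Type} [CommRing O] [IsDomain O] [IsDiscreteValuationRing O]
  {A0 A1 A01 : Type} [CommRing A0] [CommRing A1] [CommRing A01]
  [Algebra O A0] [Algebra O A1] [Algebra O A01] [Algebra A0 A01] [Algebra A1 A01]
  [IsScalarTower O A0 A01] [IsScalarTower O A1 A01] {t : A0} {s : A1}
  [IsLocalization.Away t A01] [IsLocalization.Away s A01]

/-- **The chart package of chapter ORDER over a discrete valuation ring** (universe 0) from the curve
hypotheses, the chart condition and the spreading-out statement. -/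
noncomputable def chartPkg_of_curveHypR (H : CurveHypR O A0 A1 A01 t s) (e : A01 →ₐ[O] O)
    {J : Type} (lam : J → ClR O A0 A1 A01 t s O) {n : ℕ} (β : Fin n → A0) (j : J)
    (φ : chartRing O A0 β) (hspread : Spread lam β j φ) (hc : ChartCond H.hts e lam β j φ) :
    ChartPkg O A0 A1 A01 t s e :=
  chartPkg H.hts e lam β j φ H.finiteType0
    (H0BricksR50.bc1R O A0 A1 A01 t s)
    (H0BricksR50.bc2R O A0 A1 A01 t s H) NoZeroInfBricksR46.bc3R BC4R46.bc4R
    (H0BricksR50.fe1R O A0 A1 A01 t s) (H0BricksR50.fe2R O A0 A1 A01 t s) NoZeroInfBricksR46.fe3R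
    (DivBricksR46.k1R H) (DivBricksR46.k2R H.hts) (KBricksR87.k3R H.hts) (g4R H e) hspread hc

end Zero

end Fermat.Agent.FFJ.Pic.PicDry37
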