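/-
Programme FFJ (S19), chapter PIC, part D (helper46, COORD #2b (6)): base change of `O(D)` classes
and of the point classes `SpecD35.ptClassR`.

* `bcR_odClass` : `bcR ψ [O(D)] = [O(D_{B'})]` for a divisor with `B`-flat structure ring (brick K2);
* `graphIdeal_eq` : `SpecD35.graphIdeal q` is helper98's `GraphIdeal98.graphIdeal q`;
* `finite_quot_graphIdeal`, `flat_quot_graphIdeal`, `isBasedQuot_graphIdeal`,
  `invertible_graphIdeal` : the graph of a `B`-point of `U0` is a relative effective Cartier divisor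
  of degree one;
* `ptClassR_bcR` : `bcR ψ (ptClassR hts q) = ptClassR hts (ψ.comp q)`.
-/
import Mathlib
import Fermat.Agent.FFJ.Pic.SpecD35
import Fermat.Agent.FFJ.Pic.DivBricksR46
import Fermat.Agent.FFJ.Pic.KBricksR87
import Fermat.Agent.JAC.Cover.GraphIdeal98

set_option autoImplicit false
set_option maxHeartbeats 400000

universe u

namespace Fermat.Agent.FFJ.Pic.PtClassR46

open scoped TensorProduct Polynomial
open scoped Fermat.Agent.JAC.Core.ConstFamily36
open Fermat.Agent.JAC.Core.Defs36 Fermat.Agent.JAC.Core.Cart36 Fermat.Agent.JAC.Core.ConstFamily36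
  Fermat.Agent.FFJ.Core.ClR35 Fermat.Agent.FFJ.Core.ClRBc35 Fermat.Agent.JAC.Grp.Diag33
  Fermat.Agent.JAC.Hilb.BasedQuot46 Fermat.Agent.JAC.Hilb.ZeroIdeal46
  Fermat.Agent.FFJ.Pic.ChartDefR35 Fermat.Agent.FFJ.Pic.ChartSpecR35 Fermat.Agent.FFJ.Pic.SpecD35

variable {k : Type u} [CommRing k] {A0 A1 A01 : Type u} [CommRing A0] [CommRing A1] [CommRing A01]
  [Algebra k A0] [Algebra k A1] [Algebra k A01] [Algebra A0 A01] [Algebra A1 A01]
  [IsScalarTower k A0 A01] [IsScalarTower k A1 A01] {t : A0} {s : A1}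
  [IsLocalization.Away t A01] [IsLocalization.Away s A01]
variable {B B' : Type u} [CommRing B] [CommRing B'] [Algebra k B] [Algebra k B']

/-- **Base change of the class of `O(D)`** for a divisor with `B`-flat structure ring. -/
theorem bcR_odClass (hts : algebraMap A0 A01 t * algebraMap A1 A01 s = 1) (ψ : B →ₐ[k] B')
    (I0 : Ideal (B ⊗[k] A0)) (hf : Module.Finite B ((B ⊗[k] A0) ⧸ I0))
    (hfl : Module.Flat B ((B ⊗[k] A0) ⧸ I0)) (hi : Module.Invertible (B ⊗[k] A0) I0) :
    bcR ψ (odClass (A1 := A1) (A01 := A01) (t := t) (s := s) hts B I0) =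
      odClass hts B' (Ideal.map (tensorMap (A := A0) ψ) I0) := by
  obtain ⟨hf', hi', c, -, -⟩ :=
    Fermat.Agent.FFJ.Pic.DivBricksR46.k2R (A1 := A1) (A01 := A01) (t := t) (s := s) hts B B' ψ I0
      hf hfl hi
  rw [odClass_eq hts B I0 hf hi, odClass_eq hts B' _ hf' hi']
  exact (bcR_cls_eq_iff ψ _ _).mpr ⟨c⟩

section Graph

omit [IsLocalization.Away t A01] [IsLocalization.Away s A01]

/-- `SpecD35.evalHom` is helper98's `graphMap`. -/
theorem evalHom_eq (q : A0 →ₐ[k] B) :
    evalHom q = Fermat.Agent.JAC.Cover.GraphIdeal98.graphMap q := by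
  apply Algebra.TensorProduct.ext'
  intro b a
  rw [evalHom_tmul, Fermat.Agent.JAC.Cover.GraphIdeal98.graphMap_tmul]

/-- `SpecD35.graphIdeal` is helper98's `graphIdeal`. -/
theorem graphIdeal_eq (q : A0 →ₐ[k] B) :
    graphIdeal q = Fermat.Agent.JAC.Cover.GraphIdeal98.graphIdeal q := by
  unfold graphIdeal Fermat.Agent.JAC.Cover.GraphIdeal98.graphIdeal
  rw [evalHom_eq]

/-- Base change of the graph ideal. -/
theorem map_graphIdeal (ψ : B →ₐ[k] B') (q : A0 →ₐ[k] B) :
    Ideal.map (tensorMap (A := A0) ψ) (graphIdeal q) = graphIdeal (ψ.comp q) := by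
  rw [graphIdeal_eq, graphIdeal_eq]
  exact Fermat.Agent.JAC.Cover.GraphIdeal98.map_graphIdeal q ψ

/-- The structure ring of the graph is `B`. -/
noncomputable def quotGraphEquiv (q : A0 →ₐ[k] B) : ((B ⊗[k] A0) ⧸ graphIdeal q) ≃ₐ[B] B :=
  (Ideal.quotientEquivAlgOfEq B (graphIdeal_eq q)).trans
    (Fermat.Agent.JAC.Cover.GraphIdeal98.quotEquiv q)

theorem quotGraphEquiv_mk (q : A0 →ₐ[k] B) (x : B ⊗[k] A0) :
    quotGraphEquiv q (Ideal.Quotient.mk _ x) = evalHom q x := by
  rw [evalHom_eq]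
  rfl

theorem finite_quot_graphIdeal (q : A0 →ₐ[k] B) :
    Module.Finite B ((B ⊗[k] A0) ⧸ graphIdeal q) :=
  Module.Finite.equiv (quotGraphEquiv q).symm.toLinearEquiv

theorem free_quot_graphIdeal (q : A0 →ₐ[k] B) :
    Module.Free B ((B ⊗[k] A0) ⧸ graphIdeal q) :=
  Module.Free.of_equiv (quotGraphEquiv q).symm.toLinearEquiv

theorem flat_quot_graphIdeal (q : A0 →ₐ[k] B) :
    Module.Flat B ((B ⊗[k] A0) ⧸ graphIdeal q) :=
  Module.Flat.of_linearEquiv (quotGraphEquiv q).toLinearEquiv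

theorem finrank_quot_graphIdeal [Nontrivial B] (q : A0 →ₐ[k] B) :
    Module.finrank B ((B ⊗[k] A0) ⧸ graphIdeal q) = 1 := by
  rw [LinearEquiv.finrank_eq (quotGraphEquiv q).toLinearEquiv, Module.finrank_self]

/-- The graph ideal is a based quotient with basis `1`. -/
theorem isBasedQuot_graphIdeal (q : A0 →ₐ[k] B) :
    IsBasedQuot (fun _ : Fin 1 => (1 : A0)) (graphIdeal q) := by
  have key : ∀ c : Fin 1 → B,
      quotGraphEquiv q (basisMap (fun _ : Fin 1 => (1 : A0)) (graphIdeal q) c) = c 0 := by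
    intro c
    rw [basisMap_apply, quotGraphEquiv_mk]
    simp [BasedPoint.rep]
  constructor
  · intro c c' h
    funext i
    have hi : i = 0 := Subsingleton.elim _ _
    rw [hi, ← key c, ← key c', h]
  · intro x
    refine ⟨fun _ => quotGraphEquiv q x, ?_⟩
    apply (quotGraphEquiv q).injective
    rw [key]

end Graph

/-- The graph ideal of a `B`-point of `U0` is invertible (brick K0 with `n = 1`). -/
theorem invertible_graphIdeal (H : CurveHypR k A0 A1 A01 t s) (q : A0 →ₐ[k] B) :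
    Module.Invertible (B ⊗[k] A0) (graphIdeal q) :=
  Fermat.Agent.FFJ.Pic.KBricksR87.k0R H B 1 (fun _ => 1) (graphIdeal q) (isBasedQuot_graphIdeal q)

/-- The point class is the class of `O(Γ_q)`. -/
theorem ptClassR_eq (H : CurveHypR k A0 A1 A01 t s) (q : A0 →ₐ[k] B) :
    ptClassR (A1 := A1) (A01 := A01) (t := t) (s := s) H.hts q =
      cls (OD H.hts B (graphIdeal q) (finite_quot_graphIdeal q) (invertible_graphIdeal H q)) :=
  odClass_eq H.hts B _ _ _

/-- **Base change of point classes.** -/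
theorem ptClassR_bcR (H : CurveHypR k A0 A1 A01 t s) (ψ : B →ₐ[k] B') (q : A0 →ₐ[k] B) :
    bcR ψ (ptClassR (A1 := A1) (A01 := A01) (t := t) (s := s) H.hts q) =
      ptClassR H.hts (ψ.comp q) := by
  unfold ptClassR
  rw [bcR_odClass H.hts ψ _ (finite_quot_graphIdeal q) (flat_quot_graphIdeal q)
    (invertible_graphIdeal H q), map_graphIdeal]

end Fermat.Agent.FFJ.Pic.PtClassR46
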