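/-
Programme FFJ (S19), chapter PIC, part D (helper37): THE ONE-LEVEL CORE OF THE ASSEMBLY ADM.

At ONE level `O` (a discrete valuation ring with fraction field `F`, `Ω/F` Galois, `V₀` a valuation
subring of `Ω` lying over `O`, `κ := V₀ ⧸ 𝔪`):
  from  * the curve hypotheses `ChartDefR35.CurveHypR O ..`,
        * a finite family of `V₀`-models `ξ_ m` of the points `ι m` (VAL),
        * a twist by finitely many `O`-RATIONAL points `P ∈ l` making all the special fibres of the
          `ξ_ m` good of the same rank `n` (the output of FIB-R after enlarging the base field so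
          that the chosen points of the supply are rational),
        * the brick (D7) `SpecD35.ChartFinStatement` and the spreading-out statement `Spread`,
        * `ValInj`, `ValSurj`, `PicZeroMul` (VAL),
  we get a function order `H : Subalgebra O (M → Ω)` (`IsFunOrder O F H`), i.e. the conclusion of
  chapter ORDER.  Everything here is formal wiring: `twist_ptList` computes the twist over `κ`
  (`PtClassR46.ptClassR_bcR`), `PicDry37.localChartR_of_curveHypR` builds the chart,
  `AdmOfSpecial37.exists_isFunOrder_of_special` concludes.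
-/
import Mathlib
import Fermat.Agent.FFJ.Pic.AdmOfSpecial37
import Fermat.Agent.FFJ.Pic.PicDry37
import Fermat.Agent.FFJ.Pic.SpecD35
import Fermat.Agent.FFJ.Pic.PtClassR46

set_option autoImplicit false
set_option maxHeartbeats 400000
set_option linter.unusedSectionVars false

noncomputable section

namespace Fermat.Agent.FFJ.Pic.AdmCore37

open scoped TensorProduct
open Fermat.Agent.JAC.Core.Defs36 Fermat.Agent.FFJ.Core.ClR35 Fermat.Agent.FFJ.Core.ClRBc35
  Fermat.Agent.JAC.Hilb.BasedQuot46
  Fermat.Agent.FFJ.Pic.ChartDefR35 Fermat.Agent.FFJ.Pic.ChartSpecR35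
  Fermat.Agent.FFJ.Pic.LocalChartR35 Fermat.Agent.FFJ.Pic.LocalChartOfBricksR37
  Fermat.Agent.FFJ.Pic.SpecD35 Fermat.Agent.FFJ.Order.ValConj77
open Fermat.Agent.FFJ.Spec.Spec35 (ValInj ValSurj galActR)

section Twist

universe u

variable {k : Type u} [CommRing k] {A0 A1 A01 : Type u} [CommRing A0] [CommRing A1] [CommRing A01]
  [Algebra k A0] [Algebra k A1] [Algebra k A01] [Algebra A0 A01] [Algebra A1 A01]
  [IsScalarTower k A0 A01] [IsScalarTower k A1 A01] {t : A0} {s : A1}
  [IsLocalization.Away t A01] [IsLocalization.Away s A01]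

/-- The twist by a list of `k`-rational points of the overlap: the product of their point classes,
as a one-element family of twists. -/
def ptTwist (H : CurveHypR k A0 A1 A01 t s) (l : List (A01 →ₐ[k] k)) :
    PUnit.{u + 1} → ClR k A0 A1 A01 t s k :=
  fun _ => (l.map fun P => ptClassR H.hts (P.comp (IsScalarTower.toAlgHom k A0 A01))).prod

/-- **The twist by rational points, pulled back to a `k`-algebra `B`**: the product of the point
classes of the induced `B`-points (the shape of the conclusion of `SpecD35.FibStatement`). -/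
theorem twist_ptTwist (H : CurveHypR k A0 A1 A01 t s) (l : List (A01 →ₐ[k] k))
    (B : Type u) [CommRing B] [Algebra k B] :
    twist (ptTwist H l) B PUnit.unit =
      ((l.map fun P => (Algebra.ofId k B).comp P).map fun q =>
        ptClassR H.hts (q.comp (IsScalarTower.toAlgHom k A0 A01))).prod := by
  unfold twist ptTwist
  rw [map_list_prod, List.map_map, List.map_map]
  congr 1
  refine List.map_congr_left fun P _ => ?_
  simp only [Function.comp_apply]
  rw [PtClassR46.ptClassR_bcR H]
  rfl

end Twist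

section Core

variable {O : Type} [CommRing O] [IsDomain O] [IsDiscreteValuationRing O]
  {A0 A1 A01 : Type} [CommRing A0] [CommRing A1] [CommRing A01]
  [Algebra O A0] [Algebra O A1] [Algebra O A01] [Algebra A0 A01] [Algebra A1 A01]
  [IsScalarTower O A0 A01] [IsScalarTower O A1 A01] {t : A0} {s : A1}
  [IsLocalization.Away t A01] [IsLocalization.Away s A01]
  (F : Type) {Ω : Type} [Field F] [Field Ω] [Algebra O F] [Algebra F Ω] [Algebra O Ω]
  [IsScalarTower O F Ω] [IsFractionRing O F] [IsGalois F Ω]

/-- The maximal ideal of `O` dies in the residue field of a valuation subring lying over `O`. -/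
theorem algebraMap_residueField_eq_zero (V₀ : ValuationSubring Ω) [Algebra O V₀]
    [IsScalarTower O V₀ Ω] (hV₀ : LiesOverBase O F V₀) (x : O)
    (hx : x ∈ IsLocalRing.maximalIdeal O) :
    algebraMap O (IsLocalRing.ResidueField V₀) x = 0 := by
  rw [IsScalarTower.algebraMap_apply O V₀ (IsLocalRing.ResidueField V₀)]
  change IsLocalRing.residue V₀ (algebraMap O V₀ x) = 0
  rw [IsLocalRing.residue_eq_zero_iff, ← ValuationSubring.coe_mem_nonunits_iff]
  have hcoe : ((algebraMap O V₀ x : V₀) : Ω) = algebraMap O Ω x :=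
    (IsScalarTower.algebraMap_apply O V₀ Ω x).symm
  rw [hcoe]
  exact hV₀.algebraMap_mem_nonunits x ((IsLocalRing.mem_maximalIdeal x).mp hx)

/-- **The one-level core of ADM**: a good twist by rational points gives a function order. -/
theorem exists_isFunOrder_of_goodTwist
    (H : CurveHypR O A0 A1 A01 t s) (e : A01 →ₐ[O] O)
    (hChartFin : ChartFinStatement O A0 A1 A01 t s H.hts e)
    (hSpread : ∀ (lam : PUnit.{1} → ClR O A0 A1 A01 t s O) {n : ℕ} (β : Fin n → A0)
      (φ : chartRing O A0 β), Spread lam β PUnit.unit φ)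
    (hmul : Fermat.Agent.FFJ.Order.Order77.PicZeroMul O A0 A1 A01 t s e)
    (hVI : ValInj O A0 A1 A01 t s e Ω) (hVS : ValSurj O A0 A1 A01 t s e Ω)
    (M : Type) [AddCommGroup M] [Finite M] [MulAction (Ω ≃ₐ[F] Ω) M]
    (ι : Multiplicative M →* ClR O A0 A1 A01 t s Ω) (hinj : Function.Injective ι)
    (hmem : ∀ m, ι m ∈ PicZeroR e Ω)
    (hequiv : ∀ (σ : Ω ≃ₐ[F] Ω) (m : M),
      ι (Multiplicative.ofAdd (σ • m)) = galActR O F σ (ι (Multiplicative.ofAdd m)))
    (V₀ : ValuationSubring Ω) [Algebra O V₀] [IsScalarTower O V₀ Ω] (hV₀ : LiesOverBase O F V₀)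
    (hcard : Infinite (IsLocalRing.ResidueField O) ∨
      Nat.card M < Nat.card (IsLocalRing.ResidueField O))
    (ξ_ : M → ClR O A0 A1 A01 t s V₀) (hξ_ : ∀ m, ξ_ m ∈ PicZeroR e V₀)
    (hξι : ∀ m, bcR (IsScalarTower.toAlgHom O V₀ Ω) (ξ_ m) = ι (Multiplicative.ofAdd m))
    (l : List (A01 →ₐ[O] O)) (n : ℕ)
    (hgood : ∀ m, GoodAtRank (IsLocalRing.ResidueField V₀)
      (bcR (IsScalarTower.toAlgHom O V₀ (IsLocalRing.ResidueField V₀)) (ξ_ m) *
        ((l.map fun P => (Algebra.ofId O (IsLocalRing.ResidueField V₀)).comp P).map fun q =>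
          ptClassR H.hts (q.comp (IsScalarTower.toAlgHom O A0 A01))).prod) n) :
    ∃ H' : Subalgebra O (M → Ω), Fermat.Agent.TW.FF.FunOrder68.IsFunOrder O F H' := by
  -- the chart
  obtain ⟨β, φ, hc, hW⟩ := hChartFin (ptTwist H l) PUnit.unit n (IsLocalRing.ResidueField V₀)
    (algebraMap_residueField_eq_zero F V₀ hV₀) M
    (fun m => bcR (IsScalarTower.toAlgHom O V₀ (IsLocalRing.ResidueField V₀)) (ξ_ m)) hcard
    (fun m => isDegZeroR_bcR _ _ (hξ_ m).2)
    (fun m => by rw [twist_ptTwist]; exact hgood m)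
  let 𝔏 : LocalChartR (A0 := A0) (A1 := A1) (t := t) (s := s) e :=
    PicDry37.localChartR_of_curveHypR H e (ptTwist H l) β PUnit.unit φ (hSpread _ β φ) hc
  refine AdmOfSpecial37.exists_isFunOrder_of_special F hmul 𝔏 (PicDry37.g4R H e) M ι hinj hmem
    hequiv hVS V₀ hV₀ ?_
  intro ξ m hξ hξm
  have : ξ = ξ_ (Multiplicative.toAdd m) :=
    hVI V₀ ξ (ξ_ (Multiplicative.toAdd m)) hξ (hξ_ _) (by rw [hξm, hξι]; rfl)
  rw [this]
  exact hW (Multiplicative.toAdd m)

end Core

end Fermat.Agent.FFJ.Pic.AdmCore37
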