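/-
Programme FFJ (S19), chapter PIC.  Owner: helper4.

BASE-RING FORK ([CommRing k], `ClR`/`bcR` of FFJ/Core/ClR35) of the library part of
JAC/Hilb/ChartCovers4 (helper4): the line diagram `O(D_a)` of a point `a` of the Hilbert chart
(`odp`, `one0`, `one1`), brick K2 in point form with sections (`exists_cartHom_odp`), good points
(`GoodPt`, `GoodPt.comp`), spreading of goodness from ONE field-valued point (`exists_away_goodPt`),
the class of a point (`pcl`, `bc_pcl`, `locClass_eq`) and the localisation lemmas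
(`exists_away_map_of_dvd`, `exists_lift_away`, `exists_away_of_away_away`, `kerPt`, `resLift`).
The finite version (D7 CHART-FIN of SpecD35) is in FFJ/Pic/ChartFin4.
-/
import Mathlib
import Fermat.Agent.FFJ.Pic.SpecD35
import Fermat.Agent.FFJ.Core.ClRBc35
import Fermat.Agent.FFJ.Pic.ChartWR37

set_option autoImplicit false
set_option maxHeartbeats 400000
set_option linter.unusedSectionVars false

universe u

namespace Fermat.Agent.FFJ.Pic.ChartCoversR4

open scoped TensorProduct Polynomial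
open scoped Fermat.Agent.JAC.Core.ConstFamily36
open Fermat.Agent.JAC.Core.Defs36 Fermat.Agent.JAC.Core.Cart36 Fermat.Agent.JAC.Core.ConstFamily36
  Fermat.Agent.JAC.Core.Degree36 Fermat.Agent.FFJ.Core.ClR35 Fermat.Agent.JAC.Grp.Diag33
  Fermat.Agent.JAC.Grp.Cart33 Fermat.Agent.FFJ.Core.ClRBc35
  Fermat.Agent.JAC.Hilb.BasedQuot46 Fermat.Agent.JAC.Hilb.ZeroIdeal46
  Fermat.Agent.FFJ.Pic.ChartDefR35 Fermat.Agent.FFJ.Pic.ChartSpecR35

variable {k : Type u} [CommRing k] {A0 A1 A01 : Type u} [CommRing A0] [CommRing A1] [CommRing A01]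
  [Algebra k A0] [Algebra k A1] [Algebra k A01] [Algebra A0 A01] [Algebra A1 A01]
  [IsScalarTower k A0 A01] [IsScalarTower k A1 A01] {t : A0} {s : A1}
  [IsLocalization.Away t A01] [IsLocalization.Away s A01]

/-! ### Isomorphism invariance of the conditions -/

section Iso

variable {B : Type u} [CommRing B] [Algebra k B]

theorem h1Zero_of_iso {N N' : CDiag k A0 A1 A01 t s B} (e : LineDiag.Iso N N') (h : H1Zero N) :
    H1Zero N' := by
  intro z
  obtain ⟨x, y, hxy⟩ := h (e.e01.symm z)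
  refine ⟨e.e0 x, e.e1 y, ?_⟩
  rw [← e.comm0, ← e.comm1, ← map_sub, hxy, LinearEquiv.apply_symm_apply]

theorem isGenSection_of_iso {N N' : CDiag k A0 A1 A01 t s B} (e : LineDiag.Iso N N')
    {σ0 : N.M0} {σ1 : N.M1} (h : IsGenSection N σ0 σ1) :
    IsGenSection N' (e.e0 σ0) (e.e1 σ1) := by
  refine ⟨by rw [← e.comm0, ← e.comm1, h.1], ?_⟩
  intro x y hxy
  have hxy' : N.rho0 (e.e0.symm x) = N.rho1 (e.e1.symm y) := by
    apply e.e01.injective
    rw [e.comm0, e.comm1, LinearEquiv.apply_symm_apply, LinearEquiv.apply_symm_apply, hxy]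
  obtain ⟨b, ⟨hb0, hb1⟩, hbu⟩ := h.2 _ _ hxy'
  refine ⟨b, ⟨?_, ?_⟩, ?_⟩
  · rw [← map_smul, ← hb0, LinearEquiv.apply_symm_apply]
  · rw [← map_smul, ← hb1, LinearEquiv.apply_symm_apply]
  · rintro b' ⟨hb0', hb1'⟩
    apply hbu
    constructor
    · rw [hb0', map_smul, LinearEquiv.symm_apply_apply]
    · rw [hb1', map_smul, LinearEquiv.symm_apply_apply]

omit [IsLocalization.Away t A01] [IsLocalization.Away s A01] in
theorem algebraMap_comm01 (b : B) :
    algebraMap (B ⊗[k] A0) (B ⊗[k] A01) (algebraMap B (B ⊗[k] A0) b) =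
      algebraMap (B ⊗[k] A1) (B ⊗[k] A01) (algebraMap B (B ⊗[k] A1) b) := by
  rw [← IsScalarTower.algebraMap_apply B (B ⊗[k] A0) (B ⊗[k] A01),
    ← IsScalarTower.algebraMap_apply B (B ⊗[k] A1) (B ⊗[k] A01)]

omit [IsLocalization.Away t A01] [IsLocalization.Away s A01] in
/-- `B`-multiples of a section are sections. -/
theorem rho_smul_comm {N : CDiag k A0 A1 A01 t s B} {σ0 : N.M0} {σ1 : N.M1}
    (h : N.rho0 σ0 = N.rho1 σ1) (b : B) :
    N.rho0 (algebraMap B (B ⊗[k] A0) b • σ0) = N.rho1 (algebraMap B (B ⊗[k] A1) b • σ1) := by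
  have e0 := algebra_compatible_smul (R := B ⊗[k] A0) (B ⊗[k] A01)
    (algebraMap B (B ⊗[k] A0) b) (N.rho1 σ1)
  have e1 := algebra_compatible_smul (R := B ⊗[k] A1) (B ⊗[k] A01)
    (algebraMap B (B ⊗[k] A1) b) (N.rho1 σ1)
  rw [map_smul, map_smul, h, e0, e1, algebraMap_comm01 (A0 := A0) (A1 := A1) (A01 := A01) b]

omit [IsLocalization.Away t A01] [IsLocalization.Away s A01] in
/-- A unit multiple of a generating section is generating. -/
theorem isGenSection_of_unit_smul {N : CDiag k A0 A1 A01 t s B} {σ0 τ0 : N.M0} {σ1 τ1 : N.M1}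
    (h : IsGenSection N σ0 σ1) {b : B} (hb : IsUnit b)
    (h0 : τ0 = algebraMap B (B ⊗[k] A0) b • σ0) (h1 : τ1 = algebraMap B (B ⊗[k] A1) b • σ1) :
    IsGenSection N τ0 τ1 := by
  obtain ⟨u, rfl⟩ := hb
  refine ⟨by rw [h0, h1]; exact rho_smul_comm h.1 _, ?_⟩
  intro x y hxy
  obtain ⟨c, ⟨hc0, hc1⟩, hcu⟩ := h.2 x y hxy
  refine ⟨c * ((u⁻¹ : Bˣ) : B), ⟨?_, ?_⟩, ?_⟩
  · rw [h0, smul_smul, ← map_mul, mul_assoc, Units.inv_mul, mul_one, hc0]
  · rw [h1, smul_smul, ← map_mul, mul_assoc, Units.inv_mul, mul_one, hc1]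
  · rintro c' ⟨hc0', hc1'⟩
    have : c' * (u : B) = c := by
      apply hcu
      constructor
      · rw [hc0', h0, smul_smul, ← map_mul]
      · rw [hc1', h1, smul_smul, ← map_mul]
    rw [← this, mul_assoc, Units.mul_inv, mul_one]

end Iso

/-! ### `O(D)` at a point of the Hilbert chart -/

section Point

variable (hts : algebraMap A0 A01 t * algebraMap A1 A01 s = 1)
  (hK0 : Brick.K0 k A0) {n : ℕ} (β : Fin n → A0)
  {B B' : Type u} [CommRing B] [CommRing B'] [Algebra k B] [Algebra k B']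

theorem isBasedQuot_pointIdeal (a : chartRing k A0 β →ₐ[k] B) :
    IsBasedQuot β (pointIdeal β a) :=
  (pointEquiv a).isBasedQuot_ideal

theorem finite_pointIdeal (a : chartRing k A0 β →ₐ[k] B) :
    Module.Finite B ((B ⊗[k] A0) ⧸ pointIdeal β a) :=
  Module.Finite.equiv (isBasedQuot_pointIdeal β a).equiv

theorem flat_pointIdeal (a : chartRing k A0 β →ₐ[k] B) :
    Module.Flat B ((B ⊗[k] A0) ⧸ pointIdeal β a) :=
  Module.Flat.of_linearEquiv (isBasedQuot_pointIdeal β a).equiv.symm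

include hK0 in
theorem invertible_pointIdeal (a : chartRing k A0 β →ₐ[k] B) :
    Module.Invertible (B ⊗[k] A0) (pointIdeal β a) :=
  hK0 B n β _ (isBasedQuot_pointIdeal β a)

/-- The line diagram `O(D_a)` of the divisor classified by the point `a` of the Hilbert chart. -/
noncomputable def odp (a : chartRing k A0 β →ₐ[k] B) : CDiag k A0 A1 A01 t s B :=
  OD hts B (pointIdeal β a) (finite_pointIdeal β a) (invertible_pointIdeal hK0 β a)

/-- The tautological section of `O(D_a)`. -/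
noncomputable def one0 (a : chartRing k A0 β →ₐ[k] B) : (odp hts hK0 β a).M0 :=
  oneSec0 hts B (pointIdeal β a) (finite_pointIdeal β a) (invertible_pointIdeal hK0 β a)

noncomputable def one1 (a : chartRing k A0 β →ₐ[k] B) : (odp hts hK0 β a).M1 :=
  oneSec1 hts B (pointIdeal β a) (finite_pointIdeal β a) (invertible_pointIdeal hK0 β a)

theorem one_comm (a : chartRing k A0 β →ₐ[k] B) :
    (odp hts hK0 β a).rho0 (one0 hts hK0 β a) = (odp hts hK0 β a).rho1 (one1 hts hK0 β a) :=
  oneSec_comm hts B _ _ _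

theorem zeroIdeal_one0 (a : chartRing k A0 β →ₐ[k] B) :
    zeroIdeal (B ⊗[k] A0) (one0 hts hK0 β a) = pointIdeal β a :=
  zeroIdeal_oneSec0 hts B _ _ _

theorem cls_odp (a : chartRing k A0 β →ₐ[k] B) :
    cls (odp hts hK0 β a) = odClass hts B (pointIdeal β a) :=
  (odClass_eq hts B _ _ _).symm

theorem pointIdeal_comp (ψ : B →ₐ[k] B') (a : chartRing k A0 β →ₐ[k] B) :
    pointIdeal β (ψ.comp a) = Ideal.map (tensorMap (A := A0) ψ) (pointIdeal β a) := by
  unfold pointIdeal
  rw [pointEquiv_comp, BasedPoint.map_ideal]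

/-- (K2) in point form: `O(D_a)` base changes to `O(D_{ψ ∘ a})`, compatibly with the tautological
sections. -/
theorem exists_cartHom_odp (hK2 : Brick.K2 k A0 A1 A01 t s hts) (ψ : B →ₐ[k] B')
    (a : chartRing k A0 β →ₐ[k] B) :
    ∃ c : LineDiag.CartHom (familyHom ψ t s) (odp hts hK0 β a) (odp hts hK0 β (ψ.comp a)),
      c.f0 (one0 hts hK0 β a) = one0 hts hK0 β (ψ.comp a) ∧
        c.f1 (one1 hts hK0 β a) = one1 hts hK0 β (ψ.comp a) := by
  have key : ∀ (I' : Ideal (B' ⊗[k] A0)) (hI : I' = Ideal.map (tensorMap (A := A0) ψ) (pointIdeal β a))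
      (hf'' : Module.Finite B' ((B' ⊗[k] A0) ⧸ I')) (hi'' : Module.Invertible (B' ⊗[k] A0) I'),
      ∃ c : LineDiag.CartHom (familyHom ψ t s) (odp hts hK0 β a) (OD hts B' I' hf'' hi''),
        c.f0 (one0 hts hK0 β a) = oneSec0 hts B' I' hf'' hi'' ∧
          c.f1 (one1 hts hK0 β a) = oneSec1 hts B' I' hf'' hi'' := by
    intro I' hI hf'' hi''
    subst hI
    obtain ⟨hf', hi', c, h0, h1⟩ := hK2 B B' ψ (pointIdeal β a) (finite_pointIdeal β a)
      (flat_pointIdeal β a) (invertible_pointIdeal hK0 β a)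
    exact ⟨c, h0, h1⟩
  exact key _ (pointIdeal_comp β ψ a) _ _

end Point

/-! ### Localisations and field-valued points -/

section Loc

variable {B : Type u} [CommRing B] [Algebra k B]

/-- If `f` divides `φ` there is a canonical map `B_f → B_φ`. -/
theorem exists_away_map_of_dvd {f φ : B} (h : f ∣ φ) :
    ∃ v : Localization.Away f →ₐ[k] Localization.Away φ,
      v.comp (toAway (k := k) B f) = toAway (k := k) B φ := by
  have hunit : ∀ y : Submonoid.powers f,
      IsUnit ((toAway (k := k) B φ) (y : B)) := by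
    rintro ⟨_, m, rfl⟩
    have hφ : IsUnit (algebraMap B (Localization.Away φ) φ) :=
      IsLocalization.Away.algebraMap_isUnit φ
    obtain ⟨c, rfl⟩ := h
    rw [map_mul] at hφ
    have : IsUnit (algebraMap B (Localization.Away (f * c)) f) := isUnit_of_mul_isUnit_left hφ
    simpa using this.pow m
  refine ⟨IsLocalization.liftAlgHom (M := Submonoid.powers f) (S := Localization.Away f) hunit, ?_⟩
  ext b
  simp [IsLocalization.lift_eq]

/-- A field-valued point extends to the localisation at an element where it does not vanish. -/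
theorem exists_lift_away {K : Type u} [Field K] [Algebra k K] (g : B →ₐ[k] K) {f : B}
    (hf : g f ≠ 0) :
    ∃ g' : Localization.Away f →ₐ[k] K, g'.comp (toAway (k := k) B f) = g := by
  have hunit : ∀ y : Submonoid.powers f, IsUnit (g (y : B)) := by
    rintro ⟨_, m, rfl⟩
    simpa using (IsUnit.mk0 _ hf).pow m
  refine ⟨IsLocalization.liftAlgHom (M := Submonoid.powers f) (S := Localization.Away f) hunit, ?_⟩
  ext b
  simp [IsLocalization.lift_eq]

/-- A basic open of a basic open is a basic open. -/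
theorem exists_away_of_away_away (f : B) (f' : Localization.Away f) :
    ∃ (φ : B) (u : Localization.Away f' →ₐ[k] Localization.Away φ),
      u.comp ((toAway (k := k) (Localization.Away f) f').comp (toAway (k := k) B f)) =
        toAway (k := k) B φ ∧
      ∀ (K : Type u) [Field K] [Algebra k K] (g : B →ₐ[k] K) (g1 : Localization.Away f →ₐ[k] K),
        g1.comp (toAway (k := k) B f) = g → g1 f' ≠ 0 → g φ ≠ 0 := by
  obtain ⟨⟨a, ⟨_, m, rfl⟩⟩, ha⟩ := IsLocalization.surj (Submonoid.powers f) f'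
  simp only at ha
  have hφ : IsUnit (algebraMap B (Localization.Away (f * a)) (f * a)) := IsLocalization.Away.algebraMap_isUnit (f * a)
  rw [map_mul] at hφ
  have hfu : IsUnit (algebraMap B (Localization.Away (f * a)) f) := isUnit_of_mul_isUnit_left hφ
  have hau : IsUnit (algebraMap B (Localization.Away (f * a)) a) := isUnit_of_mul_isUnit_right hφ
  have hunit1 : ∀ y : Submonoid.powers f, IsUnit ((toAway (k := k) B (f * a)) (y : B)) := by
    rintro ⟨_, m', rfl⟩
    simpa using hfu.pow m'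
  let u1 : Localization.Away f →ₐ[k] Localization.Away (f * a) :=
    IsLocalization.liftAlgHom (M := Submonoid.powers f) (S := Localization.Away f) hunit1
  have hu1 : ∀ b : B, u1 (algebraMap B (Localization.Away f) b) = algebraMap B (Localization.Away (f * a)) b := by
    intro b
    simp [u1, IsLocalization.lift_eq]
  have hf'u : IsUnit (u1 f') := by
    have h1 : u1 f' * u1 (algebraMap B (Localization.Away f) (f ^ m)) = algebraMap B (Localization.Away (f * a)) a := by
      rw [← map_mul, ha, hu1]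
    rw [hu1] at h1
    exact isUnit_of_mul_isUnit_left (h1 ▸ hau)
  have hunit2 : ∀ y : Submonoid.powers f', IsUnit (u1 (y : Localization.Away f)) := by
    rintro ⟨_, m', rfl⟩
    simpa using hf'u.pow m'
  refine ⟨f * a, IsLocalization.liftAlgHom (M := Submonoid.powers f')
    (S := Localization.Away f') hunit2, ?_, ?_⟩
  · ext b
    simp [IsLocalization.lift_eq, hu1]
  · intro K _ _ g g1 hg hf'
    have hgf : g f ≠ 0 := by
      rw [← hg]
      have : IsUnit (g1 (algebraMap B (Localization.Away f) f)) :=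
        (IsLocalization.Away.algebraMap_isUnit f).map g1
      exact this.ne_zero
    have hga : g a ≠ 0 := by
      have h2 : g1 f' * g f ^ m = g a := by
        rw [← hg]
        simp only [AlgHom.coe_comp, Function.comp_apply, IsScalarTower.coe_toAlgHom']
        rw [← map_pow, ← map_pow, ← map_mul, ha]
      rw [← h2]
      exact mul_ne_zero hf' (pow_ne_zero _ hgf)
    rw [map_mul]
    exact mul_ne_zero hgf hga

/-- The prime ideal of a field-valued point. -/
noncomputable def kerPt {K : Type u} [Field K] [Algebra k K] (g : B →ₐ[k] K) : PrimeSpectrum B :=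
  ⟨RingHom.ker g.toRingHom, RingHom.ker_isPrime _⟩

theorem notMem_kerPt {K : Type u} [Field K] [Algebra k K] (g : B →ₐ[k] K) {f : B}
    (hf : f ∉ (kerPt g).asIdeal) : g f ≠ 0 := fun h => hf h

/-- The residue field of the point maps to the field of values. -/
noncomputable def resLift {K : Type u} [Field K] [Algebra k K] (g : B →ₐ[k] K) :
    (kerPt g).asIdeal.ResidueField →ₐ[k] K :=
  Ideal.ResidueField.liftₐ (kerPt g).asIdeal g le_rfl (by
    intro x hx
    exact IsUnit.mk0 _ (notMem_kerPt g hx))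

theorem resLift_comp {K : Type u} [Field K] [Algebra k K] (g : B →ₐ[k] K) :
    (resLift g).comp (toResidueR B (kerPt g)) = g :=
  Ideal.ResidueField.liftₐ_comp_toAlgHom _ _ _ _

end Loc

/-! ### Good points of the Hilbert chart and their spreading out -/

section Good

variable (hts : algebraMap A0 A01 t * algebraMap A1 A01 s = 1)
  (hK0 : Brick.K0 k A0) {n : ℕ} (β : Fin n → A0)
  {B B' : Type u} [CommRing B] [CommRing B'] [Algebra k B] [Algebra k B']

/-- The point `a` of the Hilbert chart is *good*: `H¹(O(D_a)) = 0` and `H⁰(O(D_a))` is free on the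
tautological section. -/
def GoodPt (a : chartRing k A0 β →ₐ[k] B) : Prop :=
  H1Zero (odp hts hK0 β a) ∧
    IsGenSection (odp hts hK0 β a) (one0 hts hK0 β a) (one1 hts hK0 β a)

variable (hK2 : Brick.K2 k A0 A1 A01 t s hts)

include hK2 in
theorem bc_cls_odp (ψ : B →ₐ[k] B') (a : chartRing k A0 β →ₐ[k] B) :
    bcR ψ (cls (odp hts hK0 β a)) = cls (odp hts hK0 β (ψ.comp a)) :=
  (bcR_cls_eq_iff ψ _ _).mpr ⟨(exists_cartHom_odp hts hK0 β hK2 ψ a).choose⟩

include hK2 in
/-- The base change of `O(D_a)` along `ψ` is isomorphic to `O(D_{ψ ∘ a})`. -/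
theorem nonempty_iso_bcd_odp (ψ : B →ₐ[k] B') (a : chartRing k A0 β →ₐ[k] B) :
    Nonempty (LineDiag.Iso (bcd ψ (odp hts hK0 β a)) (odp hts hK0 β (ψ.comp a))) :=
  nonempty_iso_of_cartHom (bcc ψ (odp hts hK0 β a)) (exists_cartHom_odp hts hK0 β hK2 ψ a).choose

variable (hBC1 : Brick.BC1 k A0 A1 A01 t s) (hBC2 : Brick.BC2 k A0 A1 A01 t s)

include hK2 hBC1 hBC2 in
/-- Good points are stable under base change. -/
theorem GoodPt.comp {a : chartRing k A0 β →ₐ[k] B} (h : GoodPt hts hK0 β a) (ψ : B →ₐ[k] B') :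
    GoodPt hts hK0 β (ψ.comp a) := by
  obtain ⟨c, h0, h1⟩ := exists_cartHom_odp hts hK0 β hK2 ψ a
  refine ⟨hBC1 B B' ψ _ _ c h.1, ?_⟩
  have := hBC2 B B' ψ _ _ c _ _ h.1 h.2
  rwa [h0, h1] at this

end Good

section Spread

variable (hts : algebraMap A0 A01 t * algebraMap A1 A01 s = 1)
  (hK0 : Brick.K0 k A0) {n : ℕ} (β : Fin n → A0)
  {B : Type u} [CommRing B] [Algebra k B] {K : Type u} [Field K] [Algebra k K]
  (hK2 : Brick.K2 k A0 A1 A01 t s hts)
  (hBC1 : Brick.BC1 k A0 A1 A01 t s) (hBC2 : Brick.BC2 k A0 A1 A01 t s)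
  (hFE1 : Brick.FE1 k A0 A1 A01 t s) (hFE2 : Brick.FE2 k A0 A1 A01 t s)
  (hSP1 : Brick.SP1 k A0 A1 A01 t s) (hSP2 : Brick.SP2 k A0 A1 A01 t s)

include hK2 in
/-- The fibre of `O(D_a)` at the prime of a field-valued point `g` base changes to
`O(D_{g ∘ a})`. -/
theorem exists_cartHom_fibre (a : chartRing k A0 β →ₐ[k] B) (g : B →ₐ[k] K) :
    Nonempty (LineDiag.CartHom (familyHom (resLift g) t s)
      (bcd (toResidueR B (kerPt g)) (odp hts hK0 β a)) (odp hts hK0 β (g.comp a))) := by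
  rw [← bcR_cls_eq_iff]
  have h1 : cls (bcd (toResidueR B (kerPt g)) (odp hts hK0 β a)) =
      bcR (toResidueR B (kerPt g)) (cls (odp hts hK0 β a)) := (bcR_cls _ _).symm
  rw [h1, bcR_bc, resLift_comp, bc_cls_odp hts hK0 β hK2]

include hK2 hFE1 hSP1 in
/-- `H¹ = 0` spreads out from a field-valued point. -/
theorem exists_away_h1 (a : chartRing k A0 β →ₐ[k] B) (g : B →ₐ[k] K)
    (h : H1Zero (odp hts hK0 β (g.comp a))) :
    ∃ f : B, g f ≠ 0 ∧ H1Zero (odp hts hK0 β ((toAway (k := k) B f).comp a)) := by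
  obtain ⟨c⟩ := exists_cartHom_fibre hts hK0 β hK2 a g
  have hp := hFE1 _ K (resLift g) _ _ c h
  obtain ⟨f, hf, hf1⟩ := hSP1 B (kerPt g) (odp hts hK0 β a) hp
  obtain ⟨e⟩ := nonempty_iso_bcd_odp hts hK0 β hK2 (toAway (k := k) B f) a
  exact ⟨f, notMem_kerPt g hf, h1Zero_of_iso e hf1⟩

omit [CommRing k] in
theorem ideal_ne_bot_of_invertible {R : Type*} [CommRing R] [Nontrivial R] (I : Ideal R)
    [Module.Invertible R I] : I ≠ ⊥ := by
  intro h
  have h10 : (1 : R) = 0 := by
    apply FaithfulSMul.eq_of_smul_eq_smul (α := I)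
    intro m
    have hm : (m : R) = 0 := by
      have hmem : (m : R) ∈ (⊥ : Ideal R) := h ▸ m.2
      simpa using hmem
    apply Subtype.ext
    simp [hm]
  exact one_ne_zero h10

include hK0 in
/-- Over a nontrivial ring the tautological section is nonzero. -/
theorem one0_ne_zero [Nontrivial (B ⊗[k] A0)] (a : chartRing k A0 β →ₐ[k] B) :
    one0 (A1 := A1) (A01 := A01) (t := t) (s := s) hts hK0 β a ≠ 0 := by
  intro h
  have hz := zeroIdeal_one0 (A1 := A1) (A01 := A01) (t := t) (s := s) hts hK0 β a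
  rw [h, zeroIdeal_zero] at hz
  have := invertible_pointIdeal hK0 β a
  exact ideal_ne_bot_of_invertible (pointIdeal β a) hz.symm


omit [IsLocalization.Away t A01] [IsLocalization.Away s A01] in
theorem cartHom_f0_smul {B' : Type u} [CommRing B'] [Algebra k B'] {ψ : B →ₐ[k] B'}
    {N : CDiag k A0 A1 A01 t s B} {N' : CDiag k A0 A1 A01 t s B'}
    (c : LineDiag.CartHom (familyHom ψ t s) N N') (b : B) (σ : N.M0) :
    c.f0 (algebraMap B (B ⊗[k] A0) b • σ) = algebraMap B' (B' ⊗[k] A0) (ψ b) • c.f0 σ := by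
  rw [map_smulₛₗ]
  congr 1

omit [IsLocalization.Away t A01] [IsLocalization.Away s A01] in
theorem cartHom_f1_smul {B' : Type u} [CommRing B'] [Algebra k B'] {ψ : B →ₐ[k] B'}
    {N : CDiag k A0 A1 A01 t s B} {N' : CDiag k A0 A1 A01 t s B'}
    (c : LineDiag.CartHom (familyHom ψ t s) N N') (b : B) (σ : N.M1) :
    c.f1 (algebraMap B (B ⊗[k] A1) b • σ) = algebraMap B' (B' ⊗[k] A1) (ψ b) • c.f1 σ := by
  rw [map_smulₛₗ]
  congr 1

include hK2 hBC1 hBC2 hFE2 hSP2 in
/-- A generating tautological section spreads out from a field-valued point. -/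
theorem exists_away_gen [Nontrivial (K ⊗[k] A0)] (a : chartRing k A0 β →ₐ[k] B) (g : B →ₐ[k] K)
    (h1 : H1Zero (odp hts hK0 β a)) (hg : GoodPt hts hK0 β (g.comp a)) :
    ∃ f : B, g f ≠ 0 ∧ GoodPt hts hK0 β ((toAway (k := k) B f).comp a) := by
  -- a generating section on a first basic open
  obtain ⟨c⟩ := exists_cartHom_fibre hts hK0 β hK2 a g
  obtain ⟨σp0, σp1, hσp⟩ := hFE2 _ K (resLift g) _ _ c _ _ hg.1 hg.2
  obtain ⟨f2, hf2, σ0', σ1', hσ'⟩ := hSP2 B (kerPt g) (odp hts hK0 β a) σp0 σp1 h1 hσp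
  have hgf2 : g f2 ≠ 0 := notMem_kerPt g hf2
  obtain ⟨e⟩ := nonempty_iso_bcd_odp hts hK0 β hK2 (toAway (k := k) B f2) a
  set a2 := (toAway (k := k) B f2).comp a with ha2
  have hgen2 := isGenSection_of_iso e hσ'
  have hH2 : H1Zero (odp hts hK0 β a2) := by
    obtain ⟨c2, -, -⟩ := exists_cartHom_odp hts hK0 β hK2 (toAway (k := k) B f2) a
    exact hBC1 _ _ _ _ _ c2 h1
  -- the tautological section is a multiple `b` of it
  obtain ⟨b, ⟨hb0, hb1⟩, -⟩ := hgen2.2 _ _ (one_comm hts hK0 β a2)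
  -- `b` does not vanish at the point
  obtain ⟨g2, hg2⟩ := exists_lift_away g hgf2
  have hg2a : g2.comp a2 = g.comp a := by rw [ha2, ← AlgHom.comp_assoc, hg2]
  have hb : g2 b ≠ 0 := by
    intro hb
    obtain ⟨c3, h30, -⟩ := exists_cartHom_odp hts hK0 β hK2 g2 a2
    rw [hb0, cartHom_f0_smul, hb, map_zero, zero_smul] at h30
    exact one0_ne_zero hts hK0 β (g2.comp a2) h30.symm
  -- invert `b`
  set a3 := (toAway (k := k) (Localization.Away f2) b).comp a2 with ha3
  have hgood3 : GoodPt hts hK0 β a3 := by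
    obtain ⟨c3, h30, h31⟩ := exists_cartHom_odp hts hK0 β hK2
      (toAway (k := k) (Localization.Away f2) b) a2
    refine ⟨hBC1 _ _ _ _ _ c3 hH2, ?_⟩
    have hgen3 := hBC2 _ _ _ _ _ c3 _ _ hH2 hgen2
    refine isGenSection_of_unit_smul hgen3
      (IsLocalization.Away.algebraMap_isUnit (S := Localization.Away b) b) ?_ ?_
    · rw [← h30, hb0, cartHom_f0_smul]
      rfl
    · rw [← h31, hb1, cartHom_f1_smul]
      rfl
  -- back to a basic open of `B`
  obtain ⟨φ, u, hu, hφ⟩ := exists_away_of_away_away (k := k) f2 b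
  refine ⟨φ, hφ K g g2 hg2 hb, ?_⟩
  have := hgood3.comp hts hK0 β hK2 hBC1 hBC2 u
  rwa [ha3, ha2, ← AlgHom.comp_assoc, ← AlgHom.comp_assoc, AlgHom.comp_assoc u, hu] at this


include hK2 hBC1 hBC2 hFE1 hFE2 hSP1 hSP2 in
/-- **Good points spread out**: a good field-valued point of `Spec B` lying over the Hilbert chart
has a basic open neighbourhood over which the point of the Hilbert chart is good. -/
theorem exists_away_goodPt [Nontrivial (K ⊗[k] A0)] (a : chartRing k A0 β →ₐ[k] B)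
    (g : B →ₐ[k] K) (hg : GoodPt hts hK0 β (g.comp a)) :
    ∃ f : B, g f ≠ 0 ∧ GoodPt hts hK0 β ((toAway (k := k) B f).comp a) := by
  obtain ⟨f1, hf1, h1⟩ := exists_away_h1 hts hK0 β hK2 hFE1 hSP1 a g hg.1
  obtain ⟨g1, hg1⟩ := exists_lift_away g hf1
  have hg1a : g1.comp ((toAway (k := k) B f1).comp a) = g.comp a := by
    rw [← AlgHom.comp_assoc, hg1]
  obtain ⟨f2, hf2, hgood⟩ := exists_away_gen hts hK0 β hK2 hBC1 hBC2 hFE2 hSP2
    ((toAway (k := k) B f1).comp a) g1 h1 (by rwa [hg1a])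
  obtain ⟨φ, u, hu, hφ⟩ := exists_away_of_away_away (k := k) f1 f2
  refine ⟨φ, hφ K g g1 hg1 hf2, ?_⟩
  have := hgood.comp hts hK0 β hK2 hBC1 hBC2 u
  rwa [← AlgHom.comp_assoc, ← AlgHom.comp_assoc, AlgHom.comp_assoc u, hu] at this


end Spread

/-! ### The class of a point and the chart conditions -/

section Class

variable (hts : algebraMap A0 A01 t * algebraMap A1 A01 s = 1)
  (hK0 : Brick.K0 k A0) {n : ℕ} (β : Fin n → A0)
  {B B' : Type u} [CommRing B] [CommRing B'] [Algebra k B] [Algebra k B']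
  (hK2 : Brick.K2 k A0 A1 A01 t s hts)
  {J : Type u} (lam : J → ClR k A0 A1 A01 t s k)

theorem bc_twist (ψ : B →ₐ[k] B') (j : J) : bcR ψ (twist lam B j) = twist lam B' j := by
  unfold twist
  have h : ψ.comp (Algebra.ofId k B) = Algebra.ofId k B' := Subsingleton.elim _ _
  rw [bcR_bc, h]

/-- The class `[O(D_a)] · [lam j]⁻¹` of a point of the Hilbert chart. -/
noncomputable def pcl (j : J) (a : chartRing k A0 β →ₐ[k] B) : ClR k A0 A1 A01 t s B :=
  cls (odp hts hK0 β a) * (twist lam B j)⁻¹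

include hK2 in
theorem bc_pcl (ψ : B →ₐ[k] B') (j : J) (a : chartRing k A0 β →ₐ[k] B) :
    bcR ψ (pcl hts hK0 β lam j a) = pcl hts hK0 β lam j (ψ.comp a) := by
  unfold pcl
  rw [map_mul, map_inv, bc_cls_odp hts hK0 β hK2, bc_twist]

theorem locClass_eq (j : J) (φ : chartRing k A0 β) :
    locClass hts lam β j φ =
      pcl hts hK0 β lam j (toAway (k := k) (chartRing k A0 β) φ) := by
  unfold locClass pcl locIdeal
  rw [cls_odp]

end Class


end Fermat.Agent.FFJ.Pic.ChartCoversR4
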