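/-
Programme FFJ (S19), chapter PIC, brick (D5) COMMON-β of COORD #2 (report #1554).
Owner of this file: helper65.  Mathlib only.

**A common basis for finitely many quotients.**  Finitely many `L`-vector spaces `Q i` of the same
finite dimension `g`, each spanned over `L` by the image of a map `q i : W → Q i`, where `W` is a
vector space over a subfield `F` of `L` with more than `#ι` elements (or a module over a local ring
with such a residue field, which acts on the `Q i` through its residue field).  Then there are
`w₁, …, w_g ∈ W` whose images form an `L`-basis of every `Q i`.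

* `exists_common_linearIndependent`, `exists_common_basis_of_avoidance` : the induction, from an
  abstract avoidance property;
* `exists_common_basis`               : the field version;
* `exists_common_basis_of_isLocalRing` : the local ring version (the form consumed by CHART-FIN);
* `natCast_lt_enatCard`               : `Infinite F ∨ Nat.card ι < Nat.card F` gives the cardinality
  hypothesis.
-/
import Mathlib

set_option autoImplicit false

namespace Fermat.Agent.FFJ.Pic.CommonBasis65

open Submodule

section Core

variable {L : Type*} [Field L] {W : Type*} {ι : Type*} (Q : ι → Type*)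
  [∀ i, AddCommGroup (Q i)] [∀ i, Module L (Q i)]

/-- The induction: if proper subspaces of the `Q i` can be avoided simultaneously by the image of one
element of `W`, then for every `m ≤ g` there are `m` elements of `W` whose images are linearly
independent in every `Q i`. -/
theorem exists_common_linearIndependent (q : ∀ i, W → Q i) (g : ℕ)
    (hg : ∀ i, Module.finrank L (Q i) = g)
    (hav : ∀ S : ∀ i, Submodule L (Q i), (∀ i, S i ≠ ⊤) → ∃ x : W, ∀ i, q i x ∉ S i)
    (m : ℕ) (hm : m ≤ g) :
    ∃ w : Fin m → W, ∀ i, LinearIndependent L (fun j => q i (w j)) := by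
  induction m with
  | zero => exact ⟨Fin.elim0, fun i => linearIndependent_empty_type⟩
  | succ m ih =>
    obtain ⟨w, hw⟩ := ih (Nat.le_of_succ_le hm)
    have hne : ∀ i, span L (Set.range fun j => q i (w j)) ≠ ⊤ := by
      intro i h
      have h1 := finrank_span_eq_card (hw i)
      rw [h, finrank_top, hg i, Fintype.card_fin] at h1
      omega
    obtain ⟨x, hx⟩ := hav (fun i => span L (Set.range fun j => q i (w j))) hne
    refine ⟨Fin.snoc w x, fun i => ?_⟩
    have e : (fun j => q i ((Fin.snoc w x : Fin (m + 1) → W) j)) =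
        (Fin.snoc (fun j => q i (w j)) (q i x) : Fin (m + 1) → Q i) := by
      funext j
      refine Fin.lastCases ?_ (fun j => ?_) j
      · simp
      · simp
    rw [e, linearIndependent_finSnoc]
    exact ⟨hw i, hx i⟩

/-- From the avoidance property to a common basis. -/
theorem exists_common_basis_of_avoidance [∀ i, Module.Finite L (Q i)] (q : ∀ i, W → Q i) (g : ℕ)
    (hg : ∀ i, Module.finrank L (Q i) = g)
    (hav : ∀ S : ∀ i, Submodule L (Q i), (∀ i, S i ≠ ⊤) → ∃ x : W, ∀ i, q i x ∉ S i) :
    ∃ w : Fin g → W, ∀ i, LinearIndependent L (fun j => q i (w j)) ∧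
      span L (Set.range fun j => q i (w j)) = ⊤ := by
  obtain ⟨w, hw⟩ := exists_common_linearIndependent Q q g hg hav g le_rfl
  exact ⟨w, fun i => ⟨hw i, (hw i).span_eq_top_of_card_eq_finrank' (by simp [hg i])⟩⟩

end Core

/-- The cardinality hypothesis in its two usual forms. -/
theorem natCast_lt_enatCard {ι F : Type*} (h : Infinite F ∨ Nat.card ι < Nat.card F) :
    (Nat.card ι : ℕ∞) < ENat.card F := by
  rcases h with h | h
  · rw [ENat.card_eq_top_of_infinite]
    exact ENat.natCast_lt_top _
  · have hF : Finite F := by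
      by_contra hinf
      rw [not_finite_iff_infinite] at hinf
      have h0 : Nat.card F = 0 := Nat.card_eq_zero_of_infinite
      omega
    rw [ENat.card_eq_coe_natCard F]
    exact_mod_cast h

/-- **(D5) COMMON-β, field version.** -/
theorem exists_common_basis {F L : Type*} [Field F] [Field L] [Algebra F L] {W : Type*}
    [AddCommGroup W] [Module F W] {ι : Type*} [Finite ι] (Q : ι → Type*)
    [∀ i, AddCommGroup (Q i)] [∀ i, Module L (Q i)] [∀ i, Module F (Q i)]
    [∀ i, IsScalarTower F L (Q i)] [∀ i, Module.Finite L (Q i)] (q : ∀ i, W →ₗ[F] Q i) (g : ℕ)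
    (hg : ∀ i, Module.finrank L (Q i) = g)
    (hspan : ∀ i, span L (Set.range (q i)) = ⊤) (hcard : (Nat.card ι : ℕ∞) < ENat.card F) :
    ∃ w : Fin g → W, ∀ i, LinearIndependent L (fun j => q i (w j)) ∧
      span L (Set.range fun j => q i (w j)) = ⊤ := by
  classical
  refine exists_common_basis_of_avoidance Q (fun i => q i) g hg (fun S hS => ?_)
  let _ : Fintype ι := Fintype.ofFinite ι
  let p : ι → Submodule F W := fun i => ((S i).restrictScalars F).comap (q i)
  have hp : ∀ i, p i ≠ ⊤ := by
    intro i h
    apply hS i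
    rw [eq_top_iff, ← hspan i, span_le]
    rintro _ ⟨w, rfl⟩
    have : w ∈ p i := by rw [h]; trivial
    exact this
  have hlt := Submodule.iUnion_ssubset_of_forall_ne_top_of_card_lt Finset.univ p hp
    (by rwa [Finset.card_univ, ← Nat.card_eq_fintype_card])
  obtain ⟨x, -, hx⟩ := Set.exists_of_ssubset hlt
  refine ⟨x, fun i hi => hx ?_⟩
  simp only [Set.mem_iUnion, Finset.mem_univ, exists_true_left]
  exact ⟨i, hi⟩

/-- A family of proper submodules of a module over a local ring, all containing `𝔪 W`, can be avoided
simultaneously if the residue field is big enough. -/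
theorem exists_forall_notMem_of_isLocalRing {k : Type*} [CommRing k] [IsLocalRing k] {W : Type*}
    [AddCommGroup W] [Module k W] {ι : Type*} [Finite ι] (p : ι → Submodule k W)
    (hm : ∀ i, IsLocalRing.maximalIdeal k • (⊤ : Submodule k W) ≤ p i) (hp : ∀ i, p i ≠ ⊤)
    (hcard : (Nat.card ι : ℕ∞) < ENat.card (IsLocalRing.ResidueField k)) :
    ∃ x : W, ∀ i, x ∉ p i := by
  classical
  let _ : Fintype ι := Fintype.ofFinite ι
  let 𝔪 := IsLocalRing.maximalIdeal k
  let _ : Field (k ⧸ 𝔪) := Ideal.Quotient.field 𝔪
  let mk : W →ₗ[k] W ⧸ (𝔪 • (⊤ : Submodule k W)) := (𝔪 • (⊤ : Submodule k W)).mkQ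
  let p' : ι → Submodule (k ⧸ 𝔪) (W ⧸ (𝔪 • (⊤ : Submodule k W))) := fun i =>
    { carrier := ((p i).map mk : Set _)
      add_mem' := fun ha hb => ((p i).map mk).add_mem ha hb
      zero_mem' := ((p i).map mk).zero_mem
      smul_mem' := by
        rintro c _ ⟨x, hx, rfl⟩
        obtain ⟨c, rfl⟩ := Ideal.Quotient.mk_surjective c
        exact ⟨c • x, (p i).smul_mem c hx, rfl⟩ }
  have hmem : ∀ i (x : W), mk x ∈ p' i → x ∈ p i := by
    rintro i x ⟨y, hy, hxy⟩
    have h1 : y - x ∈ 𝔪 • (⊤ : Submodule k W) := by
      rw [← Submodule.Quotient.mk_eq_zero, Submodule.Quotient.mk_sub]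
      exact sub_eq_zero.mpr hxy
    have h2 : y - x ∈ p i := hm i h1
    have : x = y - (y - x) := by abel
    rw [this]
    exact (p i).sub_mem hy h2
  have hp' : ∀ i, p' i ≠ ⊤ := by
    intro i h
    apply hp i
    rw [eq_top_iff]
    intro x _
    exact hmem i x (by rw [h]; trivial)
  have hlt := Submodule.iUnion_ssubset_of_forall_ne_top_of_card_lt Finset.univ p' hp'
    (by rwa [Finset.card_univ, ← Nat.card_eq_fintype_card])
  obtain ⟨x', -, hx'⟩ := Set.exists_of_ssubset hlt
  obtain ⟨x, rfl⟩ := (𝔪 • (⊤ : Submodule k W)).mkQ_surjective x'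
  refine ⟨x, fun i hi => hx' ?_⟩
  simp only [Set.mem_iUnion, Finset.mem_univ, exists_true_left]
  exact ⟨i, ⟨x, hi, rfl⟩⟩

/-- **(D5) COMMON-β, local ring version**: `k` a local ring, `K` a field over `k` killed by the
maximal ideal, `q i : W → Q i` `k`-linear maps to `K`-vector spaces of the same dimension `n` with
spanning images, and the residue field of `k` has more than `#ι` elements.  Then some
`β : Fin n → W` maps to a `K`-basis of every `Q i`. -/
theorem exists_common_basis_of_isLocalRing {k : Type*} [CommRing k] [IsLocalRing k] {K : Type*}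
    [Field K] [Algebra k K] (hK : ∀ x ∈ IsLocalRing.maximalIdeal k, algebraMap k K x = 0)
    {W : Type*} [AddCommGroup W] [Module k W] {ι : Type*} [Finite ι] (Q : ι → Type*)
    [∀ i, AddCommGroup (Q i)] [∀ i, Module K (Q i)] [∀ i, Module k (Q i)]
    [∀ i, IsScalarTower k K (Q i)] [∀ i, Module.Finite K (Q i)] (q : ∀ i, W →ₗ[k] Q i) (n : ℕ)
    (hn : ∀ i, Module.finrank K (Q i) = n)
    (hspan : ∀ i, span K (Set.range (q i)) = ⊤)
    (hcard : (Nat.card ι : ℕ∞) < ENat.card (IsLocalRing.ResidueField k)) :
    ∃ β : Fin n → W, ∀ i, LinearIndependent K (fun j => q i (β j)) ∧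
      span K (Set.range fun j => q i (β j)) = ⊤ := by
  refine exists_common_basis_of_avoidance Q (fun i => q i) n hn (fun S hS => ?_)
  let p : ι → Submodule k W := fun i => ((S i).restrictScalars k).comap (q i)
  have hp : ∀ i, p i ≠ ⊤ := by
    intro i h
    apply hS i
    rw [eq_top_iff, ← hspan i, span_le]
    rintro _ ⟨w, rfl⟩
    have : w ∈ p i := by rw [h]; trivial
    exact this
  have hm : ∀ i, IsLocalRing.maximalIdeal k • (⊤ : Submodule k W) ≤ p i := by
    intro i
    rw [Submodule.smul_le]
    intro c hc w _
    change q i (c • w) ∈ S i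
    rw [map_smul, ← algebraMap_smul K c (q i w), hK c hc, zero_smul]
    exact (S i).zero_mem
  obtain ⟨x, hx⟩ := exists_forall_notMem_of_isLocalRing p hm hp hcard
  exact ⟨x, fun i hi => hx i hi⟩

end Fermat.Agent.FFJ.Pic.CommonBasis65
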