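/-
Programme FFJ (S19), chapter PIC, brick (D7) CHART-FIN of COORD #2 (SpecD35.ChartFinStatement).
Owner: helper4.

ONE chart `(β, φ)` of the twist `j` containing finitely many field-valued classes: the finite version
of JAC/Hilb/ChartCovers4.exists_chart_of_goodAt over a local base ring `k`.
* `exists_away_goodPt_finite` : goodness of the point of the Hilbert chart spreads out from finitely
  many field-valued points to ONE basic open (from `SpecD35.FinGood`);
* `exists_common_isBasedQuot` : a common basis `β : Fin n → A0` of finitely many divisor rings of the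
  same rank over a field over the residue field of `k` (from `CommonBasis65`);
* `chartFin` : `SpecD35.ChartFinStatement`, from the bricks BC1 BC2 FE1 FE2 K0 K1 K2 K4 G7 of
  `ChartSpecR35` and `FinGood`, `FinRigid`, `FinDeg` of `SpecD35`, all taken as hypotheses in literal
  form.
-/
import Mathlib
import Fermat.Agent.FFJ.Pic.ChartCoversR4
import Fermat.Agent.FFJ.Pic.CommonBasis65

set_option autoImplicit false
set_option maxHeartbeats 400000
set_option linter.unusedSectionVars false

universe u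

namespace Fermat.Agent.FFJ.Pic.ChartFin4

open scoped TensorProduct Polynomial
open scoped Fermat.Agent.JAC.Core.ConstFamily36
open Fermat.Agent.JAC.Core.Defs36 Fermat.Agent.JAC.Core.Cart36 Fermat.Agent.JAC.Core.ConstFamily36
  Fermat.Agent.JAC.Core.Degree36 Fermat.Agent.FFJ.Core.ClR35 Fermat.Agent.JAC.Grp.Diag33
  Fermat.Agent.JAC.Grp.Cart33 Fermat.Agent.FFJ.Core.ClRBc35
  Fermat.Agent.JAC.Hilb.BasedQuot46 Fermat.Agent.JAC.Hilb.ZeroIdeal46
  Fermat.Agent.FFJ.Pic.ChartDefR35 Fermat.Agent.FFJ.Pic.ChartSpecR35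
  Fermat.Agent.FFJ.Pic.SpecD35 Fermat.Agent.FFJ.Pic.ChartCoversR4

variable {k : Type u} [CommRing k] {A0 A1 A01 : Type u} [CommRing A0] [CommRing A1] [CommRing A01]
  [Algebra k A0] [Algebra k A1] [Algebra k A01] [Algebra A0 A01] [Algebra A1 A01]
  [IsScalarTower k A0 A01] [IsScalarTower k A1 A01] {t : A0} {s : A1}
  [IsLocalization.Away t A01] [IsLocalization.Away s A01]

/-! ### Spreading of goodness from finitely many field-valued points -/

section Spread

variable (hts : algebraMap A0 A01 t * algebraMap A1 A01 s = 1)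
  (hK0 : Brick.K0 k A0) {n : ℕ} (β : Fin n → A0)
  {B : Type u} [CommRing B] [Algebra k B] {K : Type u} [Field K] [Algebra k K]
  (hK2 : Brick.K2 k A0 A1 A01 t s hts)
  (hBC1 : Brick.BC1 k A0 A1 A01 t s) (hBC2 : Brick.BC2 k A0 A1 A01 t s)
  (hFE1 : Brick.FE1 k A0 A1 A01 t s) (hFE2 : Brick.FE2 k A0 A1 A01 t s)
  (hFG : FinGood k A0 A1 A01 t s)

include hK2 hBC1 hBC2 hFE1 hFE2 hFG in
/-- **Good points spread out, finite version**: finitely many good field-valued points of `Spec B`
lying over the Hilbert chart have a common basic open neighbourhood over which the point of the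
Hilbert chart is good. -/
theorem exists_away_goodPt_finite [Nontrivial (K ⊗[k] A0)] {ι : Type*} [Finite ι]
    (a : chartRing k A0 β →ₐ[k] B) (g : ι → (B →ₐ[k] K))
    (hg : ∀ i, GoodPt hts hK0 β ((g i).comp a)) :
    ∃ f : B, (∀ i, g i f ≠ 0) ∧ GoodPt hts hK0 β ((toAway (k := k) B f).comp a) := by
  classical
  have : Fintype ι := Fintype.ofFinite ι
  -- the finite set of primes
  set ps : Finset (PrimeSpectrum B) := Finset.univ.image (fun i => kerPt (g i)) with hps
  have hfib : ∀ p ∈ ps, H1Zero (bcd (toResidueR B p) (odp hts hK0 β a)) ∧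
      ∃ (τ0 : (bcd (toResidueR B p) (odp hts hK0 β a)).M0)
        (τ1 : (bcd (toResidueR B p) (odp hts hK0 β a)).M1),
        IsGenSection (bcd (toResidueR B p) (odp hts hK0 β a)) τ0 τ1 := by
    intro p hp
    obtain ⟨i, -, rfl⟩ := Finset.mem_image.mp hp
    obtain ⟨c⟩ := exists_cartHom_fibre hts hK0 β hK2 a (g i)
    exact ⟨hFE1 _ K (resLift (g i)) _ _ c (hg i).1,
      hFE2 _ K (resLift (g i)) _ _ c _ _ (hg i).1 (hg i).2⟩
  obtain ⟨f1, hf1, σ0, σ1, hσ, huniv⟩ := hFG B ps (odp hts hK0 β a) hfib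
  have hgf1 : ∀ i, g i f1 ≠ 0 := fun i =>
    notMem_kerPt (g i) (hf1 _ (Finset.mem_image.mpr ⟨i, Finset.mem_univ i, rfl⟩))
  -- over the first basic open
  set a1 := (toAway (k := k) B f1).comp a with ha1
  obtain ⟨c1, h10, h11⟩ := exists_cartHom_odp hts hK0 β hK2 (toAway (k := k) B f1) a
  obtain ⟨hH1, hgen1⟩ := huniv (Localization.Away f1) (toAway (k := k) B f1) (odp hts hK0 β a1) c1
    (IsLocalization.Away.algebraMap_isUnit f1)
  -- the tautological section is a multiple `b` of the generating section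
  obtain ⟨b, ⟨hb0, hb1⟩, -⟩ := hgen1.2 _ _ (one_comm hts hK0 β a1)
  -- `b` does not vanish at the points
  have hlift : ∀ i, ∃ g' : Localization.Away f1 →ₐ[k] K,
      g'.comp (toAway (k := k) B f1) = g i := fun i => exists_lift_away (g i) (hgf1 i)
  choose g1 hg1 using hlift
  have hb : ∀ i, g1 i b ≠ 0 := by
    intro i hbi
    have hg1a : (g1 i).comp a1 = (g i).comp a := by rw [ha1, ← AlgHom.comp_assoc, hg1]
    obtain ⟨c3, h30, -⟩ := exists_cartHom_odp hts hK0 β hK2 (g1 i) a1
    rw [hb0, cartHom_f0_smul, hbi, map_zero, zero_smul] at h30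
    exact one0_ne_zero hts hK0 β ((g1 i).comp a1) h30.symm
  -- invert `b`
  set a3 := (toAway (k := k) (Localization.Away f1) b).comp a1 with ha3
  have hgood3 : GoodPt hts hK0 β a3 := by
    obtain ⟨c3, h30, h31⟩ := exists_cartHom_odp hts hK0 β hK2
      (toAway (k := k) (Localization.Away f1) b) a1
    refine ⟨hBC1 _ _ _ _ _ c3 hH1, ?_⟩
    have hgen3 := hBC2 _ _ _ _ _ c3 _ _ hH1 hgen1
    refine isGenSection_of_unit_smul hgen3
      (IsLocalization.Away.algebraMap_isUnit (S := Localization.Away b) b) ?_ ?_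
    · rw [← h30, hb0, cartHom_f0_smul]
      rfl
    · rw [← h31, hb1, cartHom_f1_smul]
      rfl
  -- back to a basic open of `B`
  obtain ⟨φ, u, hu, hφ⟩ := exists_away_of_away_away (k := k) f1 b
  refine ⟨φ, fun i => hφ K (g i) (g1 i) (hg1 i) (hb i), ?_⟩
  have := hgood3.comp hts hK0 β hK2 hBC1 hBC2 u
  rwa [ha3, ha1, ← AlgHom.comp_assoc, ← AlgHom.comp_assoc, AlgHom.comp_assoc u, hu] at this

end Spread

/-! ### A common basis of finitely many divisor rings -/

section Common

variable [IsLocalRing k] {K : Type u} [Field K] [Algebra k K]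

omit [IsLocalRing k] in
/-- A family of `n` elements of `A0` whose classes form a `K`-basis of `(K ⊗ A0) ⧸ I` makes `I` a
based quotient. -/
theorem isBasedQuot_of_basis {n : ℕ} (β : Fin n → A0) (I : Ideal (K ⊗[k] A0))
    (hli : LinearIndependent K (fun j => Ideal.Quotient.mk I ((1 : K) ⊗ₜ[k] β j)))
    (hsp : Submodule.span K (Set.range fun j => Ideal.Quotient.mk I ((1 : K) ⊗ₜ[k] β j)) = ⊤) :
    IsBasedQuot β I := by
  let bas : Module.Basis (Fin n) K ((K ⊗[k] A0) ⧸ I) := Module.Basis.mk hli hsp.ge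
  have : basisMap β I = bas.equivFun.symm.toLinearMap := by
    apply LinearMap.pi_ext
    intro i c
    unfold basisMap
    rw [Fintype.linearCombination_apply_single, LinearEquiv.coe_coe,
      Module.Basis.equivFun_symm_apply, Finset.sum_eq_single i, Pi.single_eq_same]
    · simp [bas]
    · intro j _ hj
      rw [Pi.single_eq_of_ne hj, zero_smul]
    · intro h
      exact absurd (Finset.mem_univ i) h
  unfold IsBasedQuot
  rw [this]
  exact bas.equivFun.symm.bijective

/-- **A common basis**: finitely many ideals of `K ⊗ A0` with quotients of the same finite dimension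
`n` over `K` (a field killed by the maximal ideal of the local ring `k`, whose residue field is large
enough) are `β`-based quotients for ONE `β : Fin n → A0`. -/
theorem exists_common_isBasedQuot (hK : ∀ x ∈ IsLocalRing.maximalIdeal k, algebraMap k K x = 0)
    {ι : Type*} [Finite ι] (I : ι → Ideal (K ⊗[k] A0)) (n : ℕ)
    (hfin : ∀ i, Module.Finite K ((K ⊗[k] A0) ⧸ I i))
    (hrank : ∀ i, Module.finrank K ((K ⊗[k] A0) ⧸ I i) = n)
    (hcard : Infinite (IsLocalRing.ResidueField k) ∨
      Nat.card ι < Nat.card (IsLocalRing.ResidueField k)) :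
    ∃ β : Fin n → A0, ∀ i, IsBasedQuot β (I i) := by
  have hcard' : (Nat.card ι : ℕ∞) < ENat.card (IsLocalRing.ResidueField k) := by
    rcases hcard with h | h
    · rw [ENat.card_eq_top_of_infinite]
      exact ENat.natCast_lt_top _
    · have hfinite : Finite (IsLocalRing.ResidueField k) := by
        by_contra hinf
        rw [not_finite_iff_infinite] at hinf
        rw [Nat.card_eq_zero_of_infinite (α := IsLocalRing.ResidueField k)] at h
        exact Nat.not_lt_zero _ h
      rw [ENat.card_eq_coe_natCard]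
      exact_mod_cast h
  let q : ∀ i, A0 →ₗ[k] (K ⊗[k] A0) ⧸ I i := fun i =>
    (Ideal.Quotient.mkₐ k (I i)).toLinearMap ∘ₗ
      (Algebra.TensorProduct.includeRight (R := k) (A := K) (B := A0)).toLinearMap
  have hq : ∀ i a, q i a = Ideal.Quotient.mk (I i) ((1 : K) ⊗ₜ[k] a) := fun i a => rfl
  have hspan : ∀ i, Submodule.span K (Set.range (q i)) = ⊤ := by
    intro i
    rw [eq_top_iff]
    rintro x -
    obtain ⟨x, rfl⟩ := Ideal.Quotient.mk_surjective x
    induction x using TensorProduct.induction_on with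
    | zero => simp
    | tmul c a =>
      have : Ideal.Quotient.mk (I i) (c ⊗ₜ[k] a) =
          c • Ideal.Quotient.mk (I i) ((1 : K) ⊗ₜ[k] a) := by
        rw [smul_mk, TensorProduct.smul_tmul', smul_eq_mul, mul_one]
      rw [this]
      exact Submodule.smul_mem _ _ (Submodule.subset_span ⟨a, hq i a⟩)
    | add x y hx hy =>
      rw [map_add]
      exact Submodule.add_mem _ hx hy
  obtain ⟨β, hβ⟩ := CommonBasis65.exists_common_basis_of_isLocalRing hK
    (fun i => (K ⊗[k] A0) ⧸ I i) q n hrank hspan hcard'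
  exact ⟨β, fun i => isBasedQuot_of_basis β (I i) (hβ i).1 (hβ i).2⟩

end Common

/-! ### (D7) CHART-FIN -/

section Main

variable [IsLocalRing k] (H : CurveHypR k A0 A1 A01 t s) (e : A01 →ₐ[k] k)
  (hBC1 : Brick.BC1 k A0 A1 A01 t s) (hBC2 : Brick.BC2 k A0 A1 A01 t s)
  (hFE1 : Brick.FE1 k A0 A1 A01 t s) (hFE2 : Brick.FE2 k A0 A1 A01 t s)
  (hK0 : Brick.K0 k A0) (hK1 : Brick.K1 k A0 A1 A01 t s H.hts)
  (hK2 : Brick.K2 k A0 A1 A01 t s H.hts) (hK4 : Brick.K4 k A0 A1 A01 t s)
  (hG7 : Brick.G7 k A0 A1 A01 t s)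
  (hFG : FinGood k A0 A1 A01 t s) (hFR : FinRigid k A0 A1 A01 t s e)
  (hFD : FinDeg k A0 A1 A01 t s)

include H hBC1 hBC2 hFE1 hFE2 hK0 hK1 hK2 hK4 hG7 hFG hFR hFD in
/-- **(D7) CHART-FIN**: one chart `(β, φ)` of the twist `j` contains finitely many given classes of
degree zero over a field `K` over the residue field of the local ring `k`, all good of the same rank
`n` after the twist `lam j`. -/
theorem chartFin : ChartFinStatement k A0 A1 A01 t s H.hts e := by
  intro J lam j n K _ _ hK ι _ ξ hcard hdeg hgood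
  classical
  have : Fintype ι := Fintype.ofFinite ι
  choose N σ0 σ1 hcls hH1 hgen hnz hrank using hgood
  have hfin : ∀ i, Module.Finite K ((K ⊗[k] A0) ⧸ zeroIdeal (K ⊗[k] A0) (σ0 i)) := fun i =>
    (hK4 K (N i) (σ0 i) (σ1 i) (hH1 i) (hgen i) (hnz i)).1
  -- a common basis
  obtain ⟨β, hβ⟩ := exists_common_isBasedQuot hK (fun i => zeroIdeal (K ⊗[k] A0) (σ0 i)) n hfin
    hrank hcard
  -- the classifying points
  have hpts : ∀ i, ∃ g : chartRing k A0 β →ₐ[k] K,
      pointIdeal β g = zeroIdeal (K ⊗[k] A0) (σ0 i) := fun i =>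
    ChartWR37.exists_pointIdeal_eq β (hβ i)
  choose g hpt using hpts
  have : Nontrivial (K ⊗[k] A0) := by
    have := H.dedekind0 K
    infer_instance
  -- the points are good and their classes are the `ξ i`
  have hiso : ∀ i, cls (N i) = cls (odp H.hts hK0 β (g i)) := by
    intro i
    obtain ⟨-, hclsN⟩ := hK1 K (N i) (σ0 i) (σ1 i) (hgen i).1 (hnz i) (hfin i)
    rw [hclsN, cls_odp, hpt]
  have hgood0 : ∀ i, GoodPt H.hts hK0 β (g i) := by
    intro i
    obtain ⟨e'⟩ := cls_eq_iff.mp (hiso i)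
    have hgen' := isGenSection_of_iso e' (hgen i)
    obtain ⟨b, ⟨hb0, hb1⟩, -⟩ := hgen'.2 _ _ (one_comm H.hts hK0 β (g i))
    have hb : b ≠ 0 := by
      rintro rfl
      rw [map_zero, zero_smul] at hb0
      exact one0_ne_zero H.hts hK0 β (g i) hb0
    exact ⟨h1Zero_of_iso e' (hH1 i), isGenSection_of_unit_smul hgen' (IsUnit.mk0 b hb) hb0 hb1⟩
  have hξ : ∀ i, pcl H.hts hK0 β lam j (g i) = ξ i := by
    intro i
    unfold pcl
    rw [← hiso i, hcls i, mul_inv_cancel_right]
  -- spreading out on the Hilbert chart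
  obtain ⟨f1, hf1, hgood1⟩ := exists_away_goodPt_finite H.hts hK0 β hK2 hBC1 hBC2 hFE1 hFE2 hFG
    (AlgHom.id k (chartRing k A0 β)) g (fun i => by rw [AlgHom.comp_id]; exact hgood0 i)
  rw [AlgHom.comp_id] at hgood1
  have hbcξ : ∀ {B : Type u} [CommRing B] [Algebra k B] (a : chartRing k A0 β →ₐ[k] B),
      bcR a (pcl H.hts hK0 β lam j (AlgHom.id k (chartRing k A0 β))) =
        pcl H.hts hK0 β lam j a := by
    intro B _ _ a
    rw [bc_pcl H.hts hK0 β hK2, AlgHom.comp_id]
  set ps : Finset (PrimeSpectrum (chartRing k A0 β)) :=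
    Finset.univ.image (fun i => kerPt (g i)) with hps
  have hmem : ∀ i, kerPt (g i) ∈ ps := fun i =>
    Finset.mem_image.mpr ⟨i, Finset.mem_univ i, rfl⟩
  obtain ⟨f4, hf4, hrig⟩ := hFR (chartRing k A0 β) ps
    (pcl H.hts hK0 β lam j (AlgHom.id k (chartRing k A0 β)))
  rw [hbcξ] at hrig
  have hdegp : ∀ p ∈ ps, IsDegZeroR p.asIdeal.ResidueField
      (bcR (toResidueR (chartRing k A0 β) p)
        (pcl H.hts hK0 β lam j (AlgHom.id k (chartRing k A0 β)))) := by
    intro p hp
    obtain ⟨i, -, rfl⟩ := Finset.mem_image.mp hp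
    apply hG7 _ K (resLift (g i))
    rw [bcR_bc, resLift_comp, hbcξ, hξ]
    exact hdeg i
  obtain ⟨f5, hf5, hdeg5⟩ := hFD (chartRing k A0 β) ps _ hdegp
  rw [hbcξ] at hdeg5
  obtain ⟨v1, hv1⟩ := exists_away_map_of_dvd (k := k) (f := f1) (φ := f1 * f4 * f5)
    ⟨f4 * f5, by ring⟩
  obtain ⟨v4, hv4⟩ := exists_away_map_of_dvd (k := k) (f := f4) (φ := f1 * f4 * f5)
    ⟨f1 * f5, by ring⟩
  obtain ⟨v5, hv5⟩ := exists_away_map_of_dvd (k := k) (f := f5) (φ := f1 * f4 * f5)
    ⟨f1 * f4, by ring⟩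
  refine ⟨β, f1 * f4 * f5, ⟨?_, ?_, ?_⟩, ?_⟩
  · have := hgood1.comp H.hts hK0 β hK2 hBC1 hBC2 v1
    rw [hv1] at this
    exact ⟨finite_pointIdeal β _, invertible_pointIdeal hK0 β _, this.1, this.2⟩
  · rw [locClass_eq H.hts hK0]
    have := isRigidClR_bcR e v4 _ hrig
    rwa [bc_pcl H.hts hK0 β hK2, hv4] at this
  · rw [locClass_eq H.hts hK0]
    have := isDegZeroR_bcR v5 _ hdeg5
    rwa [bc_pcl H.hts hK0 β hK2, hv5] at this
  · intro i
    refine ChartWR37.chartW_intro lam β j (f1 * f4 * f5) (N i) (σ0 i) (σ1 i) (hcls i) (hH1 i)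
      (hgen i) (hnz i) (g i) (hpt i) ?_
    rw [map_mul, map_mul]
    exact IsUnit.mk0 _ (mul_ne_zero (mul_ne_zero (hf1 i) (notMem_kerPt (g i) (hf4 _ (hmem i))))
      (notMem_kerPt (g i) (hf5 _ (hmem i))))

end Main

end Fermat.Agent.FFJ.Pic.ChartFin4
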