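/-
Programme FFJ (S19), chapter PIC.  Owner of this file: helper65.

**The degree bricks over a base ring**, in the literal forms of `FFJ/Pic/ChartSpecR35` and
`FFJ/Pic/SpecD35`, from `FFJ/Core/DegFamilyR65` (the degree of the fibres of a class is a locally
constant function on `Spec B`):

* `g6R`     : `ChartSpecR35.Brick.G6` (degree zero at a point spreads to a basic open neighbourhood);
* `g7R`     : `ChartSpecR35.Brick.G7` (degree zero descends along field extensions);
* `exists_idempotent_degZeroR` : the degree-zero locus of a class is `D(e)` for an idempotent `e`,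
              and the class has degree zero over `B[1/e]`;
* `finDeg`  : `SpecD35.FinDeg` (degree zero at finitely many -- in fact at any set of -- primes
              spreads to ONE basic open containing all of them; no prime avoidance is needed since
              the degree-zero locus is open and closed).
-/
import Fermat.Agent.FFJ.Core.DegFamilyR65
import Fermat.Agent.FFJ.Pic.SpecD35

set_option autoImplicit false

universe u

namespace Fermat.Agent.FFJ.Pic.DegBricksR65

open scoped TensorProduct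
open scoped Fermat.Agent.JAC.Core.ConstFamily36
open Fermat.Agent.JAC.Core.ConstFamily36 Fermat.Agent.JAC.Core.Degree36
  Fermat.Agent.FFJ.Core.ClR35 Fermat.Agent.FFJ.Core.ClRBc35 Fermat.Agent.FFJ.Core.DegFamilyR65
  Fermat.Agent.FFJ.Pic.ChartDefR35 Fermat.Agent.FFJ.Pic.ChartSpecR35

variable {k : Type u} [CommRing k]
  {A0 A1 A01 : Type u} [CommRing A0] [CommRing A1] [CommRing A01]
  [Algebra k A0] [Algebra k A1] [Algebra k A01] [Algebra A0 A01] [Algebra A1 A01]
  [IsScalarTower k A0 A01] [IsScalarTower k A1 A01] {t : A0} {s : A1}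
  [IsLocalization.Away t A01] [IsLocalization.Away s A01]

/-- Degree zero of the fibre at `p`, in terms of the degree function. -/
theorem degFunR_eq_zero_of_isDegZeroR (H : CurveHypR k A0 A1 A01 t s) {B : Type u} [CommRing B]
    [Algebra k B] (p : PrimeSpectrum B) (ξ : ClR k A0 A1 A01 t s B)
    (h : IsDegZeroR p.asIdeal.ResidueField (bcR (toResidueR B p) ξ)) : degFunR ξ p = 0 := by
  obtain ⟨n0, a0, ha0⟩ := H.coords0
  obtain ⟨n1, a1, ha1⟩ := H.coords1
  exact (isDegZeroR_field_iff H.hts a0 ha0 a1 ha1 _).1 h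

/-- **Brick G6 over a base ring.** -/
theorem g6R (H : CurveHypR k A0 A1 A01 t s) : Brick.G6 k A0 A1 A01 t s := by
  obtain ⟨n0, a0, ha0⟩ := H.coords0
  obtain ⟨n1, a1, ha1⟩ := H.coords1
  intro B _ _ p ξ h
  exact exists_away_isDegZeroR H.hts a0 ha0 a1 ha1 ξ p (degFunR_eq_zero_of_isDegZeroR H p ξ h)

/-- **Brick G7 over a base ring.** -/
theorem g7R (H : CurveHypR k A0 A1 A01 t s) : Brick.G7 k A0 A1 A01 t s := by
  obtain ⟨n0, a0, ha0⟩ := H.coords0
  obtain ⟨n1, a1, ha1⟩ := H.coords1
  intro K L _ _ _ _ ψ ξ h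
  rw [isDegZeroR_field_iff H.hts a0 ha0 a1 ha1] at h ⊢
  rwa [degClass_bcR_field H.hts a0 ha0 a1 ha1] at h

/-- **The degree-zero locus of a class over `B` is `D(e)` for an idempotent `e`**, and the class has
degree zero over `B[1/e]`. -/
theorem exists_idempotent_degZeroR (H : CurveHypR k A0 A1 A01 t s) (B : Type u) [CommRing B]
    [Algebra k B] (ξ : ClR k A0 A1 A01 t s B) :
    ∃ e : B, IsIdempotentElem e ∧ (∀ p : PrimeSpectrum B, e ∉ p.asIdeal ↔ degFunR ξ p = 0) ∧
      IsDegZeroR (Localization.Away e) (bcR (toAway B e) ξ) := by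
  obtain ⟨n0, a0, ha0⟩ := H.coords0
  obtain ⟨n1, a1, ha1⟩ := H.coords1
  obtain ⟨e, he, hZ⟩ := PrimeSpectrum.isClopen_iff.1 (isClopen_degZeroR H.hts a0 ha0 a1 ha1 ξ)
  have hmem : ∀ p : PrimeSpectrum B, e ∉ p.asIdeal ↔ degFunR ξ p = 0 := by
    intro p
    have : p ∈ {p : PrimeSpectrum B | degFunR ξ p = 0} ↔
        p ∈ (PrimeSpectrum.basicOpen e : Set (PrimeSpectrum B)) := by rw [hZ]
    exact this.symm
  refine ⟨e, he, hmem, ?_⟩
  rw [isDegZeroR_iff H.hts a0 ha0 a1 ha1]
  intro p'
  rw [degFunR_bcR H.hts a0 ha0 a1 ha1, ← hmem]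
  change ¬ algebraMap B (Localization.Away e) e ∈ p'.asIdeal
  intro hmem'
  exact p'.2.ne_top (Ideal.eq_top_of_isUnit_mem _ hmem'
    (IsLocalization.Away.algebraMap_isUnit (S := Localization.Away e) e))

/-- **(FIN-DEG) of `SpecD35`.** -/
theorem finDeg (H : CurveHypR k A0 A1 A01 t s) : SpecD35.FinDeg k A0 A1 A01 t s := by
  intro B _ _ ps ξ h
  obtain ⟨e, -, hmem, hdeg⟩ := exists_idempotent_degZeroR H B ξ
  exact ⟨e, fun p hp => (hmem p).2 (degFunR_eq_zero_of_isDegZeroR H p ξ (h p hp)), hdeg⟩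

end Fermat.Agent.FFJ.Pic.DegBricksR65
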