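/-
Programme FFJ (S19), chapter PIC, part D, brick (D4) FIN-GOOD (helper50).

`finGood : SpecD35.FinGood k A0 A1 A01 t s` under `ChartDefR35.CurveHypR`: if the fibres of `N` at
finitely many primes have `H¹ = 0` and a generating section, then over ONE basic open containing all
these primes `N` has `H¹ = 0` and a generating section (given by a GLOBAL section), and this persists
after every further base change.

* section `Tools` (Mathlib only): prime avoidance in the forms used here:
  `exists_mem_forall_notMem`, `exists_basicOpen_of_finset`, `exists_tmul_ne_zero_finset`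
  (a finite projective module of rank one at finitely many primes has ONE element which is nonzero in
  all these fibres);
* section `Cech`: `GoodTwist.exists_away_univGen_finset`, the finite-set version of
  `GenSpread50.GoodTwist.exists_away_univGen`;
* section `Const`: `exists_away_isGenSectionR_finset`, `finGood`.
-/
import Mathlib
import Fermat.Agent.FFJ.Pic.SpecD35
import Fermat.Agent.FFJ.Pic.H0BricksR50

set_option autoImplicit false
set_option linter.unusedSectionVars false
set_option linter.style.haveILetI false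

universe u

namespace Fermat.Agent.FFJ.Pic.FinGood50

open TensorProduct

/-! ### Tools: prime avoidance -/

section Tools

variable {R : Type u} [CommRing R]

/-- **Prime avoidance**: an ideal contained in none of finitely many primes has an element outside
all of them. -/
theorem exists_mem_forall_notMem (I : Ideal R) (ps : Finset (PrimeSpectrum R))
    (h : ∀ p ∈ ps, ¬ I ≤ p.asIdeal) : ∃ g ∈ I, ∀ p ∈ ps, g ∉ p.asIdeal := by
  classical
  rcases ps.eq_empty_or_nonempty with rfl | ⟨p₀, hp₀⟩
  · exact ⟨0, I.zero_mem, by simp⟩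
  by_contra hcon
  push Not at hcon
  have hsub : (I : Set R) ⊆ ⋃ p ∈ (↑ps : Set (PrimeSpectrum R)), (p.asIdeal : Set R) := by
    intro g hg
    obtain ⟨p, hp, hgp⟩ := hcon g hg
    exact Set.mem_biUnion (Finset.mem_coe.2 hp) hgp
  obtain ⟨p, hp, hle⟩ := (Ideal.subset_union_prime (f := fun p : PrimeSpectrum R => p.asIdeal)
    p₀ p₀ (fun p _ _ _ => p.isPrime)).1 hsub
  exact h p hp hle

/-- An open subset of `Spec R` containing finitely many points contains a basic open containing all
of them. -/
theorem exists_basicOpen_of_finset (U : Set (PrimeSpectrum R)) (hU : IsOpen U)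
    (ps : Finset (PrimeSpectrum R)) (h : ∀ p ∈ ps, p ∈ U) :
    ∃ g : R, (∀ p ∈ ps, g ∉ p.asIdeal) ∧ ∀ q : PrimeSpectrum R, g ∉ q.asIdeal → q ∈ U := by
  obtain ⟨I, hI⟩ := (PrimeSpectrum.isClosed_iff_zeroLocus_ideal Uᶜ).1 hU.isClosed_compl
  have hnot : ∀ p ∈ ps, ¬ I ≤ p.asIdeal := by
    intro p hp hle
    have : p ∈ Uᶜ := by
      rw [hI, PrimeSpectrum.mem_zeroLocus]
      exact hle
    exact this (h p hp)
  obtain ⟨g, hgI, hg⟩ := exists_mem_forall_notMem I ps hnot
  refine ⟨g, hg, fun q hq => ?_⟩
  by_contra hqU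
  have hq' : q ∈ Uᶜ := hqU
  rw [hI, PrimeSpectrum.mem_zeroLocus] at hq'
  exact hq (hq' hgI)

open Fermat.Agent.JAC.Hilb.BasisLocus24 Fermat.Agent.JAC.Frame.GenSpread50 in
/-- **A rank-one projective module near a finite set of primes.**  If the finite projective module
`P` has rank one at finitely many primes, there is ONE element of `P` which is nonzero in (hence a
basis of) the fibre at each of these primes. -/
theorem exists_tmul_ne_zero_finset {P : Type u} [AddCommGroup P] [Module R P] [Module.Finite R P]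
    [Module.Projective R P] (ps : Finset (PrimeSpectrum R))
    (hr : ∀ p ∈ ps, Module.finrank p.asIdeal.ResidueField (p.asIdeal.ResidueField ⊗[R] P) = 1) :
    ∃ z : P, ∀ p ∈ ps, (1 : p.asIdeal.ResidueField) ⊗ₜ[R] z ≠ 0 := by
  classical
  induction ps using Finset.induction_on with
  | empty => exact ⟨0, by simp⟩
  | insert q₀ ps' hq₀ ih =>
    obtain ⟨z, hz⟩ := ih (fun p hp => hr p (Finset.mem_insert_of_mem hp))
    have hr₀ := hr q₀ (Finset.mem_insert_self _ _)
    by_cases h0 : (1 : q₀.asIdeal.ResidueField) ⊗ₜ[R] z = 0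
    swap
    · refine ⟨z, fun p hp => ?_⟩
      rcases Finset.mem_insert.1 hp with rfl | hp
      · exact h0
      · exact hz p hp
    -- a vector which is nonzero at `q₀`
    haveI : Nontrivial (q₀.asIdeal.ResidueField ⊗[R] P) :=
      Module.nontrivial_of_finrank_pos (R := q₀.asIdeal.ResidueField) (by omega)
    obtain ⟨z₀, hz₀⟩ := exists_one_tmul_ne_zero (B := R) q₀.asIdeal.ResidueField P
    -- a scalar in all the primes of `ps'` not below `q₀`, outside `q₀`
    set T := ps'.filter (fun q => ¬ q.asIdeal ≤ q₀.asIdeal) with hT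
    have hnle : ¬ T.inf (fun q : PrimeSpectrum R => q.asIdeal) ≤ q₀.asIdeal := by
      rw [q₀.isPrime.inf_le']
      rintro ⟨q, hq, hle⟩
      exact (Finset.mem_filter.1 hq).2 hle
    obtain ⟨a, haT, haq⟩ := SetLike.not_le_iff_exists.1 hnle
    have htm : ∀ (p : PrimeSpectrum R), (1 : p.asIdeal.ResidueField) ⊗ₜ[R] (z + a • z₀) =
        (1 : p.asIdeal.ResidueField) ⊗ₜ[R] z +
          algebraMap R p.asIdeal.ResidueField a • ((1 : p.asIdeal.ResidueField) ⊗ₜ[R] z₀) := by
      intro p
      rw [TensorProduct.tmul_add, TensorProduct.tmul_smul, algebraMap_smul]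
    have hq₀' : (1 : q₀.asIdeal.ResidueField) ⊗ₜ[R] (z + a • z₀) ≠ 0 := by
      rw [htm, h0, zero_add]
      refine smul_ne_zero ?_ hz₀
      intro h
      exact haq ((Ideal.algebraMap_residueField_eq_zero).1 h)
    refine ⟨z + a • z₀, fun p hp => ?_⟩
    rcases Finset.mem_insert.1 hp with rfl | hp
    · exact hq₀'
    by_cases hle : p.asIdeal ≤ q₀.asIdeal
    · -- generisation: the basis locus of `z + a • z₀` is open and contains `q₀`
      have hb₀ : IsBasisAt R (fun _ : Unit => z + a • z₀) q₀.asIdeal.ResidueField :=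
        isBasisAt_unit_of_finrank_eq_one _ hr₀ _ hq₀'
      have hopen := isOpen_basisLocus (B := R) (fun _ : Unit => z + a • z₀)
      have hspec : p ⤳ q₀ := (PrimeSpectrum.le_iff_specializes p q₀).1 hle
      have hbp : IsBasisAt R (fun _ : Unit => z + a • z₀) p.asIdeal.ResidueField :=
        hspec.mem_open hopen hb₀
      intro hzero
      have h1 := hbp.1 (a₁ := fun _ => (1 : p.asIdeal.ResidueField)) (a₂ := 0) (by
        simp [Fintype.linearCombination_apply, hzero])
      have := congrFun h1 ()
      simp at this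
    · have hpT : p ∈ T := Finset.mem_filter.2 ⟨hp, hle⟩
      have hap : a ∈ p.asIdeal := (Finset.inf_le hpT : T.inf _ ≤ p.asIdeal) haT
      rw [htm, (Ideal.algebraMap_residueField_eq_zero).2 hap, zero_smul, add_zero]
      exact hz p hp

end Tools

/-! ### The Cech-pair form -/

section Cech

open Fermat.Agent.JAC.Cech Fermat.Agent.JAC.Frame.GoodTwist65 Fermat.Agent.JAC.Frame.ChiCongr65
  Fermat.Agent.JAC.Frame.Shrink65 Fermat.Agent.JAC.Hilb.BasisLocus24
  Fermat.Agent.JAC.Frame.GenSpread50

variable {B : Type u} [CommRing B]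
variable {M₀ M₁ M₁' N : Type u} [AddCommGroup M₀] [AddCommGroup M₁] [AddCommGroup M₁']
  [AddCommGroup N] [Module B M₀] [Module B M₁] [Module B M₁'] [Module B N]

/-- The rank of `H⁰` of the fibre at a prime `q` of a `B`-algebra `B'` is the rank of `H⁰` of the
fibre at the prime of `B` below `q`. -/
theorem finrank_h0_residueField_comap (ρ₀ : M₀ →ₗ[B] N) (ρ₁ : M₁ →ₗ[B] N) (B' : Type u)
    [CommRing B'] [Algebra B B'] (q : Ideal B') [q.IsPrime] (p : Ideal B) [p.IsPrime]
    (hpq : p = q.comap (algebraMap B B')) :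
    Module.finrank q.ResidueField (H0 ((ρ₀.baseChange B').baseChange q.ResidueField)
        ((ρ₁.baseChange B').baseChange q.ResidueField)) =
      Module.finrank p.ResidueField (H0 (ρ₀.baseChange p.ResidueField)
        (ρ₁.baseChange p.ResidueField)) := by
  let _ : Algebra p.ResidueField q.ResidueField :=
    (Ideal.ResidueField.map p q (algebraMap B B') hpq).toAlgebra
  have : IsScalarTower B p.ResidueField q.ResidueField := by
    refine IsScalarTower.of_algebraMap_eq' ?_
    ext r
    rw [RingHom.comp_apply, RingHom.algebraMap_toAlgebra, Ideal.ResidueField.map_algebraMap,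
      ← IsScalarTower.algebraMap_apply]
  rw [(h0BaseChangeTrans B' q.ResidueField ρ₀ ρ₁).finrank_eq,
    ← (h0BaseChangeTrans p.ResidueField q.ResidueField ρ₀ ρ₁).finrank_eq,
    Fermat.Agent.JAC.Cech.FlatBC67.finrank_H0_baseChange]

/-- `H¹` vanishes after inverting an element of the annihilator of `H¹`. -/
theorem surjective_away_of_mem_annihilator (ρ₀ : M₀ →ₗ[B] N) (ρ₁ : M₁ →ₗ[B] N) (f : B)
    (hfann : f ∈ Module.annihilator B (H1 ρ₀ ρ₁)) :
    Function.Surjective (cechD (ρ₀.baseChange (Localization.Away f))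
      (ρ₁.baseChange (Localization.Away f))) := by
  rw [Module.mem_annihilator] at hfann
  apply GoodTwist.surjective_of_subsingleton_h1
  have hzero : ∀ t : Localization.Away f ⊗[B] H1 ρ₀ ρ₁, t = 0 := by
    intro t
    induction t using TensorProduct.induction_on with
    | zero => rfl
    | tmul a c =>
      obtain ⟨u, hu⟩ : IsUnit (algebraMap B (Localization.Away f) f) :=
        IsLocalization.Away.algebraMap_isUnit f
      have h1 : a = (a * ↑u⁻¹) * algebraMap B (Localization.Away f) f := by
        rw [← hu, mul_assoc, Units.inv_mul, mul_one]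
      have h2 : a * ↑u⁻¹ * algebraMap B (Localization.Away f) f = f • (a * ↑u⁻¹) := by
        rw [Algebra.smul_def, mul_comm]
      rw [h1, h2, TensorProduct.smul_tmul, hfann c, TensorProduct.tmul_zero]
    | add x y hx hy => rw [hx, hy, add_zero]
  have : Subsingleton (Localization.Away f ⊗[B] H1 ρ₀ ρ₁) :=
    ⟨fun a b => by rw [hzero a, hzero b]⟩
  exact (h1BaseChangeEquiv ρ₀ ρ₁ (Localization.Away f)).symm.toEquiv.subsingleton

variable {ρ₀ : M₀ →ₗ[B] N} {ρ₁ : M₁ →ₗ[B] N} {ι : M₁ →ₗ[B] M₁'} {ρ₁' : M₁' →ₗ[B] N}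
  (h : GoodTwist ρ₀ ρ₁ ι ρ₁')

include h in
/-- **Spreading out the vanishing of `H¹` from finitely many primes.** -/
theorem GoodTwist.exists_away_surjective_finset (ps : Finset (PrimeSpectrum B))
    (hp : ∀ p ∈ ps, Function.Surjective (cechD (ρ₀.baseChange p.asIdeal.ResidueField)
      (ρ₁.baseChange p.asIdeal.ResidueField))) :
    ∃ f : B, (∀ p ∈ ps, f ∉ p.asIdeal) ∧
      Function.Surjective (cechD (ρ₀.baseChange (Localization.Away f))
        (ρ₁.baseChange (Localization.Away f))) := by
  have := h.finite_h1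
  have hnot : ∀ p ∈ ps, ¬ Module.annihilator B (H1 ρ₀ ρ₁) ≤ p.asIdeal := by
    intro p hpps hle
    have hsupp := (h.surjective_residueField_iff p).1 (hp p hpps)
    rw [Module.support_eq_zeroLocus, PrimeSpectrum.mem_zeroLocus, SetLike.coe_subset_coe] at hsupp
    exact hsupp hle
  obtain ⟨f, hfann, hf⟩ := exists_mem_forall_notMem _ ps hnot
  exact ⟨f, hf, surjective_away_of_mem_annihilator ρ₀ ρ₁ f hfann⟩

include h in
/-- Spreading out a generator from finitely many primes when `H¹` already vanishes over `B`. -/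
theorem GoodTwist.exists_away_univGen_of_surjective_finset
    (h1 : Function.Surjective (cechD ρ₀ ρ₁)) (ps : Finset (PrimeSpectrum B))
    (hrank : ∀ p ∈ ps, Module.finrank p.asIdeal.ResidueField
      (H0 (ρ₀.baseChange p.asIdeal.ResidueField) (ρ₁.baseChange p.asIdeal.ResidueField)) = 1) :
    ∃ g : B, (∀ p ∈ ps, g ∉ p.asIdeal) ∧ ∃ z : H0 ρ₀ ρ₁,
      UnivGen (ρ₀.baseChange (Localization.Away g)) (ρ₁.baseChange (Localization.Away g))
        (h0ToBaseChange ρ₀ ρ₁ (Localization.Away g) z) := by
  have := h.finite_h0_of_surjective h1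
  have := h.projective_h0_of_surjective h1
  have := h.flat
  have hr : ∀ p ∈ ps, Module.finrank p.asIdeal.ResidueField
      (p.asIdeal.ResidueField ⊗[B] H0 ρ₀ ρ₁) = 1 := by
    intro p hp
    let eK : (p.asIdeal.ResidueField ⊗[B] H0 ρ₀ ρ₁) ≃ₗ[p.asIdeal.ResidueField]
        H0 (ρ₀.baseChange p.asIdeal.ResidueField) (ρ₁.baseChange p.asIdeal.ResidueField) :=
      LinearEquiv.ofBijective (h0BaseChangeMap ρ₀ ρ₁ p.asIdeal.ResidueField)
        (h0BaseChangeMap_bijective ρ₀ ρ₁ p.asIdeal.ResidueField h1)
    rw [eK.finrank_eq, hrank p hp]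
  obtain ⟨z, hz⟩ := exists_tmul_ne_zero_finset (P := H0 ρ₀ ρ₁) ps hr
  have hb : ∀ p ∈ ps, IsBasisAt B (fun _ : Unit => z) p.asIdeal.ResidueField := fun p hp =>
    isBasisAt_unit_of_finrank_eq_one _ (hr p hp) z (hz p hp)
  obtain ⟨g, hg, hU⟩ := exists_basicOpen_of_finset _
    (isOpen_basisLocus (B := B) (fun _ : Unit => z)) ps hb
  refine ⟨g, hg, z, univGen_baseChange_of_isBasisAt ρ₀ ρ₁ h1 z _ ?_⟩
  unfold IsBasisAt
  refine bijective_of_forall_isBasisAt (B := Localization.Away g)
    (fun _ : Unit => (1 : Localization.Away g) ⊗ₜ[B] z) ?_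
  intro q _
  rw [isBasisAt_residueField_comap (fun _ : Unit => z) (Localization.Away g) q
    (q.comap (algebraMap B (Localization.Away g))) rfl]
  refine hU ⟨q.comap (algebraMap B (Localization.Away g)), inferInstance⟩ ?_
  show g ∉ q.comap (algebraMap B (Localization.Away g))
  rw [Ideal.mem_comap]
  intro hf
  exact (Ideal.IsPrime.ne_top inferInstance)
    (Ideal.eq_top_of_isUnit_mem q hf (IsLocalization.Away.algebraMap_isUnit g))

include h in
/-- **Spreading out the generating section from finitely many primes.**  If `H¹` of the fibres at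
finitely many primes vanishes and `H⁰` of these fibres is one-dimensional, there are `f` outside all
these primes and a GLOBAL section `z` such that for every `B`-algebra `B'` in which `f` is
invertible, `H¹` of the base change to `B'` vanishes and `H⁰` of the base change to `B'` is free of
rank one on `1 ⊗ z`. -/
theorem GoodTwist.exists_away_univGen_finset (ps : Finset (PrimeSpectrum B))
    (hp : ∀ p ∈ ps, Function.Surjective (cechD (ρ₀.baseChange p.asIdeal.ResidueField)
      (ρ₁.baseChange p.asIdeal.ResidueField)))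
    (hrank : ∀ p ∈ ps, Module.finrank p.asIdeal.ResidueField
      (H0 (ρ₀.baseChange p.asIdeal.ResidueField) (ρ₁.baseChange p.asIdeal.ResidueField)) = 1) :
    ∃ f : B, (∀ p ∈ ps, f ∉ p.asIdeal) ∧ ∃ z : H0 ρ₀ ρ₁,
      ∀ (B' : Type u) [CommRing B'] [Algebra B B'], IsUnit (algebraMap B B' f) →
        UnivGen (ρ₀.baseChange B') (ρ₁.baseChange B') (h0ToBaseChange ρ₀ ρ₁ B' z) := by
  classical
  obtain ⟨f₁, hf₁, hs₁⟩ := GoodTwist.exists_away_surjective_finset h ps hp
  have h₁ := h.baseChange (Localization.Away f₁)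
  -- the primes of `B[1/f₁]` over `ps`
  have hinj : Set.InjOn (PrimeSpectrum.comap (algebraMap B (Localization.Away f₁)))
      ((PrimeSpectrum.comap (algebraMap B (Localization.Away f₁))) ⁻¹' ↑ps) :=
    (PrimeSpectrum.localization_comap_injective (Localization.Away f₁)
      (Submonoid.powers f₁)).injOn
  set ps₁ : Finset (PrimeSpectrum (Localization.Away f₁)) := ps.preimage _ hinj with hps₁
  have hrank₁ : ∀ q ∈ ps₁, Module.finrank q.asIdeal.ResidueField
      (H0 ((ρ₀.baseChange (Localization.Away f₁)).baseChange q.asIdeal.ResidueField)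
        ((ρ₁.baseChange (Localization.Away f₁)).baseChange q.asIdeal.ResidueField)) = 1 := by
    intro q hq
    have hq' : PrimeSpectrum.comap (algebraMap B (Localization.Away f₁)) q ∈ ps :=
      Finset.mem_preimage.1 hq
    rw [finrank_h0_residueField_comap ρ₀ ρ₁ (Localization.Away f₁) q.asIdeal
      (PrimeSpectrum.comap (algebraMap B (Localization.Away f₁)) q).asIdeal rfl]
    exact hrank _ hq'
  obtain ⟨g, hg, z₁, hz₁⟩ :=
    GoodTwist.exists_away_univGen_of_surjective_finset h₁ hs₁ ps₁ hrank₁
  obtain ⟨n, z, hz⟩ := exists_pow_smul_eq_h0ToBaseChange ρ₀ ρ₁ f₁ z₁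
  obtain ⟨⟨g', s⟩, hgs⟩ := IsLocalization.surj (Submonoid.powers f₁) g
  have hgs' : g * algebraMap B (Localization.Away f₁) (s : B) =
      algebraMap B (Localization.Away f₁) g' := hgs
  have hunit : IsUnit (algebraMap B (Localization.Away f₁) f₁) :=
    IsLocalization.Away.algebraMap_isUnit f₁
  refine ⟨f₁ * g', ?_, z, ?_⟩
  · intro p hpps hmem
    rcases p.2.mem_or_mem hmem with h' | h'
    · exact hf₁ p hpps h'
    · obtain ⟨q, hq⟩ : ∃ q : PrimeSpectrum (Localization.Away f₁),
          PrimeSpectrum.comap (algebraMap B (Localization.Away f₁)) q = p := by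
        have hr : p ∈ Set.range (PrimeSpectrum.comap (algebraMap B (Localization.Away f₁))) := by
          rw [PrimeSpectrum.localization_away_comap_range (Localization.Away f₁) f₁]
          exact hf₁ p hpps
        exact hr
      have hqps : q ∈ ps₁ := Finset.mem_preimage.2 (by rw [hq]; exact hpps)
      apply hg q hqps
      have h1 : algebraMap B (Localization.Away f₁) g' ∈ q.asIdeal := by
        have h2 : g' ∈ (PrimeSpectrum.comap (algebraMap B (Localization.Away f₁)) q).asIdeal := by
          rw [hq]; exact h'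
        exact h2
      rw [← hgs'] at h1
      rcases q.2.mem_or_mem h1 with h2 | h2
      · exact h2
      · exfalso
        obtain ⟨_, k, rfl⟩ := s
        refine q.2.ne_top (Ideal.eq_top_of_isUnit_mem _ h2 ?_)
        rw [map_pow]
        exact hunit.pow k
  · intro B' _ _ hu
    rw [map_mul] at hu
    have hu1 : IsUnit (algebraMap B B' f₁) := isUnit_of_mul_isUnit_left hu
    have hu2 : IsUnit (algebraMap B B' g') := isUnit_of_mul_isUnit_right hu
    letI : Algebra (Localization.Away f₁) B' := (IsLocalization.Away.lift f₁ hu1).toAlgebra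
    haveI : IsScalarTower B (Localization.Away f₁) B' :=
      IsScalarTower.of_algebraMap_eq fun b => (IsLocalization.Away.lift_eq f₁ hu1 b).symm
    have hug : IsUnit (algebraMap (Localization.Away f₁) B' g) := by
      have h2 : algebraMap (Localization.Away f₁) B' g *
          algebraMap (Localization.Away f₁) B' (algebraMap B (Localization.Away f₁) (s : B)) =
          algebraMap B B' g' := by
        rw [← map_mul, hgs', ← IsScalarTower.algebraMap_apply]
      exact isUnit_of_mul_isUnit_left (h2 ▸ hu2)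
    letI : Algebra (Localization.Away g) B' := (IsLocalization.Away.lift g hug).toAlgebra
    haveI : @IsScalarTower (Localization.Away f₁) (Localization.Away g) B' Algebra.toSMul
        Algebra.toSMul Algebra.toSMul :=
      IsScalarTower.of_algebraMap_eq fun b => (IsLocalization.Away.lift_eq g hug b).symm
    haveI := h.flat
    exact univGen_of_tower ρ₀ ρ₁ (Localization.Away f₁) (Localization.Away g) z z₁
      (algebraMap B (Localization.Away f₁) (f₁ ^ n))
      (by rw [map_pow]; exact hunit.pow n) hz hz₁ B'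

end Cech

/-! ### The constant family: brick FIN-GOOD -/

section Const

open scoped Polynomial
open scoped Fermat.Agent.JAC.Core.ConstFamily36
open Fermat.Agent.JAC.Core.Defs36 Fermat.Agent.JAC.Core.Cart36 Fermat.Agent.JAC.Core.ConstFamily36
  Fermat.Agent.FFJ.Core.ClR35 Fermat.Agent.FFJ.Pic.ChartDefR35
  Fermat.Agent.FFJ.Pic.ChartSpecR35 Fermat.Agent.JAC.Cech Fermat.Agent.JAC.Frame.GoodTwist65
  Fermat.Agent.JAC.Frame.DegFamily65 Fermat.Agent.JAC.Frame.GenSpread50
  Fermat.Agent.JAC.Frame.ChiCongr65 Fermat.Agent.JAC.Grp.Cart33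
  Fermat.Agent.JAC.Hilb.H0Bricks50 Fermat.Agent.FFJ.Pic.H0BricksR50

variable {k : Type u} [CommRing k] {A0 A1 A01 : Type u} [CommRing A0] [CommRing A1] [CommRing A01]
  [Algebra k A0] [Algebra k A1] [Algebra k A01] [Algebra A0 A01] [Algebra A1 A01]
  [IsScalarTower k A0 A01] [IsScalarTower k A1 A01] {t : A0} {s : A1}
  [IsLocalization.Away t A01] [IsLocalization.Away s A01]

/-- **Spreading out a generating section from finitely many primes, strong form, over a base
ring**: ONE `f` outside all the primes and ONE global section. -/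
theorem exists_away_isGenSectionR_finset (H : CurveHypR k A0 A1 A01 t s) (B : Type u) [CommRing B]
    [Algebra k B] (ps : Finset (PrimeSpectrum B)) (N : CDiag k A0 A1 A01 t s B)
    (hps : ∀ p ∈ ps, H1Zero (bcd (toResidueR B p) N) ∧
      ∃ (τ0 : (bcd (toResidueR B p) N).M0) (τ1 : (bcd (toResidueR B p) N).M1),
        IsGenSection (bcd (toResidueR B p) N) τ0 τ1) :
    ∃ f : B, (∀ p ∈ ps, f ∉ p.asIdeal) ∧ ∃ (σ0 : N.M0) (σ1 : N.M1), N.rho0 σ0 = N.rho1 σ1 ∧
      ∀ (B' : Type u) [CommRing B'] [Algebra k B'] (ψ : B →ₐ[k] B')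
        (N' : CDiag k A0 A1 A01 t s B') (c : LineDiag.CartHom (familyHom ψ t s) N N'),
        IsUnit (ψ f) → H1Zero N' ∧ IsGenSection N' (c.f0 σ0) (c.f1 σ1) := by
  letI := moduleB0 B N; letI := moduleB1 B N; letI := moduleB01 B N
  obtain ⟨_, _, _, _, _, hG'⟩ := exists_goodTwistR H N
  have hp : ∀ p ∈ ps, Function.Surjective
      (cechD ((rho0B B N).baseChange p.asIdeal.ResidueField)
        ((rho1B B N).baseChange p.asIdeal.ResidueField)) := by
    intro p hpps
    obtain ⟨q0, q1, q01⟩ := isPushoutSquare_familyHomR (A01 := A01) (t := t) (s := s)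
      (toResidueR (k := k) B p) (fun _ => rfl)
    exact (surjective_cechD_cartHom_iff _ (bcc (toResidueR B p) N) q0 q1 q01).1
      ((surjective_cechD_iff p.asIdeal.ResidueField (bcd (toResidueR B p) N)).2 (hps p hpps).1)
  have hrank : ∀ p ∈ ps, Module.finrank p.asIdeal.ResidueField
      (H0 ((rho0B B N).baseChange p.asIdeal.ResidueField)
        ((rho1B B N).baseChange p.asIdeal.ResidueField)) = 1 := by
    intro p hpps
    obtain ⟨q0, q1, q01⟩ := isPushoutSquare_familyHomR (A01 := A01) (t := t) (s := s)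
      (toResidueR (k := k) B p) (fun _ => rfl)
    obtain ⟨τ0, τ1, hgen⟩ := (hps p hpps).2
    obtain ⟨e⟩ := nonempty_h0_equiv_of_cartHom _ (bcc (toResidueR B p) N) q0 q1 q01
    rw [e.finrank_eq]
    exact finrank_eq_one_of_bijective_smul
      (sec p.asIdeal.ResidueField (bcd (toResidueR B p) N) τ0 τ1 hgen.1)
      ((bijective_smul_sec_iff p.asIdeal.ResidueField (bcd (toResidueR B p) N) τ0 τ1 hgen.1).2
        hgen.2)
  obtain ⟨f, hf, z, hz⟩ := GoodTwist.exists_away_univGen_finset hG' ps hp hrank
  have hzmem : N.rho0 z.1.1 = N.rho1 z.1.2 := (mem_H0 (rho0B B N) (rho1B B N) _).1 z.2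
  refine ⟨f, hf, z.1.1, z.1.2, hzmem, ?_⟩
  intro B' _ _ ψ N' c hu
  letI : Algebra B B' := ψ.toRingHom.toAlgebra
  haveI : IsScalarTower k B B' := IsScalarTower.of_algebraMap_eq fun x => (ψ.commutes x).symm
  obtain ⟨r0, r1, r01⟩ := isPushoutSquare_familyHomR (A01 := A01) (t := t) (s := s) ψ
    (fun _ => rfl)
  have hzf := hz B' hu
  have hσ' : N'.rho0 (c.f0 z.1.1) = N'.rho1 (c.f1 z.1.2) := by
    rw [← c.comm0, ← c.comm1, hzmem]
  have hU' := (univGen_cartHom_iff _ c r0 r1 r01 z.1.1 z.1.2 hzmem hσ').2 hzf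
  exact ⟨(surjective_cechD_iff B' N').1 hU'.1,
    hσ', (bijective_smul_sec_iff B' N' _ _ hσ').1 hU'.2⟩

variable (k A0 A1 A01 t s) in
/-- **Brick (D4) FIN-GOOD** of `FFJ/Pic/SpecD35`. -/
theorem finGood (H : CurveHypR k A0 A1 A01 t s) :
    Fermat.Agent.FFJ.Pic.SpecD35.FinGood k A0 A1 A01 t s := by
  intro B _ _ ps N hps
  exact exists_away_isGenSectionR_finset H B ps N hps

end Const

end Fermat.Agent.FFJ.Pic.FinGood50
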