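/-
Programme FFJ (S19), chapter PIC: the bricks `G1`, `G2`, `G3`, `G5` of `FFJ/Pic/ChartSpecR35` over an
arbitrary commutative BASE RING `k` (ports of `JAC/Grp/Bricks33`, `JAC/Grp/RigidLocal33` of helper33),
and the finite-set version FIN-RIGID of `G5` (COORD #2, brick (D4)): a class becomes rigid on ONE
basic open set containing finitely many prescribed primes.

The new input (SEMILOC, Mathlib only) is `exists_away_nonempty_equiv_finset`: an invertible module is
free of rank one on a basic open set containing any given finite set of primes (the localisation at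
the complement of a finite union of primes is semilocal, hence has trivial Picard group; then spread
out by finite presentation).
-/
import Mathlib
import Fermat.Agent.FFJ.Pic.ChartSpecR35
import Fermat.Agent.JAC.Grp.RigidLocal33

set_option autoImplicit false
set_option linter.style.haveILetI false

universe u

namespace Fermat.Agent.FFJ.Pic.RigidBricksR87

open scoped TensorProduct

/-! ### SEMILOC (Mathlib only) -/

section Semiloc

variable {R : Type u} [CommRing R]

/-- The submonoid of elements lying outside all primes of the finite set `ps`. -/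
def avoid (ps : Finset (PrimeSpectrum R)) : Submonoid R := ⨅ p ∈ ps, p.asIdeal.primeCompl

theorem mem_avoid {ps : Finset (PrimeSpectrum R)} {x : R} :
    x ∈ avoid ps ↔ ∀ p ∈ ps, x ∉ p.asIdeal := by
  simp only [avoid, Submonoid.mem_iInf]
  rfl

theorem disjoint_avoid {ps : Finset (PrimeSpectrum R)} {p : PrimeSpectrum R} (hp : p ∈ ps) :
    Disjoint (avoid ps : Set R) (p.asIdeal : Set R) := by
  rw [Set.disjoint_left]
  intro x hx hxp
  exact mem_avoid.mp hx p hp hxp

/-- The localisation at the complement of a finite union of primes is semilocal. -/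
theorem finite_maximalSpectrum_avoid (ps : Finset (PrimeSpectrum R)) :
    Finite (MaximalSpectrum (Localization (avoid ps))) := by
  rw [(MaximalSpectrum.equivSubtype _).finite_iff]
  have hsub : {m : Ideal (Localization (avoid ps)) | m.IsMaximal} ⊆
      (fun p : PrimeSpectrum R => Ideal.map (algebraMap R (Localization (avoid ps))) p.asIdeal) ''
        (ps : Set (PrimeSpectrum R)) := by
    intro m hm
    have hm' : m.IsMaximal := hm
    have hmp : m.IsPrime := hm'.isPrime
    set q : Ideal R := m.comap (algebraMap R (Localization (avoid ps))) with hq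
    have hqp : q.IsPrime := Ideal.comap_isPrime _ _
    have hdisj : Disjoint (avoid ps : Set R) (q : Set R) :=
      ((IsLocalization.isPrime_iff_isPrime_disjoint (avoid ps) (Localization (avoid ps)) m).mp
        hmp).2
    have hsubset : (q : Set R) ⊆ ⋃ p ∈ (ps : Set (PrimeSpectrum R)), (p.asIdeal : Set R) := by
      intro x hx
      have hxS : x ∉ avoid ps := fun hxS => Set.disjoint_left.mp hdisj hxS hx
      rw [mem_avoid] at hxS
      push Not at hxS
      obtain ⟨p, hp, hxp⟩ := hxS
      exact Set.mem_biUnion hp hxp
    obtain ⟨p, hp, hqp'⟩ := (Ideal.subset_union_prime (f := fun p : PrimeSpectrum R => p.asIdeal)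
      (⟨q, hqp⟩ : PrimeSpectrum R) ⟨q, hqp⟩ (fun i _ _ _ => i.isPrime)).mp hsubset
    refine ⟨p, hp, ?_⟩
    have hle : m ≤ Ideal.map (algebraMap R (Localization (avoid ps))) p.asIdeal := by
      rw [← IsLocalization.map_under (avoid ps) (Localization (avoid ps)) m]
      exact Ideal.map_mono hqp'
    have hne : Ideal.map (algebraMap R (Localization (avoid ps))) p.asIdeal ≠ ⊤ :=
      (IsLocalization.map_algebraMap_ne_top_iff_disjoint (avoid ps) (Localization (avoid ps))
        p.asIdeal).mpr (disjoint_avoid hp)
    exact (hm'.eq_of_le hne hle).symm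
  exact Set.finite_coe_iff.mpr ((ps.finite_toSet.image _).subset hsub)

/-- **SEMILOC.** An invertible module is free of rank one on a basic open set containing any given
finite set of primes. -/
theorem exists_away_nonempty_equiv_finset (M : Type u) [AddCommGroup M] [Module R M]
    [Module.Invertible R M] (ps : Finset (PrimeSpectrum R)) :
    ∃ f : R, (∀ p ∈ ps, f ∉ p.asIdeal) ∧
      Nonempty (Localization.Away f ⊗[R] M ≃ₗ[Localization.Away f] Localization.Away f) := by
  classical
  rcases ps.eq_empty_or_nonempty with hps | ⟨p0, hp0⟩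
  · -- no constraint: `f = 0`
    subst hps
    refine ⟨0, fun p hp => absurd hp (Finset.notMem_empty p), ?_⟩
    have h0 : Subsingleton (Localization.Away (0 : R)) :=
      IsLocalization.subsingleton (M := Submonoid.powers (0 : R)) ⟨1, pow_one 0⟩
    have : Subsingleton (Localization.Away (0 : R) ⊗[R] M) :=
      Module.subsingleton (Localization.Away (0 : R)) _
    exact ⟨LinearEquiv.ofSubsingleton _ _⟩
  · set S : Submonoid R := avoid ps with hS
    have hfin : Finite (MaximalSpectrum (Localization S)) := finite_maximalSpectrum_avoid ps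
    have hnt : Nontrivial (Localization S) := by
      have h0 : (0 : R) ∉ S := fun h => mem_avoid.mp h p0 hp0 (zero_mem _)
      exact (IsLocalization.subsingleton_iff (M := S) (S := Localization S)).not.mpr h0 |>
        not_subsingleton_iff_nontrivial.mp
    -- `M_S` is free over the semilocal ring `R_S`
    have hfree : Module.Free (Localization S) (Localization S ⊗[R] M) :=
      Module.free_of_flat_of_finrank_eq _ _ 1
        fun P => by
          let _ : Field (Localization S ⧸ P.asIdeal) := Ideal.Quotient.field P.asIdeal
          exact Module.Invertible.finrank_eq_one _ _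
    have hloc : IsLocalizedModule S (TensorProduct.mk R (Localization S) M 1) :=
      (isLocalizedModule_iff_isBaseChange S (Localization S) _).mpr
        (TensorProduct.isBaseChange R M (Localization S))
    have hfp : Module.FinitePresentation R M := Module.finitePresentation_of_projective R M
    obtain ⟨r, hrS, hrfree, hrank⟩ :=
      Module.FinitePresentation.exists_free_localizedModule_powers S
        (TensorProduct.mk R (Localization S) M 1) (Localization S)
    refine ⟨r, fun p hp => mem_avoid.mp hrS p hp, ?_⟩
    have h1 : Module.finrank (Localization S) (Localization S ⊗[R] M) = 1 :=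
      Module.Invertible.finrank_eq_one ..
    rw [h1] at hrank
    have hntr : Nontrivial (Localization (Submonoid.powers r)) :=
      (show Localization (.powers r) →+* Localization S from
        IsLocalization.map (M := .powers r) (T := S) _ (RingHom.id _)
          (Submonoid.powers_le.mpr hrS)).domain_nontrivial
    have hfinite : Module.Finite (Localization (Submonoid.powers r))
        (LocalizedModule.Away r M) := Module.finite_of_finrank_pos (by rw [hrank]; exact one_pos)
    let b := Module.finBasisOfFinrankEq (Localization (Submonoid.powers r))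
      (LocalizedModule.Away r M) hrank
    have hbc : IsBaseChange (Localization.Away r)
        (LocalizedModule.mkLinearMap (Submonoid.powers r) M) :=
      IsLocalizedModule.isBaseChange (Submonoid.powers r) (Localization.Away r) _
    exact ⟨hbc.equiv ≪≫ₗ b.equivFun ≪≫ₗ LinearEquiv.funUnique (Fin 1) _ _⟩

end Semiloc

/-! ### The constant family over a base ring -/

section Const

open scoped Fermat.Agent.JAC.Core.ConstFamily36
open Fermat.Agent.JAC.Core.Defs36 Fermat.Agent.JAC.Core.Cart36 Fermat.Agent.JAC.Grp.Diag33
  Fermat.Agent.JAC.Grp.Cart33 Fermat.Agent.JAC.Core.ConstFamily36 Fermat.Agent.JAC.Core.Degree36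
  Fermat.Agent.FFJ.Core.ClR35 Fermat.Agent.FFJ.Core.ClRBc35
  Fermat.Agent.FFJ.Pic.ChartDefR35 Fermat.Agent.FFJ.Pic.ChartSpecR35
  Fermat.Agent.JAC.Grp.RigidLocal33

variable {k : Type u} [CommRing k] {A0 A1 A01 : Type u} [CommRing A0] [CommRing A1] [CommRing A01]
  [Algebra k A0] [Algebra k A1] [Algebra k A01] [Algebra A0 A01] [Algebra A1 A01]
  [IsScalarTower k A0 A01] [IsScalarTower k A1 A01] {t : A0} {s : A1}
  [IsLocalization.Away t A01] [IsLocalization.Away s A01]

/-- **Brick (G1) over a base ring**: functoriality of `bcR`. -/
theorem g1R : Brick.G1 k A0 A1 A01 t s :=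
  ⟨fun _ _ _ ξ => bcR_id_apply ξ, fun _ _ _ _ _ _ _ _ _ ψ ψ' ξ => (bcR_bc ψ ψ' ξ).symm⟩

/-- **Brick (G2) over a base ring**: `bcR` is computed by any cartesian morphism. -/
theorem g2R : Brick.G2 k A0 A1 A01 t s :=
  fun _ _ _ _ _ _ ψ N N' => bcR_cls_eq_iff ψ N N'

variable (e : A01 →ₐ[k] k)

/-- Over a local ring every class is rigid (`Pic B = 1`). -/
theorem isRigidClR_of_isLocalRing (B : Type u) [CommRing B] [Algebra k B] [IsLocalRing B]
    (ξ : ClR k A0 A1 A01 t s B) : IsRigidClR e B ξ := by
  letI := rigAlgebra B e
  change ξ ∈ rigidSubgroup (t := (1 : B) ⊗ₜ[k] t) (s := (1 : B) ⊗ₜ[k] s) B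
  rw [rigidSubgroup, MonoidHom.mem_ker]
  exact Subsingleton.elim _ _

/-- **FIN-RIGID.** Every class over `B` becomes rigid on ONE basic open set containing any given
finite set of primes of `B`. -/
theorem exists_away_isRigidClR_finset (B : Type u) [CommRing B] [Algebra k B]
    (ps : Finset (PrimeSpectrum B)) (ξ : ClR k A0 A1 A01 t s B) :
    ∃ f : B, (∀ p ∈ ps, f ∉ p.asIdeal) ∧ IsRigidClR e (Localization.Away f)
      (bcR (toAway B f) ξ) := by
  induction ξ using Quotient.inductionOn with
  | _ N =>
    letI : Algebra (B ⊗[k] A01) B := rigAlgebra B e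
    obtain ⟨f, hfp, hf⟩ := exists_away_nonempty_equiv_finset (B ⊗[B ⊗[k] A01] N.M01) ps
    refine ⟨f, hfp, ?_⟩
    letI : Algebra ((Localization.Away f) ⊗[k] A01) (Localization.Away f) :=
      rigAlgebra (Localization.Away f) e
    change bcR (toAway B f) (cls N) ∈
      rigidSubgroup (t := (1 : Localization.Away f) ⊗ₜ[k] t)
        (s := (1 : Localization.Away f) ⊗ₜ[k] s) (Localization.Away f)
    rw [bcR_eq_baseChangeClass, baseChangeClass_cls, mem_rigidSubgroup_iff]
    exact isRigid_baseChange_of_equiv'
      (familyHom (toAway B f) t s)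
      (fun r => rigHomR_map e (toAway B f) r) N hf

/-- Every class over `B` becomes rigid on a basic open neighbourhood of any prime of `B`. -/
theorem exists_away_isRigidClR (B : Type u) [CommRing B] [Algebra k B] (p : PrimeSpectrum B)
    (ξ : ClR k A0 A1 A01 t s B) :
    ∃ f : B, f ∉ p.asIdeal ∧ IsRigidClR e (Localization.Away f) (bcR (toAway B f) ξ) := by
  classical
  obtain ⟨f, hf, h⟩ := exists_away_isRigidClR_finset e B {p} ξ
  exact ⟨f, hf p (Finset.mem_singleton_self p), h⟩

/-- **Brick (G3) over a base ring**: rigidity and degree zero are stable under base change; over a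
field every class is rigid. -/
theorem g3R : Brick.G3 k A0 A1 A01 t s e :=
  ⟨fun _ _ _ _ _ _ ψ ξ h => isRigidClR_bcR e ψ ξ h, fun _ _ _ _ _ _ ψ ξ h => isDegZeroR_bcR ψ ξ h,
    fun K _ _ ξ => isRigidClR_of_isLocalRing e K ξ⟩

/-- **Brick (G5) over a base ring**: every class becomes rigid on a basic open neighbourhood of
any prime. -/
theorem g5R : Brick.G5 k A0 A1 A01 t s e :=
  fun B _ _ p ξ => exists_away_isRigidClR e B p ξ

end Const

end Fermat.Agent.FFJ.Pic.RigidBricksR87
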