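/-
Programme FFJ (S19), chapter PIC, part D: the brick (FIN-RIGID) in the literal `SpecD35` form
(helper87).  The proof is `RigidBricksR87.exists_away_isRigidClR_finset`.
-/
import Mathlib
import Fermat.Agent.FFJ.Pic.SpecD35
import Fermat.Agent.FFJ.Pic.RigidBricksR87

set_option autoImplicit false

universe u

namespace Fermat.Agent.FFJ.Pic.FinRigid87

variable {k : Type u} [CommRing k] {A0 A1 A01 : Type u} [CommRing A0] [CommRing A1] [CommRing A01]
  [Algebra k A0] [Algebra k A1] [Algebra k A01] [Algebra A0 A01] [Algebra A1 A01]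
  [IsScalarTower k A0 A01] [IsScalarTower k A1 A01] {t : A0} {s : A1}
  [IsLocalization.Away t A01] [IsLocalization.Away s A01]

/-- **(FIN-RIGID)**, literal `SpecD35` form. -/
theorem finRigid (e : A01 →ₐ[k] k) :
    Fermat.Agent.FFJ.Pic.SpecD35.FinRigid k A0 A1 A01 t s e :=
  fun B _ _ ps ξ =>
    Fermat.Agent.FFJ.Pic.RigidBricksR87.exists_away_isRigidClR_finset e B ps ξ

end Fermat.Agent.FFJ.Pic.FinRigid87
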