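/-
Programme FFJ (S19), chapter PIC, brick (D7) CHART-FIN, CLOSED FORM.  Owner: helper4.

`SpecD35.ChartFinStatement` for curve data satisfying `ChartDefR35.CurveHypR` over a noetherian local
base ring: `ChartFin4.chartFin` with all its brick hypotheses discharged by the landed suppliers
(`H0BricksR50`, `DivBricksR46`, `KBricksR87`, `DegBricksR65`, `FinGood50`, `FinRigid87`).
-/
import Mathlib
import Fermat.Agent.FFJ.Pic.ChartFin4
import Fermat.Agent.FFJ.Pic.H0BricksR50
import Fermat.Agent.FFJ.Pic.DivBricksR46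
import Fermat.Agent.FFJ.Pic.KBricksR87
import Fermat.Agent.FFJ.Pic.DegBricksR65
import Fermat.Agent.FFJ.Pic.FinGood50
import Fermat.Agent.FFJ.Pic.FinRigid87

set_option autoImplicit false
set_option maxHeartbeats 400000
set_option linter.unusedSectionVars false

universe u

namespace Fermat.Agent.FFJ.Pic.ChartFinClosed4

open scoped TensorProduct Polynomial
open Fermat.Agent.FFJ.Core.ClR35 Fermat.Agent.FFJ.Pic.ChartDefR35 Fermat.Agent.FFJ.Pic.ChartSpecR35
  Fermat.Agent.FFJ.Pic.SpecD35

variable {k : Type u} [CommRing k] {A0 A1 A01 : Type u} [CommRing A0] [CommRing A1] [CommRing A01]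
  [Algebra k A0] [Algebra k A1] [Algebra k A01] [Algebra A0 A01] [Algebra A1 A01]
  [IsScalarTower k A0 A01] [IsScalarTower k A1 A01] {t : A0} {s : A1}
  [IsLocalization.Away t A01] [IsLocalization.Away s A01]

/-- **(D7) CHART-FIN** for curve data over a noetherian local ring: no brick hypothesis left. -/
theorem chartFin_of_curveHypR [IsLocalRing k] [IsNoetherianRing k]
    (H : CurveHypR k A0 A1 A01 t s) (e : A01 →ₐ[k] k) :
    ChartFinStatement k A0 A1 A01 t s H.hts e :=
  ChartFin4.chartFin H e (H0BricksR50.bc1R k A0 A1 A01 t s) (H0BricksR50.bc2R k A0 A1 A01 t s H)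
    (H0BricksR50.fe1R k A0 A1 A01 t s) (H0BricksR50.fe2R k A0 A1 A01 t s)
    (KBricksR87.k0R H) (DivBricksR46.k1R H) (DivBricksR46.k2R H.hts)
    (KBricksR87.k4R H (H0BricksR50.bc2R k A0 A1 A01 t s H)) (DegBricksR65.g7R H)
    (FinGood50.finGood k A0 A1 A01 t s H) (FinRigid87.finRigid e) (DegBricksR65.finDeg H)

end Fermat.Agent.FFJ.Pic.ChartFinClosed4
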