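/-
Programme FFJ (S19), chapter PIC, part D (helper37): THE ONE-LEVEL CORE OF ADM, CLOSED FORM.

`AdmCore37.exists_isFunOrder_of_goodTwist` with every brick discharged by the landed suppliers
(CHART-FIN = `ChartFinClosed4.chartFin_of_curveHypR`, spreading = `ChartSpreadR50.spreadR`,
VAL = `ValInjR1.valInj'`, `ValSurj67.valSurj'`, `ValInjR1.picZeroMul'`):

over a discrete valuation ring `O` with fraction field `F`, `Ω` an algebraically closed Galois
extension of `F`, algebraic over `O`, and `V₀` a valuation subring of `Ω` lying over `O`: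
the curve hypotheses, a Galois-equivariant embedding `ι` of a finite group `M` into
`PicZeroR e Ω`, and ONE twist by `O`-rational points making the special fibres of the (unique)
`V₀`-models of the `ι m` good of the same rank give a function order on `M` over `O`.
The only non-formal inputs left are therefore CURVE (`CurveHypR`), BRIDGE (`ι`) and FIB-R + SUPPLY
(the good rational twist).
-/
import Mathlib
import Fermat.Agent.FFJ.Pic.AdmCore37
import Fermat.Agent.FFJ.Pic.ChartFinClosed4
import Fermat.Agent.FFJ.Pic.ChartSpreadR50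
import Fermat.Agent.FFJ.Val.ValInjR1

set_option autoImplicit false
set_option maxHeartbeats 400000
set_option linter.unusedSectionVars false

noncomputable section

namespace Fermat.Agent.FFJ.Pic.AdmCoreClosed37

open scoped TensorProduct
open Fermat.Agent.JAC.Core.Defs36 Fermat.Agent.FFJ.Core.ClR35 Fermat.Agent.FFJ.Core.ClRBc35
  Fermat.Agent.FFJ.Pic.ChartDefR35 Fermat.Agent.FFJ.Pic.SpecD35 Fermat.Agent.FFJ.Order.ValConj77
open Fermat.Agent.FFJ.Spec.Spec35 (galActR)

variable {O : Type} [CommRing O] [IsDomain O] [IsDiscreteValuationRing O]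
  {A0 A1 A01 : Type} [CommRing A0] [CommRing A1] [CommRing A01]
  [Algebra O A0] [Algebra O A1] [Algebra O A01] [Algebra A0 A01] [Algebra A1 A01]
  [IsScalarTower O A0 A01] [IsScalarTower O A1 A01] {t : A0} {s : A1}
  [IsLocalization.Away t A01] [IsLocalization.Away s A01]
  (F : Type) {Ω : Type} [Field F] [Field Ω] [Algebra O F] [Algebra F Ω] [Algebra O Ω]
  [IsScalarTower O F Ω] [IsFractionRing O F] [IsGalois F Ω]

/-- **The one-level core of ADM, no brick hypothesis left.** -/
theorem exists_isFunOrder_of_goodTwist [IsAlgClosed Ω] [Algebra.IsAlgebraic O Ω]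
    (hO : Function.Injective (algebraMap O Ω))
    (H : CurveHypR O A0 A1 A01 t s) (e : A01 →ₐ[O] O)
    (M : Type) [AddCommGroup M] [Finite M] [MulAction (Ω ≃ₐ[F] Ω) M]
    (ι : Multiplicative M →* ClR O A0 A1 A01 t s Ω) (hinj : Function.Injective ι)
    (hmem : ∀ m, ι m ∈ PicZeroR e Ω)
    (hequiv : ∀ (σ : Ω ≃ₐ[F] Ω) (m : M),
      ι (Multiplicative.ofAdd (σ • m)) = galActR O F σ (ι (Multiplicative.ofAdd m)))
    (V₀ : ValuationSubring Ω) [Algebra O V₀] [IsScalarTower O V₀ Ω] (hV₀ : LiesOverBase O F V₀)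
    (hcard : Infinite (IsLocalRing.ResidueField O) ∨
      Nat.card M < Nat.card (IsLocalRing.ResidueField O))
    (l : List (A01 →ₐ[O] O)) (n : ℕ)
    (hgood : ∀ (m : M) (ξ : ClR O A0 A1 A01 t s V₀), ξ ∈ PicZeroR e V₀ →
      bcR (IsScalarTower.toAlgHom O V₀ Ω) ξ = ι (Multiplicative.ofAdd m) →
      GoodAtRank (IsLocalRing.ResidueField V₀)
        (bcR (IsScalarTower.toAlgHom O V₀ (IsLocalRing.ResidueField V₀)) ξ *
          ((l.map fun P => (Algebra.ofId O (IsLocalRing.ResidueField V₀)).comp P).map fun q =>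
            ptClassR H.hts (q.comp (IsScalarTower.toAlgHom O A0 A01))).prod) n) :
    ∃ H' : Subalgebra O (M → Ω), Fermat.Agent.TW.FF.FunOrder68.IsFunOrder O F H' := by
  have hVS := Fermat.Agent.FFJ.Val.ValSurj67.valSurj' H e Ω
  have hVI := Fermat.Agent.FFJ.Val.ValInjR1.valInj' e H hO
  have hmod : ∀ m : M, ∃ ξ : ClR O A0 A1 A01 t s V₀, ξ ∈ PicZeroR e V₀ ∧
      bcR (IsScalarTower.toAlgHom O V₀ Ω) ξ = ι (Multiplicative.ofAdd m) :=
    fun m => hVS V₀ _ (hmem _)
  choose ξ_ hξ_ hξι using hmod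
  exact AdmCore37.exists_isFunOrder_of_goodTwist F H e
    (ChartFinClosed4.chartFin_of_curveHypR H e)
    (fun lam _ β φ => ChartSpreadR50.spreadR H lam β PUnit.unit φ)
    (Fermat.Agent.FFJ.Val.ValInjR1.picZeroMul' e H) hVI hVS M ι hinj hmem hequiv V₀ hV₀ hcard
    ξ_ hξ_ hξι l n (fun m => hgood m (ξ_ m) (hξ_ m) (hξι m))

end Fermat.Agent.FFJ.Pic.AdmCoreClosed37
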