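/-
Programme FFJ (S19), chapter PIC, part D (helper37): (CORE-ONE) of COORD #3, literal shape, for an
ARBITRARY one-element family of twists `lam : PUnit → ClR O A0 A1 A01 t s O`.

`exists_isFunOrder_of_goodAtRank`: over a discrete valuation ring `O` with fraction field `F`, `Ω/F`
Galois, algebraically closed and algebraic over `O`, `V₀` a valuation subring of `Ω` lying over `O`:
curve hypotheses + a Galois-equivariant embedding `ι` of a finite group `M` into `PicZeroR e Ω` +
ONE twist `lam` (defined over `O`) making the special fibres of all `V₀`-models of the `ι m` good of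
the same rank `n` ⟹ a function order on `M` over `O`.
(`AdmCoreClosed37.exists_isFunOrder_of_goodTwist` is the case `lam := AdmCore37.ptTwist H l`.)
-/
import Mathlib
import Fermat.Agent.FFJ.Pic.AdmCoreClosed37

set_option autoImplicit false
set_option maxHeartbeats 400000
set_option linter.unusedSectionVars false

noncomputable section

namespace Fermat.Agent.FFJ.Pic.CoreOne37

open scoped TensorProduct
open Fermat.Agent.JAC.Core.Defs36 Fermat.Agent.FFJ.Core.ClR35 Fermat.Agent.FFJ.Core.ClRBc35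
  Fermat.Agent.FFJ.Pic.ChartDefR35 Fermat.Agent.FFJ.Pic.SpecD35 Fermat.Agent.FFJ.Order.ValConj77
  Fermat.Agent.FFJ.Pic.LocalChartR35
open Fermat.Agent.FFJ.Spec.Spec35 (galActR)

variable {O : Type} [CommRing O] [IsDomain O] [IsDiscreteValuationRing O]
  {A0 A1 A01 : Type} [CommRing A0] [CommRing A1] [CommRing A01]
  [Algebra O A0] [Algebra O A1] [Algebra O A01] [Algebra A0 A01] [Algebra A1 A01]
  [IsScalarTower O A0 A01] [IsScalarTower O A1 A01] {t : A0} {s : A1}
  [IsLocalization.Away t A01] [IsLocalization.Away s A01]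
  (F : Type) {Ω : Type} [Field F] [Field Ω] [Algebra O F] [Algebra F Ω] [Algebra O Ω]
  [IsScalarTower O F Ω] [IsFractionRing O F] [IsGalois F Ω]

/-- **(CORE-ONE)**: one level, no change of base ring, arbitrary twist over `O`. -/
theorem exists_isFunOrder_of_goodAtRank [IsAlgClosed Ω] [Algebra.IsAlgebraic O Ω]
    (hO : Function.Injective (algebraMap O Ω))
    (H : CurveHypR O A0 A1 A01 t s) (e : A01 →ₐ[O] O)
    (M : Type) [AddCommGroup M] [Finite M] [MulAction (Ω ≃ₐ[F] Ω) M]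
    (ι : Multiplicative M →* ClR O A0 A1 A01 t s Ω) (hinj : Function.Injective ι)
    (hmem : ∀ m, ι m ∈ PicZeroR e Ω)
    (hequiv : ∀ (σ : Ω ≃ₐ[F] Ω) (m : M),
      ι (Multiplicative.ofAdd (σ • m)) = galActR O F σ (ι (Multiplicative.ofAdd m)))
    (V₀ : ValuationSubring Ω) [Algebra O V₀] [IsScalarTower O V₀ Ω] (hV₀ : LiesOverBase O F V₀)
    (lam : PUnit.{1} → ClR O A0 A1 A01 t s O) (n : ℕ)
    (hcard : Infinite (IsLocalRing.ResidueField O) ∨
      Nat.card M < Nat.card (IsLocalRing.ResidueField O))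
    (hgood : ∀ (ξ : ClR O A0 A1 A01 t s V₀) (m : Multiplicative M), ξ ∈ PicZeroR e V₀ →
      bcR (IsScalarTower.toAlgHom O V₀ Ω) ξ = ι m →
      GoodAtRank (IsLocalRing.ResidueField V₀)
        (bcR (Fermat.Agent.FFJ.Order.AdmOne77.resV V₀) ξ *
          twist lam (IsLocalRing.ResidueField V₀) PUnit.unit) n) :
    ∃ Hs : Subalgebra O (M → Ω), Fermat.Agent.TW.FF.FunOrder68.IsFunOrder O F Hs := by
  have hVS := Fermat.Agent.FFJ.Val.ValSurj67.valSurj' H e Ω
  have hVI := Fermat.Agent.FFJ.Val.ValInjR1.valInj' e H hO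
  have hmod : ∀ m : M, ∃ ξ : ClR O A0 A1 A01 t s V₀, ξ ∈ PicZeroR e V₀ ∧
      bcR (IsScalarTower.toAlgHom O V₀ Ω) ξ = ι (Multiplicative.ofAdd m) :=
    fun m => hVS V₀ _ (hmem _)
  choose ξ_ hξ_ hξι using hmod
  -- the chart
  obtain ⟨β, φ, hc, hW⟩ := ChartFinClosed4.chartFin_of_curveHypR H e lam PUnit.unit n
    (IsLocalRing.ResidueField V₀) (AdmCore37.algebraMap_residueField_eq_zero F V₀ hV₀) M
    (fun m => bcR (IsScalarTower.toAlgHom O V₀ (IsLocalRing.ResidueField V₀)) (ξ_ m)) hcard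
    (fun m => isDegZeroR_bcR _ _ (hξ_ m).2)
    (fun m => hgood (ξ_ m) (Multiplicative.ofAdd m) (hξ_ m) (hξι m))
  let 𝔏 : LocalChartR (A0 := A0) (A1 := A1) (t := t) (s := s) e :=
    PicDry37.localChartR_of_curveHypR H e lam β PUnit.unit φ
      (ChartSpreadR50.spreadR H lam β PUnit.unit φ) hc
  refine AdmOfSpecial37.exists_isFunOrder_of_special F
    (Fermat.Agent.FFJ.Val.ValInjR1.picZeroMul' e H) 𝔏 (PicDry37.g4R H e) M ι hinj hmem
    hequiv hVS V₀ hV₀ ?_
  intro ξ m hξ hξm
  have : ξ = ξ_ (Multiplicative.toAdd m) :=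
    hVI V₀ ξ (ξ_ (Multiplicative.toAdd m)) hξ (hξ_ _) (by rw [hξm, hξι]; rfl)
  rw [this]
  exact hW (Multiplicative.toAdd m)

end Fermat.Agent.FFJ.Pic.CoreOne37
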