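/-
Programme FFJ (S19), chapter PIC, part D, export for programme MAZ (pole P3, the prime `2`).
Owner: helper37.

(CORE-ONE) WITH THE CONGRUENCES OF THE POINTS.  Twins of
`AdmOfSpecial37.exists_isFunOrder_of_special` and `CoreOne37.exists_isFunOrder_of_goodAtRank` whose
conclusion also records `ChartCong37.CongSpec e ι Hs`: two points `m, m'` of `M` are congruent modulo
the maximal ideal of a valuation subring `V` of `Ω` (for all functions of the order `Hs`) iff the
`V`-models of `ι m`, `ι m'` have the same special fibre.  The right-hand side does not depend on the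
chart, so the CONNECTED PART of the function order (`Red68.conn`: the points congruent to `0`) is the
kernel of specialisation — the mark that programme MAZ needs at the prime `2`.
-/
import Mathlib
import Fermat.Agent.FFJ.Pic.CoreOne37
import Fermat.Agent.FFJ.Order.ChartCong37

set_option autoImplicit false
set_option maxHeartbeats 400000
set_option linter.unusedSectionVars false

noncomputable section

namespace Fermat.Agent.FFJ.Pic.CoreOneCong37

open scoped TensorProduct
open Fermat.Agent.JAC.Core.Defs36 Fermat.Agent.FFJ.Core.ClR35 Fermat.Agent.FFJ.Core.ClRBc35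
  Fermat.Agent.FFJ.Pic.ChartDefR35 Fermat.Agent.FFJ.Pic.SpecD35 Fermat.Agent.FFJ.Order.ValConj77
  Fermat.Agent.FFJ.Pic.LocalChartR35 Fermat.Agent.FFJ.Pic.ChartSpecR35
  Fermat.Agent.FFJ.Order.ChartCong37
open Fermat.Agent.FFJ.Spec.Spec35 (galActR ValSurj)

section Special

variable {O : Type} [CommRing O] {A0 A1 A01 : Type} [CommRing A0] [CommRing A1] [CommRing A01]
  [Algebra O A0] [Algebra O A1] [Algebra O A01] [Algebra A0 A01] [Algebra A1 A01]
  [IsScalarTower O A0 A01] [IsScalarTower O A1 A01] {t : A0} {s : A1}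
  [IsLocalization.Away t A01] [IsLocalization.Away s A01] {e : A01 →ₐ[O] O}
  (F : Type) {Ω : Type} [Field F] [Field Ω] [Algebra O F] [Algebra F Ω] [Algebra O Ω]
  [IsScalarTower O F Ω]

/-- `AdmOfSpecial37.exists_isFunOrder_of_special` with the congruences of the points. -/
theorem exists_isFunOrder_of_special_cong [IsDomain O] [IsDiscreteValuationRing O]
    [IsFractionRing O F] [IsGalois F Ω]
    (hmul : Fermat.Agent.FFJ.Order.Order77.PicZeroMul O A0 A1 A01 t s e)
    (𝔏 : LocalChartR (A0 := A0) (A1 := A1) (t := t) (s := s) e)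
    (hsep : Brick.G4 O A0 A1 A01 t s e)
    (M : Type) [AddCommGroup M] [Finite M] [MulAction (Ω ≃ₐ[F] Ω) M]
    (ι : Multiplicative M →* ClR O A0 A1 A01 t s Ω) (hinj : Function.Injective ι)
    (hmem : ∀ m, ι m ∈ PicZeroR e Ω)
    (hequiv : ∀ (σ : Ω ≃ₐ[F] Ω) (m : M),
      ι (Multiplicative.ofAdd (σ • m)) = galActR O F σ (ι (Multiplicative.ofAdd m)))
    (hVS : ValSurj O A0 A1 A01 t s e Ω)
    (V₀ : ValuationSubring Ω) [Algebra O V₀] [IsScalarTower O V₀ Ω] (hV₀ : LiesOverBase O F V₀)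
    (h₀ : ∀ (ξ : ClR O A0 A1 A01 t s V₀) (m : Multiplicative M), ξ ∈ PicZeroR e V₀ →
      bcR (IsScalarTower.toAlgHom O V₀ Ω) ξ = ι m →
      𝔏.W (IsLocalRing.ResidueField V₀)
        (bcR (IsScalarTower.toAlgHom O V₀ (IsLocalRing.ResidueField V₀)) ξ)) :
    ∃ H : Subalgebra O (M → Ω), Fermat.Agent.TW.FF.FunOrder68.IsFunOrder O F H ∧
      CongSpec e ι H :=
  exists_isFunOrder_cong O A0 A1 A01 t s e hmul
    (ChartPkgOfLocal35.toChartPkg 𝔏 hsep) M ι
    hinj hmem hequiv hVS
    (AdmOfSpecial37.admissible_of_special F 𝔏 hsep ι hmem hequiv hVS V₀ hV₀ h₀)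

end Special

section Core

variable {O : Type} [CommRing O] [IsDomain O] [IsDiscreteValuationRing O]
  {A0 A1 A01 : Type} [CommRing A0] [CommRing A1] [CommRing A01]
  [Algebra O A0] [Algebra O A1] [Algebra O A01] [Algebra A0 A01] [Algebra A1 A01]
  [IsScalarTower O A0 A01] [IsScalarTower O A1 A01] {t : A0} {s : A1}
  [IsLocalization.Away t A01] [IsLocalization.Away s A01]
  (F : Type) {Ω : Type} [Field F] [Field Ω] [Algebra O F] [Algebra F Ω] [Algebra O Ω]
  [IsScalarTower O F Ω] [IsFractionRing O F] [IsGalois F Ω]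

/-- **(CORE-ONE) with the congruences of the points**: the function order of
`CoreOne37.exists_isFunOrder_of_goodAtRank` satisfies `CongSpec`. -/
theorem exists_isFunOrder_of_goodAtRank_cong [IsAlgClosed Ω] [Algebra.IsAlgebraic O Ω]
    (hO : Function.Injective (algebraMap O Ω))
    (H : CurveHypR O A0 A1 A01 t s) (e : A01 →ₐ[O] O)
    (M : Type) [AddCommGroup M] [Finite M] [MulAction (Ω ≃ₐ[F] Ω) M]
    (ι : Multiplicative M →* ClR O A0 A1 A01 t s Ω) (hinj : Function.Injective ι)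
    (hmem : ∀ m, ι m ∈ PicZeroR e Ω)
    (hequiv : ∀ (σ : Ω ≃ₐ[F] Ω) (m : M),
      ι (Multiplicative.ofAdd (σ • m)) = galActR O F σ (ι (Multiplicative.ofAdd m)))
    (V₀ : ValuationSubring Ω) [Algebra O V₀] [IsScalarTower O V₀ Ω] (hV₀ : LiesOverBase O F V₀)
    (lam : PUnit.{1} → ClR O A0 A1 A01 t s O) (n : ℕ)
    (hcard : Infinite (IsLocalRing.ResidueField O) ∨
      Nat.card M < Nat.card (IsLocalRing.ResidueField O))
    (hgood : ∀ (ξ : ClR O A0 A1 A01 t s V₀) (m : Multiplicative M), ξ ∈ PicZeroR e V₀ →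
      bcR (IsScalarTower.toAlgHom O V₀ Ω) ξ = ι m →
      GoodAtRank (IsLocalRing.ResidueField V₀)
        (bcR (Fermat.Agent.FFJ.Order.AdmOne77.resV V₀) ξ *
          twist lam (IsLocalRing.ResidueField V₀) PUnit.unit) n) :
    ∃ Hs : Subalgebra O (M → Ω), Fermat.Agent.TW.FF.FunOrder68.IsFunOrder O F Hs ∧
      CongSpec e ι Hs := by
  have hVS := Fermat.Agent.FFJ.Val.ValSurj67.valSurj' H e Ω
  have hVI := Fermat.Agent.FFJ.Val.ValInjR1.valInj' e H hO
  have hmod : ∀ m : M, ∃ ξ : ClR O A0 A1 A01 t s V₀, ξ ∈ PicZeroR e V₀ ∧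
      bcR (IsScalarTower.toAlgHom O V₀ Ω) ξ = ι (Multiplicative.ofAdd m) :=
    fun m => hVS V₀ _ (hmem _)
  choose ξ_ hξ_ hξι using hmod
  -- the chart
  obtain ⟨β, φ, hc, hW⟩ := ChartFinClosed4.chartFin_of_curveHypR H e lam PUnit.unit n
    (IsLocalRing.ResidueField V₀) (AdmCore37.algebraMap_residueField_eq_zero F V₀ hV₀) M
    (fun m => bcR (IsScalarTower.toAlgHom O V₀ (IsLocalRing.ResidueField V₀)) (ξ_ m)) hcard
    (fun m => isDegZeroR_bcR _ _ (hξ_ m).2)
    (fun m => hgood (ξ_ m) (Multiplicative.ofAdd m) (hξ_ m) (hξι m))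
  let 𝔏 : LocalChartR (A0 := A0) (A1 := A1) (t := t) (s := s) e :=
    PicDry37.localChartR_of_curveHypR H e lam β PUnit.unit φ
      (ChartSpreadR50.spreadR H lam β PUnit.unit φ) hc
  refine exists_isFunOrder_of_special_cong F
    (Fermat.Agent.FFJ.Val.ValInjR1.picZeroMul' e H) 𝔏 (PicDry37.g4R H e) M ι hinj hmem
    hequiv hVS V₀ hV₀ ?_
  intro ξ m hξ hξm
  have : ξ = ξ_ (Multiplicative.toAdd m) :=
    hVI V₀ ξ (ξ_ (Multiplicative.toAdd m)) hξ (hξ_ _) (by rw [hξm, hξι]; rfl)
  rw [this]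
  exact hW (Multiplicative.toAdd m)

end Core

end Fermat.Agent.FFJ.Pic.CoreOneCong37
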