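/-
Programme FFJ (S19), chapter PIC, brick (D1) BASE.  Owner: helper85.

CHANGE OF THE BASE RING FOR THE CLASS FUNCTOR.

Let `k → k'` be a map of commutative rings and `(A0 → A01 ← A1; t, s)` two-chart curve data over
`k`.  For a `k'`-algebra `B` the constant families `B ⊗[k'] (k' ⊗[k] A_i)` and `B ⊗[k] A_i` are
isomorphic (`cancelBaseChange`), hence the class functor `ClR k' (k' ⊗ A_i) .. B` of the tensor model
is the restriction to `k'`-algebras of the class functor `ClR k A_i .. B`: `baseEquiv`.  The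
identification is compatible with base change (`baseEquiv_bcR`), rigidity along the base point
(`isRigidClR_baseEquiv`), the degree (`degClass_baseEquiv`, `isDegZeroR_baseEquiv`) and goodness with
rank (`goodAtRank_baseEquiv`).  All of this is packaged as a term `baseChangeR` of
`SpecD35.BaseChangeR`.

General tools: a base change along bijective ring maps is bijective (`bijective_of_isBaseChangeHom`)
and the conditions `H¹ = 0`, generating section, no zero at infinity, zero ideal are transported by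
cartesian morphisms with bijective components (`section Transfer`).
-/
import Mathlib
import Fermat.Agent.FFJ.Model.CurveBc85
import Fermat.Agent.FFJ.Pic.SpecD35
import Fermat.Agent.FFJ.Core.DegFamilyR65
import Fermat.Agent.FFJ.Bridge.Equivariant85

set_option autoImplicit false
set_option linter.unusedSectionVars false
set_option linter.style.haveILetI false

open scoped TensorProduct
open scoped Fermat.Agent.JAC.Core.ConstFamily36

namespace Fermat.Agent.FFJ.Pic.BaseEquiv85

open Fermat.Agent.JAC.Core.Defs36 Fermat.Agent.JAC.Core.Cart36 Fermat.Agent.JAC.Core.ConstFamily36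
  Fermat.Agent.JAC.Core.Degree36 Fermat.Agent.JAC.Grp.Diag33 Fermat.Agent.JAC.Grp.Cart33
  Fermat.Agent.JAC.Hilb.ZeroIdeal46
  Fermat.Agent.FFJ.Core.ClR35 Fermat.Agent.FFJ.Core.ClRBc35
  Fermat.Agent.FFJ.Bridge.Equivariant85

universe u

/-! ### Base change along bijective ring maps -/

section Bijective

variable {R R' : Type u} [CommRing R] [CommRing R'] {φ : R →+* R'}
  {P P' : Type u} [AddCommGroup P] [Module R P] [AddCommGroup P'] [Module R' P']

/-- A base change along a bijective ring homomorphism is bijective. -/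
theorem bijective_of_isBaseChangeHom (hφ : Function.Bijective φ) {θ : P →ₛₗ[φ] P'}
    (h : IsBaseChangeHom θ) : Function.Bijective θ := by
  let e : R ≃+* R' := RingEquiv.ofBijective φ hφ
  letI : Module R' P := Module.compHom P (e.symm : R' →+* R)
  let θ₀ : P →ₛₗ[φ] P :=
    { toFun := fun x => x
      map_add' := fun _ _ => rfl
      map_smul' := fun r x => by
        show r • x = (e.symm (φ r)) • x
        have : e.symm (φ r) = r := e.symm_apply_apply r
        rw [this] }
  have hθ₀ : IsBaseChangeHom θ₀ :=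
    isBaseChangeHom_of_bijective hφ.2 θ₀ Function.bijective_id
  obtain ⟨g, hg⟩ := h.exists_linearEquiv hθ₀
  have : (θ : P → P') = g.symm ∘ θ₀ := by
    funext x
    show θ x = g.symm (θ₀ x)
    rw [← hg x, LinearEquiv.symm_apply_apply]
  rw [this]
  exact g.symm.bijective.comp Function.bijective_id

end Bijective

/-! ### Transport of the chart conditions along a cartesian morphism with bijective components -/

section Transfer

variable {R0 R1 R01 : Type u} [CommRing R0] [CommRing R1] [CommRing R01]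
  [Algebra R0 R01] [Algebra R1 R01] {t : R0} {s : R1}
  {R0' R1' R01' : Type u} [CommRing R0'] [CommRing R1'] [CommRing R01']
  [Algebra R0' R01'] [Algebra R1' R01'] {t' : R0'} {s' : R1'}
  {ψ : FamilyHom t s t' s' R01 R01'} {N : LineDiag t s R01} {N' : LineDiag t' s' R01'}

/-- `H¹ = 0` (general family). -/
def H1ZeroG (N : LineDiag t s R01) : Prop :=
  ∀ z : N.M01, ∃ (x : N.M0) (y : N.M1), N.rho0 x - N.rho1 y = z

/-- Generating section over `B` (general family over `B`). -/
def IsGenSectionG (B : Type u) [CommRing B] [Algebra B R0] [Algebra B R1] (N : LineDiag t s R01)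
    (σ0 : N.M0) (σ1 : N.M1) : Prop :=
  N.rho0 σ0 = N.rho1 σ1 ∧ ∀ (x : N.M0) (y : N.M1), N.rho0 x = N.rho1 y →
    ∃! b : B, x = algebraMap B R0 b • σ0 ∧ y = algebraMap B R1 b • σ1

/-- No zero at infinity (general family). -/
def NoZeroInfG (N : LineDiag t s R01) (σ1 : N.M1) : Prop :=
  Submodule.span R1 {σ1} ⊔ Ideal.span {s} • (⊤ : Submodule R1 N.M1) = ⊤

theorem h1ZeroG_of_cartHom (c : LineDiag.CartHom ψ N N') (h01 : Function.Surjective c.f01)
    (h : H1ZeroG N) : H1ZeroG N' := by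
  intro z'
  obtain ⟨z, rfl⟩ := h01 z'
  obtain ⟨x, y, rfl⟩ := h z
  exact ⟨c.f0 x, c.f1 y, by rw [map_sub, c.comm0, c.comm1]⟩

theorem isGenSectionG_of_cartHom (B : Type u) [CommRing B] [Algebra B R0] [Algebra B R1]
    [Algebra B R0'] [Algebra B R1'] (hB0 : ∀ b, ψ.ψ0 (algebraMap B R0 b) = algebraMap B R0' b)
    (hB1 : ∀ b, ψ.ψ1 (algebraMap B R1 b) = algebraMap B R1' b)
    (c : LineDiag.CartHom ψ N N') (h0 : Function.Bijective c.f0) (h1 : Function.Bijective c.f1)
    (h01 : Function.Injective c.f01) {σ0 : N.M0} {σ1 : N.M1} (h : IsGenSectionG B N σ0 σ1) :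
    IsGenSectionG B N' (c.f0 σ0) (c.f1 σ1) := by
  refine ⟨by rw [← c.comm0, ← c.comm1, h.1], fun x' y' hxy => ?_⟩
  obtain ⟨x, rfl⟩ := h0.2 x'
  obtain ⟨y, rfl⟩ := h1.2 y'
  have hxy' : N.rho0 x = N.rho1 y := by
    apply h01
    rw [c.comm0, c.comm1, hxy]
  obtain ⟨b, ⟨hb0, hb1⟩, hb⟩ := h.2 x y hxy'
  refine ⟨b, ⟨?_, ?_⟩, fun b' hb' => ?_⟩
  · rw [hb0, c.f0.map_smulₛₗ, hB0]
  · rw [hb1, c.f1.map_smulₛₗ, hB1]
  · apply hb
    constructor
    · apply h0.1
      rw [hb'.1, c.f0.map_smulₛₗ, hB0]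
    · apply h1.1
      rw [hb'.2, c.f1.map_smulₛₗ, hB1]

theorem noZeroInfG_of_cartHom (c : LineDiag.CartHom ψ N N') (h1 : Function.Surjective c.f1)
    {σ1 : N.M1} (h : NoZeroInfG N σ1) : NoZeroInfG N' (c.f1 σ1) := by
  unfold NoZeroInfG at h ⊢
  rw [eq_top_iff]
  intro y' _
  obtain ⟨y, rfl⟩ := h1 y'
  have hy : y ∈ Submodule.span R1 {σ1} ⊔ Ideal.span {s} • (⊤ : Submodule R1 N.M1) := by
    rw [h]; trivial
  rw [Submodule.mem_sup] at hy
  obtain ⟨a, ha, b, hb, rfl⟩ := hy
  rw [Submodule.mem_span_singleton] at ha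
  obtain ⟨r, rfl⟩ := ha
  rw [Submodule.ideal_span_singleton_smul] at hb
  obtain ⟨m, -, rfl⟩ := hb
  rw [map_add, c.f1.map_smulₛₗ]
  refine Submodule.add_mem_sup (Submodule.smul_mem _ _ (Submodule.mem_span_singleton_self _)) ?_
  rw [Submodule.ideal_span_singleton_smul]
  refine ⟨c.f1 m, trivial, ?_⟩
  show s' • c.f1 m = c.f1 (s • m)
  rw [c.f1.map_smulₛₗ, ψ.map_s]

/-- The zero ideal of a section is transported by a bijective semilinear map over a bijective ring
map. -/
theorem zeroIdeal_of_bijective {R R' : Type u} [CommRing R] [CommRing R'] {φ : R →+* R'}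
    (hφ : Function.Bijective φ) {P P' : Type u} [AddCommGroup P] [Module R P] [AddCommGroup P']
    [Module R' P'] (θ : P →ₛₗ[φ] P') (hθ : Function.Bijective θ) (σ : P) :
    zeroIdeal R' (θ σ) = Ideal.map φ (zeroIdeal R σ) := by
  let e : R ≃+* R' := RingEquiv.ofBijective φ hφ
  let eθ : P ≃ P' := Equiv.ofBijective θ hθ
  have heθ : ∀ y, θ (eθ.symm y) = y := fun y => eθ.apply_symm_apply y
  apply le_antisymm
  · rintro r' ⟨l', rfl⟩
    -- `l := φ⁻¹ ∘ l' ∘ θ`
    let l : Module.Dual R P :=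
      { toFun := fun x => e.symm (l' (θ x))
        map_add' := fun x y => by rw [map_add, map_add, map_add]
        map_smul' := fun r x => by
          rw [θ.map_smulₛₗ, l'.map_smul, smul_eq_mul, map_mul, RingHom.id_apply, smul_eq_mul]
          congr 1
          exact e.symm_apply_apply r }
    have : (Module.Dual.eval R' P' (θ σ)) l' = φ (l σ) := by
      show l' (θ σ) = φ (e.symm (l' (θ σ)))
      exact (e.apply_symm_apply _).symm
    rw [this]
    exact Ideal.mem_map_of_mem φ ⟨l, rfl⟩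
  · rw [Ideal.map_le_iff_le_comap]
    rintro r ⟨l, rfl⟩
    -- `l' := φ ∘ l ∘ θ⁻¹`
    have hadd : ∀ x y : P', eθ.symm (x + y) = eθ.symm x + eθ.symm y := fun x y => by
      apply hθ.1
      rw [θ.map_add, heθ, heθ, heθ]
    have hsmul : ∀ (r : R) (y : P'), eθ.symm (φ r • y) = r • eθ.symm y := fun r y => by
      apply hθ.1
      rw [θ.map_smulₛₗ, heθ, heθ]
    let l' : Module.Dual R' P' :=
      { toFun := fun y => φ (l (eθ.symm y))
        map_add' := fun x y => by rw [hadd, map_add, map_add]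
        map_smul' := fun r' y => by
          obtain ⟨r, rfl⟩ := hφ.2 r'
          rw [hsmul, l.map_smul, smul_eq_mul, map_mul, RingHom.id_apply, smul_eq_mul] }
    refine ⟨l', ?_⟩
    show φ (l (eθ.symm (θ σ))) = φ ((Module.Dual.eval R P σ) l)
    rw [show eθ.symm (θ σ) = σ from eθ.symm_apply_apply σ]
    rfl

/-- **Transport of goodness with rank** along a cartesian morphism over an isomorphism of families
over `B`. -/
theorem good_of_cartHom (B : Type u) [CommRing B] [Algebra B R0] [Algebra B R1]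
    [Algebra B R0'] [Algebra B R1'] (E0 : R0 ≃ₐ[B] R0') (hE0 : ∀ r, ψ.ψ0 r = E0 r)
    (E1 : R1 ≃ₐ[B] R1') (hE1 : ∀ r, ψ.ψ1 r = E1 r) (h01 : Function.Bijective ψ.ψ01)
    (c : LineDiag.CartHom ψ N N') {σ0 : N.M0} {σ1 : N.M1} {n : ℕ}
    (h : H1ZeroG N ∧ IsGenSectionG B N σ0 σ1 ∧ NoZeroInfG N σ1 ∧
      Module.finrank B (R0 ⧸ zeroIdeal R0 σ0) = n) :
    H1ZeroG N' ∧ IsGenSectionG B N' (c.f0 σ0) (c.f1 σ1) ∧ NoZeroInfG N' (c.f1 σ1) ∧
      Module.finrank B (R0' ⧸ zeroIdeal R0' (c.f0 σ0)) = n := by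
  have hψ0 : ψ.ψ0 = (E0 : R0 →+* R0') := RingHom.ext hE0
  have hψ1 : ψ.ψ1 = (E1 : R1 →+* R1') := RingHom.ext hE1
  have hb0 : Function.Bijective ψ.ψ0 := by rw [hψ0]; exact E0.bijective
  have hb1 : Function.Bijective ψ.ψ1 := by rw [hψ1]; exact E1.bijective
  have hf0 := bijective_of_isBaseChangeHom hb0 c.cart0
  have hf1 := bijective_of_isBaseChangeHom hb1 c.cart1
  have hf01 := bijective_of_isBaseChangeHom h01 c.cart01
  obtain ⟨h1, h2, h3, h4⟩ := h
  refine ⟨h1ZeroG_of_cartHom c hf01.2 h1,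
    isGenSectionG_of_cartHom B (fun b => by rw [hE0, AlgEquiv.commutes])
      (fun b => by rw [hE1, AlgEquiv.commutes]) c hf0 hf1 hf01.1 h2,
    noZeroInfG_of_cartHom c hf1.2 h3, ?_⟩
  have hI : zeroIdeal R0' (c.f0 σ0) = Ideal.map (E0 : R0 →+* R0') (zeroIdeal R0 σ0) := by
    rw [zeroIdeal_of_bijective hb0 c.f0 hf0 σ0, hψ0]
  rw [← h4]
  exact (Ideal.quotientEquivAlg (zeroIdeal R0 σ0) (zeroIdeal R0' (c.f0 σ0)) E0
    hI).toLinearEquiv.finrank_eq.symm

end Transfer

/-! ### The two constant families -/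

section Base

open Fermat.Agent.FFJ.Model.CurveBc85 Fermat.Agent.FFJ.Pic.ChartDefR35
  Fermat.Agent.FFJ.Pic.SpecD35

variable (k : Type u) [CommRing k] (A0 A1 A01 : Type u) [CommRing A0] [CommRing A1] [CommRing A01]
  [Algebra k A0] [Algebra k A1] [Algebra k A01] [Algebra A0 A01] [Algebra A1 A01]
  [IsScalarTower k A0 A01] [IsScalarTower k A1 A01] (t : A0) (s : A1)
  [IsLocalization.Away t A01] [IsLocalization.Away s A01]
  (k' : Type u) [CommRing k'] [Algebra k k']

section Family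

variable (B : Type u) [CommRing B] [Algebra k B] [Algebra k' B] [IsScalarTower k k' B]

/-- The isomorphism of two-chart families `B ⊗[k'] (k' ⊗[k] A_i) ≅ B ⊗[k] A_i`. -/
noncomputable def baseFamilyHom :
    FamilyHom ((1 : B) ⊗ₜ[k'] ((1 : k') ⊗ₜ[k] t)) ((1 : B) ⊗ₜ[k'] ((1 : k') ⊗ₜ[k] s))
      ((1 : B) ⊗ₜ[k] t) ((1 : B) ⊗ₜ[k] s) (B ⊗[k'] (k' ⊗[k] A01)) (B ⊗[k] A01) where
  ψ0 := (fibreEquiv k k' A0 B).toAlgHom.toRingHom
  ψ1 := (fibreEquiv k k' A1 B).toAlgHom.toRingHom
  ψ01 := (fibreEquiv k k' A01 B).toAlgHom.toRingHom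
  comm0 r := fibreEquiv_algebraMap k k' A0 A01 B r
  comm1 r := fibreEquiv_algebraMap k k' A1 A01 B r
  map_t := by
    show fibreEquiv k k' A0 B ((1 : B) ⊗ₜ[k'] ((1 : k') ⊗ₜ[k] t)) = _
    simp [fibreEquiv]
  map_s := by
    show fibreEquiv k k' A1 B ((1 : B) ⊗ₜ[k'] ((1 : k') ⊗ₜ[k] s)) = _
    simp [fibreEquiv]

/-- The inverse isomorphism of two-chart families. -/
noncomputable def baseFamilyHomInv :
    FamilyHom ((1 : B) ⊗ₜ[k] t) ((1 : B) ⊗ₜ[k] s)
      ((1 : B) ⊗ₜ[k'] ((1 : k') ⊗ₜ[k] t)) ((1 : B) ⊗ₜ[k'] ((1 : k') ⊗ₜ[k] s))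
      (B ⊗[k] A01) (B ⊗[k'] (k' ⊗[k] A01)) where
  ψ0 := (fibreEquiv k k' A0 B).symm.toAlgHom.toRingHom
  ψ1 := (fibreEquiv k k' A1 B).symm.toAlgHom.toRingHom
  ψ01 := (fibreEquiv k k' A01 B).symm.toAlgHom.toRingHom
  comm0 r := by
    show (fibreEquiv k k' A01 B).symm _ = algebraMap _ _ ((fibreEquiv k k' A0 B).symm r)
    rw [AlgEquiv.symm_apply_eq, fibreEquiv_algebraMap, AlgEquiv.apply_symm_apply]
  comm1 r := by
    show (fibreEquiv k k' A01 B).symm _ = algebraMap _ _ ((fibreEquiv k k' A1 B).symm r)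
    rw [AlgEquiv.symm_apply_eq, fibreEquiv_algebraMap, AlgEquiv.apply_symm_apply]
  map_t := by
    show (fibreEquiv k k' A0 B).symm ((1 : B) ⊗ₜ[k] t) = _
    rw [AlgEquiv.symm_apply_eq]
    simp [fibreEquiv]
  map_s := by
    show (fibreEquiv k k' A1 B).symm ((1 : B) ⊗ₜ[k] s) = _
    rw [AlgEquiv.symm_apply_eq]
    simp [fibreEquiv]

theorem baseFamilyHom_comp_inv :
    familyHomComp (baseFamilyHom k A0 A1 A01 t s k' B) (baseFamilyHomInv k A0 A1 A01 t s k' B) =
      familyHomId _ _ _ :=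
  Fermat.Agent.JAC.Grp.ConstBc33.familyHom_ext
    (RingHom.ext fun x => (fibreEquiv k k' A0 B).symm_apply_apply x)
    (RingHom.ext fun x => (fibreEquiv k k' A1 B).symm_apply_apply x)
    (RingHom.ext fun x => (fibreEquiv k k' A01 B).symm_apply_apply x)

theorem baseFamilyHomInv_comp :
    familyHomComp (baseFamilyHomInv k A0 A1 A01 t s k' B) (baseFamilyHom k A0 A1 A01 t s k' B) =
      familyHomId _ _ _ :=
  Fermat.Agent.JAC.Grp.ConstBc33.familyHom_ext
    (RingHom.ext fun x => (fibreEquiv k k' A0 B).apply_symm_apply x)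
    (RingHom.ext fun x => (fibreEquiv k k' A1 B).apply_symm_apply x)
    (RingHom.ext fun x => (fibreEquiv k k' A01 B).apply_symm_apply x)

/-- **(D1)** The class functor of the tensor model over `k'` is the class functor over `k`. -/
noncomputable def baseEquiv :
    ClR' k A0 A1 A01 t s k' B ≃* ClR k A0 A1 A01 t s B where
  toFun := baseChangeClass (baseFamilyHom k A0 A1 A01 t s k' B)
  invFun := baseChangeClass (baseFamilyHomInv k A0 A1 A01 t s k' B)
  left_inv x := by
    rw [← MonoidHom.comp_apply, ← baseChangeClass_comp, baseFamilyHom_comp_inv,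
      baseChangeClass_id]
    rfl
  right_inv x := by
    rw [← MonoidHom.comp_apply, ← baseChangeClass_comp, baseFamilyHomInv_comp,
      baseChangeClass_id]
    rfl
  map_mul' x y := map_mul _ x y

theorem baseEquiv_apply (x : ClR' k A0 A1 A01 t s k' B) :
    baseEquiv k A0 A1 A01 t s k' B x =
      baseChangeClass (baseFamilyHom k A0 A1 A01 t s k' B) x := rfl

theorem baseEquiv_symm_apply (y : ClR k A0 A1 A01 t s B) :
    (baseEquiv k A0 A1 A01 t s k' B).symm y =
      baseChangeClass (baseFamilyHomInv k A0 A1 A01 t s k' B) y := rfl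

end Family

section Functorial

variable (B B' : Type u) [CommRing B] [CommRing B'] [Algebra k B] [Algebra k' B]
  [IsScalarTower k k' B] [Algebra k B'] [Algebra k' B'] [IsScalarTower k k' B']

/-- The identification of the fibres is natural in `B`. -/
theorem fibreEquiv_map (A : Type u) [CommRing A] [Algebra k A] (ψ : B →ₐ[k'] B')
    (z : B ⊗[k'] (k' ⊗[k] A)) :
    fibreEquiv k k' A B' (Algebra.TensorProduct.map ψ (AlgHom.id k' (k' ⊗[k] A)) z) =
      Algebra.TensorProduct.map (ψ.restrictScalars k) (AlgHom.id k A) (fibreEquiv k k' A B z) := by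
  induction z using TensorProduct.induction_on with
  | zero => simp
  | add x y hx hy => simp only [map_add, hx, hy]
  | tmul b w =>
    induction w using TensorProduct.induction_on with
    | zero => simp
    | add x y hx hy => simp only [TensorProduct.tmul_add, map_add, hx, hy]
    | tmul c a => simp [fibreEquiv]

/-- **`baseEquiv` is compatible with base change.** -/
theorem baseEquiv_bcR (ψ : B →ₐ[k'] B') (x : ClR' k A0 A1 A01 t s k' B) :
    baseEquiv k A0 A1 A01 t s k' B' (bcR ψ x) =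
      bcR (ψ.restrictScalars k) (baseEquiv k A0 A1 A01 t s k' B x) := by
  have key : familyHomComp
      (familyHom ψ ((1 : k') ⊗ₜ[k] t) ((1 : k') ⊗ₜ[k] s) :
        FamilyHom ((1 : B) ⊗ₜ[k'] ((1 : k') ⊗ₜ[k] t)) ((1 : B) ⊗ₜ[k'] ((1 : k') ⊗ₜ[k] s))
          ((1 : B') ⊗ₜ[k'] ((1 : k') ⊗ₜ[k] t)) ((1 : B') ⊗ₜ[k'] ((1 : k') ⊗ₜ[k] s))
          (B ⊗[k'] (k' ⊗[k] A01)) (B' ⊗[k'] (k' ⊗[k] A01)))
      (baseFamilyHom k A0 A1 A01 t s k' B') =
      familyHomComp (baseFamilyHom k A0 A1 A01 t s k' B)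
        (familyHom (ψ.restrictScalars k) t s :
          FamilyHom ((1 : B) ⊗ₜ[k] t) ((1 : B) ⊗ₜ[k] s) ((1 : B') ⊗ₜ[k] t) ((1 : B') ⊗ₜ[k] s)
            (B ⊗[k] A01) (B' ⊗[k] A01)) :=
    Fermat.Agent.JAC.Grp.ConstBc33.familyHom_ext
      (RingHom.ext fun z => fibreEquiv_map k k' B B' A0 ψ z)
      (RingHom.ext fun z => fibreEquiv_map k k' B B' A1 ψ z)
      (RingHom.ext fun z => fibreEquiv_map k k' B B' A01 ψ z)
  rw [baseEquiv_apply, baseEquiv_apply, bcR_eq_baseChangeClass, bcR_eq_baseChangeClass,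
    ← MonoidHom.comp_apply, ← MonoidHom.comp_apply, ← baseChangeClass_comp,
    ← baseChangeClass_comp, key]

end Functorial

section Rigid

variable (B : Type u) [CommRing B] [Algebra k B] [Algebra k' B] [IsScalarTower k k' B]
  (e : A01 →ₐ[k] k)

/-- The base point of the tensor model is the base point. -/
theorem rigHom_fibreEquiv (r : B ⊗[k'] (k' ⊗[k] A01)) :
    rigHom B e (fibreEquiv k k' A01 B r) = rigHom B (rigHom k' e) r := by
  induction r using TensorProduct.induction_on with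
  | zero => simp
  | add x y hx hy => simp only [map_add, hx, hy]
  | tmul b w =>
    induction w using TensorProduct.induction_on with
    | zero => simp
    | add x y hx hy => simp only [TensorProduct.tmul_add, map_add, hx, hy]
    | tmul c a =>
      simp only [fibreEquiv, Algebra.TensorProduct.cancelBaseChange_tmul, rigHom_tmul, map_mul,
        Algebra.smul_def, ← IsScalarTower.algebraMap_apply k k' B]
      ring

/-- **`baseEquiv` is compatible with rigidity along the base point.** -/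
theorem isRigidClR_baseEquiv (x : ClR' k A0 A1 A01 t s k' B) :
    IsRigidClR e B (baseEquiv k A0 A1 A01 t s k' B x) ↔ IsRigidClR (rigHom k' e) B x := by
  letI i1 : Algebra (B ⊗[k'] (k' ⊗[k] A01)) B := rigAlgebra B (rigHom k' e)
  letI i2 : Algebra (B ⊗[k] A01) B := rigAlgebra B e
  constructor
  · intro h
    have := baseChangeClass_mem_rigidSubgroup (baseFamilyHomInv k A0 A1 A01 t s k' B)
      (RingHom.id B) (fun r => by
        show rigHom B e r = rigHom B (rigHom k' e) ((fibreEquiv k k' A01 B).symm r)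
        rw [← rigHom_fibreEquiv, AlgEquiv.apply_symm_apply]) _ h
    rw [← baseEquiv_symm_apply, MulEquiv.symm_apply_apply] at this
    exact this
  · intro h
    exact baseChangeClass_mem_rigidSubgroup (baseFamilyHom k A0 A1 A01 t s k' B)
      (RingHom.id B) (fun r => (rigHom_fibreEquiv k A01 k' B e r).symm) x h

end Rigid

section Degree

variable (K : Type u) [Field K] [Algebra k K] [Algebra k' K] [IsScalarTower k k' K]

theorem isPushoutSquare_fibreEquiv (A : Type u) [CommRing A] [Algebra k A] :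
    Fermat.Agent.JAC.Frame.DegFamily65.IsPushoutSquare K K
      (fibreEquiv k k' A K).toAlgHom.toRingHom := by
  let θ : K ⊗[k'] (k' ⊗[k] A) →ₛₗ[algebraMap K K] K ⊗[k] A :=
    { toFun := fibreEquiv k k' A K
      map_add' := map_add _
      map_smul' := fun c x => by
        rw [map_smul]
        rfl }
  exact ⟨θ, fun _ => rfl, isBaseChangeHom_of_bijective (fun c => ⟨c, rfl⟩) θ
    (fibreEquiv k k' A K).bijective⟩

/-- **`baseEquiv` preserves the degree** of classes over a field. -/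
theorem degClass_baseEquiv (x : ClR' k A0 A1 A01 t s k' K) :
    degClass K (baseEquiv k A0 A1 A01 t s k' K x) = degClass K x := by
  induction x using Quotient.inductionOn with
  | _ N =>
    obtain ⟨cu⟩ := cartHom_unit (baseFamilyHom k A0 A1 A01 t s k' K)
    have h0 := isPushoutSquare_fibreEquiv k k' K A0
    have h1 := isPushoutSquare_fibreEquiv k k' K A1
    have h01 := isPushoutSquare_fibreEquiv k k' K A01
    have e1 := Fermat.Agent.JAC.Frame.DegFamily65.chi_eq_chiAt_of_cartHom (B := K) (K := K)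
      (baseFamilyHom k A0 A1 A01 t s k' K)
      (cartHomBaseChange (baseFamilyHom k A0 A1 A01 t s k' K) N) h0 h1 h01
    have e2 := Fermat.Agent.JAC.Frame.DegFamily65.chi_eq_chiAt_of_cartHom (B := K) (K := K)
      (baseFamilyHom k A0 A1 A01 t s k' K) cu h0 h1 h01
    rw [Fermat.Agent.JAC.Frame.DegFamily65.chiAt_self] at e1 e2
    show deg K (baseChange (baseFamilyHom k A0 A1 A01 t s k' K) N) = deg K N
    unfold deg
    rw [e1, e2]

end Degree

section DegZero

variable (B : Type u) [CommRing B] [Algebra k B] [Algebra k' B] [IsScalarTower k k' B]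

/-- **`baseEquiv` is compatible with degree zero on all geometric fibres.** -/
theorem isDegZeroR_baseEquiv (x : ClR' k A0 A1 A01 t s k' B) :
    IsDegZeroR B (baseEquiv k A0 A1 A01 t s k' B x) ↔ IsDegZeroR B x := by
  constructor
  · intro h K _ _ _ φ
    letI : Algebra k K := ((algebraMap k' K).comp (algebraMap k k')).toAlgebra
    haveI : IsScalarTower k k' K := IsScalarTower.of_algebraMap_eq fun _ => rfl
    have := h K (φ.restrictScalars k)
    rwa [← baseEquiv_bcR, degClass_baseEquiv] at this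
  · intro h K _ _ _ φ
    letI : Algebra k' K := ((φ : B →+* K).comp (algebraMap k' B)).toAlgebra
    haveI : IsScalarTower k k' K := IsScalarTower.of_algebraMap_eq fun c => by
      show algebraMap k K c = φ (algebraMap k' B (algebraMap k k' c))
      rw [← IsScalarTower.algebraMap_apply k k' B, φ.commutes]
    let φ' : B →ₐ[k'] K := { (φ : B →+* K) with commutes' := fun _ => rfl }
    have hφ : φ'.restrictScalars k = φ := AlgHom.ext fun _ => rfl
    have := h K φ'
    rw [← hφ, ← baseEquiv_bcR, degClass_baseEquiv]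
    exact this

/-- `baseEquiv` identifies the rigid classes of degree zero. -/
theorem baseEquiv_mem_picZeroR (e : A01 →ₐ[k] k) (x : ClR' k A0 A1 A01 t s k' B) :
    baseEquiv k A0 A1 A01 t s k' B x ∈ PicZeroR e B ↔ x ∈ PicZeroR (rigHom k' e) B :=
  and_congr (isRigidClR_baseEquiv k A0 A1 A01 t s k' B e x)
    (isDegZeroR_baseEquiv k A0 A1 A01 t s k' B x)

end DegZero

section Good

variable (B : Type u) [CommRing B] [Algebra k B] [Algebra k' B] [IsScalarTower k k' B]

/-- **`baseEquiv` is compatible with goodness with rank.** -/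
theorem goodAtRank_baseEquiv (x : ClR' k A0 A1 A01 t s k' B) (n : ℕ) :
    GoodAtRank B (baseEquiv k A0 A1 A01 t s k' B x) n ↔ GoodAtRank B x n := by
  constructor
  · rintro ⟨N, σ0, σ1, hcls, h1, h2, h3, h4⟩
    let c := cartHomBaseChange (baseFamilyHomInv k A0 A1 A01 t s k' B) N
    obtain ⟨g1, g2, g3, g4⟩ := good_of_cartHom (ψ := baseFamilyHomInv k A0 A1 A01 t s k' B) B
      (fibreEquiv k k' A0 B).symm (fun _ => rfl) (fibreEquiv k k' A1 B).symm (fun _ => rfl)
      (fibreEquiv k k' A01 B).symm.bijective c (σ0 := σ0) (σ1 := σ1) (n := n) ⟨h1, h2, h3, h4⟩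
    refine ⟨baseChange (baseFamilyHomInv k A0 A1 A01 t s k' B) N, c.f0 σ0, c.f1 σ1, ?_,
      g1, g2, g3, g4⟩
    rw [← baseChangeClass_cls, hcls, ← baseEquiv_symm_apply, MulEquiv.symm_apply_apply]
  · rintro ⟨N, σ0, σ1, hcls, h1, h2, h3, h4⟩
    let c := cartHomBaseChange (baseFamilyHom k A0 A1 A01 t s k' B) N
    obtain ⟨g1, g2, g3, g4⟩ := good_of_cartHom (ψ := baseFamilyHom k A0 A1 A01 t s k' B) B
      (fibreEquiv k k' A0 B) (fun _ => rfl) (fibreEquiv k k' A1 B) (fun _ => rfl)
      (fibreEquiv k k' A01 B).bijective c (σ0 := σ0) (σ1 := σ1) (n := n) ⟨h1, h2, h3, h4⟩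
    refine ⟨baseChange (baseFamilyHom k A0 A1 A01 t s k' B) N, c.f0 σ0, c.f1 σ1, ?_,
      g1, g2, g3, g4⟩
    rw [← baseChangeClass_cls, hcls, baseEquiv_apply]

theorem goodAt_baseEquiv (x : ClR' k A0 A1 A01 t s k' B) :
    GoodAt B (baseEquiv k A0 A1 A01 t s k' B x) ↔ GoodAt B x := by
  constructor
  · rintro ⟨N, σ0, σ1, hcls, h1, h2, h3⟩
    exact ((goodAtRank_baseEquiv k A0 A1 A01 t s k' B x _).mp
      ⟨N, σ0, σ1, hcls, h1, h2, h3, rfl⟩).goodAt
  · rintro ⟨N, σ0, σ1, hcls, h1, h2, h3⟩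
    exact ((goodAtRank_baseEquiv k A0 A1 A01 t s k' B x _).mpr
      ⟨N, σ0, σ1, hcls, h1, h2, h3, rfl⟩).goodAt

end Good

/-- **(D1) BASE**: the term of `SpecD35.BaseChangeR`. -/
noncomputable def baseChangeR (e : A01 →ₐ[k] k) : BaseChangeR k A0 A1 A01 t s k' e where
  equiv B _ _ _ _ := baseEquiv k A0 A1 A01 t s k' B
  equiv_bcR B B' _ _ _ _ _ _ _ _ ψ x := baseEquiv_bcR k A0 A1 A01 t s k' B B' ψ x
  rigid_iff B _ _ _ _ x := isRigidClR_baseEquiv k A0 A1 A01 t s k' B e x
  degZero_iff B _ _ _ _ x := isDegZeroR_baseEquiv k A0 A1 A01 t s k' B x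
  goodAtRank_iff B _ _ _ _ x n := goodAtRank_baseEquiv k A0 A1 A01 t s k' B x n

end Base

end Fermat.Agent.FFJ.Pic.BaseEquiv85
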