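/-
Programme FFJ (S19), chapter PIC (helper46): WIRING of the landed base-ring bricks.

For curve data satisfying `ChartDefR35.CurveHypR` over a Noetherian base ring `k`:
* `spread_of_curveHypR` : the spreading-out statement `LocalChartOfBricksR37.Spread lam β j φ`
  (all of BC1–BC4, SP1–SP3, K4 discharged);
* `localChartR_of_curveHypR` : the local chart `LocalChartR35.LocalChartR e` of a chart index
  satisfying `ChartCond` (all of BC1–BC4, FE1–FE3, K1–K3 and the spreading discharged);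
* `chartPkg_of_curveHypR` : the interface `Spec35.ChartPkg` of chapter ORDER (universe 0), from the
  separatedness brick `G4` and `ChartCond`.
-/
import Mathlib
import Fermat.Agent.FFJ.Pic.ChartSpreadR46
import Fermat.Agent.FFJ.Pic.H0BricksR50
import Fermat.Agent.FFJ.Pic.KBricksR87
import Fermat.Agent.FFJ.Pic.NoZeroInfBricksR46
import Fermat.Agent.FFJ.Pic.BC4R46
import Fermat.Agent.FFJ.Pic.DivBricksR46

set_option autoImplicit false
set_option maxHeartbeats 400000

universe u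

namespace Fermat.Agent.FFJ.Pic.ChartOfCurveR46

open scoped TensorProduct Polynomial
open scoped Fermat.Agent.JAC.Core.ConstFamily36
open Fermat.Agent.JAC.Core.Defs36 Fermat.Agent.JAC.Core.ConstFamily36
  Fermat.Agent.FFJ.Core.ClR35 Fermat.Agent.JAC.Hilb.BasedQuot46
  Fermat.Agent.FFJ.Pic.ChartDefR35 Fermat.Agent.FFJ.Pic.ChartSpecR35
  Fermat.Agent.FFJ.Pic.LocalChartOfBricksR37

section General

variable {k : Type u} [CommRing k] {A0 A1 A01 : Type u} [CommRing A0] [CommRing A1] [CommRing A01]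
  [Algebra k A0] [Algebra k A1] [Algebra k A01] [Algebra A0 A01] [Algebra A1 A01]
  [IsScalarTower k A0 A01] [IsScalarTower k A1 A01] {t : A0} {s : A1}
  [IsLocalization.Away t A01] [IsLocalization.Away s A01]

/-- **The spreading-out statement**, all bricks discharged from `CurveHypR`. -/
theorem spread_of_curveHypR [IsNoetherianRing k] (H : CurveHypR k A0 A1 A01 t s) {J : Type u}
    (lam : J → ClR k A0 A1 A01 t s k) {n : ℕ} (β : Fin n → A0) (j : J) (φ : chartRing k A0 β) :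
    Spread lam β j φ :=
  Fermat.Agent.FFJ.Pic.ChartSpreadR46.spread lam β j φ
    (Fermat.Agent.FFJ.Pic.H0BricksR50.bc1R k A0 A1 A01 t s)
    (Fermat.Agent.FFJ.Pic.H0BricksR50.bc2R k A0 A1 A01 t s H)
    Fermat.Agent.FFJ.Pic.NoZeroInfBricksR46.bc3R
    Fermat.Agent.FFJ.Pic.BC4R46.bc4R
    (Fermat.Agent.FFJ.Pic.H0BricksR50.sp1R k A0 A1 A01 t s H)
    (Fermat.Agent.FFJ.Pic.H0BricksR50.sp2R k A0 A1 A01 t s H)
    (Fermat.Agent.FFJ.Pic.NoZeroInfBricksR46.sp3R H)
    (Fermat.Agent.FFJ.Pic.KBricksR87.k4R H (Fermat.Agent.FFJ.Pic.H0BricksR50.bc2R k A0 A1 A01 t s H))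

/-- **One local chart**, all bricks discharged from `CurveHypR`. -/
noncomputable def localChartR_of_curveHypR [IsNoetherianRing k] (H : CurveHypR k A0 A1 A01 t s)
    (e : A01 →ₐ[k] k) {J : Type u} (lam : J → ClR k A0 A1 A01 t s k) {n : ℕ} (β : Fin n → A0)
    (j : J) (φ : chartRing k A0 β) (hc : ChartCond H.hts e lam β j φ) :
    Fermat.Agent.FFJ.Pic.LocalChartR35.LocalChartR (A0 := A0) (A1 := A1) (t := t) (s := s) e :=
  localChartR H.hts e lam β j φ H.finiteType0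
    (Fermat.Agent.FFJ.Pic.H0BricksR50.bc1R k A0 A1 A01 t s)
    (Fermat.Agent.FFJ.Pic.H0BricksR50.bc2R k A0 A1 A01 t s H)
    Fermat.Agent.FFJ.Pic.NoZeroInfBricksR46.bc3R
    Fermat.Agent.FFJ.Pic.BC4R46.bc4R
    (Fermat.Agent.FFJ.Pic.H0BricksR50.fe1R k A0 A1 A01 t s)
    (Fermat.Agent.FFJ.Pic.H0BricksR50.fe2R k A0 A1 A01 t s)
    Fermat.Agent.FFJ.Pic.NoZeroInfBricksR46.fe3R
    (Fermat.Agent.FFJ.Pic.DivBricksR46.k1R H)
    (Fermat.Agent.FFJ.Pic.DivBricksR46.k2R H.hts)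
    (Fermat.Agent.FFJ.Pic.KBricksR87.k3R H.hts)
    (spread_of_curveHypR H lam β j φ) hc

end General

section UniverseZero

variable {O : Type} [CommRing O] {A0 A1 A01 : Type} [CommRing A0] [CommRing A1] [CommRing A01]
  [Algebra O A0] [Algebra O A1] [Algebra O A01] [Algebra A0 A01] [Algebra A1 A01]
  [IsScalarTower O A0 A01] [IsScalarTower O A1 A01] {t : A0} {s : A1}
  [IsLocalization.Away t A01] [IsLocalization.Away s A01]

/-- **The chart package of chapter ORDER**, all bricks but the separatedness `G4` discharged from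
`CurveHypR`. -/
noncomputable def chartPkg_of_curveHypR [IsNoetherianRing O] (H : CurveHypR O A0 A1 A01 t s)
    (e : A01 →ₐ[O] O) {J : Type} (lam : J → ClR O A0 A1 A01 t s O) {n : ℕ} (β : Fin n → A0)
    (j : J) (φ : chartRing O A0 β) (hG4 : Brick.G4 O A0 A1 A01 t s e)
    (hc : ChartCond H.hts e lam β j φ) :
    Fermat.Agent.FFJ.Spec.Spec35.ChartPkg O A0 A1 A01 t s e :=
  chartPkg H.hts e lam β j φ H.finiteType0
    (Fermat.Agent.FFJ.Pic.H0BricksR50.bc1R O A0 A1 A01 t s)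
    (Fermat.Agent.FFJ.Pic.H0BricksR50.bc2R O A0 A1 A01 t s H)
    Fermat.Agent.FFJ.Pic.NoZeroInfBricksR46.bc3R
    Fermat.Agent.FFJ.Pic.BC4R46.bc4R
    (Fermat.Agent.FFJ.Pic.H0BricksR50.fe1R O A0 A1 A01 t s)
    (Fermat.Agent.FFJ.Pic.H0BricksR50.fe2R O A0 A1 A01 t s)
    Fermat.Agent.FFJ.Pic.NoZeroInfBricksR46.fe3R
    (Fermat.Agent.FFJ.Pic.DivBricksR46.k1R H)
    (Fermat.Agent.FFJ.Pic.DivBricksR46.k2R H.hts)
    (Fermat.Agent.FFJ.Pic.KBricksR87.k3R H.hts)
    hG4
    (spread_of_curveHypR H lam β j φ) hc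

end UniverseZero

end Fermat.Agent.FFJ.Pic.ChartOfCurveR46
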