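/-
FFJ / PIC-D, brick (D5) COMMON-β (helper68).  Mathlib only.

`F ⊆ L` fields, `W` an `F`-vector space, finitely many `L`-vector spaces `Q i` of the same finite
dimension `g` with `F`-linear maps `q i : W → Q i` whose images span `Q i` over `L`.  If the number of
indices is smaller than the cardinality of `F` (e.g. `F` infinite), there are `w₁, …, w_g ∈ W` whose
images form an `L`-basis of every `Q i` simultaneously.
(Greedy choice: at each step the bad vectors lie in a union of proper `F`-subspaces of `W`.)
-/
import Mathlib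

set_option autoImplicit false
set_option linter.unusedSectionVars false

namespace Fermat.Agent.FFJ.Pic.CommonBasis68

open Set

variable {F L : Type*} [Field F] [Field L] [Algebra F L]
  {W : Type*} [AddCommGroup W] [Module F W] {ι : Type*} [Finite ι]
  {Q : ι → Type*} [∀ i, AddCommGroup (Q i)] [∀ i, Module L (Q i)] [∀ i, Module F (Q i)]
  [∀ i, IsScalarTower F L (Q i)] [∀ i, Module.Finite L (Q i)]

/-- the greedy step: `m ≤ g` vectors of `W`, simultaneously independent in all `Q i`. -/
theorem exists_common_independent (g : ℕ) (hdim : ∀ i, Module.finrank L (Q i) = g)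
    (q : ∀ i, W →ₗ[F] Q i) (hspan : ∀ i, Submodule.span L (Set.range (q i)) = ⊤)
    (hcard : (Nat.card ι : ℕ∞) < ENat.card F) (m : ℕ) (hm : m ≤ g) :
    ∃ w : Fin m → W, ∀ i, LinearIndependent L (fun a => q i (w a)) := by
  classical
  induction m with
  | zero => exact ⟨Fin.elim0, fun i => linearIndependent_empty_type⟩
  | succ m ih =>
    obtain ⟨w, hw⟩ := ih (Nat.le_of_succ_le hm)
    -- the bad subspaces
    let V : ι → Submodule F W := fun i =>
      ((Submodule.span L (Set.range fun a => q i (w a))).restrictScalars F).comap (q i)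
    have hV : ∀ i, V i ≠ ⊤ := by
      intro i hi
      have hle : Submodule.span L (Set.range (q i)) ≤
          Submodule.span L (Set.range fun a => q i (w a)) := by
        rw [Submodule.span_le]
        rintro _ ⟨x, rfl⟩
        have hx : x ∈ V i := by rw [hi]; trivial
        exact hx
      rw [hspan i, top_le_iff] at hle
      have h1 := finrank_span_eq_card (hw i)
      rw [hle, finrank_top, hdim i, Fintype.card_fin] at h1
      omega
    let _ : Fintype ι := Fintype.ofFinite ι
    have hss := Submodule.iUnion_ssubset_of_forall_ne_top_of_card_lt Finset.univ V hV (by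
      rw [Finset.card_univ, ← Nat.card_eq_fintype_card]
      exact hcard)
    obtain ⟨x, hx⟩ : ∃ x : W, ∀ i, x ∉ V i := by
      rw [ssubset_univ_iff] at hss
      by_contra hcon
      apply hss
      rw [eq_univ_iff_forall]
      intro x
      obtain ⟨i, hi⟩ := not_forall.1 (not_exists.1 hcon x)
      exact mem_iUnion₂.2 ⟨i, Finset.mem_univ i, not_not.1 hi⟩
    refine ⟨Fin.snoc w x, fun i => ?_⟩
    have : (fun a => q i ((Fin.snoc w x : Fin (m + 1) → W) a)) =
        Fin.snoc (fun a => q i (w a)) (q i x) := by
      funext a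
      refine Fin.lastCases ?_ (fun b => ?_) a <;> simp
    rw [this]
    exact (hw i).finSnoc (hx i)

/-- **(D5) COMMON-β.** -/
theorem exists_common_basis (g : ℕ) (hdim : ∀ i, Module.finrank L (Q i) = g)
    (q : ∀ i, W →ₗ[F] Q i) (hspan : ∀ i, Submodule.span L (Set.range (q i)) = ⊤)
    (hcard : (Nat.card ι : ℕ∞) < ENat.card F) :
    ∃ w : Fin g → W, ∀ i, LinearIndependent L (fun a => q i (w a)) ∧
      Submodule.span L (Set.range fun a => q i (w a)) = ⊤ := by
  obtain ⟨w, hw⟩ := exists_common_independent g hdim q hspan hcard g le_rfl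
  refine ⟨w, fun i => ⟨hw i, ?_⟩⟩
  apply (hw i).span_eq_top_of_card_eq_finrank'
  rw [Fintype.card_fin, hdim i]

/-- the cardinality hypothesis in the form used by `SpecD35.ChartFinStatement`. -/
theorem card_lt_of_infinite_or (h : Infinite F ∨ Nat.card ι < Nat.card F) :
    (Nat.card ι : ℕ∞) < ENat.card F := by
  rcases h with h | h
  · rw [ENat.card_eq_top_of_infinite]
    exact ENat.natCast_lt_top _
  · by_cases hF : Finite F
    · rw [ENat.card_eq_coe_natCard]
      exact_mod_cast h
    · rw [not_finite_iff_infinite] at hF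
      rw [ENat.card_eq_top_of_infinite]
      exact ENat.natCast_lt_top _

/-- **(D5) COMMON-β**, as a family of bases. -/
theorem exists_common_basis' (g : ℕ) (hdim : ∀ i, Module.finrank L (Q i) = g)
    (q : ∀ i, W →ₗ[F] Q i) (hspan : ∀ i, Submodule.span L (Set.range (q i)) = ⊤)
    (hcard : Infinite F ∨ Nat.card ι < Nat.card F) :
    ∃ w : Fin g → W, ∀ i, ∃ b : Module.Basis (Fin g) L (Q i), ∀ a, b a = q i (w a) := by
  obtain ⟨w, hw⟩ := exists_common_basis g hdim q hspan (card_lt_of_infinite_or hcard)
  refine ⟨w, fun i => ⟨Module.Basis.mk (hw i).1 (hw i).2.ge, fun a => ?_⟩⟩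
  rw [Module.Basis.mk_apply]

/-! ### The form over a local base ring -/

section Local

open IsLocalRing

/-- **(D5) over a local base ring** `k` with residue field `F = k/𝔪`: `W` a `k`-module (think `A0`),
`K` a field over `k` in which `𝔪` dies, `Q i` finite-dimensional `K`-spaces of the same dimension
`g`, `q i : W →ₗ[k] Q i` with `K`-spanning images, and `#ι < #F` (or `F` infinite). Then there are
`w₁, …, w_g ∈ W` whose images form a `K`-basis of every `Q i`. -/
theorem exists_common_basis_local {k : Type*} [CommRing k] [IsLocalRing k] {K : Type*} [Field K]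
    [Algebra k K] (hk : ∀ x ∈ maximalIdeal k, algebraMap k K x = 0)
    {W : Type*} [AddCommGroup W] [Module k W] {ι : Type*} [Finite ι]
    {Q : ι → Type*} [∀ i, AddCommGroup (Q i)] [∀ i, Module K (Q i)] [∀ i, Module k (Q i)]
    [∀ i, IsScalarTower k K (Q i)] [∀ i, Module.Finite K (Q i)]
    (g : ℕ) (hdim : ∀ i, Module.finrank K (Q i) = g)
    (q : ∀ i, W →ₗ[k] Q i) (hspan : ∀ i, Submodule.span K (Set.range (q i)) = ⊤)
    (hcard : Infinite (ResidueField k) ∨ Nat.card ι < Nat.card (ResidueField k)) :
    ∃ w : Fin g → W, ∀ i, ∃ b : Module.Basis (Fin g) K (Q i), ∀ a, b a = q i (w a) := by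
  classical
  -- `K` as an algebra over the residue field
  let φ : ResidueField k →+* K := Ideal.Quotient.lift (maximalIdeal k) (algebraMap k K) hk
  let algFK : Algebra (ResidueField k) K := φ.toAlgebra
  have hφ : ∀ x : k, algebraMap (ResidueField k) K (residue k x) = algebraMap k K x := fun x => rfl
  -- the `Q i` as `F`-spaces
  let modF : ∀ i, Module (ResidueField k) (Q i) := fun i => Module.compHom (Q i) φ
  have hsmulF : ∀ i (c : ResidueField k) (y : Q i), c • y = (φ c) • y := fun i c y => rfl
  have tower : ∀ i, IsScalarTower (ResidueField k) K (Q i) := fun i =>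
    ⟨fun c a y => by
      rw [hsmulF i c (a • y), Algebra.smul_def, mul_smul]
      rfl⟩
  have hres : ∀ i (x : k) (y : Q i), (residue k x) • y = x • y := by
    intro i x y
    rw [hsmulF]
    change (algebraMap k K x) • y = x • y
    rw [algebraMap_smul]
  -- `W / 𝔪 W` as an `F`-space
  let modW : Module (ResidueField k) (W ⧸ (maximalIdeal k • (⊤ : Submodule k W))) :=
    inferInstanceAs (Module (k ⧸ maximalIdeal k) (W ⧸ (maximalIdeal k • (⊤ : Submodule k W))))
  have hq0 : ∀ i, maximalIdeal k • (⊤ : Submodule k W) ≤ LinearMap.ker (q i) := by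
    intro i
    rw [Submodule.smul_le]
    intro a ha w _
    rw [LinearMap.mem_ker, map_smul, ← algebraMap_smul K a (q i w), hk a ha, zero_smul]
  -- the induced `F`-linear maps
  let q' : ∀ i, (W ⧸ (maximalIdeal k • (⊤ : Submodule k W))) →ₗ[ResidueField k] Q i := fun i =>
    { toFun := (Submodule.liftQ _ (q i) (hq0 i))
      map_add' := fun x y => map_add _ x y
      map_smul' := fun c x => by
        obtain ⟨c, rfl⟩ := residue_surjective c
        induction x using Submodule.Quotient.induction_on with
        | H w =>
          change (Submodule.liftQ _ (q i) (hq0 i)) (Submodule.Quotient.mk (c • w)) = _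
          rw [Submodule.liftQ_apply, map_smul, RingHom.id_apply, hres]
          rfl }
  have hq' : ∀ i (w : W), q' i (Submodule.Quotient.mk w) = q i w := fun i w => rfl
  have hspan' : ∀ i, Submodule.span K (Set.range (q' i)) = ⊤ := by
    intro i
    rw [eq_top_iff, ← hspan i]
    apply Submodule.span_mono
    rintro _ ⟨w, rfl⟩
    exact ⟨Submodule.Quotient.mk w, hq' i w⟩
  obtain ⟨w', hw'⟩ := exists_common_basis' (F := ResidueField k) (L := K) g hdim q' hspan' hcard
  choose w hw using fun a => Submodule.Quotient.mk_surjective _ (w' a)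
  refine ⟨w, fun i => ?_⟩
  obtain ⟨b, hb⟩ := hw' i
  exact ⟨b, fun a => by rw [hb, ← hw a, hq']⟩

end Local

end Fermat.Agent.FFJ.Pic.CommonBasis68
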