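/-
Programme FFJ (S19), chapter PIC, adapter for brick (D7) CHART-FIN.  Owner: helper77.

**COMMON-β in the shape consumed by CHART-FIN.**  `k` a local ring, `K` a field over `k` killed by
the maximal ideal, the residue field of `k` has more than `#ι` elements.

* `exists_common_isBasedQuot` : finitely many ideals `I i` of `K ⊗[k] A0` with quotients of the same
  finite dimension `n` over `K` are all `β`-based quotients for ONE `β : Fin n → A0`;
* `exists_common_beta`        : finitely many classes `η i` over `K` which are good of the same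
  rank `n` (`SpecD35.GoodAtRank`) have good representatives whose zero ideals are all `β`-based
  quotients for ONE `β` (finiteness of the quotients from brick K4);
* `exists_common_beta_point`  : the same with the classifying points
  `g i : chartRing k A0 β →ₐ[k] K`, `pointIdeal β (g i) = zeroIdeal (σ0 i)`.
-/
import Mathlib
import Fermat.Agent.FFJ.Pic.SpecD35
import Fermat.Agent.FFJ.Pic.CommonBasis65
import Fermat.Agent.FFJ.Pic.ChartWR37

set_option autoImplicit false
set_option linter.unusedSectionVars false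
set_option linter.style.haveILetI false

universe u

namespace Fermat.Agent.FFJ.Pic.CommonBeta77

open scoped TensorProduct Polynomial
open scoped Fermat.Agent.JAC.Core.ConstFamily36
open Fermat.Agent.JAC.Core.Defs36 Fermat.Agent.JAC.Core.Cart36 Fermat.Agent.JAC.Core.ConstFamily36
  Fermat.Agent.JAC.Core.Degree36 Fermat.Agent.FFJ.Core.ClR35 Fermat.Agent.JAC.Grp.Diag33
  Fermat.Agent.JAC.Hilb.BasedQuot46 Fermat.Agent.JAC.Hilb.ZeroIdeal46
  Fermat.Agent.FFJ.Pic.ChartDefR35 Fermat.Agent.FFJ.Pic.ChartSpecR35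
  Fermat.Agent.FFJ.Pic.SpecD35

section Core

variable {k : Type u} [CommRing k] [IsLocalRing k] {A : Type u} [CommRing A] [Algebra k A]
  {K : Type u} [Field K] [Algebra k K]

/-- The `k`-linear map `A → (K ⊗[k] A) ⧸ I`, `a ↦ [1 ⊗ a]`. -/
noncomputable def classLin (I : Ideal (K ⊗[k] A)) : A →ₗ[k] (K ⊗[k] A) ⧸ I :=
  ((Ideal.Quotient.mkₐ K I).toLinearMap.restrictScalars k) ∘ₗ
    (Algebra.TensorProduct.includeRight (R := k) (A := K) (B := A)).toLinearMap

theorem classLin_apply (I : Ideal (K ⊗[k] A)) (a : A) :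
    classLin I a = Ideal.Quotient.mk I ((1 : K) ⊗ₜ[k] a) := rfl

theorem span_range_classLin (I : Ideal (K ⊗[k] A)) :
    Submodule.span K (Set.range (classLin I)) = ⊤ := by
  rw [eq_top_iff]
  rintro q -
  obtain ⟨x, rfl⟩ := Ideal.Quotient.mk_surjective q
  induction x using TensorProduct.induction_on with
  | zero => simp
  | tmul c a =>
    have : Ideal.Quotient.mk I (c ⊗ₜ[k] a) = c • Ideal.Quotient.mk I ((1 : K) ⊗ₜ[k] a) := by
      rw [smul_mk, TensorProduct.smul_tmul', smul_eq_mul, mul_one]
    rw [this]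
    exact Submodule.smul_mem _ _ (Submodule.subset_span ⟨a, rfl⟩)
  | add x y hx hy =>
    rw [map_add]
    exact Submodule.add_mem _ hx hy

/-- Linear independence + spanning of the classes of `1 ⊗ β j` is `IsBasedQuot`. -/
theorem isBasedQuot_of_linearIndependent {n : ℕ} (β : Fin n → A) (I : Ideal (K ⊗[k] A))
    (hli : LinearIndependent K (fun j => classLin I (β j)))
    (hsp : Submodule.span K (Set.range fun j => classLin I (β j)) = ⊤) :
    IsBasedQuot β I := by
  constructor
  · exact (linearIndependent_iff_injective_fintypeLinearCombination).mp hli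
  · have h : LinearMap.range (basisMap β I) = ⊤ := by
      unfold basisMap
      rw [Fintype.range_linearCombination]
      exact hsp
    exact LinearMap.range_eq_top.mp h

/-- **COMMON-β for ideals**: finitely many ideals of `K ⊗[k] A` with quotients of the same finite
`K`-dimension `n` are `β`-based quotients for one `β : Fin n → A`. -/
theorem exists_common_isBasedQuot
    (hK : ∀ x ∈ IsLocalRing.maximalIdeal k, algebraMap k K x = 0)
    {ι : Type*} [Finite ι] (I : ι → Ideal (K ⊗[k] A))
    (hfin : ∀ i, Module.Finite K ((K ⊗[k] A) ⧸ I i)) (n : ℕ)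
    (hn : ∀ i, Module.finrank K ((K ⊗[k] A) ⧸ I i) = n)
    (hcard : Infinite (IsLocalRing.ResidueField k) ∨
      Nat.card ι < Nat.card (IsLocalRing.ResidueField k)) :
    ∃ β : Fin n → A, ∀ i, IsBasedQuot β (I i) := by
  obtain ⟨β, hβ⟩ := CommonBasis65.exists_common_basis_of_isLocalRing (k := k) (K := K) hK
    (W := A) (fun i => (K ⊗[k] A) ⧸ I i) (fun i => classLin (I i)) n hn
    (fun i => span_range_classLin (I i)) (CommonBasis65.natCast_lt_enatCard hcard)
  exact ⟨β, fun i => isBasedQuot_of_linearIndependent β (I i) (hβ i).1 (hβ i).2⟩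

end Core

section Good

variable {k : Type u} [CommRing k] [IsLocalRing k] {A0 A1 A01 : Type u} [CommRing A0] [CommRing A1]
  [CommRing A01] [Algebra k A0] [Algebra k A1] [Algebra k A01] [Algebra A0 A01] [Algebra A1 A01]
  [IsScalarTower k A0 A01] [IsScalarTower k A1 A01] {t : A0} {s : A1}
  [IsLocalization.Away t A01] [IsLocalization.Away s A01]
  {K : Type u} [Field K] [Algebra k K]

/-- **COMMON-β for good classes** (the first step of CHART-FIN): finitely many classes over `K`, all
good of the same rank `n`, have good representatives `(N, σ0, σ1)` whose zero ideals on `U0` are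
`β`-based quotients for ONE `β : Fin n → A0`. -/
theorem exists_common_beta (hK4 : Brick.K4 k A0 A1 A01 t s)
    (hK : ∀ x ∈ IsLocalRing.maximalIdeal k, algebraMap k K x = 0)
    (ι : Type) [Finite ι] (η : ι → ClR k A0 A1 A01 t s K)
    (hcard : Infinite (IsLocalRing.ResidueField k) ∨
      Nat.card ι < Nat.card (IsLocalRing.ResidueField k))
    (n : ℕ) (hgood : ∀ i, GoodAtRank K (η i) n) :
    ∃ β : Fin n → A0, ∀ i, ∃ (N : CDiag k A0 A1 A01 t s K) (σ0 : N.M0) (σ1 : N.M1),
      cls N = η i ∧ H1Zero N ∧ IsGenSection N σ0 σ1 ∧ NoZeroInf N σ1 ∧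
        IsBasedQuot β (zeroIdeal (K ⊗[k] A0) σ0) := by
  choose N σ0 σ1 hcls h1 hgen hinf hrk using hgood
  obtain ⟨β, hβ⟩ := exists_common_isBasedQuot (k := k) (A := A0) (K := K) hK
    (fun i => zeroIdeal (K ⊗[k] A0) (σ0 i))
    (fun i => (hK4 K (N i) (σ0 i) (σ1 i) (h1 i) (hgen i) (hinf i)).1) n hrk hcard
  exact ⟨β, fun i => ⟨N i, σ0 i, σ1 i, hcls i, h1 i, hgen i, hinf i, hβ i⟩⟩

/-- The same with the classifying points of the chart ring. -/
theorem exists_common_beta_point (hK4 : Brick.K4 k A0 A1 A01 t s)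
    (hK : ∀ x ∈ IsLocalRing.maximalIdeal k, algebraMap k K x = 0)
    (ι : Type) [Finite ι] (η : ι → ClR k A0 A1 A01 t s K)
    (hcard : Infinite (IsLocalRing.ResidueField k) ∨
      Nat.card ι < Nat.card (IsLocalRing.ResidueField k))
    (n : ℕ) (hgood : ∀ i, GoodAtRank K (η i) n) :
    ∃ β : Fin n → A0, ∀ i, ∃ (N : CDiag k A0 A1 A01 t s K) (σ0 : N.M0) (σ1 : N.M1),
      cls N = η i ∧ H1Zero N ∧ IsGenSection N σ0 σ1 ∧ NoZeroInf N σ1 ∧
        ∃ g : chartRing k A0 β →ₐ[k] K, pointIdeal β g = zeroIdeal (K ⊗[k] A0) σ0 := by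
  obtain ⟨β, hβ⟩ := exists_common_beta hK4 hK ι η hcard n hgood
  refine ⟨β, fun i => ?_⟩
  obtain ⟨N, σ0, σ1, hcls, h1, hgen, hinf, hb⟩ := hβ i
  exact ⟨N, σ0, σ1, hcls, h1, hgen, hinf, ChartWR37.exists_pointIdeal_eq β hb⟩

end Good

end Fermat.Agent.FFJ.Pic.CommonBeta77
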