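/-
Programme FFJ (S19), chapter PIC, part D, brick (D8) ADM-ASSEMBLY, slice (CORE-ONE).  Owner: helper4.

ONE LEVEL, no base change.  `O` a discrete valuation ring with fraction field `F`, `Ω/F` Galois,
`Ω` algebraically closed and algebraic over `O`; curve data over `O` satisfying
`ChartDefR35.CurveHypR`; a finite Galois module `M` with an injective equivariant map
`ι : M → PicZeroR e Ω`; ONE valuation subring `V₀` of `Ω` lying over `O`.  If, after ONE twist `lam`
defined over `O`, the special fibres at `V₀` of the `V₀`-models of the points `ι m` are all good of the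
SAME rank `n` (`hgood`: this is what FIB-R + SUPPLY + LEVEL-GOOD produce) and the residue field of `O`
has more than `#M` elements, then `M` carries a function order over `O`:

* `special` : the special fibre at `V₀` of THE `V₀`-model of `ι m`
  (`ValSurj67.valSurj'`, unique by `ValInjR1.valInj'`);
* (D7) `ChartFinClosed4.chartFin_of_curveHypR` at `K := ResidueField V₀`, family indexed by `M`, gives
  ONE chart index `(β, φ)` with `ChartCond` whose `chartW` contains all the special fibres;
* `ChartOfCurveR46.localChartR_of_curveHypR` is the local chart of that index;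
* `AdmOfSpecial37.exists_isFunOrder_of_special` (conjugacy of the valuation subrings over `O` + chapter
  ORDER) concludes.
-/
import Mathlib
import Fermat.Agent.FFJ.Pic.ChartFinClosed4
import Fermat.Agent.FFJ.Pic.ChartOfCurveR46
import Fermat.Agent.FFJ.Pic.AdmOfSpecial37
import Fermat.Agent.FFJ.Pic.PicDry37
import Fermat.Agent.FFJ.Val.ValInjR1

set_option autoImplicit false
set_option maxHeartbeats 400000
set_option linter.unusedSectionVars false

noncomputable section

namespace Fermat.Agent.FFJ.Pic.CoreOne4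

open scoped TensorProduct
open Fermat.Agent.JAC.Core.Defs36 Fermat.Agent.FFJ.Core.ClR35 Fermat.Agent.FFJ.Core.ClRBc35
  Fermat.Agent.FFJ.Pic.ChartDefR35 Fermat.Agent.FFJ.Pic.ChartSpecR35
  Fermat.Agent.FFJ.Pic.LocalChartR35 Fermat.Agent.FFJ.Order.ValConj77
open Fermat.Agent.FFJ.Spec.Spec35 (ValSurj ValInj galActR)

variable {O : Type} [CommRing O] {A0 A1 A01 : Type} [CommRing A0] [CommRing A1] [CommRing A01]
  [Algebra O A0] [Algebra O A1] [Algebra O A01] [Algebra A0 A01] [Algebra A1 A01]
  [IsScalarTower O A0 A01] [IsScalarTower O A1 A01] {t : A0} {s : A1}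
  [IsLocalization.Away t A01] [IsLocalization.Away s A01]
  (F : Type) {Ω : Type} [Field F] [Field Ω] [Algebra O F] [Algebra F Ω] [Algebra O Ω]
  [IsScalarTower O F Ω]

/-- A valuation subring lying over the local ring `O` kills the maximal ideal of `O` in its residue
field. -/
theorem algebraMap_residueField_eq_zero [IsDomain O] [IsLocalRing O] [IsFractionRing O F]
    (V₀ : ValuationSubring Ω) [Algebra O V₀] [IsScalarTower O V₀ Ω] (hV₀ : LiesOverBase O F V₀)
    (x : O) (hx : x ∈ IsLocalRing.maximalIdeal O) :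
    algebraMap O (IsLocalRing.ResidueField V₀) x = 0 := by
  have h1 : algebraMap O Ω x ∈ V₀.nonunits :=
    hV₀.algebraMap_mem_nonunits x ((IsLocalRing.mem_maximalIdeal x).mp hx)
  have hcoe : ((algebraMap O V₀ x : V₀) : Ω) = algebraMap O Ω x :=
    (IsScalarTower.algebraMap_apply O V₀ Ω x).symm
  have h2 : algebraMap O V₀ x ∈ IsLocalRing.maximalIdeal V₀ := by
    rw [← ValuationSubring.coe_mem_nonunits_iff, hcoe]
    exact h1
  rw [IsScalarTower.algebraMap_apply O V₀ (IsLocalRing.ResidueField V₀)]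
  exact (IsLocalRing.residue_eq_zero_iff _).mpr h2

/-- **(CORE-ONE)**: ONE level, no base change.  From the curve hypotheses over the discrete valuation
ring `O`, ONE valuation subring `V₀` over `O`, ONE twist `lam` over `O` and the rank condition on the
special fibres at `V₀` of the `V₀`-models of the points `ι m`: a function order on `M`. -/
theorem exists_isFunOrder_of_goodAtRank [IsDomain O] [IsDiscreteValuationRing O]
    [IsFractionRing O F] [IsGalois F Ω] [IsAlgClosed Ω] [Algebra.IsAlgebraic O Ω]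
    (hinj : Function.Injective (algebraMap O Ω))
    (H : CurveHypR O A0 A1 A01 t s) (e : A01 →ₐ[O] O)
    (M : Type) [AddCommGroup M] [Finite M] [MulAction (Ω ≃ₐ[F] Ω) M]
    (ι : Multiplicative M →* ClR O A0 A1 A01 t s Ω) (hinj' : Function.Injective ι)
    (hmem : ∀ m, ι m ∈ PicZeroR e Ω)
    (hequiv : ∀ (σ : Ω ≃ₐ[F] Ω) (m : M),
      ι (Multiplicative.ofAdd (σ • m)) = galActR O F σ (ι (Multiplicative.ofAdd m)))
    (V₀ : ValuationSubring Ω) [Algebra O V₀] [IsScalarTower O V₀ Ω] (hV₀ : LiesOverBase O F V₀)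
    (lam : PUnit.{1} → ClR O A0 A1 A01 t s O) (n : ℕ)
    (hcard : Infinite (IsLocalRing.ResidueField O) ∨
      Nat.card M < Nat.card (IsLocalRing.ResidueField O))
    (hgood : ∀ (ξ : ClR O A0 A1 A01 t s V₀) (m : Multiplicative M), ξ ∈ PicZeroR e V₀ →
      bcR (IsScalarTower.toAlgHom O V₀ Ω) ξ = ι m →
      SpecD35.GoodAtRank (IsLocalRing.ResidueField V₀)
        (bcR (Fermat.Agent.FFJ.Order.AdmOne77.resV V₀) ξ *
          twist lam (IsLocalRing.ResidueField V₀) PUnit.unit) n) :
    ∃ Hs : Subalgebra O (M → Ω), Fermat.Agent.TW.FF.FunOrder68.IsFunOrder O F Hs := by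
  classical
  have hVS : ValSurj O A0 A1 A01 t s e Ω := Fermat.Agent.FFJ.Val.ValSurj67.valSurj' H e Ω
  have hVI : ValInj O A0 A1 A01 t s e Ω := Fermat.Agent.FFJ.Val.ValInjR1.valInj' e H hinj
  -- the `V₀`-models of the points
  have hmodel : ∀ m : M, ∃ ξ : ClR O A0 A1 A01 t s V₀, ξ ∈ PicZeroR e V₀ ∧
      bcR (IsScalarTower.toAlgHom O V₀ Ω) ξ = ι (Multiplicative.ofAdd m) := fun m =>
    hVS V₀ (ι (Multiplicative.ofAdd m)) (hmem _)
  choose ξV hξV hξVι using hmodel
  -- their special fibres
  let ξbar : M → ClR O A0 A1 A01 t s (IsLocalRing.ResidueField V₀) := fun m =>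
    bcR (Fermat.Agent.FFJ.Order.AdmOne77.resV V₀) (ξV m)
  have hdeg : ∀ m, IsDegZeroR (IsLocalRing.ResidueField V₀) (ξbar m) := fun m =>
    (Fermat.Agent.FFJ.Order.Order77.picZeroR_bcR
      (Fermat.Agent.FFJ.Order.AdmOne77.resV V₀) (hξV m)).2
  have hrank : ∀ m, SpecD35.GoodAtRank (IsLocalRing.ResidueField V₀)
      (ξbar m * twist lam (IsLocalRing.ResidueField V₀) PUnit.unit) n := fun m =>
    hgood (ξV m) (Multiplicative.ofAdd m) (hξV m) (hξVι m)
  -- ONE chart containing all the special fibres: (D7) CHART-FIN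
  obtain ⟨β, φ, hc, hW⟩ := ChartFinClosed4.chartFin_of_curveHypR H e lam PUnit.unit n
    (IsLocalRing.ResidueField V₀) (algebraMap_residueField_eq_zero F V₀ hV₀) M ξbar hcard hdeg hrank
  -- chapter ORDER through the special fibres at `V₀`
  refine AdmOfSpecial37.exists_isFunOrder_of_special F
    (Fermat.Agent.FFJ.Val.ValInjR1.picZeroMul' e H)
    (ChartOfCurveR46.localChartR_of_curveHypR H e lam β PUnit.unit φ hc)
    (PicDry37.g4R H e) M ι hinj' hmem hequiv hVS V₀ hV₀ ?_
  intro ξ m hξ hξm
  have hξeq : ξ = ξV (Multiplicative.toAdd m) :=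
    hVI V₀ ξ (ξV (Multiplicative.toAdd m)) hξ (hξV _) (hξm.trans (hξVι _).symm)
  rw [hξeq]
  exact hW (Multiplicative.toAdd m)

end Fermat.Agent.FFJ.Pic.CoreOne4
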