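/-
Programme FFJ (S19), chapter CURVE/PIC, brick C-BC (canonical form).  Owner: helper85.

`ChartDefR35.CurveHypR` (the canonical curve hypotheses of Programme FFJ, COORD #2) is stable under
flat base change of the base ring `k → k'`: the tensor model
`(k' ⊗[k] A0 → k' ⊗[k] A01 ← k' ⊗[k] A1; 1 ⊗ t, 1 ⊗ s)` satisfies it again.  The clause lemmas are
those of `FFJ/Model/CurveBc85`.
-/
import Mathlib
import Fermat.Agent.FFJ.Model.CurveBc85
import Fermat.Agent.FFJ.Pic.ChartDefR35

set_option autoImplicit false
set_option linter.unusedSectionVars false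
set_option linter.style.haveILetI false

open scoped TensorProduct
open scoped Fermat.Agent.JAC.Core.ConstFamily36

namespace Fermat.Agent.FFJ.Pic.CurveBcR85

open Fermat.Agent.JAC.Core.ConstFamily36 Fermat.Agent.FFJ.Pic.ChartDefR35
  Fermat.Agent.FFJ.Model.CurveBc85

universe u

variable (k k' : Type u) [CommRing k] [CommRing k'] [Algebra k k']
  {A0 A1 A01 : Type u} [CommRing A0] [CommRing A1] [CommRing A01]
  [Algebra k A0] [Algebra k A1] [Algebra k A01] [Algebra A0 A01] [Algebra A1 A01]
  [IsScalarTower k A0 A01] [IsScalarTower k A1 A01] {t : A0} {s : A1}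
  [IsLocalization.Away t A01] [IsLocalization.Away s A01]

/-- **C-BC, canonical form**: `ChartDefR35.CurveHypR` is stable under flat base change of the base
ring. -/
theorem curveHypR_bc [Module.Flat k k'] (H : CurveHypR k A0 A1 A01 t s) :
    CurveHypR k' (k' ⊗[k] A0) (k' ⊗[k] A1) (k' ⊗[k] A01) ((1 : k') ⊗ₜ[k] t)
      ((1 : k') ⊗ₜ[k] s) where
  hts := ts_bc k k' H.hts
  coords0 := free_bc k k' H.coords0
  coords1 := free_bc k k' H.coords1
  finiteType0 := finiteType_bc k k' H.finiteType0
  finiteType1 := finiteType_bc k k' H.finiteType1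
  dedekind0 K _ _ := by
    letI : Algebra k K := ((algebraMap k' K).comp (algebraMap k k')).toAlgebra
    haveI : IsScalarTower k k' K := IsScalarTower.of_algebraMap_eq fun _ => rfl
    exact dedekind_bc k k' A0 K (H.dedekind0 K)
  dedekind1 K _ _ := by
    letI : Algebra k K := ((algebraMap k' K).comp (algebraMap k k')).toAlgebra
    haveI : IsScalarTower k k' K := IsScalarTower.of_algebraMap_eq fun _ => rfl
    exact dedekind_bc k k' A1 K (H.dedekind1 K)
  dedekind01 K _ _ := by
    letI : Algebra k K := ((algebraMap k' K).comp (algebraMap k k')).toAlgebra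
    haveI : IsScalarTower k k' K := IsScalarTower.of_algebraMap_eq fun _ => rfl
    exact dedekind_bc k k' A01 K (H.dedekind01 K)
  h0 x y hxy := by
    obtain ⟨c, h1, h2⟩ := h0_bc k k' (A0 := A0) (A1 := A1) (A01 := A01)
      (fun a0 a1 h => by
        obtain ⟨c, hc0, hc1⟩ := H.h0 a0 a1 h
        exact ⟨c, hc0.symm, hc1.symm⟩) x y hxy
    exact ⟨c, h1.symm, h2.symm⟩

end Fermat.Agent.FFJ.Pic.CurveBcR85
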