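/-
Programme FFJ (S19), chapter PIC, brick LEVEL-GOOD of (D8) (COORD #3).  Owner: helper85.

GOODNESS OF A TWISTED CLASS AT THE TWO LEVELS.

`k → k'` commutative rings, curve data `(A0 → A01 ← A1; t, s)` over `k`, `𝔅` a change of the base
ring (`SpecD35.BaseChangeR`, in the application `BaseEquiv85.baseChangeR`).  A list `L` of
`k'`-valued points of `U0` gives the twist `(𝔅.equiv k')⁻¹ (∏ [O(P)])`, a class over `k'` at the
level `k'`.  For a `k'`-algebra `B` and a class `x'` over `B` at the level `k'`:

  `x' · twist` is good of rank `n` (level `k'`)  ↔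
  `𝔅.equiv B x' · ∏ [O(P_B)]` is good of rank `n` (level `k`),

where `P_B` is `P` followed by `k' → B` (`goodAtRank_twist_level`).  Ingredients: `equiv_bcR`,
`goodAtRank_iff` and the base change of point classes `PtClassR46.ptClassR_bcR`.
-/
import Mathlib
import Fermat.Agent.FFJ.Pic.BaseEquiv85
import Fermat.Agent.FFJ.Pic.PtClassR46

set_option autoImplicit false
set_option linter.unusedSectionVars false
set_option linter.style.haveILetI false

open scoped TensorProduct
open scoped Fermat.Agent.JAC.Core.ConstFamily36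

noncomputable section

namespace Fermat.Agent.FFJ.Pic.LevelGood85

open Fermat.Agent.JAC.Core.Defs36 Fermat.Agent.JAC.Core.ConstFamily36
  Fermat.Agent.JAC.Grp.Diag33
  Fermat.Agent.FFJ.Core.ClR35 Fermat.Agent.FFJ.Core.ClRBc35
  Fermat.Agent.FFJ.Pic.ChartDefR35 Fermat.Agent.FFJ.Pic.SpecD35
  Fermat.Agent.FFJ.Pic.BaseEquiv85 Fermat.Agent.FFJ.Pic.PtClassR46

universe u

variable {k : Type u} [CommRing k] {A0 A1 A01 : Type u} [CommRing A0] [CommRing A1] [CommRing A01]
  [Algebra k A0] [Algebra k A1] [Algebra k A01] [Algebra A0 A01] [Algebra A1 A01]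
  [IsScalarTower k A0 A01] [IsScalarTower k A1 A01] {t : A0} {s : A1}
  [IsLocalization.Away t A01] [IsLocalization.Away s A01]
  {k' : Type u} [CommRing k'] [Algebra k k'] {e : A01 →ₐ[k] k}

/-- Base change of a product of point classes. -/
theorem bcR_prod_ptClassR (H : CurveHypR k A0 A1 A01 t s) {B B' : Type u} [CommRing B]
    [CommRing B'] [Algebra k B] [Algebra k B'] (ψ : B →ₐ[k] B') (L : List (A0 →ₐ[k] B)) :
    bcR ψ ((L.map (ptClassR (A1 := A1) (A01 := A01) (t := t) (s := s) H.hts)).prod) =
      (L.map fun P => ptClassR (A1 := A1) (A01 := A01) (t := t) (s := s) H.hts (ψ.comp P)).prod := by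
  rw [map_list_prod, List.map_map]
  congr 1
  exact List.map_congr_left fun P _ => ptClassR_bcR H ψ P

variable (𝔅 : BaseChangeR k A0 A1 A01 t s k' e)

/-- The twist by `k'`-valued points, pulled back to `B`, seen at the level `k`. -/
theorem equiv_twist (H : CurveHypR k A0 A1 A01 t s) (B : Type u) [CommRing B] [Algebra k B]
    [Algebra k' B] [IsScalarTower k k' B] (L : List (A0 →ₐ[k] k')) :
    𝔅.equiv B (twist (fun _ : PUnit.{u + 1} => (𝔅.equiv k').symm
        ((L.map (ptClassR (A1 := A1) (A01 := A01) (t := t) (s := s) H.hts)).prod)) B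
        PUnit.unit) =
      (L.map fun P => ptClassR (A1 := A1) (A01 := A01) (t := t) (s := s) H.hts
        (((Algebra.ofId k' B).restrictScalars k).comp P)).prod := by
  unfold twist
  rw [𝔅.equiv_bcR, MulEquiv.apply_symm_apply, bcR_prod_ptClassR H]

/-- **(LEVEL-GOOD)**: goodness with rank of a twisted class at the level `k'` is goodness with rank
at the level `k` of its image, twisted by the point classes. -/
theorem goodAtRank_twist_level (H : CurveHypR k A0 A1 A01 t s) (B : Type u) [CommRing B]
    [Algebra k B] [Algebra k' B] [IsScalarTower k k' B]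
    (x' : ClR' k A0 A1 A01 t s k' B) (L : List (A0 →ₐ[k] k')) (n : ℕ) :
    GoodAtRank B (x' * twist (fun _ : PUnit.{u + 1} => (𝔅.equiv k').symm
        ((L.map (ptClassR (A1 := A1) (A01 := A01) (t := t) (s := s) H.hts)).prod)) B
        PUnit.unit) n ↔
      GoodAtRank B (𝔅.equiv B x' *
        (L.map fun P => ptClassR (A1 := A1) (A01 := A01) (t := t) (s := s) H.hts
          (((Algebra.ofId k' B).restrictScalars k).comp P)).prod) n := by
  rw [← 𝔅.goodAtRank_iff B _ n, map_mul, equiv_twist 𝔅 H B L]

/-- (LEVEL-GOOD) for `𝔅 = BaseEquiv85.baseChangeR`. -/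
theorem goodAtRank_twist_baseEquiv (e : A01 →ₐ[k] k) (H : CurveHypR k A0 A1 A01 t s) (B : Type u)
    [CommRing B] [Algebra k B] [Algebra k' B] [IsScalarTower k k' B]
    (x' : ClR' k A0 A1 A01 t s k' B) (L : List (A0 →ₐ[k] k')) (n : ℕ) :
    GoodAtRank B (x' * twist (fun _ : PUnit.{u + 1} =>
        (baseEquiv k A0 A1 A01 t s k' k').symm
          ((L.map (ptClassR (A1 := A1) (A01 := A01) (t := t) (s := s) H.hts)).prod)) B
        PUnit.unit) n ↔
      GoodAtRank B (baseEquiv k A0 A1 A01 t s k' B x' *
        (L.map fun P => ptClassR (A1 := A1) (A01 := A01) (t := t) (s := s) H.hts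
          (((Algebra.ofId k' B).restrictScalars k).comp P)).prod) n :=
  goodAtRank_twist_level (baseChangeR k A0 A1 A01 t s k' e) H B x' L n

end Fermat.Agent.FFJ.Pic.LevelGood85
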