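/-
Programme FFJ (S19), chapter PIC, sub-brick LEVEL-IOTA of (D8).  Owner: helper85.

CHANGE OF LEVEL FOR THE BRIDGE DATA.

Chapter BRIDGE delivers, at ONE level `O₁ = A ∩ K₁`, an embedding `ι₁` of the Galois module `M` into
the classes over `ℚ̄` of the curve data `(A0 → A01 ← A1; t, s)` over `O₁`, equivariant for
`Gal(ℚ̄/K₁)`.  Chapter PIC works at a bigger level `O' = A ∩ K'` (`K₁ ≤ K'`) with the tensor model
`O' ⊗[O₁] A_i`.  This file transports `(ι, hinj, hmem, hequiv)` (the literal arguments of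
`GeoWire77.geoInput_of_chart`) from `O₁` to `O'` along `BaseEquiv85.baseEquiv`:

* `galHom_restrictScalars`, `baseEquiv_galActR`, `galActR_baseEquiv_symm` : the Galois action on the
  classes commutes with `baseEquiv` (abstract: `k → k'`, fields `F`, `F'` below `Ω`);
* `levelHom ι₁ = (baseEquiv Ω)⁻¹ ∘ ι₁` with `baseEquiv_levelHom`, `levelHom_injective`,
  `levelHom_mem_picZeroR`, `range_levelHom`, `levelHom_galActR`;
* `levelHom_equivariant` : the equivariance in the literal shape of `GeoWire77` for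
  `K₁ ≤ K' : IntermediateField ℚ ℚ̄` (any instances `Algebra (OK K₁ A) (OK K' A)`,
  `IsScalarTower (OK K₁ A) (OK K' A) ℚ̄`);
* `exists_levelData` : the four facts bundled.
-/
import Mathlib
import Fermat.Agent.FFJ.Pic.BaseEquiv85
import Fermat.Agent.FFJ.Order.GeoWire77

set_option autoImplicit false
set_option linter.unusedSectionVars false
set_option linter.style.haveILetI false

open scoped TensorProduct
open scoped Fermat.Agent.JAC.Core.ConstFamily36

noncomputable section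

namespace Fermat.Agent.FFJ.Pic.LevelIota85

open Fermat.Agent.JAC.Core.Defs36 Fermat.Agent.JAC.Core.ConstFamily36
  Fermat.Agent.JAC.Grp.Diag33
  Fermat.Agent.FFJ.Core.ClR35 Fermat.Agent.FFJ.Core.ClRBc35
  Fermat.Agent.FFJ.Spec.Spec35 Fermat.Agent.FFJ.Pic.SpecD35
  Fermat.Agent.FFJ.Pic.BaseEquiv85

/-! ### Abstract form -/

section Abstract

variable (k : Type) [CommRing k] (A0 A1 A01 : Type) [CommRing A0] [CommRing A1] [CommRing A01]
  [Algebra k A0] [Algebra k A1] [Algebra k A01] [Algebra A0 A01] [Algebra A1 A01]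
  [IsScalarTower k A0 A01] [IsScalarTower k A1 A01] (t : A0) (s : A1)
  [IsLocalization.Away t A01] [IsLocalization.Away s A01]
  (k' : Type) [CommRing k'] [Algebra k k']

section Galois

variable (F F' : Type) {Ω : Type} [Field F] [Field F'] [Field Ω]
  [Algebra k F] [Algebra F Ω] [Algebra k Ω] [IsScalarTower k F Ω]
  [Algebra k' F'] [Algebra F' Ω] [Algebra k' Ω] [IsScalarTower k' F' Ω]
  [IsScalarTower k k' Ω]

/-- An automorphism of `Ω` over the big field, seen over the small base ring. -/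
theorem galHom_restrictScalars (σ' : Ω ≃ₐ[F'] Ω) (σ : Ω ≃ₐ[F] Ω) (h : ∀ x, σ' x = σ x) :
    (galHom k' F' σ').restrictScalars k = galHom k F σ :=
  AlgHom.ext h

/-- **The Galois action commutes with `baseEquiv`.** -/
theorem baseEquiv_galActR (σ' : Ω ≃ₐ[F'] Ω) (σ : Ω ≃ₐ[F] Ω) (h : ∀ x, σ' x = σ x)
    (x : ClR' k A0 A1 A01 t s k' Ω) :
    baseEquiv k A0 A1 A01 t s k' Ω (galActR k' F' σ' x) =
      galActR k F σ (baseEquiv k A0 A1 A01 t s k' Ω x) := by
  show baseEquiv k A0 A1 A01 t s k' Ω (bcR (galHom k' F' σ') x) =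
    bcR (galHom k F σ) (baseEquiv k A0 A1 A01 t s k' Ω x)
  rw [baseEquiv_bcR, galHom_restrictScalars k k' F F' σ' σ h]

theorem galActR_baseEquiv_symm (σ' : Ω ≃ₐ[F'] Ω) (σ : Ω ≃ₐ[F] Ω) (h : ∀ x, σ' x = σ x)
    (y : ClR k A0 A1 A01 t s Ω) :
    galActR k' F' σ' ((baseEquiv k A0 A1 A01 t s k' Ω).symm y) =
      (baseEquiv k A0 A1 A01 t s k' Ω).symm (galActR k F σ y) := by
  rw [MulEquiv.eq_symm_apply, baseEquiv_galActR k A0 A1 A01 t s k' F F' σ' σ h,
    MulEquiv.apply_symm_apply]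

end Galois

section Hom

variable {k A0 A1 A01 t s} {M : Type} [AddCommGroup M] {Ω : Type} [Field Ω]
  [Algebra k Ω] [Algebra k' Ω] [IsScalarTower k k' Ω]

/-- **The embedding at the new level**: `ι' = (baseEquiv Ω)⁻¹ ∘ ι₁`. -/
def levelHom (ι₁ : Multiplicative M →* ClR k A0 A1 A01 t s Ω) :
    Multiplicative M →* ClR' k A0 A1 A01 t s k' Ω :=
  ((baseEquiv k A0 A1 A01 t s k' Ω).symm : ClR k A0 A1 A01 t s Ω →* _).comp ι₁

theorem levelHom_apply (ι₁ : Multiplicative M →* ClR k A0 A1 A01 t s Ω) (m : Multiplicative M) :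
    levelHom k' ι₁ m = (baseEquiv k A0 A1 A01 t s k' Ω).symm (ι₁ m) := rfl

@[simp]
theorem baseEquiv_levelHom (ι₁ : Multiplicative M →* ClR k A0 A1 A01 t s Ω)
    (m : Multiplicative M) :
    baseEquiv k A0 A1 A01 t s k' Ω (levelHom k' ι₁ m) = ι₁ m :=
  MulEquiv.apply_symm_apply _ _

theorem levelHom_injective {ι₁ : Multiplicative M →* ClR k A0 A1 A01 t s Ω}
    (hinj : Function.Injective ι₁) : Function.Injective (levelHom k' ι₁) :=
  (baseEquiv k A0 A1 A01 t s k' Ω).symm.injective.comp hinj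

theorem levelHom_mem_picZeroR (e : A01 →ₐ[k] k)
    {ι₁ : Multiplicative M →* ClR k A0 A1 A01 t s Ω} (hmem : ∀ m, ι₁ m ∈ PicZeroR e Ω)
    (m : Multiplicative M) : levelHom k' ι₁ m ∈ PicZeroR (rigHom k' e) Ω := by
  rw [← baseEquiv_mem_picZeroR k A0 A1 A01 t s k' Ω e, baseEquiv_levelHom]
  exact hmem m

theorem range_levelHom (ι₁ : Multiplicative M →* ClR k A0 A1 A01 t s Ω) :
    Set.range (levelHom k' ι₁) = (baseEquiv k A0 A1 A01 t s k' Ω) ⁻¹' Set.range ι₁ := by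
  ext x
  constructor
  · rintro ⟨m, rfl⟩
    exact ⟨m, (baseEquiv_levelHom k' ι₁ m).symm⟩
  · rintro ⟨m, hm⟩
    exact ⟨m, by rw [levelHom_apply, hm, MulEquiv.symm_apply_apply]⟩

theorem mem_range_levelHom (ι₁ : Multiplicative M →* ClR k A0 A1 A01 t s Ω)
    (x : ClR' k A0 A1 A01 t s k' Ω) :
    x ∈ Set.range (levelHom k' ι₁) ↔ baseEquiv k A0 A1 A01 t s k' Ω x ∈ Set.range ι₁ := by
  rw [range_levelHom]; rfl

/-- Equivariance at the new level (abstract form). -/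
theorem levelHom_galActR (F F' : Type) [Field F] [Field F'] [Algebra k F] [Algebra F Ω]
    [IsScalarTower k F Ω] [Algebra k' F'] [Algebra F' Ω] [IsScalarTower k' F' Ω]
    (ι₁ : Multiplicative M →* ClR k A0 A1 A01 t s Ω)
    (σ' : Ω ≃ₐ[F'] Ω) (σ : Ω ≃ₐ[F] Ω) (h : ∀ x, σ' x = σ x) (m m' : Multiplicative M)
    (hm : ι₁ m' = galActR k F σ (ι₁ m)) :
    levelHom k' ι₁ m' = galActR k' F' σ' (levelHom k' ι₁ m) := by
  rw [levelHom_apply, levelHom_apply, galActR_baseEquiv_symm k A0 A1 A01 t s k' F F' σ' σ h, hm]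

end Hom

end Abstract

/-! ### The literal shape of `GeoWire77` -/

section Concrete

open Fermat.Agent.TW.FF.FlatModel68 Fermat.Agent.FFJ.Alg.Spec78 Fermat.Agent.FFJ.Order.GeoWire77

variable {M : Type} [AddCommGroup M] [DistribMulAction GQ M]
  {K₁ K' : IntermediateField ℚ Qbar} (A : ValuationSubring Qbar)
  [Algebra (OK K₁ A) (OK K' A)] [IsScalarTower (OK K₁ A) (OK K' A) Qbar]
  {A0 A1 A01 : Type} [CommRing A0] [CommRing A1] [CommRing A01]
  [Algebra (OK K₁ A) A0] [Algebra (OK K₁ A) A1] [Algebra (OK K₁ A) A01] [Algebra A0 A01]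
  [Algebra A1 A01] [IsScalarTower (OK K₁ A) A0 A01] [IsScalarTower (OK K₁ A) A1 A01]
  {t : A0} {s : A1} [IsLocalization.Away t A01] [IsLocalization.Away s A01]

/-- An automorphism of `ℚ̄` over `K'` as an automorphism over `K₁ ≤ K'`. -/
def galRestrict (hK : K₁ ≤ K') (σ : Qbar ≃ₐ[K'] Qbar) : Qbar ≃ₐ[K₁] Qbar :=
  { (σ : Qbar ≃+* Qbar) with
    commutes' := fun x => σ.commutes ⟨(x : Qbar), hK x.2⟩ }

@[simp]
theorem galRestrict_apply (hK : K₁ ≤ K') (σ : Qbar ≃ₐ[K'] Qbar) (x : Qbar) : galRestrict hK σ x = σ x := rfl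

theorem galRestrict_restrictScalars (hK : K₁ ≤ K') (σ : Qbar ≃ₐ[K'] Qbar) :
    ((galRestrict hK σ).restrictScalars ℚ : GQ) = (σ.restrictScalars ℚ : GQ) :=
  AlgEquiv.ext fun _ => rfl

/-- **Equivariance at the level `O' = A ∩ K'`**, in the literal shape of
`GeoWire77.geoInput_of_chart`. -/
theorem levelHom_equivariant (hK : K₁ ≤ K')
    (ι₁ : Multiplicative M →* ClR (OK K₁ A) A0 A1 A01 t s Qbar)
    (hequiv : ∀ (σ : Qbar ≃ₐ[K₁] Qbar) (m : M),
      ι₁ (Multiplicative.ofAdd ((σ.restrictScalars ℚ : GQ) • m)) =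
        galActR (OK K₁ A) K₁ σ (ι₁ (Multiplicative.ofAdd m)))
    (σ : Qbar ≃ₐ[K'] Qbar) (m : M) :
    levelHom (OK K' A) ι₁ (Multiplicative.ofAdd ((σ.restrictScalars ℚ : GQ) • m)) =
      galActR (OK K' A) K' σ (levelHom (OK K' A) ι₁ (Multiplicative.ofAdd m)) := by
  refine levelHom_galActR (OK K' A) K₁ K' ι₁ σ (galRestrict hK σ) (fun _ => rfl) _ _ ?_
  rw [← galRestrict_restrictScalars hK σ]
  exact hequiv (galRestrict hK σ) m

/-- **LEVEL-IOTA**: the BRIDGE data at the level `O₁ = A ∩ K₁` give BRIDGE data at every level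
`O' = A ∩ K'`, `K₁ ≤ K'`, for the tensor model `O' ⊗[O₁] A_i` (the arguments `ι hinj hmem hequiv` of
`GeoWire77.geoInput_of_chart`), with `baseEquiv ∘ ι' = ι₁`. -/
theorem exists_levelData (hK : K₁ ≤ K') (e : A01 →ₐ[OK K₁ A] OK K₁ A)
    (ι₁ : Multiplicative M →* ClR (OK K₁ A) A0 A1 A01 t s Qbar)
    (hinj : Function.Injective ι₁) (hmem : ∀ m, ι₁ m ∈ PicZeroR e Qbar)
    (hequiv : ∀ (σ : Qbar ≃ₐ[K₁] Qbar) (m : M),
      ι₁ (Multiplicative.ofAdd ((σ.restrictScalars ℚ : GQ) • m)) =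
        galActR (OK K₁ A) K₁ σ (ι₁ (Multiplicative.ofAdd m))) :
    ∃ ι' : Multiplicative M →* ClR' (OK K₁ A) A0 A1 A01 t s (OK K' A) Qbar,
      Function.Injective ι' ∧ (∀ m, ι' m ∈ PicZeroR (rigHom (OK K' A) e) Qbar) ∧
      (∀ (σ : Qbar ≃ₐ[K'] Qbar) (m : M),
        ι' (Multiplicative.ofAdd ((σ.restrictScalars ℚ : GQ) • m)) =
          galActR (OK K' A) K' σ (ι' (Multiplicative.ofAdd m))) ∧
      (∀ m, baseEquiv (OK K₁ A) A0 A1 A01 t s (OK K' A) Qbar (ι' m) = ι₁ m) ∧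
      Set.range ι' = (baseEquiv (OK K₁ A) A0 A1 A01 t s (OK K' A) Qbar) ⁻¹' Set.range ι₁ :=
  ⟨levelHom (OK K' A) ι₁, levelHom_injective (OK K' A) hinj,
    levelHom_mem_picZeroR (OK K' A) e hmem, levelHom_equivariant A hK ι₁ hequiv,
    baseEquiv_levelHom (OK K' A) ι₁, range_levelHom (OK K' A) ι₁⟩

end Concrete

end Fermat.Agent.FFJ.Pic.LevelIota85
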