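/-
Programme FFJ (S19), chapter PIC, instance package of (D8) (COORD #3).  Owner: helper85.

THE TWO LEVELS `O₁ = A ∩ K₁ ⊆ O' = A ∩ K'`.

For `K₁ ≤ K' : IntermediateField ℚ ℚ̄` and a valuation subring `A` of `ℚ̄`:

* `algebraOKOK hK A : Algebra (OK K₁ A) (OK K' A)` (the inclusion; a reducible def, not an instance),
  `coe_algebraMap_OKOK`, `algebraMap_OKOK_injective`, `flat_OKOK`;
* `algebraOKK hK A : Algebra (OK K₁ A) K'` and the towers `isScalarTower_OKOK_K'`,
  `isScalarTower_OKK_Qbar`;
* the towers `isScalarTower_OKOK_Qbar`, `isScalarTower_OKOK_A`, `isScalarTower_OKOK_residue`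
  (for `Algebra (OK K A) A := GeoWireOne77.algebraOKA K A`);
* `toAlgHom_restrictScalars`, `resV_restrictScalars` : the generic point and the residue map of `A`
  over `O'`, seen over `O₁`;
* `codRestrictOK P h : R →ₐ[O₁] O'` for an `O₁`-algebra map `P : R →ₐ[O₁] A` with values in `K'`,
  with `coe_codRestrictOK`, `toAlgHom_comp_codRestrictOK`, `ofId_comp_codRestrictOK`;
* `baseEquiv_generic`, `baseEquiv_special` : the generic and the special fibre of a class over `A`
  commute with `BaseEquiv85.baseEquiv`;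
* one level: `algebraMap_OK_Qbar_injective`, `isAlgebraic_OK_Qbar`.
-/
import Mathlib
import Fermat.Agent.FFJ.Pic.LevelIota85
import Fermat.Agent.FFJ.Order.GeoWireOne77

set_option autoImplicit false
set_option linter.unusedSectionVars false
set_option linter.style.haveILetI false

open scoped TensorProduct
open scoped Fermat.Agent.JAC.Core.ConstFamily36

noncomputable section

namespace Fermat.Agent.FFJ.Pic.LevelInst85

open Fermat.Agent.JAC.Core.Defs36 Fermat.Agent.JAC.Core.ConstFamily36
  Fermat.Agent.JAC.Grp.Diag33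
  Fermat.Agent.FFJ.Core.ClR35 Fermat.Agent.FFJ.Core.ClRBc35
  Fermat.Agent.FFJ.Spec.Spec35 Fermat.Agent.FFJ.Pic.SpecD35
  Fermat.Agent.FFJ.Pic.BaseEquiv85
  Fermat.Agent.TW.FF.FlatModel68 Fermat.Agent.FFJ.Alg.Spec78 Fermat.Agent.FFJ.Order.GeoWire77
  Fermat.Agent.FFJ.Order.GeoWireOne77 Fermat.Agent.FFJ.Order.AdmOne77

variable {K₁ K' : IntermediateField ℚ Qbar} (hK : K₁ ≤ K') (A : ValuationSubring Qbar)

/-! ### One level: `O = A ∩ K` inside `ℚ̄` -/

section OneLevel

variable (K : IntermediateField ℚ Qbar)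

theorem algebraMap_OK_Qbar_injective : Function.Injective (algebraMap (OK K A) Qbar) :=
  fun _ _ h => Subtype.ext (Subtype.ext h)

/-- `ℚ̄` is algebraic over `O = A ∩ K`. -/
theorem isAlgebraic_OK_Qbar : Algebra.IsAlgebraic (OK K A) Qbar := by
  haveI : Algebra.IsAlgebraic ℚ Qbar := AlgebraicClosure.isAlgebraic ℚ
  haveI : Algebra.IsAlgebraic K Qbar := Algebra.IsAlgebraic.tower_top (K := ℚ) K
  exact (IsFractionRing.comap_isAlgebraic_iff (A := OK K A) (K := K) (C := Qbar)).mpr
    inferInstance

end OneLevel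

/-! ### The inclusion `O₁ → O'` -/

/-- The inclusion `A ∩ K₁ → A ∩ K'`. -/
def inclOK : OK K₁ A →+* OK K' A where
  toFun x := ⟨⟨((x : K₁) : Qbar), hK (x : K₁).2⟩, x.2⟩
  map_one' := rfl
  map_mul' _ _ := rfl
  map_zero' := rfl
  map_add' _ _ := rfl

/-- **The algebra structure of `O' = A ∩ K'` over `O₁ = A ∩ K₁`** (a def, not an instance). -/
@[reducible] def algebraOKOK : Algebra (OK K₁ A) (OK K' A) := (inclOK hK A).toAlgebra

theorem coe_algebraMap_OKOK (x : OK K₁ A) :
    letI := algebraOKOK hK A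
    (((algebraMap (OK K₁ A) (OK K' A) x : OK K' A) : K') : Qbar) = ((x : K₁) : Qbar) := rfl

theorem algebraMap_OKOK_injective :
    letI := algebraOKOK hK A
    Function.Injective (algebraMap (OK K₁ A) (OK K' A)) := by
  letI := algebraOKOK hK A
  intro x y h
  have h1 := congrArg (fun z : OK K' A => ((z : K') : Qbar)) h
  exact Subtype.ext (Subtype.ext h1)

/-- `O'` is flat over `O₁` (torsion-free over a valuation ring). -/
theorem flat_OKOK : letI := algebraOKOK hK A; Module.Flat (OK K₁ A) (OK K' A) := by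
  letI := algebraOKOK hK A
  rw [Module.Flat.flat_iff_torsion_eq_bot_of_isBezout, Submodule.eq_bot_iff]
  rintro x ⟨a, ha⟩
  have h0 : (a : OK K₁ A) ≠ 0 := nonZeroDivisors.coe_ne_zero a
  have h1 : algebraMap (OK K₁ A) (OK K' A) (a : OK K₁ A) * x = 0 := by
    rw [← Algebra.smul_def]; exact ha
  rcases mul_eq_zero.mp h1 with h | h
  · exact absurd (algebraMap_OKOK_injective hK A (h.trans (map_zero _).symm)) h0
  · exact h

/-- The algebra structure of `K'` over `O₁ = A ∩ K₁` (a def, not an instance). -/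
@[reducible] def algebraOKK : Algebra (OK K₁ A) K' :=
  ((algebraMap (OK K' A) K').comp (inclOK hK A)).toAlgebra

theorem isScalarTower_OKOK_K' :
    letI := algebraOKOK hK A
    letI := algebraOKK hK A
    IsScalarTower (OK K₁ A) (OK K' A) K' :=
  letI := algebraOKOK hK A
  letI := algebraOKK hK A
  IsScalarTower.of_algebraMap_eq fun _ => rfl

theorem isScalarTower_OKK_Qbar :
    letI := algebraOKK hK A
    IsScalarTower (OK K₁ A) K' Qbar :=
  letI := algebraOKK hK A
  IsScalarTower.of_algebraMap_eq fun _ => rfl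

theorem isScalarTower_OKOK_Qbar :
    letI := algebraOKOK hK A
    IsScalarTower (OK K₁ A) (OK K' A) Qbar :=
  letI := algebraOKOK hK A
  IsScalarTower.of_algebraMap_eq fun _ => rfl

theorem isScalarTower_OKOK_A :
    letI := algebraOKOK hK A
    letI := algebraOKA K₁ A
    letI := algebraOKA K' A
    IsScalarTower (OK K₁ A) (OK K' A) A :=
  letI := algebraOKOK hK A
  letI := algebraOKA K₁ A
  letI := algebraOKA K' A
  IsScalarTower.of_algebraMap_eq fun _ => rfl

theorem isScalarTower_OKOK_residue :
    letI := algebraOKOK hK A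
    letI := algebraOKA K₁ A
    letI := algebraOKA K' A
    IsScalarTower (OK K₁ A) (OK K' A) (IsLocalRing.ResidueField A) :=
  letI := algebraOKOK hK A
  letI := algebraOKA K₁ A
  letI := algebraOKA K' A
  IsScalarTower.of_algebraMap_eq fun _ => rfl

/-! ### The generic point and the residue map of `A` -/

/-- The generic point `A → ℚ̄` over `O'`, seen over `O₁`. -/
theorem toAlgHom_restrictScalars :
    letI := algebraOKOK hK A
    letI := algebraOKA K₁ A
    letI := algebraOKA K' A
    haveI := isScalarTower_OKA K₁ A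
    haveI := isScalarTower_OKA K' A
    haveI := isScalarTower_OKOK_A hK A
    haveI := isScalarTower_OKOK_Qbar hK A
    (IsScalarTower.toAlgHom (OK K' A) A Qbar).restrictScalars (OK K₁ A) =
      IsScalarTower.toAlgHom (OK K₁ A) A Qbar :=
  letI := algebraOKOK hK A
  letI := algebraOKA K₁ A
  letI := algebraOKA K' A
  haveI := isScalarTower_OKA K₁ A
  haveI := isScalarTower_OKA K' A
  haveI := isScalarTower_OKOK_A hK A
  haveI := isScalarTower_OKOK_Qbar hK A
  AlgHom.ext fun _ => rfl

/-- The residue map `A → κ(A)` over `O'`, seen over `O₁`. -/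
theorem resV_restrictScalars :
    letI := algebraOKOK hK A
    letI := algebraOKA K₁ A
    letI := algebraOKA K' A
    haveI := isScalarTower_OKOK_A hK A
    haveI := isScalarTower_OKOK_residue hK A
    (resV (O := OK K' A) A).restrictScalars (OK K₁ A) = resV (O := OK K₁ A) A :=
  letI := algebraOKOK hK A
  letI := algebraOKA K₁ A
  letI := algebraOKA K' A
  haveI := isScalarTower_OKOK_A hK A
  haveI := isScalarTower_OKOK_residue hK A
  AlgHom.ext fun _ => rfl

/-! ### Points with values in `K'` -/

section CodRestrict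

variable {R : Type} [CommRing R] [Algebra (OK K₁ A) R]

/-- An `O₁`-algebra map `P : R → A` with values in `K'` as a map `R → O' = A ∩ K'`. -/
def codRestrictOK
    (P : letI := algebraOKA K₁ A; R →ₐ[OK K₁ A] A)
    (h : ∀ a : R, ((letI := algebraOKA K₁ A; P a : A) : Qbar) ∈ K') :
    letI := algebraOKOK hK A
    R →ₐ[OK K₁ A] OK K' A :=
  letI := algebraOKOK hK A
  letI := algebraOKA K₁ A
  { toFun := fun a => ⟨⟨((P a : A) : Qbar), h a⟩, (P a : A).2⟩
    map_one' := by
      refine Subtype.ext (Subtype.ext ?_)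
      show ((P 1 : A) : Qbar) = 1
      rw [map_one]; rfl
    map_mul' := fun a b => by
      refine Subtype.ext (Subtype.ext ?_)
      show ((P (a * b) : A) : Qbar) = ((P a : A) : Qbar) * ((P b : A) : Qbar)
      rw [map_mul]; rfl
    map_zero' := by
      refine Subtype.ext (Subtype.ext ?_)
      show ((P 0 : A) : Qbar) = 0
      rw [map_zero]; rfl
    map_add' := fun a b => by
      refine Subtype.ext (Subtype.ext ?_)
      show ((P (a + b) : A) : Qbar) = ((P a : A) : Qbar) + ((P b : A) : Qbar)
      rw [map_add]; rfl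
    commutes' := fun c => by
      refine Subtype.ext (Subtype.ext ?_)
      show ((P (algebraMap (OK K₁ A) R c) : A) : Qbar) = ((c : K₁) : Qbar)
      rw [P.commutes]; rfl }

theorem coe_codRestrictOK
    (P : letI := algebraOKA K₁ A; R →ₐ[OK K₁ A] A)
    (h : ∀ a : R, ((letI := algebraOKA K₁ A; P a : A) : Qbar) ∈ K') (a : R) :
    letI := algebraOKOK hK A
    letI := algebraOKA K₁ A
    (((codRestrictOK hK A P h a : OK K' A) : K') : Qbar) = ((P a : A) : Qbar) := rfl

/-- `O' → A` after `codRestrictOK P` is `P`. -/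
theorem toAlgHom_comp_codRestrictOK
    (P : letI := algebraOKA K₁ A; R →ₐ[OK K₁ A] A)
    (h : ∀ a : R, ((letI := algebraOKA K₁ A; P a : A) : Qbar) ∈ K') :
    letI := algebraOKOK hK A
    letI := algebraOKA K₁ A
    letI := algebraOKA K' A
    haveI := isScalarTower_OKOK_A hK A
    (IsScalarTower.toAlgHom (OK K₁ A) (OK K' A) A).comp (codRestrictOK hK A P h) = P :=
  letI := algebraOKOK hK A
  letI := algebraOKA K₁ A
  letI := algebraOKA K' A
  haveI := isScalarTower_OKOK_A hK A
  AlgHom.ext fun _ => Subtype.ext rfl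

/-- The structure map `O' → κ(A)` after `codRestrictOK P` is the reduction of `P`. -/
theorem ofId_comp_codRestrictOK
    (P : letI := algebraOKA K₁ A; R →ₐ[OK K₁ A] A)
    (h : ∀ a : R, ((letI := algebraOKA K₁ A; P a : A) : Qbar) ∈ K') :
    letI := algebraOKOK hK A
    letI := algebraOKA K₁ A
    letI := algebraOKA K' A
    haveI := isScalarTower_OKOK_residue hK A
    ((Algebra.ofId (OK K' A) (IsLocalRing.ResidueField A)).restrictScalars (OK K₁ A)).comp
        (codRestrictOK hK A P h) =
      (resV (O := OK K₁ A) A).comp P :=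
  letI := algebraOKOK hK A
  letI := algebraOKA K₁ A
  letI := algebraOKA K' A
  haveI := isScalarTower_OKOK_residue hK A
  AlgHom.ext fun _ => rfl

end CodRestrict

/-! ### Generic and special fibres commute with `baseEquiv` -/

section Fibres

variable {A0 A1 A01 : Type} [CommRing A0] [CommRing A1] [CommRing A01]
  [Algebra (OK K₁ A) A0] [Algebra (OK K₁ A) A1] [Algebra (OK K₁ A) A01] [Algebra A0 A01]
  [Algebra A1 A01] [IsScalarTower (OK K₁ A) A0 A01] [IsScalarTower (OK K₁ A) A1 A01]
  {t : A0} {s : A1} [IsLocalization.Away t A01] [IsLocalization.Away s A01]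

/-- **The generic fibre commutes with `baseEquiv`.** -/
theorem baseEquiv_generic :
    letI := algebraOKOK hK A
    letI := algebraOKA K₁ A
    letI := algebraOKA K' A
    haveI := isScalarTower_OKA K₁ A
    haveI := isScalarTower_OKA K' A
    haveI := isScalarTower_OKOK_A hK A
    haveI := isScalarTower_OKOK_Qbar hK A
    ∀ ξ' : ClR' (OK K₁ A) A0 A1 A01 t s (OK K' A) A,
      bcR (IsScalarTower.toAlgHom (OK K₁ A) A Qbar)
          (baseEquiv (OK K₁ A) A0 A1 A01 t s (OK K' A) A ξ') =
        baseEquiv (OK K₁ A) A0 A1 A01 t s (OK K' A) Qbar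
          (bcR (IsScalarTower.toAlgHom (OK K' A) A Qbar) ξ') := by
  letI := algebraOKOK hK A
  letI := algebraOKA K₁ A
  letI := algebraOKA K' A
  haveI := isScalarTower_OKA K₁ A
  haveI := isScalarTower_OKA K' A
  haveI := isScalarTower_OKOK_A hK A
  haveI := isScalarTower_OKOK_Qbar hK A
  intro ξ'
  rw [baseEquiv_bcR, toAlgHom_restrictScalars hK A]

/-- **The special fibre commutes with `baseEquiv`.** -/
theorem baseEquiv_special :
    letI := algebraOKOK hK A
    letI := algebraOKA K₁ A
    letI := algebraOKA K' A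
    haveI := isScalarTower_OKOK_A hK A
    haveI := isScalarTower_OKOK_residue hK A
    ∀ ξ' : ClR' (OK K₁ A) A0 A1 A01 t s (OK K' A) A,
      bcR (resV (O := OK K₁ A) A) (baseEquiv (OK K₁ A) A0 A1 A01 t s (OK K' A) A ξ') =
        baseEquiv (OK K₁ A) A0 A1 A01 t s (OK K' A) (IsLocalRing.ResidueField A)
          (bcR (resV (O := OK K' A) A) ξ') := by
  letI := algebraOKOK hK A
  letI := algebraOKA K₁ A
  letI := algebraOKA K' A
  haveI := isScalarTower_OKOK_A hK A
  haveI := isScalarTower_OKOK_residue hK A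
  intro ξ'
  rw [baseEquiv_bcR, resV_restrictScalars hK A]

end Fibres

end Fermat.Agent.FFJ.Pic.LevelInst85
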