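/-
Programme FFJ (S19), chapter PIC, part D (helper50): THE TWO-LEVEL TRANSPORT OF POINT CLASSES.

For a change of base ring `k → k'` and the tensor model `k' ⊗[k] A_i` over `k'`, helper85's
`BaseEquiv85.baseEquiv` identifies the class functor of the tensor model (over `k'`-algebras `B`)
with the class functor of the original model.  Here:

* `liftPt`            : a `B`-valued point `q : A →ₐ[k] B` of the `k`-model as a point
                         `k' ⊗[k] A →ₐ[k'] B` of the tensor model;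
* `map_graphIdeal_liftPt` : the graph ideals correspond under `fibreEquiv`;
* `odClass_baseEquiv` : `baseEquiv [O(D')] = [O(D)]`, `D` the image of `D'` under `fibreEquiv`;
* `ptClassR_baseEquiv`: `baseEquiv (ptClassR (liftPt q)) = ptClassR q`;
* `goodAtRank_level`  : the conclusion of FIB-R at the level `k` IS the hypothesis `hgood` of
                         `AdmCore37.exists_isFunOrder_of_goodTwist` at the level `k'`.
-/
import Mathlib
import Fermat.Agent.FFJ.Pic.BaseEquiv85
import Fermat.Agent.FFJ.Pic.PtClassR46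

set_option autoImplicit false
set_option maxHeartbeats 400000
set_option linter.unusedSectionVars false

universe u

noncomputable section

namespace Fermat.Agent.FFJ.Pic.LevelPt50

open scoped TensorProduct
open scoped Fermat.Agent.JAC.Core.ConstFamily36
open Fermat.Agent.JAC.Core.Defs36 Fermat.Agent.JAC.Core.Cart36 Fermat.Agent.JAC.Core.ConstFamily36
  Fermat.Agent.FFJ.Core.ClR35 Fermat.Agent.FFJ.Core.ClRBc35 Fermat.Agent.JAC.Grp.Diag33
  Fermat.Agent.JAC.Grp.Cart33 Fermat.Agent.JAC.Hilb.ZeroIdeal46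
  Fermat.Agent.FFJ.Pic.ChartDefR35 Fermat.Agent.FFJ.Pic.ChartSpecR35 Fermat.Agent.FFJ.Pic.SpecD35
  Fermat.Agent.FFJ.Model.CurveBc85 Fermat.Agent.FFJ.Pic.BaseEquiv85

/-! ### Points of the tensor model -/

section Lift

variable {k : Type u} [CommRing k] (k' : Type u) [CommRing k'] [Algebra k k']
  {A : Type u} [CommRing A] [Algebra k A]
  {B : Type u} [CommRing B] [Algebra k B] [Algebra k' B] [IsScalarTower k k' B]

/-- A `B`-valued point of the `k`-model, as a point of the tensor model `k' ⊗[k] A` over `k'`: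
`c ⊗ a ↦ c • q a`. -/
def liftPt (q : A →ₐ[k] B) : k' ⊗[k] A →ₐ[k'] B :=
  Algebra.TensorProduct.lift (Algebra.ofId k' B) q (fun _ _ => .all _ _)

@[simp]
theorem liftPt_tmul (q : A →ₐ[k] B) (c : k') (a : A) :
    liftPt k' q (c ⊗ₜ[k] a) = algebraMap k' B c * q a := by
  simp [liftPt, Algebra.ofId_apply]

theorem liftPt_one_tmul (q : A →ₐ[k] B) (a : A) : liftPt k' q ((1 : k') ⊗ₜ[k] a) = q a := by
  simp

/-- `liftPt` is compatible with change of the target. -/
theorem liftPt_comp {B' : Type u} [CommRing B'] [Algebra k B'] [Algebra k' B']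
    [IsScalarTower k k' B'] (ψ : B →ₐ[k'] B') (q : A →ₐ[k] B) :
    ψ.comp (liftPt k' q) = liftPt k' ((ψ.restrictScalars k).comp q) := by
  apply Algebra.TensorProduct.ext'
  intro c a
  simp

/-- Every point of the tensor model is a lift. -/
theorem liftPt_comp_includeRight (q' : k' ⊗[k] A →ₐ[k'] B) :
    liftPt k' ((q'.restrictScalars k).comp Algebra.TensorProduct.includeRight) = q' := by
  apply Algebra.TensorProduct.ext'
  intro c a
  rw [liftPt_tmul]
  simp only [AlgHom.comp_apply, AlgHom.restrictScalars_apply,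
    Algebra.TensorProduct.includeRight_apply]
  rw [← Algebra.smul_def, ← map_smul, TensorProduct.smul_tmul', smul_eq_mul, mul_one]

end Lift

section LiftChart

variable {k : Type u} [CommRing k] (k' : Type u) [CommRing k'] [Algebra k k']
  {A0 A01 : Type u} [CommRing A0] [CommRing A01] [Algebra k A0] [Algebra k A01] [Algebra A0 A01]
  [IsScalarTower k A0 A01]
  {B : Type u} [CommRing B] [Algebra k B] [Algebra k' B] [IsScalarTower k k' B]

/-- Restriction of a lifted point of the overlap to the chart `U0`. -/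
theorem liftPt_comp_toAlgHom (q : A01 →ₐ[k] B) :
    (liftPt k' q).comp (IsScalarTower.toAlgHom k' (k' ⊗[k] A0) (k' ⊗[k] A01)) =
      liftPt k' (q.comp (IsScalarTower.toAlgHom k A0 A01)) := by
  apply Algebra.TensorProduct.ext'
  intro c a
  simp only [AlgHom.comp_apply, IsScalarTower.coe_toAlgHom', liftPt_tmul]
  rw [algebraMap_tensor_tmul, liftPt_tmul]

end LiftChart

/-! ### Graph ideals -/

section Graph

variable {k : Type u} [CommRing k] (k' : Type u) [CommRing k'] [Algebra k k']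
  {A0 : Type u} [CommRing A0] [Algebra k A0]
  {B : Type u} [CommRing B] [Algebra k B] [Algebra k' B] [IsScalarTower k k' B]

/-- The evaluation maps correspond under `fibreEquiv`. -/
theorem evalHom_fibreEquiv (q : A0 →ₐ[k] B) (z : B ⊗[k'] (k' ⊗[k] A0)) :
    evalHom q (fibreEquiv k k' A0 B z) = evalHom (liftPt k' q) z := by
  induction z using TensorProduct.induction_on with
  | zero => simp
  | add x y hx hy => simp only [map_add, hx, hy]
  | tmul b w =>
    induction w using TensorProduct.induction_on with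
    | zero => simp
    | add x y hx hy => simp only [TensorProduct.tmul_add, map_add, hx, hy]
    | tmul c a =>
      simp only [fibreEquiv, evalHom_tmul, liftPt_tmul,
        Algebra.TensorProduct.cancelBaseChange_tmul]
      rw [Algebra.smul_def]
      ring

/-- **The graph ideals correspond under `fibreEquiv`.** -/
theorem map_graphIdeal_liftPt (q : A0 →ₐ[k] B) :
    Ideal.map ((fibreEquiv k k' A0 B : B ⊗[k'] (k' ⊗[k] A0) ≃ₐ[B] B ⊗[k] A0) :
        B ⊗[k'] (k' ⊗[k] A0) →+* B ⊗[k] A0) (graphIdeal (liftPt k' q)) = graphIdeal q := by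
  apply le_antisymm
  · rw [Ideal.map_le_iff_le_comap]
    intro z hz
    rw [Ideal.mem_comap]
    unfold graphIdeal at hz ⊢
    rw [RingHom.mem_ker] at hz ⊢
    show evalHom q (fibreEquiv k k' A0 B z) = 0
    rw [evalHom_fibreEquiv]
    exact hz
  · intro x hx
    have hx' : (fibreEquiv k k' A0 B).symm x ∈ graphIdeal (liftPt k' q) := by
      unfold graphIdeal at hx ⊢
      rw [RingHom.mem_ker] at hx ⊢
      rw [← evalHom_fibreEquiv, AlgEquiv.apply_symm_apply]
      exact hx
    have := Ideal.mem_map_of_mem ((fibreEquiv k k' A0 B : B ⊗[k'] (k' ⊗[k] A0) ≃ₐ[B] B ⊗[k] A0) :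
        B ⊗[k'] (k' ⊗[k] A0) →+* B ⊗[k] A0) hx'
    simpa using this

end Graph

/-! ### `O(D)` and `baseEquiv` -/

section OD

variable {k : Type u} [CommRing k] {A0 A1 A01 : Type u} [CommRing A0] [CommRing A1] [CommRing A01]
  [Algebra k A0] [Algebra k A1] [Algebra k A01] [Algebra A0 A01] [Algebra A1 A01]
  [IsScalarTower k A0 A01] [IsScalarTower k A1 A01] {t : A0} {s : A1}
  [IsLocalization.Away t A01] [IsLocalization.Away s A01]
  (k' : Type u) [CommRing k'] [Algebra k k']
  (B : Type u) [CommRing B] [Algebra k B] [Algebra k' B] [IsScalarTower k k' B]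

/-- **`baseEquiv` carries `[O(D')]` to `[O(D)]`**, `D` the image of `D'` under the identification of
the fibres. -/
theorem odClass_baseEquiv (H : CurveHypR k A0 A1 A01 t s)
    (hts' : algebraMap (k' ⊗[k] A0) (k' ⊗[k] A01) ((1 : k') ⊗ₜ[k] t) *
      algebraMap (k' ⊗[k] A1) (k' ⊗[k] A01) ((1 : k') ⊗ₜ[k] s) = 1)
    (I0' : Ideal (B ⊗[k'] (k' ⊗[k] A0)))
    (hf' : Module.Finite B ((B ⊗[k'] (k' ⊗[k] A0)) ⧸ I0'))
    (hi' : Module.Invertible (B ⊗[k'] (k' ⊗[k] A0)) I0') :
    baseEquiv k A0 A1 A01 t s k' B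
        (odClass (A1 := k' ⊗[k] A1) (A01 := k' ⊗[k] A01) (t := (1 : k') ⊗ₜ[k] t)
          (s := (1 : k') ⊗ₜ[k] s) hts' B I0') =
      odClass H.hts B (Ideal.map ((fibreEquiv k k' A0 B :
        B ⊗[k'] (k' ⊗[k] A0) ≃ₐ[B] B ⊗[k] A0) : B ⊗[k'] (k' ⊗[k] A0) →+* B ⊗[k] A0) I0') := by
  set ψ := baseFamilyHom k A0 A1 A01 t s k' B with hψ
  set N' := OD (A1 := k' ⊗[k] A1) (A01 := k' ⊗[k] A01) (t := (1 : k') ⊗ₜ[k] t)
    (s := (1 : k') ⊗ₜ[k] s) hts' B I0' hf' hi' with hN'
  let c := cartHomBaseChange ψ N'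
  have hb0 : Function.Bijective ψ.ψ0 := (fibreEquiv k k' A0 B).bijective
  have hb1 : Function.Bijective ψ.ψ1 := (fibreEquiv k k' A1 B).bijective
  have hf0 := bijective_of_isBaseChangeHom hb0 c.cart0
  have hf1 := bijective_of_isBaseChangeHom hb1 c.cart1
  -- the transported tautological section
  have hσ : (baseChange ψ N').rho0 (c.f0 (oneSec0 hts' B I0' hf' hi')) =
      (baseChange ψ N').rho1 (c.f1 (oneSec1 hts' B I0' hf' hi')) := by
    rw [← c.comm0, ← c.comm1, oneSec_comm]
  have hinf' : NoZeroInfG N' (oneSec1 hts' B I0' hf' hi') :=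
    Fermat.Agent.FFJ.Pic.KBricksR87.k3R hts' B I0' hf' hi'
  have hinf : NoZeroInf (baseChange ψ N') (c.f1 (oneSec1 hts' B I0' hf' hi')) :=
    noZeroInfG_of_cartHom c hf1.2 hinf'
  have hz : zeroIdeal (B ⊗[k] A0) (c.f0 (oneSec0 hts' B I0' hf' hi')) =
      Ideal.map ((fibreEquiv k k' A0 B : B ⊗[k'] (k' ⊗[k] A0) ≃ₐ[B] B ⊗[k] A0) :
        B ⊗[k'] (k' ⊗[k] A0) →+* B ⊗[k] A0) I0' := by
    rw [zeroIdeal_of_bijective hb0 c.f0 hf0, zeroIdeal_oneSec0]
    rfl
  have hfin : Module.Finite B ((B ⊗[k] A0) ⧸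
      zeroIdeal (B ⊗[k] A0) (c.f0 (oneSec0 hts' B I0' hf' hi'))) := by
    rw [hz]
    exact Module.Finite.equiv (Ideal.quotientEquivAlg I0' _ (fibreEquiv k k' A0 B)
      rfl).toLinearEquiv
  obtain ⟨-, hcls⟩ := Fermat.Agent.FFJ.Pic.DivBricksR46.k1R H B (baseChange ψ N') _ _ hσ hinf hfin
  rw [odClass_eq hts' B I0' hf' hi', baseEquiv_apply, baseChangeClass_cls, hcls, hz]

end OD

/-! ### Point classes and `baseEquiv` -/

section Pt

variable {k : Type u} [CommRing k] {A0 A1 A01 : Type u} [CommRing A0] [CommRing A1] [CommRing A01]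
  [Algebra k A0] [Algebra k A1] [Algebra k A01] [Algebra A0 A01] [Algebra A1 A01]
  [IsScalarTower k A0 A01] [IsScalarTower k A1 A01] {t : A0} {s : A1}
  [IsLocalization.Away t A01] [IsLocalization.Away s A01]
  (k' : Type u) [CommRing k'] [Algebra k k']
  {B : Type u} [CommRing B] [Algebra k B] [Algebra k' B] [IsScalarTower k k' B]

/-- **`baseEquiv` carries the class of a lifted point to the class of the point.** -/
theorem ptClassR_baseEquiv (H : CurveHypR k A0 A1 A01 t s)
    (H' : CurveHypR k' (k' ⊗[k] A0) (k' ⊗[k] A1) (k' ⊗[k] A01) ((1 : k') ⊗ₜ[k] t)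
      ((1 : k') ⊗ₜ[k] s)) (q : A0 →ₐ[k] B) :
    baseEquiv k A0 A1 A01 t s k' B
        (ptClassR (A1 := k' ⊗[k] A1) (A01 := k' ⊗[k] A01) (t := (1 : k') ⊗ₜ[k] t)
          (s := (1 : k') ⊗ₜ[k] s) H'.hts (liftPt k' q)) =
      ptClassR H.hts q := by
  unfold ptClassR
  rw [odClass_baseEquiv k' B H H'.hts _ (PtClassR46.finite_quot_graphIdeal _)
    (PtClassR46.invertible_graphIdeal H' _), map_graphIdeal_liftPt]

/-- The product of the classes of a list of lifted points. -/
theorem prod_ptClassR_baseEquiv (H : CurveHypR k A0 A1 A01 t s)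
    (H' : CurveHypR k' (k' ⊗[k] A0) (k' ⊗[k] A1) (k' ⊗[k] A01) ((1 : k') ⊗ₜ[k] t)
      ((1 : k') ⊗ₜ[k] s)) (l : List (A0 →ₐ[k] B)) :
    baseEquiv k A0 A1 A01 t s k' B
        (l.map fun q => ptClassR (A1 := k' ⊗[k] A1) (A01 := k' ⊗[k] A01)
          (t := (1 : k') ⊗ₜ[k] t) (s := (1 : k') ⊗ₜ[k] s) H'.hts (liftPt k' q)).prod =
      (l.map fun q => ptClassR H.hts q).prod := by
  rw [map_list_prod, List.map_map]
  congr 1
  refine List.map_congr_left fun q _ => ?_
  exact ptClassR_baseEquiv k' H H' q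

/-- **Two-level transport of goodness of a twist by points**: the statement at the level `k'`
(lifted points, classes of the tensor model) is the statement at the level `k`. -/
theorem goodAtRank_level (H : CurveHypR k A0 A1 A01 t s)
    (H' : CurveHypR k' (k' ⊗[k] A0) (k' ⊗[k] A1) (k' ⊗[k] A01) ((1 : k') ⊗ₜ[k] t)
      ((1 : k') ⊗ₜ[k] s)) (ξ' : ClR' k A0 A1 A01 t s k' B) (l : List (A0 →ₐ[k] B)) (n : ℕ) :
    GoodAtRank B (ξ' * (l.map fun q => ptClassR (A1 := k' ⊗[k] A1) (A01 := k' ⊗[k] A01)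
        (t := (1 : k') ⊗ₜ[k] t) (s := (1 : k') ⊗ₜ[k] s) H'.hts (liftPt k' q)).prod) n ↔
      GoodAtRank B (baseEquiv k A0 A1 A01 t s k' B ξ' *
        (l.map fun q => ptClassR H.hts q).prod) n := by
  rw [← goodAtRank_baseEquiv k A0 A1 A01 t s k' B, map_mul, prod_ptClassR_baseEquiv k' H H']

/-- **The hypothesis `hgood` of `AdmCore37.exists_isFunOrder_of_goodTwist` at the level `k'`, from
the conclusion of FIB-R at the level `k`**: `L` is a list of `k'`-valued points of the overlap of the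
`k`-model (rational points after the enlargement `k → k'` of the base), `B` a `k'`-algebra (the
residue field of the valuation ring); the `k'`-rational points of the tensor model are the lifts
`liftPt k' P`, `P ∈ L`. -/
theorem goodAtRank_lifted (H : CurveHypR k A0 A1 A01 t s)
    (H' : CurveHypR k' (k' ⊗[k] A0) (k' ⊗[k] A1) (k' ⊗[k] A01) ((1 : k') ⊗ₜ[k] t)
      ((1 : k') ⊗ₜ[k] s)) (ξ' : ClR' k A0 A1 A01 t s k' B) (L : List (A01 →ₐ[k] k')) (n : ℕ)
    (h : GoodAtRank B (baseEquiv k A0 A1 A01 t s k' B ξ' *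
      ((L.map fun P => ((Algebra.ofId k' B).restrictScalars k).comp P).map fun q =>
        ptClassR H.hts (q.comp (IsScalarTower.toAlgHom k A0 A01))).prod) n) :
    GoodAtRank B (ξ' *
      (((L.map fun P => liftPt k' P).map fun P' => (Algebra.ofId k' B).comp P').map fun q' =>
        ptClassR (A1 := k' ⊗[k] A1) (A01 := k' ⊗[k] A01) (t := (1 : k') ⊗ₜ[k] t)
          (s := (1 : k') ⊗ₜ[k] s) H'.hts
          (q'.comp (IsScalarTower.toAlgHom k' (k' ⊗[k] A0) (k' ⊗[k] A01)))).prod) n := by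
  have e1 : ((L.map fun P => liftPt k' P).map fun P' => (Algebra.ofId k' B).comp P').map
      (fun q' => ptClassR (A1 := k' ⊗[k] A1) (A01 := k' ⊗[k] A01) (t := (1 : k') ⊗ₜ[k] t)
          (s := (1 : k') ⊗ₜ[k] s) H'.hts
          (q'.comp (IsScalarTower.toAlgHom k' (k' ⊗[k] A0) (k' ⊗[k] A01)))) =
      (L.map fun P => (((Algebra.ofId k' B).restrictScalars k).comp P).comp
        (IsScalarTower.toAlgHom k A0 A01)).map
      (fun q => ptClassR (A1 := k' ⊗[k] A1) (A01 := k' ⊗[k] A01) (t := (1 : k') ⊗ₜ[k] t)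
          (s := (1 : k') ⊗ₜ[k] s) H'.hts (liftPt k' q)) := by
    rw [List.map_map, List.map_map, List.map_map]
    refine List.map_congr_left fun P _ => ?_
    simp only [Function.comp_apply]
    rw [liftPt_comp, liftPt_comp_toAlgHom]
  rw [e1, goodAtRank_level k' H H']
  rw [List.map_map] at h ⊢
  exact h

end Pt

end Fermat.Agent.FFJ.Pic.LevelPt50
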