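/-
Programme FFJ (S19), chapter PIC, part D (helper1): **(PT-BASE)** point classes and point twists
commute with the change of the base ring `BaseEquiv85.baseEquiv`.

Setting of `BaseEquiv85` §Base: `k → k'` commutative rings, two-chart curve data `A_i` over `k`, `B` a
`k'`-algebra (with `[Algebra k B] [IsScalarTower k k' B]`).

* `nonempty_cartHom_idealDiag` : an isomorphism of families carries ideal diagrams to ideal diagrams
  (ring-general);
* `downPt`, `upPt` : `B`-points of `k' ⊗[k] A` over `k'` are the `B`-points of `A` over `k`;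
* `baseEquiv_odClass` : `baseEquiv [O(D')] = [O(D)]` when `D` is the image of `D'` under
  `B ⊗[k'] (k' ⊗[k] A0) ≅ B ⊗[k] A0`;
* `baseEquiv_ptClassR` : `baseEquiv (ptClassR q') = ptClassR (downPt q')`;
* `baseEquiv_mul_ptList`, `goodAtRank_ptList_iff` : the twist by a list of points, in the literal shapes
  of `AdmCore37.exists_isFunOrder_of_goodTwist` (level `k'`) and `SpecD35.FibStatement` (level `k`);
* `goodAtRank_upPt_of_goodAtRank` : from the output of FIB-R at the level `k` to a good twist by the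
  extended points `upPt q` at the level `k'`;  `upPt_comp` : `upPt (ψ ∘ P₀) = ψ ∘ upPt P₀`, so the
  extension of a point `res ∘ P₀` (`P₀` with values in `k'`) is `res ∘ (a k'-rational point)`.
-/
import Mathlib
import Fermat.Agent.FFJ.Pic.BaseEquiv85
import Fermat.Agent.FFJ.Pic.PtClassR46

set_option autoImplicit false
set_option linter.unusedSectionVars false
set_option linter.style.haveILetI false

open scoped TensorProduct
open scoped Fermat.Agent.JAC.Core.ConstFamily36

namespace Fermat.Agent.FFJ.Pic.PtClassBase1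

open Fermat.Agent.JAC.Core.Defs36 Fermat.Agent.JAC.Core.Cart36 Fermat.Agent.JAC.Core.ConstFamily36
  Fermat.Agent.JAC.Grp.Diag33 Fermat.Agent.JAC.Grp.Cart33
  Fermat.Agent.JAC.Hilb.SectionDiv46
  Fermat.Agent.FFJ.Core.ClR35 Fermat.Agent.FFJ.Core.ClRBc35
  Fermat.Agent.FFJ.Bridge.Equivariant85

universe u

/-! ### Ideal diagrams and isomorphisms of families -/

section TwoFamilies

variable {R0 R1 R01 : Type u} [CommRing R0] [CommRing R1] [CommRing R01]
  [Algebra R0 R01] [Algebra R1 R01] {t : R0} {s : R1}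
  [IsLocalization.Away t R01] [IsLocalization.Away s R01]
  {R0' R1' R01' : Type u} [CommRing R0'] [CommRing R1'] [CommRing R01']
  [Algebra R0' R01'] [Algebra R1' R01'] {t' : R0'} {s' : R1'}
  [IsLocalization.Away t' R01'] [IsLocalization.Away s' R01']

/-- The restriction of a bijective ring homomorphism to an ideal and its image, as a semilinear
map. -/
noncomputable def idealRestrict {R R' : Type u} [CommRing R] [CommRing R'] (φ : R →+* R')
    (Z : Ideal R) (Z' : Ideal R') (e : Ideal.map φ Z = Z') : Z →ₛₗ[φ] Z' where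
  toFun x := ⟨φ x, e ▸ Ideal.mem_map_of_mem φ x.2⟩
  map_add' _ _ := Subtype.ext (map_add φ _ _)
  map_smul' _ _ := Subtype.ext (map_mul φ _ _)

theorem idealRestrict_bijective {R R' : Type u} [CommRing R] [CommRing R'] (φ : R →+* R')
    (hφ : Function.Bijective φ) (Z : Ideal R) (Z' : Ideal R') (e : Ideal.map φ Z = Z') :
    Function.Bijective (idealRestrict φ Z Z' e) := by
  constructor
  · intro x y hxy
    exact Subtype.ext (hφ.1 (congrArg Subtype.val hxy))
  · rintro ⟨y, hy⟩
    rw [← e, Ideal.mem_map_iff_of_surjective φ hφ.2] at hy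
    obtain ⟨x, hx, rfl⟩ := hy
    exact ⟨⟨x, hx⟩, rfl⟩

/-- **An isomorphism of families carries ideal diagrams to ideal diagrams.** -/
theorem nonempty_cartHom_idealDiag (Φ : FamilyHom t s t' s' R01 R01')
    (h0 : Function.Bijective Φ.ψ0) (h1 : Function.Bijective Φ.ψ1)
    (h01 : Function.Bijective Φ.ψ01)
    (Z0 : Ideal R0) (Z1 : Ideal R1)
    (h : Ideal.map (algebraMap R0 R01) Z0 = Ideal.map (algebraMap R1 R01) Z1)
    [Module.Invertible R0 Z0] [Module.Invertible R1 Z1]
    (Z0' : Ideal R0') (Z1' : Ideal R1')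
    (h' : Ideal.map (algebraMap R0' R01') Z0' = Ideal.map (algebraMap R1' R01') Z1')
    [Module.Invertible R0' Z0'] [Module.Invertible R1' Z1']
    (e0 : Ideal.map Φ.ψ0 Z0 = Z0') (e1 : Ideal.map Φ.ψ1 Z1 = Z1') :
    Nonempty (LineDiag.CartHom Φ (idealDiag t s Z0 Z1 h) (idealDiag t' s' Z0' Z1' h')) := by
  have e01 : Ideal.map Φ.ψ01 (Ideal.map (algebraMap R0 R01) Z0) =
      Ideal.map (algebraMap R0' R01') Z0' := by
    rw [← e0, Ideal.map_map, Ideal.map_map]
    congr 1
    ext r
    exact Φ.comm0 r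
  refine ⟨{ f0 := idealRestrict Φ.ψ0 Z0 Z0' e0
            f1 := idealRestrict Φ.ψ1 Z1 Z1' e1
            f01 := idealRestrict Φ.ψ01 _ _ e01
            comm0 := ?_, comm1 := ?_, cart0 := ?_, cart1 := ?_, cart01 := ?_ }⟩
  · intro x
    exact Subtype.ext (Φ.comm0 (show ↥Z0 from x).1)
  · intro y
    exact Subtype.ext (Φ.comm1 (show ↥Z1 from y).1)
  · exact isBaseChangeHom_of_bijective h0.2 _ (idealRestrict_bijective Φ.ψ0 h0 Z0 Z0' e0)
  · exact isBaseChangeHom_of_bijective h1.2 _ (idealRestrict_bijective Φ.ψ1 h1 Z1 Z1' e1)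
  · exact isBaseChangeHom_of_bijective h01.2 _ (idealRestrict_bijective Φ.ψ01 h01 _ _ e01)

/-- The ideal of the closure in the second chart is compatible with isomorphisms of families. -/
theorem map_I1_of_bijective (Φ : FamilyHom t s t' s' R01 R01')
    (h1 : Function.Bijective Φ.ψ1) (h01 : Function.Bijective Φ.ψ01) (Z0 : Ideal R0) :
    Ideal.map Φ.ψ1 (Fermat.Agent.JAC.Div.DivisorDiagram56.I1 (R1 := R1) (R01 := R01) Z0) =
      Fermat.Agent.JAC.Div.DivisorDiagram56.I1 (R1 := R1') (R01 := R01') (Ideal.map Φ.ψ0 Z0) := by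
  have e01 : Ideal.map Φ.ψ01 (Ideal.map (algebraMap R0 R01) Z0) =
      Ideal.map (algebraMap R0' R01') (Ideal.map Φ.ψ0 Z0) := by
    rw [Ideal.map_map, Ideal.map_map]
    congr 1
    ext r
    exact Φ.comm0 r
  ext y
  obtain ⟨x, rfl⟩ := h1.2 y
  constructor
  · intro hy
    rw [Ideal.mem_map_iff_of_surjective Φ.ψ1 h1.2] at hy
    obtain ⟨x', hx', hxx'⟩ := hy
    obtain rfl : x' = x := h1.1 hxx'
    change algebraMap R1' R01' (Φ.ψ1 x') ∈ Ideal.map (algebraMap R0' R01') (Ideal.map Φ.ψ0 Z0)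
    rw [← e01, ← Φ.comm1]
    exact Ideal.mem_map_of_mem _ hx'
  · intro hy
    change algebraMap R1' R01' (Φ.ψ1 x) ∈ Ideal.map (algebraMap R0' R01') (Ideal.map Φ.ψ0 Z0) at hy
    rw [← e01, ← Φ.comm1, Ideal.mem_map_iff_of_surjective Φ.ψ01 h01.2] at hy
    obtain ⟨z, hz, hzx⟩ := hy
    obtain rfl : z = algebraMap R1 R01 x := h01.1 hzx
    exact Ideal.mem_map_of_mem _ (show x ∈ Fermat.Agent.JAC.Div.DivisorDiagram56.I1
      (R1 := R1) (R01 := R01) Z0 from hz)

end TwoFamilies

/-! ### Points of the tensor model -/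

section Points

variable {k : Type u} [CommRing k] {k' : Type u} [CommRing k'] [Algebra k k']
  {B B' : Type u} [CommRing B] [Algebra k B] [Algebra k' B] [IsScalarTower k k' B]
  [CommRing B'] [Algebra k B'] [Algebra k' B'] [IsScalarTower k k' B']
  (A A' : Type u) [CommRing A] [Algebra k A] [CommRing A'] [Algebra k A'] [Algebra A A']
  [IsScalarTower k A A']

/-- A `B`-point of `k' ⊗[k] A` over `k'` restricts to a `B`-point of `A` over `k`. -/
noncomputable def downPt (q' : k' ⊗[k] A →ₐ[k'] B) : A →ₐ[k] B :=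
  (q'.restrictScalars k).comp (Algebra.TensorProduct.includeRight : A →ₐ[k] k' ⊗[k] A)

@[simp] theorem downPt_apply (q' : k' ⊗[k] A →ₐ[k'] B) (a : A) :
    downPt A q' a = q' ((1 : k') ⊗ₜ[k] a) := rfl

/-- A `B`-point of `A` over `k` extends to a `B`-point of `k' ⊗[k] A` over `k'`. -/
noncomputable def upPt (q : A →ₐ[k] B) : k' ⊗[k] A →ₐ[k'] B :=
  Algebra.TensorProduct.lift (Algebra.ofId k' B) q (fun _ _ => .all _ _)

@[simp] theorem upPt_tmul (q : A →ₐ[k] B) (c : k') (a : A) :
    upPt (k' := k') A q (c ⊗ₜ[k] a) = algebraMap k' B c * q a := by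
  simp [upPt, Algebra.ofId_apply]

@[simp] theorem downPt_upPt (q : A →ₐ[k] B) : downPt A (upPt (k' := k') A q) = q := by
  ext a
  simp

@[simp] theorem upPt_downPt (q' : k' ⊗[k] A →ₐ[k'] B) : upPt A (downPt A q') = q' := by
  apply Algebra.TensorProduct.ext'
  intro c a
  rw [upPt_tmul, downPt_apply, ← Algebra.smul_def, ← map_smul, TensorProduct.smul_tmul',
    smul_eq_mul, mul_one]

/-- `downPt` commutes with post-composition. -/
theorem downPt_comp (ψ : B →ₐ[k'] B') (q' : k' ⊗[k] A →ₐ[k'] B) :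
    downPt A (ψ.comp q') = (ψ.restrictScalars k).comp (downPt A q') := rfl

/-- `upPt` commutes with post-composition. -/
theorem upPt_comp (ψ : B →ₐ[k'] B') (q : A →ₐ[k] B) :
    upPt (k' := k') A ((ψ.restrictScalars k).comp q) = ψ.comp (upPt A q) := by
  apply Algebra.TensorProduct.ext'
  intro c a
  rw [upPt_tmul, AlgHom.comp_apply, AlgHom.comp_apply, upPt_tmul, map_mul, AlgHom.commutes]
  rfl

theorem map_downPt_map_upPt (l : List (A →ₐ[k] B)) :
    (l.map (upPt (k' := k') A)).map (downPt A) = l := by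
  rw [List.map_map]
  conv_rhs => rw [← List.map_id l]
  refine List.map_congr_left fun q _ => ?_
  simp

/-- `downPt` commutes with restriction along `A → A'`. -/
theorem downPt_comp_toAlgHom (q' : k' ⊗[k] A' →ₐ[k'] B) :
    downPt A (q'.comp (IsScalarTower.toAlgHom k' (k' ⊗[k] A) (k' ⊗[k] A'))) =
      (downPt A' q').comp (IsScalarTower.toAlgHom k A A') := by
  ext a
  show q' (algebraMap (k' ⊗[k] A) (k' ⊗[k] A') ((1 : k') ⊗ₜ[k] a)) =
    q' ((1 : k') ⊗ₜ[k] algebraMap A A' a)
  rw [algebraMap_tensor_tmul]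

end Points

/-! ### Point classes and the change of the base ring -/

section Base

open Fermat.Agent.FFJ.Model.CurveBc85 Fermat.Agent.FFJ.Pic.ChartDefR35
  Fermat.Agent.FFJ.Pic.SpecD35 Fermat.Agent.FFJ.Pic.BaseEquiv85 Fermat.Agent.FFJ.Pic.PtClassR46

variable {k : Type u} [CommRing k] {A0 A1 A01 : Type u} [CommRing A0] [CommRing A1] [CommRing A01]
  [Algebra k A0] [Algebra k A1] [Algebra k A01] [Algebra A0 A01] [Algebra A1 A01]
  [IsScalarTower k A0 A01] [IsScalarTower k A1 A01] {t : A0} {s : A1}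
  [IsLocalization.Away t A01] [IsLocalization.Away s A01]
  {k' : Type u} [CommRing k'] [Algebra k k']
  {B : Type u} [CommRing B] [Algebra k B] [Algebra k' B] [IsScalarTower k k' B]

/-- **`baseEquiv [O(D')] = [O(D)]`** when `D ⊂ U0_B` (level `k`) is the image of `D'` (level `k'`)
under the identification of the fibres. -/
theorem baseEquiv_odClass (hts : algebraMap A0 A01 t * algebraMap A1 A01 s = 1)
    (hts' : algebraMap (k' ⊗[k] A0) (k' ⊗[k] A01) ((1 : k') ⊗ₜ[k] t) *
      algebraMap (k' ⊗[k] A1) (k' ⊗[k] A01) ((1 : k') ⊗ₜ[k] s) = 1)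
    (I0' : Ideal (B ⊗[k'] (k' ⊗[k] A0)))
    (hf' : Module.Finite B ((B ⊗[k'] (k' ⊗[k] A0)) ⧸ I0'))
    (hi' : Module.Invertible (B ⊗[k'] (k' ⊗[k] A0)) I0')
    (I0 : Ideal (B ⊗[k] A0)) (hf : Module.Finite B ((B ⊗[k] A0) ⧸ I0))
    (hi : Module.Invertible (B ⊗[k] A0) I0)
    (e0 : Ideal.map ((fibreEquiv k k' A0 B).toAlgHom.toRingHom) I0' = I0) :
    baseEquiv k A0 A1 A01 t s k' B
        (odClass (k := k') (A1 := k' ⊗[k] A1) (A01 := k' ⊗[k] A01) hts' B I0') =
      odClass (A1 := A1) (A01 := A01) (t := t) (s := s) hts B I0 := by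
  rw [odClass_eq hts' B I0' hf' hi', odClass_eq hts B I0 hf hi, baseEquiv_apply]
  have hb0 : Function.Bijective (baseFamilyHom k A0 A1 A01 t s k' B).ψ0 :=
    (fibreEquiv k k' A0 B).bijective
  have hb1 : Function.Bijective (baseFamilyHom k A0 A1 A01 t s k' B).ψ1 :=
    (fibreEquiv k k' A1 B).bijective
  have hb01 : Function.Bijective (baseFamilyHom k A0 A1 A01 t s k' B).ψ01 :=
    (fibreEquiv k k' A01 B).bijective
  haveI := invertible_ideal1 hts' B I0' hf' hi'
  haveI := invertible_ideal1 hts B I0 hf hi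
  have e1 : Ideal.map (baseFamilyHom k A0 A1 A01 t s k' B).ψ1
      (ideal1 (k := k') (A1 := k' ⊗[k] A1) (A01 := k' ⊗[k] A01) B I0') =
      ideal1 (A1 := A1) (A01 := A01) B I0 := by
    rw [← e0]
    exact map_I1_of_bijective (baseFamilyHom k A0 A1 A01 t s k' B) hb1 hb01 I0'
  obtain ⟨c⟩ := nonempty_cartHom_idealDiag (baseFamilyHom k A0 A1 A01 t s k' B) hb0 hb1 hb01
    I0' (ideal1 (k := k') (A1 := k' ⊗[k] A1) (A01 := k' ⊗[k] A01) B I0')
    (Fermat.Agent.JAC.Div.DivisorDiagram56.map_I1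
      ((1 : B) ⊗ₜ[k'] ((1 : k') ⊗ₜ[k] s)) I0').symm
    I0 (ideal1 (A1 := A1) (A01 := A01) B I0)
    (Fermat.Agent.JAC.Div.DivisorDiagram56.map_I1 ((1 : B) ⊗ₜ[k] s) I0).symm e0 e1
  exact (baseChangeClass_cls_eq_iff _ _ _).mpr (cartHom_dual c)

omit [IsLocalization.Away t A01] [IsLocalization.Away s A01] in
/-- The evaluation at `q'` is the evaluation at `downPt q'` after the identification of the
fibres. -/
theorem evalHom_fibreEquiv (q' : k' ⊗[k] A0 →ₐ[k'] B) (z : B ⊗[k'] (k' ⊗[k] A0)) :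
    evalHom (downPt A0 q') (fibreEquiv k k' A0 B z) = evalHom q' z := by
  induction z using TensorProduct.induction_on with
  | zero => simp
  | add x y hx hy => simp only [map_add, hx, hy]
  | tmul b w =>
    induction w using TensorProduct.induction_on with
    | zero => simp
    | add x y hx hy => simp only [TensorProduct.tmul_add, map_add, hx, hy]
    | tmul c a =>
      have h1 : fibreEquiv k k' A0 B (b ⊗ₜ[k'] (c ⊗ₜ[k] a)) = (c • b) ⊗ₜ[k] a := by
        simp [fibreEquiv]
      rw [h1, evalHom_tmul, evalHom_tmul, downPt_apply]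
      have h2 : q' (c ⊗ₜ[k] a) = algebraMap k' B c * q' ((1 : k') ⊗ₜ[k] a) := by
        rw [← Algebra.smul_def, ← map_smul, TensorProduct.smul_tmul', smul_eq_mul, mul_one]
      rw [h2, Algebra.smul_def]
      ring

omit [IsLocalization.Away t A01] [IsLocalization.Away s A01] in
/-- The graph ideal of `q'` corresponds to the graph ideal of `downPt q'`. -/
theorem map_graphIdeal_fibreEquiv (q' : k' ⊗[k] A0 →ₐ[k'] B) :
    Ideal.map ((fibreEquiv k k' A0 B).toAlgHom.toRingHom) (graphIdeal q') =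
      graphIdeal (downPt A0 q') := by
  ext x
  obtain ⟨z, rfl⟩ := (fibreEquiv k k' A0 B).surjective x
  rw [Ideal.mem_map_iff_of_surjective ((fibreEquiv k k' A0 B).toAlgHom.toRingHom)
    (fibreEquiv k k' A0 B).surjective]
  constructor
  · rintro ⟨z', hz', hzz'⟩
    obtain rfl : z' = z := (fibreEquiv k k' A0 B).injective hzz'
    show evalHom (downPt A0 q') (fibreEquiv k k' A0 B z') = 0
    rw [evalHom_fibreEquiv]
    exact hz'
  · intro hz
    refine ⟨z, ?_, rfl⟩
    show evalHom q' z = 0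
    rw [← evalHom_fibreEquiv]
    exact hz

/-- **Point classes commute with the change of the base ring.** -/
theorem baseEquiv_ptClassR (H : CurveHypR k A0 A1 A01 t s)
    (H' : CurveHypR k' (k' ⊗[k] A0) (k' ⊗[k] A1) (k' ⊗[k] A01)
      ((1 : k') ⊗ₜ[k] t) ((1 : k') ⊗ₜ[k] s))
    (q' : k' ⊗[k] A0 →ₐ[k'] B) :
    baseEquiv k A0 A1 A01 t s k' B
        (ptClassR (k := k') (A1 := k' ⊗[k] A1) (A01 := k' ⊗[k] A01) H'.hts q') =
      ptClassR (A1 := A1) (A01 := A01) (t := t) (s := s) H.hts (downPt A0 q') := by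
  unfold ptClassR
  exact baseEquiv_odClass H.hts H'.hts (graphIdeal q') (finite_quot_graphIdeal q')
    (invertible_graphIdeal H' q') (graphIdeal (downPt A0 q'))
    (finite_quot_graphIdeal (downPt A0 q')) (invertible_graphIdeal H (downPt A0 q'))
    (map_graphIdeal_fibreEquiv q')

/-- Point classes of points of the overlap, restricted to `U0`. -/
theorem baseEquiv_ptClassR_overlap (H : CurveHypR k A0 A1 A01 t s)
    (H' : CurveHypR k' (k' ⊗[k] A0) (k' ⊗[k] A1) (k' ⊗[k] A01)
      ((1 : k') ⊗ₜ[k] t) ((1 : k') ⊗ₜ[k] s))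
    (q' : k' ⊗[k] A01 →ₐ[k'] B) :
    baseEquiv k A0 A1 A01 t s k' B
        (ptClassR (k := k') (A1 := k' ⊗[k] A1) (A01 := k' ⊗[k] A01) H'.hts
          (q'.comp (IsScalarTower.toAlgHom k' (k' ⊗[k] A0) (k' ⊗[k] A01)))) =
      ptClassR (A1 := A1) (A01 := A01) (t := t) (s := s) H.hts
        ((downPt A01 q').comp (IsScalarTower.toAlgHom k A0 A01)) := by
  rw [baseEquiv_ptClassR H H', downPt_comp_toAlgHom]

/-- **The twist by a list of points commutes with the change of the base ring.** -/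
theorem baseEquiv_mul_ptList (H : CurveHypR k A0 A1 A01 t s)
    (H' : CurveHypR k' (k' ⊗[k] A0) (k' ⊗[k] A1) (k' ⊗[k] A01)
      ((1 : k') ⊗ₜ[k] t) ((1 : k') ⊗ₜ[k] s))
    (x' : ClR' k A0 A1 A01 t s k' B) (l' : List (k' ⊗[k] A01 →ₐ[k'] B)) :
    baseEquiv k A0 A1 A01 t s k' B
        (x' * (l'.map fun q' =>
          ptClassR (k := k') (A1 := k' ⊗[k] A1) (A01 := k' ⊗[k] A01) H'.hts
            (q'.comp (IsScalarTower.toAlgHom k' (k' ⊗[k] A0) (k' ⊗[k] A01)))).prod) =
      baseEquiv k A0 A1 A01 t s k' B x' *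
        ((l'.map (downPt A01)).map fun q =>
          ptClassR (A1 := A1) (A01 := A01) (t := t) (s := s) H.hts
            (q.comp (IsScalarTower.toAlgHom k A0 A01))).prod := by
  rw [map_mul, map_list_prod, List.map_map, List.map_map]
  congr 2
  refine List.map_congr_left fun q' _ => ?_
  simp only [Function.comp_apply]
  exact baseEquiv_ptClassR_overlap H H' q'

/-- **Goodness of a twist by points, at the two levels.**  The left-hand side has the literal shape of
the hypothesis `hgood` of `AdmCore37.exists_isFunOrder_of_goodTwist` (level `k'`), the right-hand side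
the literal shape of the conclusion of `SpecD35.FibStatement` (level `k`). -/
theorem goodAtRank_ptList_iff (H : CurveHypR k A0 A1 A01 t s)
    (H' : CurveHypR k' (k' ⊗[k] A0) (k' ⊗[k] A1) (k' ⊗[k] A01)
      ((1 : k') ⊗ₜ[k] t) ((1 : k') ⊗ₜ[k] s))
    (x' : ClR' k A0 A1 A01 t s k' B) (l' : List (k' ⊗[k] A01 →ₐ[k'] B)) (n : ℕ) :
    GoodAtRank B
        (x' * (l'.map fun q' =>
          ptClassR (k := k') (A1 := k' ⊗[k] A1) (A01 := k' ⊗[k] A01) H'.hts
            (q'.comp (IsScalarTower.toAlgHom k' (k' ⊗[k] A0) (k' ⊗[k] A01)))).prod) n ↔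
      GoodAtRank B
        (baseEquiv k A0 A1 A01 t s k' B x' *
          ((l'.map (downPt A01)).map fun q =>
            ptClassR (A1 := A1) (A01 := A01) (t := t) (s := s) H.hts
              (q.comp (IsScalarTower.toAlgHom k A0 A01))).prod) n := by
  rw [← baseEquiv_mul_ptList H H', goodAtRank_baseEquiv]

/-- **From the output of FIB-R at the level `k` to a good twist by `k'`-points at the level `k'`**:
the points `q ∈ l` (over `k`) are replaced by their extensions `upPt q` (over `k'`). -/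
theorem goodAtRank_upPt_of_goodAtRank (H : CurveHypR k A0 A1 A01 t s)
    (H' : CurveHypR k' (k' ⊗[k] A0) (k' ⊗[k] A1) (k' ⊗[k] A01)
      ((1 : k') ⊗ₜ[k] t) ((1 : k') ⊗ₜ[k] s))
    (x' : ClR' k A0 A1 A01 t s k' B) (l : List (A01 →ₐ[k] B)) (n : ℕ)
    (h : GoodAtRank B
      (baseEquiv k A0 A1 A01 t s k' B x' *
        (l.map fun q =>
          ptClassR (A1 := A1) (A01 := A01) (t := t) (s := s) H.hts
            (q.comp (IsScalarTower.toAlgHom k A0 A01))).prod) n) :
    GoodAtRank B
      (x' * ((l.map (upPt (k' := k') A01)).map fun q' =>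
        ptClassR (k := k') (A1 := k' ⊗[k] A1) (A01 := k' ⊗[k] A01) H'.hts
          (q'.comp (IsScalarTower.toAlgHom k' (k' ⊗[k] A0) (k' ⊗[k] A01)))).prod) n := by
  rw [goodAtRank_ptList_iff H H', map_downPt_map_upPt]
  exact h

end Base

end Fermat.Agent.FFJ.Pic.PtClassBase1
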